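import Mathlib
import Fermat.Prelude.Def_ModularCurve_GenusNumerics

/-!
# S20 (dimension of `S₂(Γ₀(N))`): shared definitions

Everything is phrased with plain functions `ℍ → ℂ` and predicates, so that weights can be
manipulated without dependent casts.
-/

set_option autoImplicit false

namespace Fermat.Agent.S20

open UpperHalfPlane CongruenceSubgroup ModularForm
open scoped MatrixGroups ModularForm Manifold

/-- `f` is (the underlying function of) a holomorphic modular form of weight `k` on `Γ₀(N)`. -/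
def IsMF (N : ℕ) (k : ℤ) (f : ℍ → ℂ) : Prop :=
  MDiff f ∧ (∀ γ ∈ Gamma0 N, f ∣[k] γ = f) ∧ ∀ δ : SL(2, ℤ), IsBoundedAtImInfty (f ∣[k] δ)

/-- `f` is (the underlying function of) a cusp form of weight `k` on `Γ₀(N)`. -/
def IsCF (N : ℕ) (k : ℤ) (f : ℍ → ℂ) : Prop :=
  MDiff f ∧ (∀ γ ∈ Gamma0 N, f ∣[k] γ = f) ∧ ∀ δ : SL(2, ℤ), IsZeroAtImInfty (f ∣[k] δ)

/-- The coset space `SL₂(ℤ) / Γ₀(N)` (left cosets `h Γ₀(N)`), with `SL₂(ℤ)` acting by left
multiplication. -/
abbrev Q (N : ℕ) : Type := SL(2, ℤ) ⧸ Gamma0 N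

/-- The component of `f` (weight `k`) at the coset `q = hΓ₀(N)`, namely `f ∣[k] h⁻¹` for the
chosen representative `h = q.out`.  For `Γ₀(N)`-invariant `f` it does not depend on the
representative. -/
noncomputable def comp (N : ℕ) (k : ℤ) (f : ℍ → ℂ) (q : Q N) : ℍ → ℂ :=
  f ∣[k] (q.out : SL(2, ℤ))⁻¹

/-- Dimension of the space of level one modular forms of weight `m`. -/
def h1 (m : ℤ) : ℕ :=
  if m < 0 ∨ ¬ (2 : ℤ) ∣ m then 0
  else if m % 12 = 2 then (m / 12).toNat else (m / 12).toNat + 1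

/-- A homogeneous free basis of the graded module `⨁ₖ Mₖ(Γ₀(N))` over the graded ring
`⨁ₖ Mₖ(SL₂(ℤ))`, of rank `[SL₂(ℤ) : Γ₀(N)]`. -/
structure FreeBasis (N : ℕ) : Type 1 where
  /-- index set -/
  J : Type
  /-- the index set is finite -/
  fin : Fintype J
  /-- weights of the basis elements -/
  k : J → ℤ
  /-- the basis elements -/
  F : J → ℍ → ℂ
  isMF : ∀ j, IsMF N (k j) (F j)
  card_eq : @Fintype.card J fin = Nat.card (Q N)
  span : ∀ (K : ℤ) (H : ℍ → ℂ), IsMF N K H →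
    ∃ a : J → ℍ → ℂ, (∀ j, IsMF 1 (K - k j) (a j)) ∧
      ∀ z, H z = @Finset.sum J ℂ _ (@Finset.univ J fin) (fun j => a j z * F j z)
  indep : ∀ (K : ℤ) (a : J → ℍ → ℂ), (∀ j, IsMF 1 (K - k j) (a j)) →
    (∀ z, @Finset.sum J ℂ _ (@Finset.univ J fin) (fun j => a j z * F j z) = 0) → ∀ j, a j = 0

attribute [instance] FreeBasis.fin

end Fermat.Agent.S20
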