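import Mathlib
import Fermat.Agent.S20.Defs

/-!
# S20: the final count

Pure arithmetic: from the residue classes of the generator weights and the cusp relation,
the number of generators of weight `10` is given by the genus formula.
-/

set_option autoImplicit false

namespace Fermat.Agent.S20.Count

open Finset

variable {J : Type} [Fintype J] [DecidableEq J]

/-- number of indices of weight `r` -/
noncomputable def mult (k : J → ℤ) (r : ℤ) : ℕ := (univ.filter fun j => k j = r).card

omit [DecidableEq J] in
lemma card_mod_four (k : J → ℤ)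
    (hk : ∀ j, k j = 0 ∨ k j = 2 ∨ k j = 4 ∨ k j = 6 ∨ k j = 8 ∨ k j = 10) :
    (univ.filter fun j => k j % 4 = 0).card = mult k 0 + mult k 4 + mult k 8 := by
  classical
  unfold mult
  rw [← card_union_of_disjoint, ← card_union_of_disjoint]
  · congr 1
    ext j
    simp only [mem_filter, mem_univ, true_and, mem_union]
    rcases hk j with h | h | h | h | h | h <;> simp [h]
  · rw [disjoint_left]
    intro j hj hj'
    simp only [mem_filter, mem_univ, true_and, mem_union] at hj hj'
    rcases hj with h | h <;> omega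
  · rw [disjoint_left]
    intro j hj hj'
    simp only [mem_filter, mem_univ, true_and] at hj hj'
    omega

omit [DecidableEq J] in
lemma card_mod_six_two (k : J → ℤ)
    (hk : ∀ j, k j = 0 ∨ k j = 2 ∨ k j = 4 ∨ k j = 6 ∨ k j = 8 ∨ k j = 10) :
    (univ.filter fun j => k j % 6 = 2).card = mult k 2 + mult k 8 := by
  classical
  unfold mult
  rw [← card_union_of_disjoint]
  · congr 1
    ext j
    simp only [mem_filter, mem_univ, true_and, mem_union]
    rcases hk j with h | h | h | h | h | h <;> simp [h]
  · rw [disjoint_left]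
    intro j hj hj'
    simp only [mem_filter, mem_univ, true_and] at hj hj'
    omega

omit [DecidableEq J] in
lemma card_mod_six_four (k : J → ℤ)
    (hk : ∀ j, k j = 0 ∨ k j = 2 ∨ k j = 4 ∨ k j = 6 ∨ k j = 8 ∨ k j = 10) :
    (univ.filter fun j => k j % 6 = 4).card = mult k 4 + mult k 10 := by
  classical
  unfold mult
  rw [← card_union_of_disjoint]
  · congr 1
    ext j
    simp only [mem_filter, mem_univ, true_and, mem_union]
    rcases hk j with h | h | h | h | h | h <;> simp [h]
  · rw [disjoint_left]
    intro j hj hj'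
    simp only [mem_filter, mem_univ, true_and] at hj hj'
    omega

omit [DecidableEq J] in
/-- The count: the number of weight `10` generators is the genus formula. -/
theorem mult_ten_eq (k : J → ℤ) (μ ν2 ν3 νinf : ℕ)
    (hk : ∀ j, k j = 0 ∨ k j = 2 ∨ k j = 4 ∨ k j = 6 ∨ k j = 8 ∨ k j = 10)
    (h0 : mult k 0 = 1)
    (h4 : 2 * (univ.filter fun j => k j % 4 = 0).card = μ + ν2)
    (h62 : 3 * (univ.filter fun j => k j % 6 = 2).card + ν3 = μ)
    (h64 : 3 * (univ.filter fun j => k j % 6 = 4).card + ν3 = μ)
    (hc : mult k 0 + mult k 2 = mult k 10 + νinf) :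
    (mult k 10 : ℚ) = 1 + (μ : ℚ) / 12 - (ν2 : ℚ) / 4 - (ν3 : ℚ) / 3 - (νinf : ℚ) / 2 := by
  rw [card_mod_four k hk] at h4
  rw [card_mod_six_two k hk] at h62
  rw [card_mod_six_four k hk] at h64
  have h4' : (2 : ℚ) * (mult k 0 + mult k 4 + mult k 8) = μ + ν2 := by exact_mod_cast h4
  have h62' : (3 : ℚ) * (mult k 2 + mult k 8) + ν3 = μ := by exact_mod_cast h62
  have h64' : (3 : ℚ) * (mult k 4 + mult k 10) + ν3 = μ := by exact_mod_cast h64
  have hc' : (mult k 0 : ℚ) + mult k 2 = mult k 10 + νinf := by exact_mod_cast hc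
  have h0' : (mult k 0 : ℚ) = 1 := by exact_mod_cast h0
  linarith

omit [DecidableEq J] in
/-- Same statement with the prelude's `genusFormula`. -/
theorem mult_ten_eq_genusFormula (N : ℕ) (k : J → ℤ)
    (hk : ∀ j, k j = 0 ∨ k j = 2 ∨ k j = 4 ∨ k j = 6 ∨ k j = 8 ∨ k j = 10)
    (h0 : mult k 0 = 1)
    (h4 : 2 * (univ.filter fun j => k j % 4 = 0).card
      = ModularCurve.dedekindPsi N + ModularCurve.nuTwo N)
    (h62 : 3 * (univ.filter fun j => k j % 6 = 2).card + ModularCurve.nuThree N
      = ModularCurve.dedekindPsi N)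
    (h64 : 3 * (univ.filter fun j => k j % 6 = 4).card + ModularCurve.nuThree N
      = ModularCurve.dedekindPsi N)
    (hc : mult k 0 + mult k 2 = mult k 10 + ModularCurve.cuspCount N) :
    (mult k 10 : ℚ) = ModularCurve.genusFormula N := by
  rw [ModularCurve.genusFormula]
  exact mult_ten_eq k _ _ _ _ hk h0 h4 h62 h64 hc

end Fermat.Agent.S20.Count
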