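import Mathlib
import Fermat.Prelude.Thm_ModularForm_sturm_bound_Gamma0
import Fermat.Agent.S20.Defs

/-!
# S20: basic API for the predicates `IsMF`, `IsCF`

* `MFsub N k`, `CFsub N k`: the spaces of (underlying functions of) modular forms / cusp forms
  as submodules of `ℍ → ℂ`;
* comparison with Mathlib's bundled `ModularForm (Gamma0 N) k`, `CuspForm (Gamma0 N) k`;
* products, the level one forms `E₄`, `E₆`, `Δ`;
* vanishing in negative / odd weight, weight zero.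
-/

set_option autoImplicit false

namespace Fermat.Agent.S20

open UpperHalfPlane CongruenceSubgroup ModularForm Matrix.SpecialLinearGroup OnePoint
open scoped MatrixGroups ModularForm Manifold

variable {N : ℕ} {k : ℤ}

/-! ### B1: submodules -/

theorem IsMF.mdiff {f : ℍ → ℂ} (h : IsMF N k f) : MDiff f := h.1

theorem IsMF.slash_eq {f : ℍ → ℂ} (h : IsMF N k f) {γ : SL(2, ℤ)} (hγ : γ ∈ Gamma0 N) :
    f ∣[k] γ = f := h.2.1 γ hγ

theorem IsMF.bdd {f : ℍ → ℂ} (h : IsMF N k f) (δ : SL(2, ℤ)) :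
    IsBoundedAtImInfty (f ∣[k] δ) := h.2.2 δ

theorem IsCF.mdiff {f : ℍ → ℂ} (h : IsCF N k f) : MDiff f := h.1

theorem IsCF.slash_eq {f : ℍ → ℂ} (h : IsCF N k f) {γ : SL(2, ℤ)} (hγ : γ ∈ Gamma0 N) :
    f ∣[k] γ = f := h.2.1 γ hγ

theorem IsCF.zero_at {f : ℍ → ℂ} (h : IsCF N k f) (δ : SL(2, ℤ)) :
    IsZeroAtImInfty (f ∣[k] δ) := h.2.2 δ

theorem IsCF.isMF {f : ℍ → ℂ} (h : IsCF N k f) : IsMF N k f :=
  ⟨h.1, h.2.1, fun δ => (h.2.2 δ).isBoundedAtImInfty⟩

/-- The space of modular forms of weight `k` on `Γ₀(N)`, as a submodule of `ℍ → ℂ`. -/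
def MFsub (N : ℕ) (k : ℤ) : Submodule ℂ (ℍ → ℂ) where
  carrier := {f | IsMF N k f}
  add_mem' := by
    intro f g hf hg
    refine ⟨hf.1.add hg.1, fun γ hγ => ?_, fun δ => ?_⟩
    · rw [SlashAction.add_slash, hf.2.1 γ hγ, hg.2.1 γ hγ]
    · rw [SlashAction.add_slash]
      exact (hf.2.2 δ).add (hg.2.2 δ)
  zero_mem' := by
    refine ⟨mdifferentiable_const, fun γ _ => ?_, fun δ => ?_⟩
    · exact SlashAction.zero_slash _ _
    · rw [SlashAction.zero_slash]
      exact zero_form_isBoundedAtImInfty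
  smul_mem' := by
    intro c f hf
    refine ⟨hf.1.const_smul c, fun γ hγ => ?_, fun δ => ?_⟩
    · rw [SL_smul_slash, hf.2.1 γ hγ]
    · rw [SL_smul_slash]
      exact (hf.2.2 δ).const_smul_left c

/-- The space of cusp forms of weight `k` on `Γ₀(N)`, as a submodule of `ℍ → ℂ`. -/
def CFsub (N : ℕ) (k : ℤ) : Submodule ℂ (ℍ → ℂ) where
  carrier := {f | IsCF N k f}
  add_mem' := by
    intro f g hf hg
    refine ⟨hf.1.add hg.1, fun γ hγ => ?_, fun δ => ?_⟩
    · rw [SlashAction.add_slash, hf.2.1 γ hγ, hg.2.1 γ hγ]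
    · rw [SlashAction.add_slash]
      exact (hf.2.2 δ).add (hg.2.2 δ)
  zero_mem' := by
    refine ⟨mdifferentiable_const, fun γ _ => ?_, fun δ => ?_⟩
    · exact SlashAction.zero_slash _ _
    · rw [SlashAction.zero_slash]
      exact Filter.zero_zeroAtFilter _
  smul_mem' := by
    intro c f hf
    refine ⟨hf.1.const_smul c, fun γ hγ => ?_, fun δ => ?_⟩
    · rw [SL_smul_slash, hf.2.1 γ hγ]
    · rw [SL_smul_slash]
      exact (hf.2.2 δ).smul c

@[simp] theorem mem_MFsub {f : ℍ → ℂ} : f ∈ MFsub N k ↔ IsMF N k f := Iff.rfl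

@[simp] theorem mem_CFsub {f : ℍ → ℂ} : f ∈ CFsub N k ↔ IsCF N k f := Iff.rfl

theorem CFsub_le_MFsub : CFsub N k ≤ MFsub N k := fun _ hf => IsCF.isMF hf

section closure

variable {f g : ℍ → ℂ}

theorem IsMF.zero : IsMF N k (0 : ℍ → ℂ) := (MFsub N k).zero_mem
theorem IsMF.add (hf : IsMF N k f) (hg : IsMF N k g) : IsMF N k (f + g) :=
  (MFsub N k).add_mem hf hg
theorem IsMF.neg (hf : IsMF N k f) : IsMF N k (-f) := (MFsub N k).neg_mem hf
theorem IsMF.sub (hf : IsMF N k f) (hg : IsMF N k g) : IsMF N k (f - g) :=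
  (MFsub N k).sub_mem hf hg
theorem IsMF.smul (c : ℂ) (hf : IsMF N k f) : IsMF N k (c • f) := (MFsub N k).smul_mem c hf
theorem IsMF.sum {ι : Type*} (s : Finset ι) {F : ι → ℍ → ℂ} (hF : ∀ i ∈ s, IsMF N k (F i)) :
    IsMF N k (∑ i ∈ s, F i) := (MFsub N k).sum_mem hF

theorem IsCF.zero : IsCF N k (0 : ℍ → ℂ) := (CFsub N k).zero_mem
theorem IsCF.add (hf : IsCF N k f) (hg : IsCF N k g) : IsCF N k (f + g) :=
  (CFsub N k).add_mem hf hg
theorem IsCF.neg (hf : IsCF N k f) : IsCF N k (-f) := (CFsub N k).neg_mem hf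
theorem IsCF.sub (hf : IsCF N k f) (hg : IsCF N k g) : IsCF N k (f - g) :=
  (CFsub N k).sub_mem hf hg
theorem IsCF.smul (c : ℂ) (hf : IsCF N k f) : IsCF N k (c • f) := (CFsub N k).smul_mem c hf
theorem IsCF.sum {ι : Type*} (s : Finset ι) {F : ι → ℍ → ℂ} (hF : ∀ i ∈ s, IsCF N k (F i)) :
    IsCF N k (∑ i ∈ s, F i) := (CFsub N k).sum_mem hF

/-- Weights can be rewritten. -/
theorem IsMF.congr_weight {k' : ℤ} (h : k = k') (hf : IsMF N k f) : IsMF N k' f := h ▸ hf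
theorem IsCF.congr_weight {k' : ℤ} (h : k = k') (hf : IsCF N k f) : IsCF N k' f := h ▸ hf

end closure


/-! ### B1 (continued): comparison with bundled forms -/

section bundled

variable [NeZero N]

/-- Package a function satisfying `IsMF` as a Mathlib modular form. -/
noncomputable def IsMF.toModularForm {f : ℍ → ℂ} (h : IsMF N k f) :
    ModularForm (Gamma0 N : Subgroup (GL (Fin 2) ℝ)) k where
  toFun := f
  slash_action_eq' γ hγ := by
    obtain ⟨γ', hγ', rfl⟩ := Subgroup.mem_map.mp hγ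
    exact h.2.1 γ' hγ'
  holo' := h.1
  bdd_at_cusps' {c} hc := by
    rw [Subgroup.IsArithmetic.isCusp_iff_isCusp_SL2Z] at hc
    rw [OnePoint.isBoundedAt_iff_forall_SL2Z hc]
    exact fun γ _ => h.2.2 γ

@[simp] theorem IsMF.coe_toModularForm {f : ℍ → ℂ} (h : IsMF N k f) :
    ⇑h.toModularForm = f := rfl

/-- Package a function satisfying `IsCF` as a Mathlib cusp form. -/
noncomputable def IsCF.toCuspForm {f : ℍ → ℂ} (h : IsCF N k f) :
    CuspForm (Gamma0 N : Subgroup (GL (Fin 2) ℝ)) k where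
  toFun := f
  slash_action_eq' γ hγ := by
    obtain ⟨γ', hγ', rfl⟩ := Subgroup.mem_map.mp hγ
    exact h.2.1 γ' hγ'
  holo' := h.1
  zero_at_cusps' {c} hc := by
    rw [Subgroup.IsArithmetic.isCusp_iff_isCusp_SL2Z] at hc
    rw [OnePoint.isZeroAt_iff_forall_SL2Z hc]
    exact fun γ _ => h.2.2 γ

@[simp] theorem IsCF.coe_toCuspForm {f : ℍ → ℂ} (h : IsCF N k f) :
    ⇑h.toCuspForm = f := rfl

theorem isCusp_smul_infty (δ : SL(2, ℤ)) :
    IsCusp (mapGL ℝ δ • (∞ : OnePoint ℝ)) (Gamma0 N : Subgroup (GL (Fin 2) ℝ)) := by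
  rw [Subgroup.IsArithmetic.isCusp_iff_isCusp_SL2Z]
  exact isCusp_SL2Z_iff'.mpr ⟨δ, rfl⟩

theorem isMF_coe (F : ModularForm (Gamma0 N : Subgroup (GL (Fin 2) ℝ)) k) : IsMF N k ⇑F := by
  refine ⟨F.holo', fun γ hγ => ?_, fun δ => ?_⟩
  · exact F.slash_action_eq' _ (Subgroup.mem_map_of_mem _ hγ)
  · exact F.bdd_at_cusps' (isCusp_smul_infty δ) (mapGL ℝ δ) rfl

theorem isCF_coe (F : CuspForm (Gamma0 N : Subgroup (GL (Fin 2) ℝ)) k) : IsCF N k ⇑F := by
  refine ⟨F.holo', fun γ hγ => ?_, fun δ => ?_⟩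
  · exact F.slash_action_eq' _ (Subgroup.mem_map_of_mem _ hγ)
  · exact F.zero_at_cusps' (isCusp_smul_infty δ) (mapGL ℝ δ) rfl

theorem isMF_iff {f : ℍ → ℂ} :
    IsMF N k f ↔ ∃ F : ModularForm (Gamma0 N : Subgroup (GL (Fin 2) ℝ)) k, ⇑F = f :=
  ⟨fun h => ⟨h.toModularForm, rfl⟩, fun ⟨F, hF⟩ => hF ▸ isMF_coe F⟩

theorem isCF_iff {f : ℍ → ℂ} :
    IsCF N k f ↔ ∃ F : CuspForm (Gamma0 N : Subgroup (GL (Fin 2) ℝ)) k, ⇑F = f :=
  ⟨fun h => ⟨h.toCuspForm, rfl⟩, fun ⟨F, hF⟩ => hF ▸ isCF_coe F⟩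

/-- Mathlib's space of modular forms on `Γ₀(N)` is our `MFsub`. -/
noncomputable def modularFormEquiv (N : ℕ) [NeZero N] (k : ℤ) :
    ModularForm (Gamma0 N : Subgroup (GL (Fin 2) ℝ)) k ≃ₗ[ℂ] MFsub N k where
  toFun F := ⟨⇑F, isMF_coe F⟩
  map_add' _ _ := rfl
  map_smul' _ _ := rfl
  invFun f := IsMF.toModularForm f.2
  left_inv _ := rfl
  right_inv _ := rfl

/-- Mathlib's space of cusp forms on `Γ₀(N)` is our `CFsub`. -/
noncomputable def cuspFormEquiv (N : ℕ) [NeZero N] (k : ℤ) :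
    CuspForm (Gamma0 N : Subgroup (GL (Fin 2) ℝ)) k ≃ₗ[ℂ] CFsub N k where
  toFun F := ⟨⇑F, isCF_coe F⟩
  map_add' _ _ := rfl
  map_smul' _ _ := rfl
  invFun f := IsCF.toCuspForm f.2
  left_inv _ := rfl
  right_inv _ := rfl

@[simp] theorem coe_modularFormEquiv (F : ModularForm (Gamma0 N : Subgroup (GL (Fin 2) ℝ)) k) :
    ((modularFormEquiv N k F : MFsub N k) : ℍ → ℂ) = ⇑F := rfl

@[simp] theorem coe_cuspFormEquiv (F : CuspForm (Gamma0 N : Subgroup (GL (Fin 2) ℝ)) k) :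
    ((cuspFormEquiv N k F : CFsub N k) : ℍ → ℂ) = ⇑F := rfl

end bundled

/-! ### Level one -/

section levelOne

theorem mem_Gamma0_one (γ : SL(2, ℤ)) : γ ∈ Gamma0 1 := by
  rw [Gamma0_mem]
  exact Subsingleton.elim _ _

theorem isMF_one_coe (F : ModularForm 𝒮ℒ k) : IsMF 1 k ⇑F := by
  refine ⟨F.holo', fun γ _ => ?_, fun δ => ?_⟩
  · exact F.slash_action_eq' _ ⟨γ, rfl⟩
  · exact F.bdd_at_cusps' (isCusp_SL2Z_iff'.mpr ⟨δ, rfl⟩) (mapGL ℝ δ) rfl

theorem isCF_one_coe (F : CuspForm 𝒮ℒ k) : IsCF 1 k ⇑F := by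
  refine ⟨F.holo', fun γ _ => ?_, fun δ => ?_⟩
  · exact F.slash_action_eq' _ ⟨γ, rfl⟩
  · exact F.zero_at_cusps' (isCusp_SL2Z_iff'.mpr ⟨δ, rfl⟩) (mapGL ℝ δ) rfl

/-- Package a level one `IsMF` as a Mathlib modular form for `𝒮ℒ`. -/
noncomputable def IsMF.toModularFormOne {f : ℍ → ℂ} (h : IsMF 1 k f) : ModularForm 𝒮ℒ k where
  toFun := f
  slash_action_eq' γ hγ := by
    obtain ⟨γ', rfl⟩ := hγ
    exact h.2.1 γ' (mem_Gamma0_one γ')
  holo' := h.1
  bdd_at_cusps' {c} hc := by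
    rw [OnePoint.isBoundedAt_iff_forall_SL2Z hc]
    exact fun γ _ => h.2.2 γ

@[simp] theorem IsMF.coe_toModularFormOne {f : ℍ → ℂ} (h : IsMF 1 k f) :
    ⇑h.toModularFormOne = f := rfl

/-- Package a level one `IsCF` as a Mathlib cusp form for `𝒮ℒ`. -/
noncomputable def IsCF.toCuspFormOne {f : ℍ → ℂ} (h : IsCF 1 k f) : CuspForm 𝒮ℒ k where
  toFun := f
  slash_action_eq' γ hγ := by
    obtain ⟨γ', rfl⟩ := hγ
    exact h.2.1 γ' (mem_Gamma0_one γ')
  holo' := h.1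
  zero_at_cusps' {c} hc := by
    rw [OnePoint.isZeroAt_iff_forall_SL2Z hc]
    exact fun γ _ => h.2.2 γ

@[simp] theorem IsCF.coe_toCuspFormOne {f : ℍ → ℂ} (h : IsCF 1 k f) :
    ⇑h.toCuspFormOne = f := rfl

theorem isMF_one_iff {f : ℍ → ℂ} : IsMF 1 k f ↔ ∃ F : ModularForm 𝒮ℒ k, ⇑F = f :=
  ⟨fun h => ⟨h.toModularFormOne, rfl⟩, fun ⟨F, hF⟩ => hF ▸ isMF_one_coe F⟩

theorem isCF_one_iff {f : ℍ → ℂ} : IsCF 1 k f ↔ ∃ F : CuspForm 𝒮ℒ k, ⇑F = f :=
  ⟨fun h => ⟨h.toCuspFormOne, rfl⟩, fun ⟨F, hF⟩ => hF ▸ isCF_one_coe F⟩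

/-- Level one forms as a linear equivalence. -/
noncomputable def modularFormOneEquiv (k : ℤ) : ModularForm 𝒮ℒ k ≃ₗ[ℂ] MFsub 1 k where
  toFun F := ⟨⇑F, isMF_one_coe F⟩
  map_add' _ _ := rfl
  map_smul' _ _ := rfl
  invFun f := IsMF.toModularFormOne f.2
  left_inv _ := rfl
  right_inv _ := rfl

/-- A level one form is a form of every level. -/
theorem IsMF.of_level_one {f : ℍ → ℂ} (h : IsMF 1 k f) : IsMF N k f :=
  ⟨h.1, fun γ _ => h.2.1 γ (mem_Gamma0_one γ), h.2.2⟩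

theorem IsCF.of_level_one {f : ℍ → ℂ} (h : IsCF 1 k f) : IsCF N k f :=
  ⟨h.1, fun γ _ => h.2.1 γ (mem_Gamma0_one γ), h.2.2⟩

/-- A level one form is invariant under all of `SL(2, ℤ)`. -/
theorem IsMF.slash_eq_one {f : ℍ → ℂ} (h : IsMF 1 k f) (γ : SL(2, ℤ)) : f ∣[k] γ = f :=
  h.2.1 γ (mem_Gamma0_one γ)

theorem isMF_E4 : IsMF 1 4 ⇑E₄ := isMF_one_coe E₄

theorem isMF_E6 : IsMF 1 6 ⇑E₆ := isMF_one_coe E₆

theorem isCF_discriminant : IsCF 1 12 ModularForm.discriminant :=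
  isCF_one_coe CuspForm.discriminant

theorem isMF_discriminant : IsMF 1 12 ModularForm.discriminant := isCF_discriminant.isMF

end levelOne

/-! ### B2: products -/

section products

variable {m : ℤ} {a F : ℍ → ℂ}

/-- Product of two forms of the same level. -/
theorem IsMF.mul' (ha : IsMF N m a) (hF : IsMF N k F) : IsMF N (m + k) (a * F) := by
  refine ⟨ha.1.mul hF.1, fun γ hγ => ?_, fun δ => ?_⟩
  · rw [mul_slash_SL2, ha.2.1 γ hγ, hF.2.1 γ hγ]
  · rw [mul_slash_SL2]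
    exact (ha.2.2 δ).mul (hF.2.2 δ)

/-- Product of a level one form with a form of level `N`. -/
theorem IsMF.mul (ha : IsMF 1 m a) (hF : IsMF N k F) : IsMF N (m + k) (a * F) :=
  ha.of_level_one.mul' hF

/-- Product of a form with a cusp form of the same level. -/
theorem IsMF.mul_isCF' (ha : IsMF N m a) (hF : IsCF N k F) : IsCF N (m + k) (a * F) := by
  refine ⟨ha.1.mul hF.1, fun γ hγ => ?_, fun δ => ?_⟩
  · rw [mul_slash_SL2, ha.2.1 γ hγ, hF.2.1 γ hγ]
  · rw [mul_slash_SL2, mul_comm]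
    exact (hF.2.2 δ).mul_boundedAtFilter (ha.2.2 δ)

/-- Product of a level one form with a cusp form of level `N`. -/
theorem IsMF.mul_isCF (ha : IsMF 1 m a) (hF : IsCF N k F) : IsCF N (m + k) (a * F) :=
  ha.of_level_one.mul_isCF' hF

/-- Product of a cusp form with a form of the same level. -/
theorem IsCF.mul_isMF' (ha : IsCF N m a) (hF : IsMF N k F) : IsCF N (m + k) (a * F) := by
  have := hF.mul_isCF' ha
  rw [mul_comm, add_comm] at this
  exact this

/-- Powers. -/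
theorem IsMF.pow (ha : IsMF N m a) (n : ℕ) : IsMF N (n * m) (a ^ n) := by
  induction n with
  | zero =>
    refine ⟨mdifferentiable_const, fun γ _ => ?_, fun δ => ?_⟩
    · simpa using is_invariant_one γ
    · simp only [Nat.cast_zero, zero_mul, pow_zero]
      rw [is_invariant_one]
      exact Filter.const_boundedAtFilter _ (1 : ℂ)
  | succ n ih =>
    have := ih.mul' ha
    rw [pow_succ]
    refine this.congr_weight ?_
    push_cast
    ring

end products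

/-! ### `f ∣ δ` in terms of `comp` -/

theorem slash_eq_comp {f : ℍ → ℂ} (h : IsMF N k f) (δ : SL(2, ℤ)) :
    f ∣[k] δ = comp N k f (QuotientGroup.mk δ⁻¹) := by
  unfold comp
  obtain ⟨γ, hγ⟩ := QuotientGroup.mk_out_eq_mul (Gamma0 N) δ⁻¹
  rw [hγ, mul_inv_rev, inv_inv, SlashAction.slash_mul, h.2.1 _ (inv_mem γ.2)]

theorem IsCF.slash_eq_comp {f : ℍ → ℂ} (h : IsCF N k f) (δ : SL(2, ℤ)) :
    f ∣[k] δ = comp N k f (QuotientGroup.mk δ⁻¹) :=
  Fermat.Agent.S20.slash_eq_comp h.isMF δ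

/-- The component at the coset of `δ` is `f ∣ δ⁻¹`. -/
theorem comp_mk {f : ℍ → ℂ} (h : IsMF N k f) (δ : SL(2, ℤ)) :
    comp N k f (QuotientGroup.mk δ) = f ∣[k] δ⁻¹ := by
  rw [slash_eq_comp h δ⁻¹, inv_inv]

/-! ### B3: vanishing -/

section vanishing

variable {f : ℍ → ℂ}

theorem IsMF.eq_zero_of_neg [NeZero N] (h : IsMF N k f) (hk : k < 0) : f = 0 := by
  have h1 := ModularForm.isZero_of_neg_weight hk h.toModularForm
  have h2 := congrArg (fun F : ModularForm (Gamma0 N : Subgroup (GL (Fin 2) ℝ)) k =>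
    (⇑F : ℍ → ℂ)) h1
  simpa using h2

theorem neg_one_mem_Gamma0 (N : ℕ) : (-1 : SL(2, ℤ)) ∈ Gamma0 N := by
  rw [Gamma0_mem]
  simp

theorem IsMF.eq_zero_of_odd (h : IsMF N k f) (hk : Odd k) : f = 0 := by
  have h1 := h.2.1 (-1) (neg_one_mem_Gamma0 N)
  funext z
  have h2 := congrFun h1 z
  rw [SL_slash_apply] at h2
  have h3 : (-1 : SL(2, ℤ)) • z = z := by
    ext
    simp
  have h4 : denom (-1 : SL(2, ℤ)) z = -1 := by
    simp [denom]
  rw [h3, h4, Odd.neg_one_zpow (Odd.neg hk)] at h2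
  have h5 : f z + f z = 0 := by
    nth_rewrite 1 [← h2]
    ring
  have h6 : (2 : ℂ) * f z = 0 := by rw [two_mul]; exact h5
  simpa using h6

theorem IsMF.const_of_weight_zero [NeZero N] (h : IsMF N 0 f) : ∃ c : ℂ, f = fun _ => c := by
  obtain ⟨c, hc⟩ := ModularForm.eq_const_of_weight_zero h.toModularForm
  exact ⟨c, hc⟩

theorem isMF_const (c : ℂ) : IsMF N 0 (fun _ => c) := by
  refine ⟨mdifferentiable_const, fun γ _ => ?_, fun δ => ?_⟩
  · exact is_invariant_const γ c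
  · have : ((fun _ => c : ℍ → ℂ) ∣[(0 : ℤ)] δ) = Function.const ℍ c := is_invariant_const δ c
    rw [this]
    exact Filter.const_boundedAtFilter _ c

theorem isMF_one : IsMF N 0 (1 : ℍ → ℂ) := isMF_const 1

end vanishing

/-! ### B4: dimensions -/

section dimension

theorem one_mem_strictPeriods_Gamma0 (N : ℕ) :
    (1 : ℝ) ∈ (Gamma0 N : Subgroup (GL (Fin 2) ℝ)).strictPeriods := by
  simp [CongruenceSubgroup.strictPeriods_Gamma0]

/-- The first `B + 1` coefficients of the `q`-expansion, as a linear map. -/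
noncomputable def coeffMap (N : ℕ) (k : ℤ) (B : ℕ) :
    ModularForm (Gamma0 N : Subgroup (GL (Fin 2) ℝ)) k →ₗ[ℂ] (Fin (B + 1) → ℂ) where
  toFun F n := (qExpansion 1 F).coeff n
  map_add' F G := by
    funext n
    have h : (⇑(F + G) : ℍ → ℂ) = ⇑F + ⇑G := rfl
    rw [h, ModularForm.qExpansion_add one_pos (one_mem_strictPeriods_Gamma0 N)]
    simp
  map_smul' c F := by
    funext n
    have h : (⇑(c • F) : ℍ → ℂ) = c • ⇑F := rfl
    rw [h, ModularForm.qExpansion_smul one_pos (one_mem_strictPeriods_Gamma0 N)]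
    simp

theorem coeffMap_injective (N : ℕ) [NeZero N] (k : ℤ) :
    Function.Injective (coeffMap N k ((k * (Gamma0 N).index).toNat / 12)) := by
  rw [← LinearMap.ker_eq_bot, LinearMap.ker_eq_bot']
  intro F hF
  refine ModularForm.sturm_bound_Gamma0 N F fun n hn => ?_
  have := congrFun hF ⟨n, Nat.lt_succ_of_le hn⟩
  exact this

instance finiteDimensional_modularForm_Gamma0 (N : ℕ) [NeZero N] (k : ℤ) :
    FiniteDimensional ℂ (ModularForm (Gamma0 N : Subgroup (GL (Fin 2) ℝ)) k) :=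
  FiniteDimensional.of_injective _ (coeffMap_injective N k)

instance finiteDimensional_MFsub (N : ℕ) [NeZero N] (k : ℤ) : FiniteDimensional ℂ (MFsub N k) :=
  LinearEquiv.finiteDimensional (modularFormEquiv N k)

instance finiteDimensional_CFsub (N : ℕ) [NeZero N] (k : ℤ) : FiniteDimensional ℂ (CFsub N k) :=
  Submodule.finiteDimensional_of_le CFsub_le_MFsub

theorem finrank_MFsub_eq (N : ℕ) [NeZero N] (k : ℤ) :
    Module.finrank ℂ (MFsub N k) =
      Module.finrank ℂ (ModularForm (Gamma0 N : Subgroup (GL (Fin 2) ℝ)) k) :=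
  (modularFormEquiv N k).finrank_eq.symm

theorem finrank_CFsub_eq (N : ℕ) [NeZero N] (k : ℤ) :
    Module.finrank ℂ (CFsub N k) =
      Module.finrank ℂ (CuspForm (Gamma0 N : Subgroup (GL (Fin 2) ℝ)) k) :=
  (cuspFormEquiv N k).finrank_eq.symm

theorem finrank_MFsub_le (N : ℕ) [NeZero N] {k : ℤ} (hk : 0 ≤ k) :
    Module.finrank ℂ (MFsub N k) ≤ (k.toNat * Nat.card (Q N)) / 12 + 1 := by
  rw [finrank_MFsub_eq]
  have h := LinearMap.finrank_le_finrank_of_injective (coeffMap_injective N k)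
  rw [Module.finrank_fin_fun] at h
  have e : (k * ((Gamma0 N).index : ℤ)).toNat = k.toNat * Nat.card (Q N) := by
    lift k to ℕ using hk
    rw [Subgroup.index]
    norm_cast
  rw [e] at h
  exact h

theorem finrank_MFsub_one (m : ℤ) : Module.finrank ℂ (MFsub 1 m) = h1 m := by
  rw [← (modularFormOneEquiv m).finrank_eq]
  unfold h1
  rcases lt_or_ge m 0 with hneg | hnn
  · rw [if_pos (Or.inl hneg)]
    exact Module.finrank_eq_zero_of_rank_eq_zero (ModularForm.levelOne_neg_weight_rank_zero hneg)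
  rcases Int.even_or_odd m with hev | hodd
  · have h2 : (2 : ℤ) ∣ m := hev.two_dvd
    rw [if_neg (not_or.mpr ⟨not_lt.mpr hnn, not_not.mpr h2⟩)]
    lift m to ℕ using hnn
    have hev' : Even m := by exact_mod_cast hev
    have := ModularForm.dimension_level_one m hev'
    have h3 : Module.finrank ℂ (ModularForm 𝒮ℒ (m : ℤ)) =
        if m ≡ 2 [MOD 12] then m / 12 else m / 12 + 1 := by
      apply Module.finrank_eq_of_rank_eq
      rw [this]
    rw [h3]
    have e1 : ((m : ℤ) % 12 = 2) ↔ m ≡ 2 [MOD 12] := by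
      unfold Nat.ModEq
      omega
    have e2 : ((m : ℤ) / 12).toNat = m / 12 := by omega
    rw [e2]
    by_cases hm : m ≡ 2 [MOD 12]
    · rw [if_pos hm, if_pos (e1.mpr hm)]
    · rw [if_neg hm, if_neg (fun h => hm (e1.mp h))]
  · have h2 : ¬ (2 : ℤ) ∣ m := by
      rw [← even_iff_two_dvd]
      exact Int.not_even_iff_odd.mpr hodd
    rw [if_pos (Or.inr h2)]
    exact Module.finrank_eq_zero_of_rank_eq_zero (ModularForm.levelOne_odd_weight_rank_zero hodd)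

end dimension

end Fermat.Agent.S20
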