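import Mathlib
import Fermat.Agent.S20.Defs

/-!
# S20, leaf A (part 1): cosets of `Γ₀(N)` and first columns

The coset `h Γ₀(N)` is determined by the first column `(a, c)` of `h` up to the relation
`(a, c) ∼ (a', c') ↔ N ∣ a c' - c a'`.  Fixed points of `S` and `S T`.
-/

set_option autoImplicit false
set_option linter.unusedSectionVars false
set_option linter.style.haveILetI false

namespace Fermat.Agent.S20.Cosets

open CongruenceSubgroup Matrix.SpecialLinearGroup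
open scoped MatrixGroups

variable {N : ℕ}

/-- Lower-left entry of `h⁻¹ * h'`. -/
theorem inv_mul_apply_one_zero (h h' : SL(2, ℤ)) :
    (h⁻¹ * h') 1 0 = h 0 0 * h' 1 0 - h 1 0 * h' 0 0 := by
  rw [Matrix.SpecialLinearGroup.coe_mul, SL2_inv_expl h, Matrix.mul_apply, Fin.sum_univ_two]
  simp
  ring

/-- **Coset criterion.** -/
theorem mk_eq_mk_iff (h h' : SL(2, ℤ)) :
    ((h : SL(2, ℤ)) : Q N) = (h' : Q N) ↔ (N : ℤ) ∣ h 0 0 * h' 1 0 - h 1 0 * h' 0 0 := by
  rw [QuotientGroup.eq, Gamma0_mem, inv_mul_apply_one_zero, ZMod.intCast_zmod_eq_zero_iff_dvd]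

theorem smul_mk (g h : SL(2, ℤ)) : g • ((h : SL(2, ℤ)) : Q N) = ((g * h : SL(2, ℤ)) : Q N) :=
  rfl

/-- `-1` acts trivially on the coset space. -/
theorem neg_one_smul (q : Q N) : (-1 : SL(2, ℤ)) • q = q := by
  induction q using QuotientGroup.induction_on with
  | H h =>
    rw [smul_mk, mk_eq_mk_iff]
    simp
    ring_nf
    exact dvd_zero _

theorem S_mul_apply_zero_zero (h : SL(2, ℤ)) : (ModularGroup.S * h) 0 0 = - h 1 0 := by
  rw [Matrix.SpecialLinearGroup.coe_mul, ModularGroup.coe_S, Matrix.mul_apply, Fin.sum_univ_two]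
  simp

theorem S_mul_apply_one_zero (h : SL(2, ℤ)) : (ModularGroup.S * h) 1 0 = h 0 0 := by
  rw [Matrix.SpecialLinearGroup.coe_mul, ModularGroup.coe_S, Matrix.mul_apply, Fin.sum_univ_two]
  simp

theorem T_mul_apply_zero_zero (h : SL(2, ℤ)) : (ModularGroup.T * h) 0 0 = h 0 0 + h 1 0 := by
  rw [Matrix.SpecialLinearGroup.coe_mul, ModularGroup.coe_T, Matrix.mul_apply, Fin.sum_univ_two]
  simp

theorem T_mul_apply_one_zero (h : SL(2, ℤ)) : (ModularGroup.T * h) 1 0 = h 1 0 := by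
  rw [Matrix.SpecialLinearGroup.coe_mul, ModularGroup.coe_T, Matrix.mul_apply, Fin.sum_univ_two]
  simp

theorem T_zpow_mul_apply_zero_zero (k : ℤ) (h : SL(2, ℤ)) :
    (ModularGroup.T ^ k * h) 0 0 = h 0 0 + k * h 1 0 := by
  rw [Matrix.SpecialLinearGroup.coe_mul, ModularGroup.coe_T_zpow, Matrix.mul_apply,
    Fin.sum_univ_two]
  simp

theorem T_zpow_mul_apply_one_zero (k : ℤ) (h : SL(2, ℤ)) :
    (ModularGroup.T ^ k * h) 1 0 = h 1 0 := by
  rw [Matrix.SpecialLinearGroup.coe_mul, ModularGroup.coe_T_zpow, Matrix.mul_apply,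
    Fin.sum_univ_two]
  simp

/-- Fixed points of `S`. -/
theorem S_smul_mk_eq_iff (h : SL(2, ℤ)) :
    ModularGroup.S • ((h : SL(2, ℤ)) : Q N) = (h : Q N) ↔
      (N : ℤ) ∣ h 0 0 ^ 2 + h 1 0 ^ 2 := by
  rw [smul_mk, mk_eq_mk_iff, S_mul_apply_zero_zero, S_mul_apply_one_zero, ← dvd_neg]
  have : -(-h 1 0 * h 1 0 - h 0 0 * h 0 0) = h 0 0 ^ 2 + h 1 0 ^ 2 := by ring
  rw [this]

/-- Fixed points of `S * T`. -/
theorem ST_smul_mk_eq_iff (h : SL(2, ℤ)) :
    (ModularGroup.S * ModularGroup.T) • ((h : SL(2, ℤ)) : Q N) = (h : Q N) ↔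
      (N : ℤ) ∣ h 0 0 ^ 2 + h 0 0 * h 1 0 + h 1 0 ^ 2 := by
  rw [smul_mk, mk_eq_mk_iff, mul_assoc, S_mul_apply_zero_zero, S_mul_apply_one_zero,
    T_mul_apply_zero_zero, T_mul_apply_one_zero, ← dvd_neg]
  have : -(-h 1 0 * h 1 0 - (h 0 0 + h 1 0) * h 0 0) =
      h 0 0 ^ 2 + h 0 0 * h 1 0 + h 1 0 ^ 2 := by ring
  rw [this]

/-- Same `T`-orbit criterion for a fixed power. -/
theorem T_zpow_smul_mk_eq_iff (k : ℤ) (h h' : SL(2, ℤ)) :
    (ModularGroup.T ^ k) • ((h : SL(2, ℤ)) : Q N) = (h' : Q N) ↔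
      (N : ℤ) ∣ h 0 0 * h' 1 0 - h 1 0 * h' 0 0 + k * (h 1 0 * h' 1 0) := by
  rw [smul_mk, mk_eq_mk_iff, T_zpow_mul_apply_zero_zero, T_zpow_mul_apply_one_zero]
  have : (h 0 0 + k * h 1 0) * h' 1 0 - h 1 0 * h' 0 0 =
      h 0 0 * h' 1 0 - h 1 0 * h' 0 0 + k * (h 1 0 * h' 1 0) := by ring
  rw [this]

section Fixed

/-- The matrix with first column `(a, 1)`. -/
def colMat (a : ℤ) : SL(2, ℤ) := ⟨!![a, -1; 1, 0], by simp [Matrix.det_fin_two_of]⟩

@[simp] theorem colMat_apply_zero_zero (a : ℤ) : colMat a 0 0 = a := rfl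

@[simp] theorem colMat_apply_one_zero (a : ℤ) : colMat a 1 0 = 1 := rfl

/-- If `N` divides `a² + t a c + c²` for the first column `(a, c)` of a matrix in `SL₂(ℤ)`,
then `c` is a unit modulo `N`. -/
theorem isUnit_of_dvd_quadratic (t : ℤ) (h : SL(2, ℤ))
    (hdvd : (N : ℤ) ∣ h 0 0 ^ 2 + t * (h 0 0 * h 1 0) + h 1 0 ^ 2) :
    IsUnit ((h 1 0 : ℤ) : ZMod N) := by
  rw [ZMod.coe_int_isUnit_iff_isCoprime]
  obtain ⟨k, hk⟩ := hdvd
  have hcop : IsCoprime (h 0 0) (h 1 0) := isCoprime_col h 0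
  have h2 : IsCoprime (h 0 0 ^ 2) (h 1 0) := hcop.pow_left
  have h3 : h 0 0 ^ 2 = (N : ℤ) * k + h 1 0 * (-(t * h 0 0) - h 1 0) := by
    linear_combination hk
  rw [h3] at h2
  have h4 : IsCoprime ((N : ℤ) * k) (h 1 0) := IsCoprime.of_add_mul_left_left h2
  exact IsCoprime.of_mul_left_left h4

variable [NeZero N]

/-- Fixed points of an element acting through a quadratic criterion correspond to roots of the
quadratic modulo `N`. -/
theorem card_fixed_of_quadratic (t : ℤ) (g : SL(2, ℤ))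
    (hg : ∀ h : SL(2, ℤ), g • ((h : SL(2, ℤ)) : Q N) = (h : Q N) ↔
      (N : ℤ) ∣ h 0 0 ^ 2 + t * (h 0 0 * h 1 0) + h 1 0 ^ 2) :
    Nat.card {q : Q N // g • q = q} =
      Nat.card {x : ZMod N // x ^ 2 + (t : ZMod N) * x + 1 = 0} := by
  symm
  let f : {x : ZMod N // x ^ 2 + (t : ZMod N) * x + 1 = 0} → {q : Q N // g • q = q} :=
    fun x => ⟨((colMat ((x.1.val : ℕ) : ℤ) : SL(2, ℤ)) : Q N), by
      rw [hg, colMat_apply_zero_zero, colMat_apply_one_zero,
        ← ZMod.intCast_zmod_eq_zero_iff_dvd]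
      push_cast
      rw [ZMod.natCast_zmod_val]
      have := x.2
      linear_combination this⟩
  refine Nat.card_congr (Equiv.ofBijective f ⟨?_, ?_⟩)
  · intro x y hxy
    have h1 : ((colMat ((x.1.val : ℕ) : ℤ) : SL(2, ℤ)) : Q N) =
        ((colMat ((y.1.val : ℕ) : ℤ) : SL(2, ℤ)) : Q N) := congrArg Subtype.val hxy
    rw [mk_eq_mk_iff, colMat_apply_zero_zero, colMat_apply_one_zero, colMat_apply_zero_zero,
      colMat_apply_one_zero, ← ZMod.intCast_zmod_eq_zero_iff_dvd] at h1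
    push_cast at h1
    rw [ZMod.natCast_zmod_val, ZMod.natCast_zmod_val] at h1
    apply Subtype.ext
    linear_combination h1
  · rintro ⟨q, hq⟩
    induction q using QuotientGroup.induction_on with
    | H h =>
      have hdvd := (hg h).mp hq
      have hu := isUnit_of_dvd_quadratic t h hdvd
      obtain ⟨u, hu'⟩ := hu
      have hzero : ((h 0 0 : ℤ) : ZMod N) ^ 2 + (t : ZMod N) * ((h 0 0 : ℤ) * (h 1 0 : ℤ)) +
          ((h 1 0 : ℤ) : ZMod N) ^ 2 = 0 := by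
        have := (ZMod.intCast_zmod_eq_zero_iff_dvd _ N).mpr hdvd
        push_cast at this
        exact this
      have hxroot : (((h 0 0 : ℤ) : ZMod N) * (↑u⁻¹ : ZMod N)) ^ 2 +
          (t : ZMod N) * (((h 0 0 : ℤ) : ZMod N) * (↑u⁻¹ : ZMod N)) + 1 = 0 := by
        have e1 : (↑u⁻¹ : ZMod N) * ((h 1 0 : ℤ) : ZMod N) = 1 := by
          rw [← hu']; exact u.inv_mul
        linear_combination ((↑u⁻¹ : ZMod N)) ^ 2 * hzero +
          (-(↑u⁻¹ : ZMod N) * (↑(h 1 0) : ZMod N) - 1 -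
            (t : ZMod N) * ((h 0 0 : ℤ) : ZMod N) * (↑u⁻¹ : ZMod N)) * e1
      refine ⟨⟨((h 0 0 : ℤ) : ZMod N) * (↑u⁻¹ : ZMod N), hxroot⟩, ?_⟩
      apply Subtype.ext
      show ((colMat _ : SL(2, ℤ)) : Q N) = (h : Q N)
      rw [mk_eq_mk_iff, colMat_apply_zero_zero, colMat_apply_one_zero,
        ← ZMod.intCast_zmod_eq_zero_iff_dvd]
      push_cast
      rw [ZMod.natCast_zmod_val]
      have e1 : (↑u⁻¹ : ZMod N) * ((h 1 0 : ℤ) : ZMod N) = 1 := by
        rw [← hu']; exact u.inv_mul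
      linear_combination ((h 0 0 : ℤ) : ZMod N) * e1

/-- The number of fixed points of `S` on `SL₂(ℤ) / Γ₀(N)`. -/
theorem card_fixed_S (N : ℕ) [NeZero N] :
    Nat.card {q : Q N // ModularGroup.S • q = q} = ModularCurve.nuTwo N := by
  rw [card_fixed_of_quadratic 0 ModularGroup.S (fun h => by
    rw [S_smul_mk_eq_iff]; simp), ModularCurve.nuTwo]
  refine Nat.card_congr (Equiv.subtypeEquivRight fun x => ?_)
  simp

/-- The number of fixed points of `S * T` on `SL₂(ℤ) / Γ₀(N)`. -/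
theorem card_fixed_ST (N : ℕ) [NeZero N] :
    Nat.card {q : Q N // (ModularGroup.S * ModularGroup.T) • q = q} =
      ModularCurve.nuThree N := by
  rw [card_fixed_of_quadratic 1 (ModularGroup.S * ModularGroup.T) (fun h => by
    rw [ST_smul_mk_eq_iff]; simp), ModularCurve.nuThree]
  refine Nat.card_congr (Equiv.subtypeEquivRight fun x => ?_)
  simp

end Fixed

end Fermat.Agent.S20.Cosets
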