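import Mathlib
import Fermat.Agent.S20.CosetsBasic

/-!
# S20, leaf A (part 2): parametrisation of `SL₂(ℤ) / Γ₀(N)`

For `h` with first column `(a, c)` put `d = gcd (c, N)` and `x = a * (c / d)⁻¹ ∈ ℤ / (N / d)`.
The pair `(d, x)` is a complete invariant of the coset `h Γ₀(N)`; `T` acts by `x ↦ x + d`.
-/

set_option autoImplicit false
set_option linter.unusedSectionVars false
set_option linter.style.haveILetI false

namespace Fermat.Agent.S20.Cosets

open CongruenceSubgroup Matrix.SpecialLinearGroup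
open scoped MatrixGroups

section Invariants

variable (N : ℕ)

/-- The gcd of the lower-left entry with `N`. -/
def D (h : SL(2, ℤ)) : ℕ := Int.gcd (h 1 0) N

/-- The second invariant (meaningful when `D N h = d`). -/
noncomputable def xOf (d : ℕ) (h : SL(2, ℤ)) : ZMod (N / d) :=
  ((h 0 0 : ℤ) : ZMod (N / d)) * (((h 1 0 / (d : ℤ) : ℤ)) : ZMod (N / d))⁻¹

variable {N}

theorem D_dvd (h : SL(2, ℤ)) : D N h ∣ N := by
  have := Int.gcd_dvd_right (h 1 0) (N : ℤ)
  exact Int.natCast_dvd_natCast.mp this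

theorem D_dvd_entry (h : SL(2, ℤ)) : (D N h : ℤ) ∣ h 1 0 := Int.gcd_dvd_left _ _

variable [NeZero N]

theorem D_pos (h : SL(2, ℤ)) : 0 < D N h :=
  Nat.pos_of_dvd_of_pos (D_dvd h) (Nat.pos_of_ne_zero (NeZero.ne N))

theorem D_mem_divisors (h : SL(2, ℤ)) : D N h ∈ N.divisors :=
  Nat.mem_divisors.mpr ⟨D_dvd h, NeZero.ne N⟩

/-- `c / d` is a unit modulo `N / d`. -/
theorem isUnit_div (h : SL(2, ℤ)) :
    IsUnit (((h 1 0 / (D N h : ℤ) : ℤ)) : ZMod (N / D N h)) := by
  rw [ZMod.coe_int_isUnit_iff_isCoprime, Int.isCoprime_iff_gcd_eq_one, Int.natCast_div]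
  have hpos : 0 < Int.gcd (h 1 0) (N : ℤ) := D_pos h
  have := Int.gcd_div_gcd_div_gcd hpos
  rw [Int.gcd_comm]
  exact this

/-- The invariant `D` only depends on the coset. -/
theorem D_eq_of_mk_eq {h h' : SL(2, ℤ)} (e : ((h : SL(2, ℤ)) : Q N) = (h' : Q N)) :
    D N h = D N h' := by
  have key : ∀ h h' : SL(2, ℤ), (N : ℤ) ∣ h 0 0 * h' 1 0 - h 1 0 * h' 0 0 →
      D N h ∣ D N h' := by
    intro h h' hdvd
    have h1 : (D N h : ℤ) ∣ h 0 0 * h' 1 0 := by
      have h2 : (D N h : ℤ) ∣ h 0 0 * h' 1 0 - h 1 0 * h' 0 0 :=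
        (Int.natCast_dvd_natCast.mpr (D_dvd h)).trans hdvd
      have h3 : (D N h : ℤ) ∣ h 1 0 * h' 0 0 := Dvd.dvd.mul_right (D_dvd_entry h) _
      have := dvd_add h2 h3
      rwa [sub_add_cancel] at this
    have hcop : IsCoprime (D N h : ℤ) (h 0 0) := by
      have := (isCoprime_col h 0).symm
      exact IsCoprime.of_isCoprime_of_dvd_left this (D_dvd_entry h)
    have h4 : (D N h : ℤ) ∣ h' 1 0 := hcop.dvd_of_dvd_mul_left h1
    have h5 : (D N h : ℤ) ∣ (Int.gcd (h' 1 0) (N : ℤ) : ℤ) :=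
      Int.dvd_coe_gcd h4 (Int.natCast_dvd_natCast.mpr (D_dvd h))
    exact Int.natCast_dvd_natCast.mp h5
  have e1 := (mk_eq_mk_iff h h').mp e
  have e2 := (mk_eq_mk_iff h' h).mp e.symm
  exact Nat.dvd_antisymm (key h h' e1) (key h' h e2)

/-- On the fibre `D = d`, the coset is determined by `xOf d`. -/
theorem mk_eq_mk_iff_xOf {d : ℕ} {h h' : SL(2, ℤ)} (hd : D N h = d) (hd' : D N h' = d) :
    ((h : SL(2, ℤ)) : Q N) = (h' : Q N) ↔ xOf N d h = xOf N d h' := by
  subst hd
  have hu := isUnit_div (N := N) h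
  have hu' : IsUnit (((h' 1 0 / (D N h : ℤ) : ℤ)) : ZMod (N / D N h)) := by
    have := isUnit_div (N := N) h'
    rwa [hd'] at this
  have hc : h 1 0 = (D N h : ℤ) * (h 1 0 / (D N h : ℤ)) :=
    (Int.mul_ediv_cancel' (D_dvd_entry h)).symm
  have hc' : h' 1 0 = (D N h : ℤ) * (h' 1 0 / (D N h : ℤ)) := by
    have := D_dvd_entry (N := N) h'
    rw [hd'] at this
    exact (Int.mul_ediv_cancel' this).symm
  have hN : (N : ℤ) = (D N h : ℤ) * ((N / D N h : ℕ) : ℤ) := by
    rw [← Nat.cast_mul, Nat.mul_div_cancel' (D_dvd h)]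
  have hne : (D N h : ℤ) ≠ 0 := by
    have := D_pos (N := N) h
    positivity
  rw [mk_eq_mk_iff]
  have step1 : (N : ℤ) ∣ h 0 0 * h' 1 0 - h 1 0 * h' 0 0 ↔
      ((N / D N h : ℕ) : ℤ) ∣ h 0 0 * (h' 1 0 / (D N h : ℤ)) -
        (h 1 0 / (D N h : ℤ)) * h' 0 0 := by
    have e : h 0 0 * h' 1 0 - h 1 0 * h' 0 0 =
        (D N h : ℤ) * (h 0 0 * (h' 1 0 / (D N h : ℤ)) - (h 1 0 / (D N h : ℤ)) * h' 0 0) := by
      conv_lhs => rw [hc, hc']
      ring
    rw [e]
    conv_lhs => rw [hN]
    exact mul_dvd_mul_iff_left hne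
  rw [step1, ← ZMod.intCast_zmod_eq_zero_iff_dvd]
  push_cast
  unfold xOf
  obtain ⟨u, hu1⟩ := hu
  obtain ⟨u', hu1'⟩ := hu'
  rw [← hu1, ← hu1']
  have i1 : (↑u : ZMod (N / D N h)) * (↑u : ZMod (N / D N h))⁻¹ = 1 :=
    ZMod.mul_inv_of_unit _ u.isUnit
  have i2 : (↑u' : ZMod (N / D N h)) * (↑u' : ZMod (N / D N h))⁻¹ = 1 :=
    ZMod.mul_inv_of_unit _ u'.isUnit
  constructor
  · intro e
    linear_combination ((↑u : ZMod (N / D N h))⁻¹ * (↑u' : ZMod (N / D N h))⁻¹) * e
      - ((h 0 0 : ℤ) : ZMod (N / D N h)) * (↑u : ZMod (N / D N h))⁻¹ * i2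
      + ((h' 0 0 : ℤ) : ZMod (N / D N h)) * (↑u' : ZMod (N / D N h))⁻¹ * i1
  · intro e
    linear_combination (↑u : ZMod (N / D N h)) * (↑u' : ZMod (N / D N h)) * e
      - ((h 0 0 : ℤ) : ZMod (N / D N h)) * (↑u' : ZMod (N / D N h)) * i1
      + ((h' 0 0 : ℤ) : ZMod (N / D N h)) * (↑u : ZMod (N / D N h)) * i2

theorem D_T_zpow_mul (k : ℤ) (h : SL(2, ℤ)) : D N (ModularGroup.T ^ k * h) = D N h := by
  unfold D
  rw [T_zpow_mul_apply_one_zero]

/-- `T` acts on the second invariant by translation by `d`. -/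
theorem xOf_T_zpow_mul (k : ℤ) (h : SL(2, ℤ)) :
    xOf N (D N h) (ModularGroup.T ^ k * h) =
      xOf N (D N h) h + (k : ZMod (N / D N h)) * ((D N h : ℕ) : ZMod (N / D N h)) := by
  have hu := isUnit_div (N := N) h
  have hc : h 1 0 = (D N h : ℤ) * (h 1 0 / (D N h : ℤ)) :=
    (Int.mul_ediv_cancel' (D_dvd_entry h)).symm
  have hc2 : ((h 1 0 : ℤ) : ZMod (N / D N h)) =
      ((D N h : ℕ) : ZMod (N / D N h)) * (((h 1 0 / (D N h : ℤ) : ℤ)) : ZMod (N / D N h)) := by
    conv_lhs => rw [hc]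
    push_cast
    rfl
  unfold xOf
  rw [T_zpow_mul_apply_zero_zero, T_zpow_mul_apply_one_zero]
  push_cast
  have i1 := ZMod.mul_inv_of_unit _ hu
  rw [hc2]
  linear_combination (k : ZMod (N / D N h)) * ((D N h : ℕ) : ZMod (N / D N h)) * i1

/-- The gcd `g_d = gcd (d, N / d)`. -/
abbrev gOf (N d : ℕ) : ℕ := Nat.gcd d (N / d)

/-- Reduction modulo `g_d`. -/
noncomputable abbrev redG (N d : ℕ) : ZMod (N / d) →+* ZMod (gOf N d) :=
  ZMod.castHom (Nat.gcd_dvd_right d (N / d)) (ZMod (gOf N d))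

/-- The second invariant is a unit modulo `g_d`. -/
theorem isUnit_redG_xOf (h : SL(2, ℤ)) : IsUnit (redG N (D N h) (xOf N (D N h) h)) := by
  unfold xOf
  rw [map_mul]
  refine IsUnit.mul ?_ ?_
  · rw [map_intCast, ZMod.coe_int_isUnit_iff_isCoprime]
    have hcop : IsCoprime (D N h : ℤ) (h 0 0) := by
      have := (isCoprime_col h 0).symm
      exact IsCoprime.of_isCoprime_of_dvd_left this (D_dvd_entry h)
    have hdvd : ((gOf N (D N h) : ℕ) : ℤ) ∣ (D N h : ℤ) :=
      Int.natCast_dvd_natCast.mpr (Nat.gcd_dvd_left _ _)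
    exact IsCoprime.of_isCoprime_of_dvd_left hcop hdvd
  · exact (ZMod.isUnit_inv (isUnit_div h)).map _

/-- Lifting lemma: a residue modulo `m` which is coprime to `gcd (d, m)` has a representative
coprime to `d`. -/
theorem exists_add_mul_coprime (d m w : ℕ) (hd : d ≠ 0) (hw : w.Coprime (Nat.gcd d m)) :
    ∃ k : ℕ, (w + k * m).Coprime d := by
  let ps : Finset ℕ := {p ∈ d.primeFactors | ¬p ∣ w}
  use ps.prod id
  apply Nat.coprime_of_dvd
  intro p pp hp hpd
  by_cases hpx : p ∣ w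
  · have h := Nat.dvd_sub hp hpx
    rw [add_comm, Nat.add_sub_cancel] at h
    rcases pp.dvd_mul.mp h with h | h
    · have ⟨q, hq, hq'⟩ := (pp.prime.dvd_finsetProd_iff id).mp h
      rw [Finset.mem_filter, Nat.mem_primeFactors,
        ← (Nat.prime_dvd_prime_iff_eq pp hq.1.1).mp hq'] at hq
      exact hq.2 hpx
    · exact Nat.Prime.not_coprime_iff_dvd.mpr ⟨p, pp, hpx, Nat.dvd_gcd hpd h⟩ hw
  · have pps : p ∈ ps := Finset.mem_filter.mpr ⟨Nat.mem_primeFactors.mpr ⟨pp, hpd, hd⟩, hpx⟩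
    have h := Nat.dvd_sub hp ((Finset.dvd_prod_of_mem id pps).mul_right m)
    rw [Nat.add_sub_cancel] at h
    contradiction

/-- Surjectivity of the parametrisation. -/
theorem exists_xOf_eq {d : ℕ} (hd : d ∣ N) (x : ZMod (N / d)) (hx : IsUnit (redG N d x)) :
    ∃ h : SL(2, ℤ), D N h = d ∧ xOf N d h = x := by
  have hd0 : d ≠ 0 := fun h0 => NeZero.ne N (by rw [h0] at hd; exact zero_dvd_iff.mp hd)
  have hm0 : N / d ≠ 0 := by
    intro h0
    have := Nat.div_mul_cancel hd
    rw [h0, zero_mul] at this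
    exact NeZero.ne N this.symm
  haveI : NeZero (N / d) := ⟨hm0⟩
  have hw : (x.val).Coprime (Nat.gcd d (N / d)) := by
    have h1 : redG N d x = ((x.val : ℕ) : ZMod (gOf N d)) := by
      conv_lhs => rw [← ZMod.natCast_zmod_val x]
      rw [map_natCast]
    rw [h1, ZMod.isUnit_iff_coprime] at hx
    exact hx
  obtain ⟨k, hk⟩ := exists_add_mul_coprime d (N / d) x.val hd0 hw
  have hcop : IsCoprime (((x.val + k * (N / d) : ℕ)) : ℤ) ((d : ℕ) : ℤ) :=
    Nat.isCoprime_iff_coprime.mpr hk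
  obtain ⟨h, h00, h10⟩ := hcop.exists_SL2_col 0
  refine ⟨h, ?_, ?_⟩
  · unfold D
    rw [h10, Int.gcd_natCast_natCast]
    exact Nat.gcd_eq_left hd
  · unfold xOf
    rw [h00, h10, Int.ediv_self (by exact_mod_cast hd0)]
    rw [Int.cast_natCast, Nat.cast_add, Nat.cast_mul, ZMod.natCast_self, mul_zero, add_zero,
      ZMod.natCast_zmod_val, Int.cast_one]
    have := ZMod.mul_inv_of_unit (1 : ZMod (N / d)) isUnit_one
    rw [one_mul] at this
    rw [this, mul_one]

end Invariants

section Quot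

variable (N : ℕ) [NeZero N]

/-- The invariant `D` on cosets. -/
def Dbar : Q N → ℕ :=
  Quotient.lift (D N) fun _ _ e => D_eq_of_mk_eq (Quotient.sound e)

/-- The second invariant on cosets (zero off the fibre `D = d`). -/
noncomputable def Xbar (d : ℕ) : Q N → ZMod (N / d) :=
  Quotient.lift (fun h => if D N h = d then xOf N d h else 0) (by
    intro h h' e
    have e' : ((h : SL(2, ℤ)) : Q N) = (h' : Q N) := Quotient.sound e
    have hD := D_eq_of_mk_eq e'
    by_cases hd : D N h = d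
    · have hd' : D N h' = d := hD ▸ hd
      show (if D N h = d then xOf N d h else 0) = if D N h' = d then xOf N d h' else 0
      rw [if_pos hd, if_pos hd']
      exact (mk_eq_mk_iff_xOf hd hd').mp e'
    · have hd' : ¬ D N h' = d := fun h0 => hd (hD.trans h0)
      show (if D N h = d then xOf N d h else 0) = if D N h' = d then xOf N d h' else 0
      rw [if_neg hd, if_neg hd'])

variable {N}

@[simp] theorem Dbar_mk (h : SL(2, ℤ)) : Dbar N ((h : SL(2, ℤ)) : Q N) = D N h := rfl

theorem Xbar_mk {d : ℕ} {h : SL(2, ℤ)} (hd : D N h = d) :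
    Xbar N d ((h : SL(2, ℤ)) : Q N) = xOf N d h :=
  if_pos hd

theorem Xbar_mk_of_ne {d : ℕ} {h : SL(2, ℤ)} (hd : D N h ≠ d) :
    Xbar N d ((h : SL(2, ℤ)) : Q N) = 0 :=
  if_neg hd

theorem Dbar_mem_divisors (q : Q N) : Dbar N q ∈ N.divisors := by
  induction q using QuotientGroup.induction_on with
  | H h => exact D_mem_divisors h

theorem Dbar_dvd (q : Q N) : Dbar N q ∣ N := (Nat.mem_divisors.mp (Dbar_mem_divisors q)).1

theorem Dbar_T_zpow_smul (k : ℤ) (q : Q N) : Dbar N (ModularGroup.T ^ k • q) = Dbar N q := by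
  induction q using QuotientGroup.induction_on with
  | H h => exact D_T_zpow_mul k h

theorem Xbar_T_zpow_smul (k : ℤ) {d : ℕ} {q : Q N} (hq : Dbar N q = d) :
    Xbar N d (ModularGroup.T ^ k • q) =
      Xbar N d q + (k : ZMod (N / d)) * ((d : ℕ) : ZMod (N / d)) := by
  induction q using QuotientGroup.induction_on with
  | H h =>
    have hd : D N h = d := hq
    subst hd
    rw [smul_mk, Xbar_mk (D_T_zpow_mul k h), Xbar_mk rfl, xOf_T_zpow_mul]

theorem eq_iff_Xbar_eq {d : ℕ} {q q' : Q N} (hq : Dbar N q = d) (hq' : Dbar N q' = d) :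
    q = q' ↔ Xbar N d q = Xbar N d q' := by
  induction q using QuotientGroup.induction_on with
  | H h =>
    induction q' using QuotientGroup.induction_on with
    | H h' =>
      have hd : D N h = d := hq
      have hd' : D N h' = d := hq'
      rw [Xbar_mk hd, Xbar_mk hd']
      exact mk_eq_mk_iff_xOf hd hd'

theorem isUnit_redG_Xbar {d : ℕ} {q : Q N} (hq : Dbar N q = d) :
    IsUnit (redG N d (Xbar N d q)) := by
  induction q using QuotientGroup.induction_on with
  | H h =>
    have hd : D N h = d := hq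
    subst hd
    rw [Xbar_mk rfl]
    exact isUnit_redG_xOf h

theorem exists_Xbar_eq {d : ℕ} (hd : d ∣ N) (x : ZMod (N / d)) (hx : IsUnit (redG N d x)) :
    ∃ q : Q N, Dbar N q = d ∧ Xbar N d q = x := by
  obtain ⟨h, h1, h2⟩ := exists_xOf_eq hd x hx
  exact ⟨(h : Q N), h1, by rw [Xbar_mk h1, h2]⟩

/-- The fibre of `Dbar` over `d ∣ N` is in bijection with the residues modulo `N / d` which are
units modulo `g_d`. -/
noncomputable def fibreEquiv {d : ℕ} (hd : d ∣ N) :
    {q : Q N // Dbar N q = d} ≃ {x : ZMod (N / d) // IsUnit (redG N d x)} :=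
  Equiv.ofBijective (fun q => ⟨Xbar N d q.1, isUnit_redG_Xbar q.2⟩) ⟨by
    intro q q' e
    apply Subtype.ext
    exact (eq_iff_Xbar_eq q.2 q'.2).mpr (congrArg Subtype.val e), by
    rintro ⟨x, hx⟩
    obtain ⟨q, h1, h2⟩ := exists_Xbar_eq hd x hx
    exact ⟨⟨q, h1⟩, Subtype.ext h2⟩⟩

theorem div_ne_zero_of_dvd {d : ℕ} (hd : d ∣ N) : N / d ≠ 0 := by
  intro h0
  have := Nat.div_mul_cancel hd
  rw [h0, zero_mul] at this
  exact NeZero.ne N this.symm

instance neZero_div_divisor (d : N.divisors) : NeZero (N / (d : ℕ)) :=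
  ⟨div_ne_zero_of_dvd (Nat.mem_divisors.mp d.2).1⟩

/-- The coset space as a disjoint union over the divisors of `N`. -/
noncomputable def sigmaEquiv :
    Q N ≃ Σ d : N.divisors, {x : ZMod (N / (d : ℕ)) // IsUnit (redG N d x)} :=
  (Equiv.sigmaFiberEquiv (fun q : Q N => (⟨Dbar N q, Dbar_mem_divisors q⟩ : N.divisors))).symm.trans
    (Equiv.sigmaCongrRight fun d =>
      (Equiv.subtypeEquivRight fun q => by
        constructor
        · intro e; exact congrArg Subtype.val e
        · intro e; exact Subtype.ext e).trans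
      (fibreEquiv (Nat.mem_divisors.mp d.2).1))

instance finite_Q : Finite (Q N) := Finite.of_equiv _ sigmaEquiv.symm

theorem card_Q_eq_sum :
    Nat.card (Q N) = ∑ d ∈ N.divisors, Nat.card {x : ZMod (N / d) // IsUnit (redG N d x)} := by
  rw [Nat.card_congr sigmaEquiv, Nat.card_sigma]
  exact Finset.sum_coe_sort N.divisors
    (fun d => Nat.card {x : ZMod (N / d) // IsUnit (redG N d x)})

end Quot

section Count

open Finset

/-- Counting residues coprime to `g` in a range of length a multiple of `g`. -/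
theorem card_filter_coprime_range (g k : ℕ) :
    #{w ∈ range (k * g) | g.Coprime w} = k * Nat.totient g := by
  induction k with
  | zero => simp
  | succ k ih =>
    have hunion : range ((k + 1) * g) = range (k * g) ∪ Ico (k * g) (k * g + g) := by
      ext w
      simp only [mem_range, mem_union, mem_Ico, Nat.succ_mul]
      omega
    have hdisj : Disjoint ({w ∈ range (k * g) | g.Coprime w})
        ({w ∈ Ico (k * g) (k * g + g) | g.Coprime w}) := by
      rw [Finset.disjoint_left]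
      intro w h1 h2
      simp only [mem_filter, mem_range, mem_Ico] at h1 h2
      omega
    rw [hunion, filter_union, card_union_of_disjoint hdisj, ih,
      Nat.filter_coprime_Ico_eq_totient, Nat.succ_mul]

variable {N : ℕ} [NeZero N]

/-- `redG x` is a unit iff the canonical representative of `x` is coprime to `g_d`. -/
theorem isUnit_redG_iff {d : ℕ} (hd : d ∣ N) (x : ZMod (N / d)) :
    IsUnit (redG N d x) ↔ (gOf N d).Coprime x.val := by
  haveI : NeZero (N / d) := ⟨div_ne_zero_of_dvd hd⟩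
  have h1 : redG N d x = ((x.val : ℕ) : ZMod (gOf N d)) := by
    conv_lhs => rw [← ZMod.natCast_zmod_val x]
    rw [map_natCast]
  rw [h1, ZMod.isUnit_iff_coprime, Nat.coprime_comm]

/-- The number of residues modulo `N / d` which are units modulo `g_d`. -/
theorem card_unitFibre {d : ℕ} (hd : d ∣ N) :
    Nat.card {x : ZMod (N / d) // IsUnit (redG N d x)} =
      (N / d) / gOf N d * Nat.totient (gOf N d) := by
  haveI : NeZero (N / d) := ⟨div_ne_zero_of_dvd hd⟩
  classical
  rw [Nat.card_eq_fintype_card, Fintype.card_subtype, ← card_filter_coprime_range,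
    Nat.div_mul_cancel (Nat.gcd_dvd_right d (N / d))]
  refine Finset.card_bij (fun x _ => x.val) ?_ ?_ ?_
  · intro x hx
    simp only [mem_filter, mem_univ, true_and] at hx
    simp only [mem_filter, mem_range]
    exact ⟨ZMod.val_lt x, (isUnit_redG_iff hd x).mp hx⟩
  · intro x _ y _ e
    exact ZMod.val_injective _ e
  · intro w hw
    simp only [mem_filter, mem_range] at hw
    refine ⟨(w : ZMod (N / d)), ?_, ZMod.val_natCast_of_lt hw.1⟩
    simp only [mem_filter, mem_univ, true_and]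
    rw [isUnit_redG_iff hd, ZMod.val_natCast_of_lt hw.1]
    exact hw.2

/-- The index of `Γ₀(N)` as a sum over divisors. -/
theorem card_Q_eq_sum_totient :
    Nat.card (Q N) =
      ∑ d ∈ N.divisors, Nat.totient (Nat.gcd d (N / d)) * ((N / d) / Nat.gcd d (N / d)) := by
  rw [card_Q_eq_sum]
  refine Finset.sum_congr rfl fun d hd => ?_
  rw [card_unitFibre (Nat.mem_divisors.mp hd).1, mul_comm]

end Count

section Orbits

variable (N : ℕ) [NeZero N]

/-- The set of orbits of `⟨T⟩` on the coset space. -/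
abbrev Orb : Type := MulAction.orbitRel.Quotient (Subgroup.zpowers ModularGroup.T) (Q N)

variable {N}

theorem exists_zpow_of_rel {q q' : Q N}
    (e : (MulAction.orbitRel (Subgroup.zpowers ModularGroup.T) (Q N)) q q') :
    ∃ k : ℤ, q = ModularGroup.T ^ k • q' := by
  rw [MulAction.orbitRel_apply, MulAction.mem_orbit_iff] at e
  obtain ⟨⟨t, ht⟩, rfl⟩ := e
  obtain ⟨k, rfl⟩ := Subgroup.mem_zpowers_iff.mp ht
  exact ⟨k, rfl⟩

theorem rel_of_zpow (k : ℤ) (q' : Q N) :
    (MulAction.orbitRel (Subgroup.zpowers ModularGroup.T) (Q N)) (ModularGroup.T ^ k • q') q' := by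
  rw [MulAction.orbitRel_apply, MulAction.mem_orbit_iff]
  exact ⟨⟨ModularGroup.T ^ k, Subgroup.mem_zpowers_iff.mpr ⟨k, rfl⟩⟩, rfl⟩

theorem Xbar_eq_zero_of_ne {d : ℕ} {q : Q N} (hq : Dbar N q ≠ d) : Xbar N d q = 0 := by
  induction q using QuotientGroup.induction_on with
  | H h => exact Xbar_mk_of_ne hq

theorem redG_natCast_self (d : ℕ) : redG N d ((d : ℕ) : ZMod (N / d)) = 0 := by
  rw [map_natCast, ZMod.natCast_eq_zero_iff]
  exact Nat.gcd_dvd_left _ _

/-- The reduction of the second invariant modulo `g_d` is `T`-invariant. -/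
theorem redG_Xbar_T_zpow_smul (k : ℤ) (d : ℕ) (q : Q N) :
    redG N d (Xbar N d (ModularGroup.T ^ k • q)) = redG N d (Xbar N d q) := by
  by_cases hq : Dbar N q = d
  · rw [Xbar_T_zpow_smul k hq, map_add, map_mul, redG_natCast_self, mul_zero, add_zero]
  · have hq' : Dbar N (ModularGroup.T ^ k • q) ≠ d := by rwa [Dbar_T_zpow_smul]
    rw [Xbar_eq_zero_of_ne hq, Xbar_eq_zero_of_ne hq']

variable (N)

/-- The invariant `D` on orbits. -/
def DOrb : Orb N → ℕ :=
  Quotient.lift (Dbar N) (by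
    intro q q' e
    obtain ⟨k, rfl⟩ := exists_zpow_of_rel e
    exact Dbar_T_zpow_smul k q')

/-- The invariant `x mod g_d` on orbits. -/
noncomputable def YOrb (d : ℕ) : Orb N → ZMod (gOf N d) :=
  Quotient.lift (fun q => redG N d (Xbar N d q)) (by
    intro q q' e
    obtain ⟨k, rfl⟩ := exists_zpow_of_rel e
    exact redG_Xbar_T_zpow_smul k d q')

variable {N}

theorem DOrb_mem_divisors (ω : Orb N) : DOrb N ω ∈ N.divisors := by
  induction ω using Quotient.inductionOn with
  | h q => exact Dbar_mem_divisors q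

/-- Elements of the kernel of the reduction are multiples of `d`. -/
theorem exists_eq_mul_of_redG_eq_zero {d : ℕ} (hd : d ∣ N) (z : ZMod (N / d))
    (hz : redG N d z = 0) : ∃ k : ℤ, z = (k : ZMod (N / d)) * ((d : ℕ) : ZMod (N / d)) := by
  haveI : NeZero (N / d) := ⟨div_ne_zero_of_dvd hd⟩
  have h1 : redG N d z = ((z.val : ℕ) : ZMod (gOf N d)) := by
    conv_lhs => rw [← ZMod.natCast_zmod_val z]
    rw [map_natCast]
  rw [h1, ZMod.natCast_eq_zero_iff] at hz
  obtain ⟨j, hj⟩ := hz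
  have hb := Nat.gcd_eq_gcd_ab d (N / d)
  refine ⟨Nat.gcdA d (N / d) * j, ?_⟩
  have h2 : (((gOf N d : ℕ) : ℤ) : ZMod (N / d)) =
      ((d : ℕ) : ZMod (N / d)) * ((Nat.gcdA d (N / d) : ℤ) : ZMod (N / d)) := by
    have := congrArg (fun t : ℤ => (t : ZMod (N / d))) hb
    simp only [Int.cast_add, Int.cast_mul, Int.cast_natCast, ZMod.natCast_self, zero_mul,
      add_zero] at this
    rw [Int.cast_natCast]
    exact this
  have h3 : z = ((gOf N d : ℕ) : ZMod (N / d)) * ((j : ℕ) : ZMod (N / d)) := by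
    conv_lhs => rw [← ZMod.natCast_zmod_val z, hj]
    push_cast
    rfl
  rw [h3, ← Int.cast_natCast (gOf N d), h2]
  push_cast
  ring

/-- The fibre of `DOrb` over `d ∣ N` is in bijection with the units modulo `g_d`. -/
noncomputable def orbFibreEquiv {d : ℕ} (hd : d ∣ N) :
    {ω : Orb N // DOrb N ω = d} ≃ {u : ZMod (gOf N d) // IsUnit u} :=
  Equiv.ofBijective (fun ω => ⟨YOrb N d ω.1, by
      obtain ⟨ω, hω⟩ := ω
      induction ω using Quotient.inductionOn with
      | h q => exact isUnit_redG_Xbar hω⟩) ⟨by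
    rintro ⟨ω, hω⟩ ⟨ω', hω'⟩ e
    apply Subtype.ext
    induction ω using Quotient.inductionOn with
    | h q =>
      induction ω' using Quotient.inductionOn with
      | h q' =>
        have hq : Dbar N q = d := hω
        have hq' : Dbar N q' = d := hω'
        have e1 : redG N d (Xbar N d q) = redG N d (Xbar N d q') := congrArg Subtype.val e
        have e2 : redG N d (Xbar N d q - Xbar N d q') = 0 := by
          rw [map_sub, e1, sub_self]
        obtain ⟨k, hk⟩ := exists_eq_mul_of_redG_eq_zero hd _ e2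
        have e3 : q = ModularGroup.T ^ k • q' := by
          rw [eq_iff_Xbar_eq hq (by rw [Dbar_T_zpow_smul]; exact hq'), Xbar_T_zpow_smul k hq',
            ← hk]
          ring
        show (Quotient.mk _ q : Orb N) = Quotient.mk _ q'
        apply Quotient.sound
        rw [e3]
        exact rel_of_zpow k q', by
    rintro ⟨u, hu⟩
    obtain ⟨x, rfl⟩ := ZMod.ringHom_surjective (redG N d) u
    obtain ⟨q, h1, h2⟩ := exists_Xbar_eq hd x hu
    refine ⟨⟨Quotient.mk _ q, h1⟩, Subtype.ext ?_⟩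
    show redG N d (Xbar N d q) = redG N d x
    rw [h2]⟩

theorem gOf_ne_zero {d : ℕ} (hd : d ∣ N) : gOf N d ≠ 0 := by
  intro h0
  have := Nat.eq_zero_of_gcd_eq_zero_left h0
  subst this
  exact NeZero.ne N (zero_dvd_iff.mp hd)

instance neZero_gOf_divisor (d : N.divisors) : NeZero (gOf N (d : ℕ)) :=
  ⟨gOf_ne_zero (Nat.mem_divisors.mp d.2).1⟩

theorem card_isUnit_zmod (g : ℕ) [NeZero g] :
    Nat.card {u : ZMod g // IsUnit u} = Nat.totient g := by
  rw [← ZMod.card_units_eq_totient, ← Nat.card_eq_fintype_card]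
  refine Nat.card_congr (Equiv.ofBijective (fun u => (u.2.unit : (ZMod g)ˣ)) ⟨?_, ?_⟩)
  · intro u v e
    apply Subtype.ext
    have := congrArg (fun w : (ZMod g)ˣ => (w : ZMod g)) e
    simpa using this
  · intro w
    exact ⟨⟨w, w.isUnit⟩, Units.ext rfl⟩

/-- The orbit space as a disjoint union over the divisors of `N`. -/
noncomputable def orbSigmaEquiv :
    Orb N ≃ Σ d : N.divisors, {u : ZMod (gOf N (d : ℕ)) // IsUnit u} :=
  (Equiv.sigmaFiberEquiv
    (fun ω : Orb N => (⟨DOrb N ω, DOrb_mem_divisors ω⟩ : N.divisors))).symm.trans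
    (Equiv.sigmaCongrRight fun d =>
      (Equiv.subtypeEquivRight fun ω => by
        constructor
        · intro e; exact congrArg Subtype.val e
        · intro e; exact Subtype.ext e).trans
      (orbFibreEquiv (Nat.mem_divisors.mp d.2).1))

/-- **The number of `T`-orbits on `SL₂(ℤ) / Γ₀(N)` is the number of cusps.** -/
theorem card_orbits_T (N : ℕ) [NeZero N] :
    Nat.card (MulAction.orbitRel.Quotient (Subgroup.zpowers ModularGroup.T) (Q N)) =
      ModularCurve.cuspCount N := by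
  rw [Nat.card_congr (orbSigmaEquiv (N := N)), Nat.card_sigma, ModularCurve.cuspCount]
  rw [← Finset.sum_coe_sort N.divisors (fun d => Nat.totient (Nat.gcd d (N / d)))]
  refine Finset.sum_congr rfl fun d _ => ?_
  exact card_isUnit_zmod (gOf N (d : ℕ))

end Orbits

end Fermat.Agent.S20.Cosets
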