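import Fermat.Agent.S20.Defs

/-!
# S20, leaf F: division lemmas

* `div_discriminant`: a form `H` on `Γ₀(N)` all of whose translates `H ∣ δ` are `O(Δ)` at `i∞` is
  `Δ` times a form of weight `K - 12`.
* `exists_div_of_simple_zeros`: a form `H` on `Γ₀(N)` vanishing on the zero set of a level one
  form `ψ` with simple zeros and nonzero limit at `i∞` is `ψ` times a form of weight `K - m`.
-/

set_option autoImplicit false
set_option linter.unusedSectionVars false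
set_option linter.style.haveILetI false
set_option linter.unusedVariables false

namespace Fermat.Agent.S20.Div

open UpperHalfPlane CongruenceSubgroup ModularForm Filter Topology
open scoped MatrixGroups ModularForm Manifold

local notation "Δ" => ModularForm.discriminant

theorem discriminant_slash (δ : SL(2, ℤ)) : (Δ ∣[(12 : ℤ)] δ) = Δ :=
  SlashInvariantForm.slash_action_generators_SL2Z discriminant_S_invariant discriminant_T_invariant δ

theorem mdiff_discriminant : MDiff (Δ : ℍ → ℂ) := CuspForm.discriminant.holo'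

/-- Quotients of holomorphic functions by nowhere vanishing holomorphic functions are
holomorphic. -/
theorem mdiff_div {f g : ℍ → ℂ} (hf : MDiff f) (hg : MDiff g) (h0 : ∀ z, g z ≠ 0) :
    MDiff (f / g) := by
  rw [UpperHalfPlane.mdifferentiable_iff] at hf hg ⊢
  have : (f / g) ∘ ofComplex = (f ∘ ofComplex) / (g ∘ ofComplex) := rfl
  rw [this]
  exact hf.div hg fun z _ => h0 _

/-- **Division by the discriminant.** -/
theorem div_discriminant {N : ℕ} {K : ℤ} {H : ℍ → ℂ} (hH : IsMF N K H)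
    (hbd : ∀ δ : SL(2, ℤ), IsBoundedAtImInfty ((H ∣[K] δ) / Δ)) :
    IsMF N (K - 12) (H / Δ) := by
  obtain ⟨h1, h2, -⟩ := hH
  refine ⟨mdiff_div h1 mdiff_discriminant discriminant_ne_zero, fun γ hγ => ?_, fun δ => ?_⟩
  · rw [div_slash_SL2, h2 γ hγ, discriminant_slash]
  · rw [div_slash_SL2, discriminant_slash]
    exact hbd δ

/-- Division by the discriminant, cusp form version. -/
theorem div_discriminant_isCF {N : ℕ} {K : ℤ} {H : ℍ → ℂ} (hH : IsMF N K H)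
    (hbd : ∀ δ : SL(2, ℤ), IsZeroAtImInfty ((H ∣[K] δ) / Δ)) :
    IsCF N (K - 12) (H / Δ) := by
  obtain ⟨h1, h2, -⟩ := hH
  refine ⟨mdiff_div h1 mdiff_discriminant discriminant_ne_zero, fun γ hγ => ?_, fun δ => ?_⟩
  · rw [div_slash_SL2, h2 γ hγ, discriminant_slash]
  · rw [div_slash_SL2, discriminant_slash]
    exact hbd δ

section Simple

/-! ### Division by a form with simple zeros -/

theorem comp_ofComplex_coe (f : ℍ → ℂ) (z : ℍ) : (↑ₕ f) (z : ℂ) = f z := by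
  simp [ofComplex_apply]

/-- The quotient `H / ψ`, extended by the quotient of derivatives on the zero set of `ψ`. -/
noncomputable def quot (H ψ : ℍ → ℂ) (z : ℍ) : ℂ :=
  if ψ z = 0 then deriv (↑ₕ H) z / deriv (↑ₕ ψ) z else H z / ψ z

theorem quot_of_ne {H ψ : ℍ → ℂ} {z : ℍ} (h : ψ z ≠ 0) : quot H ψ z = H z / ψ z := by
  simp [quot, h]

theorem quot_of_eq {H ψ : ℍ → ℂ} {z : ℍ} (h : ψ z = 0) :
    quot H ψ z = deriv (↑ₕ H) z / deriv (↑ₕ ψ) z := by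
  simp [quot, h]

theorem mul_quot {H ψ : ℍ → ℂ} (hz : ∀ z, ψ z = 0 → H z = 0) (z : ℍ) :
    H z = ψ z * quot H ψ z := by
  by_cases h : ψ z = 0
  · rw [h, hz z h, zero_mul]
  · rw [quot_of_ne h, mul_div_cancel₀ _ h]

variable {H ψ : ℍ → ℂ}

/-- Near a simple zero `w₀` of `ψ`, `ψ` has no other zero, and `H / ψ` is the quotient of the
`dslope`s. -/
theorem eventually_quot_eq_dslope (hH : MDiff H) (hψ : MDiff ψ) (z₀ : ℍ) (h0 : ψ z₀ = 0)
    (hd : deriv (↑ₕ ψ) z₀ ≠ 0) (hz : H z₀ = 0) :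
    ∀ᶠ w in 𝓝 (z₀ : ℂ), 0 < w.im ∧ dslope (↑ₕ ψ) z₀ w ≠ 0 ∧
      (w ≠ (z₀ : ℂ) → (↑ₕ ψ) w ≠ 0) ∧
      (↑ₕ (quot H ψ)) w = dslope (↑ₕ H) z₀ w / dslope (↑ₕ ψ) z₀ w := by
  have hU : {w : ℂ | 0 < w.im} ∈ 𝓝 (z₀ : ℂ) := isOpen_upperHalfPlaneSet.mem_nhds z₀.im_pos
  rw [UpperHalfPlane.mdifferentiable_iff] at hH hψ
  have hcψ : ContinuousAt (dslope (↑ₕ ψ) z₀) z₀ :=
    continuousAt_dslope_same.2 (hψ.differentiableAt hU)
  have hne : ∀ᶠ w in 𝓝 (z₀ : ℂ), dslope (↑ₕ ψ) z₀ w ≠ 0 := by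
    apply hcψ.eventually_ne
    rwa [dslope_same]
  filter_upwards [hU, hne] with w hw hwne
  have hψ0 : (↑ₕ ψ) (z₀ : ℂ) = 0 := by rw [comp_ofComplex_coe, h0]
  have hH0 : (↑ₕ H) (z₀ : ℂ) = 0 := by rw [comp_ofComplex_coe, hz]
  have e1 : (↑ₕ ψ) w = (w - z₀) * dslope (↑ₕ ψ) z₀ w := by
    have := sub_smul_dslope (↑ₕ ψ) (z₀ : ℂ) w
    rw [hψ0, sub_zero, smul_eq_mul] at this
    exact this.symm
  have e2 : (↑ₕ H) w = (w - z₀) * dslope (↑ₕ H) z₀ w := by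
    have := sub_smul_dslope (↑ₕ H) (z₀ : ℂ) w
    rw [hH0, sub_zero, smul_eq_mul] at this
    exact this.symm
  have hne' : w ≠ (z₀ : ℂ) → (↑ₕ ψ) w ≠ 0 := fun hw0 => by
    rw [e1]
    exact mul_ne_zero (sub_ne_zero.mpr hw0) hwne
  refine ⟨hw, hwne, hne', ?_⟩
  by_cases hw0 : w = (z₀ : ℂ)
  · subst hw0
    rw [comp_ofComplex_coe, quot_of_eq h0, dslope_same, dslope_same]
  · have h3 : (↑ₕ (quot H ψ)) w = (↑ₕ H) w / (↑ₕ ψ) w := by
      simp only [Function.comp_apply]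
      rw [quot_of_ne]
      exact hne' hw0
    rw [h3, e1, e2, mul_div_mul_left _ _ (sub_ne_zero.mpr hw0)]

/-- The extended quotient is holomorphic. -/
theorem mdiff_quot (hH : MDiff H) (hψ : MDiff ψ)
    (hsimple : ∀ z, ψ z = 0 → deriv (↑ₕ ψ) z ≠ 0) (hz : ∀ z, ψ z = 0 → H z = 0) :
    MDiff (quot H ψ) := by
  intro z₀
  rw [UpperHalfPlane.mdifferentiableAt_iff]
  have hU : {w : ℂ | 0 < w.im} ∈ 𝓝 (z₀ : ℂ) := isOpen_upperHalfPlaneSet.mem_nhds z₀.im_pos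
  have hH' := UpperHalfPlane.mdifferentiable_iff.mp hH
  have hψ' := UpperHalfPlane.mdifferentiable_iff.mp hψ
  by_cases h0 : ψ z₀ = 0
  · have hev := eventually_quot_eq_dslope hH hψ z₀ h0 (hsimple z₀ h0) (hz z₀ h0)
    have hdH : DifferentiableAt ℂ (dslope (↑ₕ H) z₀) z₀ :=
      ((Complex.differentiableOn_dslope hU).mpr hH').differentiableAt hU
    have hdψ : DifferentiableAt ℂ (dslope (↑ₕ ψ) z₀) z₀ :=
      ((Complex.differentiableOn_dslope hU).mpr hψ').differentiableAt hU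
    have hne : dslope (↑ₕ ψ) z₀ z₀ ≠ 0 := by rw [dslope_same]; exact hsimple z₀ h0
    refine (hdH.div hdψ hne).congr_of_eventuallyEq ?_
    filter_upwards [hev] with w hw
    exact hw.2.2.2
  · have hc : ContinuousAt (↑ₕ ψ) z₀ := (hψ'.differentiableAt hU).continuousAt
    have hne : ∀ᶠ w in 𝓝 (z₀ : ℂ), (↑ₕ ψ) w ≠ 0 := by
      apply hc.eventually_ne
      rwa [comp_ofComplex_coe]
    have hne0 : (↑ₕ ψ) (z₀ : ℂ) ≠ 0 := by rwa [comp_ofComplex_coe]
    refine ((hH'.differentiableAt hU).div (hψ'.differentiableAt hU) hne0).congr_of_eventuallyEq ?_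
    filter_upwards [hne] with w hw
    simp only [Function.comp_apply, Pi.div_apply]
    rw [quot_of_ne hw]

/-- If `ψ` has only simple zeros and `ψ * g = 0` with `g` holomorphic, then `g = 0`. -/
theorem eq_zero_of_mul_eq_zero {g : ℍ → ℂ} (hψ : MDiff ψ)
    (hsimple : ∀ z, ψ z = 0 → deriv (↑ₕ ψ) z ≠ 0) (hg : MDiff g)
    (h : ∀ z, ψ z * g z = 0) : g = 0 := by
  funext z₀
  by_cases h0 : ψ z₀ = 0
  · have hev := eventually_quot_eq_dslope hψ hψ z₀ h0 (hsimple z₀ h0) h0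
    have hU : {w : ℂ | 0 < w.im} ∈ 𝓝 (z₀ : ℂ) := isOpen_upperHalfPlaneSet.mem_nhds z₀.im_pos
    have hg' := UpperHalfPlane.mdifferentiable_iff.mp hg
    have hc : ContinuousAt (↑ₕ g) z₀ := (hg'.differentiableAt hU).continuousAt
    have h1 : Tendsto (↑ₕ g) (𝓝[≠] (z₀ : ℂ)) (𝓝 ((↑ₕ g) z₀)) := hc.tendsto.mono_left nhdsWithin_le_nhds
    have h2 : Tendsto (↑ₕ g) (𝓝[≠] (z₀ : ℂ)) (𝓝 0) := by
      refine tendsto_const_nhds.congr' ?_
      filter_upwards [nhdsWithin_le_nhds hev, self_mem_nhdsWithin] with w hw hw0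
      have hψw := hw.2.2.1 hw0
      have := h (ofComplex w)
      simp only [Function.comp_apply] at hψw ⊢
      exact ((mul_eq_zero.mp this).resolve_left hψw).symm
    have := tendsto_nhds_unique h1 h2
    rwa [comp_ofComplex_coe] at this
  · exact (mul_eq_zero.mp (h z₀)).resolve_left h0

theorem mem_Gamma0_one (γ : SL(2, ℤ)) : γ ∈ Gamma0 1 := by
  rw [Gamma0_mem]
  exact Subsingleton.elim _ _

/-- A level one form is invariant under all of `SL₂(ℤ)`. -/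
theorem slash_eq_of_isMF_one {m : ℤ} (hψ : IsMF 1 m ψ) (γ : SL(2, ℤ)) : ψ ∣[m] γ = ψ :=
  hψ.2.1 γ (mem_Gamma0_one γ)

theorem slash_mul_quot {K m : ℤ} (hψ : IsMF 1 m ψ) (hz : ∀ z, ψ z = 0 → H z = 0)
    (γ : SL(2, ℤ)) : H ∣[K] γ = ψ * (quot H ψ) ∣[K - m] γ := by
  have h1 : H = ψ * quot H ψ := funext fun z => mul_quot hz z
  have hK : m + (K - m) = K := by ring
  conv_lhs => rw [h1, ← hK, mul_slash_SL2, slash_eq_of_isMF_one hψ]

theorem quot_slash_eq {K m : ℤ} (hψ : IsMF 1 m ψ)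
    (hsimple : ∀ z, ψ z = 0 → deriv (↑ₕ ψ) z ≠ 0) (hH : MDiff H)
    (hz : ∀ z, ψ z = 0 → H z = 0) (γ : SL(2, ℤ)) (hγ : H ∣[K] γ = H) :
    (quot H ψ) ∣[K - m] γ = quot H ψ := by
  have hq := mdiff_quot hH hψ.1 hsimple hz
  have h1 := slash_mul_quot (K := K) hψ hz γ
  rw [hγ] at h1
  have h2 : ∀ z, ψ z * (((quot H ψ) ∣[K - m] γ) z - quot H ψ z) = 0 := by
    intro z
    have := congrFun h1 z
    rw [Pi.mul_apply] at this
    rw [mul_sub, ← this, ← mul_quot hz z, sub_self]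
  have h3 := eq_zero_of_mul_eq_zero hψ.1 hsimple
    (g := (quot H ψ) ∣[K - m] γ - quot H ψ) ((hq.slash _ _).sub hq) h2
  exact sub_eq_zero.mp h3

theorem eventually_quot_slash {K m : ℤ} (hψ : IsMF 1 m ψ) (hz : ∀ z, ψ z = 0 → H z = 0)
    {c : ℂ} (hc : c ≠ 0) (hlim : Tendsto ψ atImInfty (𝓝 c)) (δ : SL(2, ℤ)) :
    (quot H ψ) ∣[K - m] δ =ᶠ[atImInfty] fun z => (H ∣[K] δ) z / ψ z := by
  have hne : ∀ᶠ z in atImInfty, ψ z ≠ 0 := hlim.eventually_ne hc
  filter_upwards [hne] with z hz0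
  have := congrFun (slash_mul_quot (K := K) hψ hz δ) z
  rw [Pi.mul_apply] at this
  rw [this, mul_div_cancel_left₀ _ hz0]

/-- **Division by a level one form with simple zeros.** -/
theorem exists_div_of_simple_zeros {N : ℕ} {K m : ℤ}
    (hψ : IsMF 1 m ψ) (hsimple : ∀ z, ψ z = 0 → deriv (ψ ∘ ofComplex) z ≠ 0)
    (hlim : ∃ c : ℂ, c ≠ 0 ∧ Tendsto ψ atImInfty (𝓝 c))
    (hH : IsMF N K H) (hz : ∀ z, ψ z = 0 → H z = 0) :
    ∃ h, IsMF N (K - m) h ∧ ∀ z, H z = ψ z * h z := by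
  obtain ⟨c, hc, hlim⟩ := hlim
  refine ⟨quot H ψ, ⟨mdiff_quot hH.1 hψ.1 hsimple hz, fun γ hγ => ?_, fun δ => ?_⟩,
    fun z => mul_quot hz z⟩
  · exact quot_slash_eq hψ hsimple hH.1 hz γ (hH.2.1 γ hγ)
  · have hev := eventually_quot_slash (K := K) hψ hz hc hlim δ
    have hb : IsBoundedAtImInfty (H ∣[K] δ) := hH.2.2 δ
    have hinv : Tendsto (fun z => (ψ z)⁻¹) atImInfty (𝓝 c⁻¹) := hlim.inv₀ hc
    have hb2 : BoundedAtFilter atImInfty (fun z => (ψ z)⁻¹) := hinv.isBigO_one ℝ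
    have hb3 : BoundedAtFilter atImInfty (fun z => (H ∣[K] δ) z / ψ z) := by
      have := BoundedAtFilter.mul hb hb2
      refine this.congr' ?_ ?_ <;> exact Filter.Eventually.of_forall fun z => by
        simp [div_eq_mul_inv]
    exact hb3.congr' hev.symm (Filter.EventuallyEq.refl _ _)

/-- Division by a level one form with simple zeros, cusp form version. -/
theorem exists_div_of_simple_zeros_isCF {N : ℕ} {K m : ℤ}
    (hψ : IsMF 1 m ψ) (hsimple : ∀ z, ψ z = 0 → deriv (ψ ∘ ofComplex) z ≠ 0)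
    (hlim : ∃ c : ℂ, c ≠ 0 ∧ Tendsto ψ atImInfty (𝓝 c))
    (hH : IsCF N K H) (hz : ∀ z, ψ z = 0 → H z = 0) :
    ∃ h, IsCF N (K - m) h ∧ ∀ z, H z = ψ z * h z := by
  obtain ⟨c, hc, hlim⟩ := hlim
  refine ⟨quot H ψ, ⟨mdiff_quot hH.1 hψ.1 hsimple hz, fun γ hγ => ?_, fun δ => ?_⟩,
    fun z => mul_quot hz z⟩
  · exact quot_slash_eq hψ hsimple hH.1 hz γ (hH.2.1 γ hγ)
  · have hev := eventually_quot_slash (K := K) hψ hz hc hlim δ
    have hb : Tendsto (H ∣[K] δ) atImInfty (𝓝 0) := hH.2.2 δ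
    have h3 : Tendsto (fun z => (H ∣[K] δ) z / ψ z) atImInfty (𝓝 (0 / c)) := hb.div hlim hc
    rw [zero_div] at h3
    exact h3.congr' hev.symm

end Simple

end Fermat.Agent.S20.Div
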