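import Mathlib

/-!
# S20, module M4 (part 1): holomorphic inverse of a holomorphic family of square systems

Given finitely many functions `Φ q j : ℍ → ℂ` (`q ∈ Q`, `j ∈ J`, `|J| = |Q|`), all holomorphic,
such that the columns are linearly independent at every point, there is a holomorphic inverse
family `G j q`.
-/

set_option autoImplicit false
set_option linter.unusedSectionVars false

open UpperHalfPlane
open scoped Manifold

namespace Fermat.Agent.S20.Dual

section Det

variable {n : Type} [Fintype n] [DecidableEq n]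

lemma differentiableOn_det {S : Set ℂ} {A : ℂ → Matrix n n ℂ}
    (hA : ∀ i j, DifferentiableOn ℂ (fun z => A z i j) S) :
    DifferentiableOn ℂ (fun z => (A z).det) S := by
  simp_rw [Matrix.det_apply]
  refine DifferentiableOn.fun_sum fun σ _ => ?_
  refine DifferentiableOn.const_smul ?_ _
  exact DifferentiableOn.fun_finsetProd fun i _ => hA _ _

lemma differentiableOn_inv_apply {S : Set ℂ} {A : ℂ → Matrix n n ℂ}
    (hA : ∀ i j, DifferentiableOn ℂ (fun z => A z i j) S)
    (hdet : ∀ z ∈ S, (A z).det ≠ 0) (i j : n) :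
    DifferentiableOn ℂ (fun z => (A z)⁻¹ i j) S := by
  have h1 : ∀ z, (A z)⁻¹ i j =
      ((A z).det)⁻¹ * ((A z).updateRow j (Pi.single i 1)).det := by
    intro z
    rw [Matrix.inv_def, Matrix.smul_apply, Matrix.adjugate_apply, Ring.inverse_eq_inv',
      smul_eq_mul]
  simp_rw [h1]
  refine DifferentiableOn.mul ?_ ?_
  · exact (differentiableOn_det hA).inv hdet
  · refine differentiableOn_det fun a b => ?_
    by_cases hab : a = j
    · subst hab
      simp only [Matrix.updateRow_self]
      exact differentiableOn_const _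
    · simp only [Matrix.updateRow_ne hab]
      exact hA a b

end Det

section Inverse

variable {Q J : Type} [Fintype Q] [Fintype J] [DecidableEq Q] [DecidableEq J]

/-- **Holomorphic inverse.** -/
theorem exists_holomorphic_inverse (hcard : Fintype.card J = Fintype.card Q)
    (Φ : Q → J → ℍ → ℂ) (hΦ : ∀ q j, MDiff (Φ q j))
    (hinj : ∀ (z : ℍ) (c : J → ℂ), (∀ q, ∑ j, c j * Φ q j z = 0) → ∀ j, c j = 0) :
    ∃ G : J → Q → ℍ → ℂ, (∀ j q, MDiff (G j q)) ∧
      (∀ z j j', ∑ q, G j q z * Φ q j' z = if j = j' then 1 else 0) ∧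
      (∀ z q q', ∑ j, Φ q j z * G j q' z = if q = q' then 1 else 0) := by
  classical
  let e : J ≃ Q := Fintype.equivOfCardEq hcard
  let M : ℍ → Matrix Q Q ℂ := fun z => Matrix.of fun q q' => Φ q (e.symm q') z
  have hunit : ∀ z, IsUnit (M z).det := by
    intro z
    rw [← Matrix.isUnit_iff_isUnit_det, ← Matrix.mulVec_injective_iff_isUnit]
    intro v₁ v₂ hv₁₂
    have hv : (M z).mulVec (v₁ - v₂) = 0 := by rw [Matrix.mulVec_sub, hv₁₂, sub_self]
    suffices hsuff : v₁ - v₂ = 0 from sub_eq_zero.mp hsuff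
    generalize v₁ - v₂ = v at hv
    have h1 : ∀ j, (fun j => v (e j)) j = 0 := by
      apply hinj z
      intro q
      have h2 := congrFun hv q
      simp only [Matrix.mulVec, dotProduct, Pi.zero_apply] at h2
      rw [← h2, ← e.sum_comp]
      refine Finset.sum_congr rfl fun j _ => ?_
      simp only [M, Matrix.of_apply, Equiv.symm_apply_apply]
      ring
    ext q
    have := h1 (e.symm q)
    simpa using this
  have hdet : ∀ z, (M z).det ≠ 0 := fun z => (hunit z).ne_zero
  refine ⟨fun j q z => (M z)⁻¹ (e j) q, fun j q => ?_, fun z j j' => ?_, fun z q q' => ?_⟩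
  · rw [UpperHalfPlane.mdifferentiable_iff]
    have hA : ∀ a b, DifferentiableOn ℂ (fun w : ℂ => M (ofComplex w) a b) {w | 0 < w.im} := by
      intro a b
      have := UpperHalfPlane.mdifferentiable_iff.mp (hΦ a (e.symm b))
      exact this
    exact differentiableOn_inv_apply (A := fun w => M (ofComplex w)) hA
      (fun w _ => hdet _) (e j) q
  · have h1 := congrFun (congrFun (Matrix.nonsing_inv_mul (M z) (hunit z)) (e j)) (e j')
    rw [Matrix.mul_apply] at h1
    show ∑ q, (M z)⁻¹ (e j) q * Φ q j' z = _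
    have h2 : ∀ q, (M z)⁻¹ (e j) q * M z q (e j') = (M z)⁻¹ (e j) q * Φ q j' z := by
      intro q
      simp only [M, Matrix.of_apply, Equiv.symm_apply_apply]
    simp_rw [h2] at h1
    rw [h1, Matrix.one_apply]
    simp only [EmbeddingLike.apply_eq_iff_eq]
  · have h1 := congrFun (congrFun (Matrix.mul_nonsing_inv (M z) (hunit z)) q) q'
    rw [Matrix.mul_apply, Matrix.one_apply] at h1
    show ∑ j, Φ q j z * (M z)⁻¹ (e j) q' = _
    rw [← h1, ← e.sum_comp]
    refine Finset.sum_congr rfl fun j _ => ?_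
    simp only [M, Matrix.of_apply, Equiv.symm_apply_apply]

/-- A left inverse row is unique. -/
theorem row_eq_of_left_inverse
    (Φ : Q → J → ℂ) (G : J → Q → ℂ)
    (hΦG : ∀ q q', ∑ j, Φ q j * G j q' = if q = q' then 1 else 0)
    (r : Q → ℂ) (j : J) (hr : ∀ j', ∑ q, r q * Φ q j' = if j = j' then 1 else 0) :
    r = G j := by
  ext q'
  -- r q' = Σ_q r q δ_{q q'} = Σ_q r q Σ_j' Φ q j' G j' q' = Σ_j' (Σ_q r q Φ q j') G j' q' = G j q'
  calc r q' = ∑ q, r q * (if q = q' then 1 else 0) := by
        simp [Finset.sum_ite_eq']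
    _ = ∑ q, r q * ∑ j', Φ q j' * G j' q' := by
        refine Finset.sum_congr rfl fun q _ => ?_
        rw [hΦG]
    _ = ∑ j', (∑ q, r q * Φ q j') * G j' q' := by
        simp_rw [Finset.mul_sum, Finset.sum_mul]
        rw [Finset.sum_comm]
        refine Finset.sum_congr rfl fun j' _ => Finset.sum_congr rfl fun q _ => ?_
        ring
    _ = ∑ j', (if j = j' then 1 else 0) * G j' q' := by
        refine Finset.sum_congr rfl fun j' _ => ?_
        rw [hr]
    _ = G j q' := by
        simp [Finset.sum_ite_eq]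

/-- A row vector killed by `G` on the right is zero. -/
theorem eq_zero_of_mul_inverse_eq_zero
    (Φ : Q → J → ℂ) (G : J → Q → ℂ)
    (hGΦ : ∀ j j', ∑ q, G j q * Φ q j' = if j = j' then 1 else 0)
    (b : J → ℂ) (hb : ∀ q, ∑ j, b j * G j q = 0) : ∀ j, b j = 0 := by
  intro j'
  calc b j' = ∑ j, b j * (if j = j' then 1 else 0) := by simp [Finset.sum_ite_eq']
    _ = ∑ j, b j * ∑ q, G j q * Φ q j' := by
        refine Finset.sum_congr rfl fun j _ => ?_
        rw [hGΦ]
    _ = ∑ q, (∑ j, b j * G j q) * Φ q j' := by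
        simp_rw [Finset.mul_sum, Finset.sum_mul]
        rw [Finset.sum_comm]
        refine Finset.sum_congr rfl fun q _ => Finset.sum_congr rfl fun j _ => ?_
        ring
    _ = 0 := by
        simp_rw [hb, zero_mul]
        simp

/-- A row vector killed by `Φ` on the right is zero. -/
theorem eq_zero_of_mul_eq_zero
    (Φ : Q → J → ℂ) (G : J → Q → ℂ)
    (hΦG : ∀ q q', ∑ j, Φ q j * G j q' = if q = q' then 1 else 0)
    (r : Q → ℂ) (hr : ∀ j, ∑ q, r q * Φ q j = 0) : ∀ q, r q = 0 := by
  intro q'
  calc r q' = ∑ q, r q * (if q = q' then 1 else 0) := by simp [Finset.sum_ite_eq']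
    _ = ∑ q, r q * ∑ j, Φ q j * G j q' := by
        refine Finset.sum_congr rfl fun q _ => ?_
        rw [hΦG]
    _ = ∑ j, (∑ q, r q * Φ q j) * G j q' := by
        simp_rw [Finset.mul_sum, Finset.sum_mul]
        rw [Finset.sum_comm]
        refine Finset.sum_congr rfl fun j _ => Finset.sum_congr rfl fun q _ => ?_
        ring
    _ = 0 := by
        simp_rw [hr, zero_mul]
        simp

end Inverse

end Fermat.Agent.S20.Dual
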