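import Mathlib
import Fermat.Agent.S20.Defs
import Fermat.Agent.S20.Basic

/-!
# S20, module M4 (part 2): calculus of components, trace to level one

* `comp_slash` : `(comp f q) ∣ δ = comp f (δ⁻¹ • q)` for `Γ₀(N)`-invariant `f`.
* `tr N k f = ∑_q comp N k f q` is a level one form (cusp form) if `f` is a form (cusp form).
* level one cusp forms are divisible by `Δ`.
-/

set_option autoImplicit false
set_option linter.unusedSectionVars false

open UpperHalfPlane CongruenceSubgroup ModularForm Filter
open scoped MatrixGroups ModularForm Manifold Topology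

namespace Fermat.Agent.S20.Dual

/-- The (noncomputable) `Fintype` structure on the coset space. -/
noncomputable abbrev fintypeQ (N : ℕ) [NeZero N] : Fintype (Q N) := Fintype.ofFinite _

attribute [local instance] fintypeQ

variable {N : ℕ} {k : ℤ} {f g : ℍ → ℂ}

/-! ### Components -/

theorem comp_mk' (hf : ∀ γ ∈ Gamma0 N, f ∣[k] γ = f) (δ : SL(2, ℤ)) :
    comp N k f (QuotientGroup.mk δ) = f ∣[k] δ⁻¹ := by
  obtain ⟨γ, hγ⟩ := QuotientGroup.mk_out_eq_mul (Gamma0 N) δ
  unfold comp
  rw [hγ, mul_inv_rev, SlashAction.slash_mul, hf _ (inv_mem γ.2)]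

theorem comp_one (hf : ∀ γ ∈ Gamma0 N, f ∣[k] γ = f) :
    comp N k f (QuotientGroup.mk 1) = f := by
  rw [comp_mk' hf, inv_one, SlashAction.slash_one]

theorem comp_slash (hf : ∀ γ ∈ Gamma0 N, f ∣[k] γ = f) (q : Q N) (δ : SL(2, ℤ)) :
    (comp N k f q) ∣[k] δ = comp N k f (δ⁻¹ • q) := by
  have h1 : δ⁻¹ • q = (QuotientGroup.mk (δ⁻¹ * (q.out : SL(2, ℤ))) : Q N) := by
    conv_lhs => rw [← QuotientGroup.out_eq' q]
    rfl
  rw [h1, comp_mk' hf, mul_inv_rev, inv_inv, SlashAction.slash_mul]
  rfl

theorem comp_apply_smul (hf : ∀ γ ∈ Gamma0 N, f ∣[k] γ = f) (q : Q N) (δ : SL(2, ℤ)) (z : ℍ) :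
    comp N k f q (δ • z) = denom δ z ^ k * comp N k f (δ⁻¹ • q) z := by
  rw [← comp_slash hf q δ, ModularForm.SL_slash_apply]
  have hd : denom δ z ≠ 0 := denom_ne_zero δ z
  rw [mul_comm, mul_assoc, ← zpow_add₀ hd]
  simp

theorem comp_mul (k₁ k₂ : ℤ) (f g : ℍ → ℂ) (q : Q N) :
    comp N (k₁ + k₂) (f * g) q = comp N k₁ f q * comp N k₂ g q := by
  unfold comp
  rw [mul_slash_SL2]

theorem comp_mul' {k₁ k₂ k₃ : ℤ} (h : k₃ = k₁ + k₂) (f g : ℍ → ℂ) (q : Q N) :
    comp N k₃ (f * g) q = comp N k₁ f q * comp N k₂ g q := by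
  subst h
  exact comp_mul k₁ k₂ f g q

theorem comp_add (f g : ℍ → ℂ) (q : Q N) :
    comp N k (f + g) q = comp N k f q + comp N k g q := by
  unfold comp
  rw [SlashAction.add_slash]

theorem comp_zero (q : Q N) : comp N k (0 : ℍ → ℂ) q = 0 := by
  unfold comp
  rw [SlashAction.zero_slash]

theorem comp_sum {ι : Type} (s : Finset ι) (F : ι → ℍ → ℂ) (q : Q N) :
    comp N k (∑ i ∈ s, F i) q = ∑ i ∈ s, comp N k (F i) q := by
  classical
  induction s using Finset.induction_on with
  | empty => simp [comp_zero]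
  | insert a s ha ih => rw [Finset.sum_insert ha, Finset.sum_insert ha, comp_add, ih]

theorem comp_level_one (ha : IsMF 1 k f) (q : Q N) : comp N k f q = f := by
  unfold comp
  exact ha.slash_eq_one _

theorem mdiff_comp (hf : MDiff f) (q : Q N) : MDiff (comp N k f q) :=
  hf.slash k _

/-! ### The trace -/

variable [NeZero N]

/-- The trace from level `N` to level one. -/
noncomputable def tr (N : ℕ) [NeZero N] (k : ℤ) (f : ℍ → ℂ) : ℍ → ℂ :=
  ∑ q : Q N, comp N k f q

theorem tr_apply (f : ℍ → ℂ) (z : ℍ) : tr N k f z = ∑ q : Q N, comp N k f q z := by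
  unfold tr
  rw [Finset.sum_apply]

theorem tr_slash (hf : ∀ γ ∈ Gamma0 N, f ∣[k] γ = f) (δ : SL(2, ℤ)) :
    (tr N k f) ∣[k] δ = tr N k f := by
  unfold tr
  have h1 : (∑ q : Q N, comp N k f q) ∣[k] δ = ∑ q : Q N, (comp N k f q) ∣[k] δ := by
    classical
    have : ∀ s : Finset (Q N), (∑ q ∈ s, comp N k f q) ∣[k] δ =
        ∑ q ∈ s, (comp N k f q) ∣[k] δ := by
      intro s
      induction s using Finset.induction_on with
      | empty => simp [SlashAction.zero_slash]
      | insert a s ha ih =>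
        rw [Finset.sum_insert ha, Finset.sum_insert ha, SlashAction.add_slash, ih]
    exact this _
  rw [h1]
  simp_rw [comp_slash hf]
  exact Equiv.sum_comp (MulAction.toPerm (δ⁻¹ : SL(2, ℤ))) (fun q : Q N => comp N k f q)

theorem isMF_tr (hf : IsMF N k f) : IsMF 1 k (tr N k f) := by
  refine ⟨?_, fun γ _ => tr_slash hf.2.1 γ, fun δ => ?_⟩
  · unfold tr
    have : ∀ s : Finset (Q N), MDiff (∑ q ∈ s, comp N k f q) := by
      classical
      intro s
      induction s using Finset.induction_on with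
      | empty =>
        rw [Finset.sum_empty]
        exact (mdifferentiable_const : MDiff (fun _ : ℍ => (0 : ℂ)))
      | insert a s ha ih =>
        rw [Finset.sum_insert ha]
        exact (mdiff_comp hf.1 a).add ih
    exact this _
  · rw [tr_slash hf.2.1]
    unfold tr
    have : ∀ s : Finset (Q N), IsBoundedAtImInfty (∑ q ∈ s, comp N k f q) := by
      classical
      intro s
      induction s using Finset.induction_on with
      | empty =>
        rw [Finset.sum_empty]
        exact zero_form_isBoundedAtImInfty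
      | insert a s ha ih =>
        rw [Finset.sum_insert ha]
        exact (hf.2.2 _).add ih
    exact this _

theorem isCF_tr (hf : IsCF N k f) : IsCF 1 k (tr N k f) := by
  have h := isMF_tr hf.isMF
  refine ⟨h.1, h.2.1, fun δ => ?_⟩
  rw [tr_slash hf.2.1]
  unfold tr
  have : ∀ s : Finset (Q N), IsZeroAtImInfty (∑ q ∈ s, comp N k f q) := by
    classical
    intro s
    induction s using Finset.induction_on with
    | empty =>
      rw [Finset.sum_empty]
      exact Filter.zero_zeroAtFilter _
    | insert a s ha ih =>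
      rw [Finset.sum_insert ha]
      exact (hf.2.2 _).add ih
  exact this _

/-! ### Level one cusp forms are divisible by the discriminant -/

theorem exists_eq_discriminant_mul (hf : IsCF 1 k f) :
    ∃ b : ℍ → ℂ, IsMF 1 (k - 12) b ∧ ∀ z, f z = discriminant z * b z := by
  refine ⟨⇑(CuspForm.discriminantEquiv hf.toCuspFormOne), isMF_one_coe _, fun z => ?_⟩
  rw [discriminant_mul_discriminantEquiv_apply]
  rfl

end Fermat.Agent.S20.Dual
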