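import Mathlib
import Fermat.Agent.S20.Defs
import Fermat.Agent.S20.Basic
import Fermat.Agent.S20.DualLinAlg
import Fermat.Agent.S20.DualTrace

/-!
# S20, module M4 (part 3): the dual family of a free basis

For a free basis `F_j` of `M(Γ₀(N))` over `M(SL₂(ℤ))` such that the matrix
`Φ(z) = (comp_q F_j (z))` is invertible at every `z`, the entries `g j q` of the inverse matrix
are holomorphic and satisfy `g j q ∣[-k_j] δ = g j (δ⁻¹ • q)`.
-/

set_option autoImplicit false
set_option linter.unusedSectionVars false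

open UpperHalfPlane CongruenceSubgroup ModularForm Filter
open scoped MatrixGroups ModularForm Manifold Topology

namespace Fermat.Agent.S20.Dual

attribute [local instance] fintypeQ

variable {N : ℕ} [NeZero N]

/-- The base coset `Γ₀(N)`. -/
def q₀ (N : ℕ) : Q N := QuotientGroup.mk 1

open Classical in
/-- A dual family of the free basis `B`: the entries of the inverse of the matrix
`Φ(z) = (comp_q F_j (z))_{q,j}`. -/
structure DualFamily (B : FreeBasis N) where
  /-- entries of the inverse matrix -/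
  g : B.J → Q N → ℍ → ℂ
  mdiff : ∀ j q, MDiff (g j q)
  left_inv : ∀ (z : ℍ) (j j' : B.J),
    ∑ q : Q N, g j q z * comp N (B.k j') (B.F j') q z = if j = j' then 1 else 0
  right_inv : ∀ (z : ℍ) (q q' : Q N),
    ∑ j : B.J, comp N (B.k j) (B.F j) q z * g j q' z = if q = q' then 1 else 0
  slash_g : ∀ (j : B.J) (q : Q N) (δ : SL(2, ℤ)), (g j q) ∣[-(B.k j)] δ = g j (δ⁻¹ • q)

/-- The hypothesis (to be supplied by M2): the matrix `Φ(z)` is invertible at every point. -/
def PhiInjective (B : FreeBasis N) : Prop :=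
  ∀ (z : ℍ) (c : B.J → ℂ),
    (∀ q : Q N, ∑ j, c j * comp N (B.k j) (B.F j) q z = 0) → ∀ j, c j = 0

theorem nonempty_dualFamily (B : FreeBasis N) (hΦ : PhiInjective B) :
    Nonempty (DualFamily B) := by
  classical
  have hcard : Fintype.card B.J = Fintype.card (Q N) := by
    rw [B.card_eq, Nat.card_eq_fintype_card]
  obtain ⟨G, hG1, hG2, hG3⟩ := exists_holomorphic_inverse hcard
    (fun q j => comp N (B.k j) (B.F j) q)
    (fun q j => mdiff_comp (B.isMF j).1 q) hΦ
  refine ⟨⟨G, hG1, ?_, ?_, ?_⟩⟩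
  · intro z j j'
    rw [hG2 z j j']
  · intro z q q'
    rw [hG3 z q q']
  · intro j q δ
    funext z
    rw [ModularForm.SL_slash_apply]
    -- the row `q' ↦ denom ^ k_j * G j (δ • q') (δ • z)` is a left inverse row at `z`
    have hd : denom δ z ≠ 0 := denom_ne_zero δ z
    have hrow : (fun q' : Q N => denom δ z ^ (B.k j) * G j (δ • q') (δ • z)) =
        fun q' => G j q' z := by
      apply row_eq_of_left_inverse (fun q j => comp N (B.k j) (B.F j) q z)
        (fun j q => G j q z) (fun q q' => hG3 z q q')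
      intro j'
      have h1 : ∀ q' : Q N, denom δ z ^ (B.k j) * G j (δ • q') (δ • z) *
          comp N (B.k j') (B.F j') q' z =
          denom δ z ^ (B.k j) * (denom δ z ^ (B.k j'))⁻¹ *
            (G j (δ • q') (δ • z) * comp N (B.k j') (B.F j') (δ • q') (δ • z)) := by
        intro q'
        rw [comp_apply_smul (B.isMF j').2.1 (δ • q') δ z, inv_smul_smul]
        have : denom δ z ^ (B.k j') ≠ 0 := zpow_ne_zero _ hd
        field_simp
      simp_rw [h1]
      rw [← Finset.mul_sum]
      have h2 : ∑ q' : Q N, G j (δ • q') (δ • z) * comp N (B.k j') (B.F j') (δ • q') (δ • z) =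
          ∑ q' : Q N, G j q' (δ • z) * comp N (B.k j') (B.F j') q' (δ • z) :=
        Equiv.sum_comp (MulAction.toPerm δ)
          (fun q' : Q N => G j q' (δ • z) * comp N (B.k j') (B.F j') q' (δ • z))
      rw [h2, hG2 (δ • z) j j']
      by_cases hjj : j = j'
      · subst hjj
        rw [if_pos rfl, mul_one, mul_inv_cancel₀ (zpow_ne_zero _ hd)]
      · rw [if_neg hjj, mul_zero]
    have h3 := congrFun hrow (δ⁻¹ • q)
    simp only [smul_inv_smul] at h3
    rw [← h3, neg_neg, mul_comm]

namespace DualFamily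

variable {B : FreeBasis N} (D : DualFamily B)

/-- The `j`-th dual function `g_j = (Φ⁻¹)_{j, q₀}`. -/
noncomputable def g₀ (j : B.J) : ℍ → ℂ := D.g j (q₀ N)

theorem g₀_slash (j : B.J) {γ : SL(2, ℤ)} (hγ : γ ∈ Gamma0 N) :
    (D.g₀ j) ∣[-(B.k j)] γ = D.g₀ j := by
  unfold g₀
  rw [D.slash_g]
  congr 1
  show ((γ⁻¹ * 1 : SL(2, ℤ)) : Q N) = ((1 : SL(2, ℤ)) : Q N)
  rw [QuotientGroup.eq]
  simpa using hγ

theorem comp_g₀ (j : B.J) (q : Q N) : comp N (-(B.k j)) (D.g₀ j) q = D.g j q := by
  unfold comp g₀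
  rw [D.slash_g, inv_inv]
  congr 1
  show ((q.out * 1 : SL(2, ℤ)) : Q N) = q
  rw [mul_one]
  exact QuotientGroup.out_eq' q

end DualFamily

end Fermat.Agent.S20.Dual
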