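import Mathlib
import Fermat.Agent.S20.Defs
import Fermat.Agent.S20.Basic
import Fermat.Agent.S20.Div
import Fermat.Agent.S20.DualDefs

/-!
# S20, module M4 (part 4): `Δ · g_j` is a cusp form

Given the growth bound supplied by the jet family of M3, the functions `Δ · g_j`
(`g_j` the rows of `Φ⁻¹`) are cusp forms of weight `12 - k_j` on `Γ₀(N)`.
-/

set_option autoImplicit false
set_option linter.unusedSectionVars false

open UpperHalfPlane CongruenceSubgroup ModularForm Filter
open scoped MatrixGroups ModularForm Manifold Topology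

namespace Fermat.Agent.S20.Dual

attribute [local instance] fintypeQ

variable {N : ℕ} [NeZero N]

/-- The hypothesis supplied by M3: a family `H_i` (`i ∈ Q`) of forms of one weight whose
component matrix `Ψ(τ) = (comp_q H_i (τ))` satisfies a lower bound on row vectors. -/
def JetBound (N : ℕ) [NeZero N] : Prop :=
  ∃ (K : ℤ) (H : Q N → ℍ → ℂ), (∀ i, IsMF N K (H i)) ∧ ∃ C Y : ℝ, ∀ τ : ℍ, Y ≤ τ.im →
    ∀ r : Q N → ℂ, ∀ q, ‖r q‖ ≤ C * Real.exp (2 * Real.pi * (1 - 1 / (N : ℝ)) * τ.im) *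
      ∑ i, ‖∑ q', r q' * comp N K (H i) q' τ‖

/-- Exponential decay of the discriminant. -/
theorem exists_discriminant_bound :
    ∃ C Y : ℝ, ∀ τ : ℍ, Y ≤ τ.im → ‖discriminant τ‖ ≤ C * Real.exp (-2 * Real.pi * τ.im) := by
  have h := CuspFormClass.exp_decay_atImInfty (h := 1) CuspForm.discriminant one_pos
    one_mem_strictPeriods_SL
  obtain ⟨c, hc⟩ := h.bound
  rw [Filter.Eventually, UpperHalfPlane.atImInfty_mem] at hc
  obtain ⟨A, hA⟩ := hc
  refine ⟨c, A, fun τ hτ => ?_⟩
  have := hA τ hτ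
  simp only [Set.mem_setOf_eq, div_one, Real.norm_eq_abs, abs_of_pos (Real.exp_pos _)] at this
  exact this

namespace DualFamily

variable {B : FreeBasis N} (D : DualFamily B)

/-- Pairing a row of `Φ⁻¹` with the components of `H = Σ a_j F_j` gives the coordinate. -/
theorem sum_g_mul_comp {K : ℤ} {H : ℍ → ℂ} (a : B.J → ℍ → ℂ)
    (ha : ∀ j, IsMF 1 (K - B.k j) (a j)) (hH : ∀ z, H z = ∑ j, a j z * B.F j z)
    (j : B.J) (τ : ℍ) :
    ∑ q : Q N, D.g j q τ * comp N K H q τ = a j τ := by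
  classical
  have hHfun : H = ∑ j, a j * B.F j := by
    funext z
    rw [hH z, Finset.sum_apply]
    rfl
  have hcomp : ∀ q : Q N, comp N K H q τ =
      ∑ j', a j' τ * comp N (B.k j') (B.F j') q τ := by
    intro q
    rw [hHfun, comp_sum, Finset.sum_apply]
    refine Finset.sum_congr rfl fun j' _ => ?_
    rw [comp_mul' (k₁ := K - B.k j') (k₂ := B.k j') (by ring), comp_level_one (ha j')]
    rfl
  simp_rw [hcomp, Finset.mul_sum]
  rw [Finset.sum_comm]
  have : ∀ j', ∑ q : Q N, D.g j q τ * (a j' τ * comp N (B.k j') (B.F j') q τ) =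
      a j' τ * (if j = j' then 1 else 0) := by
    intro j'
    rw [← D.left_inv τ j j', Finset.mul_sum]
    refine Finset.sum_congr rfl fun q _ => ?_
    ring
  simp_rw [this]
  simp [Finset.sum_ite_eq]

theorem isZeroAtImInfty_discriminant_mul (hJ : JetBound N) (j : B.J) (q : Q N) :
    IsZeroAtImInfty (discriminant * D.g j q) := by
  classical
  obtain ⟨K, H, hH, C, Y, hbound⟩ := hJ
  -- coordinates of the `H i`
  choose a ha haH using fun i => B.span K (H i) (hH i)
  -- bounds for the coordinates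
  have hbdd : ∀ i, ∃ M A : ℝ, ∀ z : ℍ, A ≤ z.im → ‖a i j z‖ ≤ M := by
    intro i
    have h1 := (ha i j).2.2 1
    rw [SlashAction.slash_one] at h1
    exact UpperHalfPlane.isBoundedAtImInfty_iff.mp h1
  choose M A hMA using hbdd
  obtain ⟨CΔ, YΔ, hΔ⟩ := exists_discriminant_bound
  -- the total constant
  set M' : ℝ := ∑ i, |M i| with hM'
  have hM'0 : 0 ≤ M' := Finset.sum_nonneg fun i _ => abs_nonneg _
  set C' : ℝ := |CΔ| * |C| * M' with hC'
  have hC'0 : 0 ≤ C' := by positivity
  set A' : ℝ := max (max Y YΔ) (∑ i, |A i|) with hA'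
  have hN : (0 : ℝ) < N := Nat.cast_pos.mpr (NeZero.pos N)
  have key : ∀ τ : ℍ, A' ≤ τ.im →
      ‖(discriminant * D.g j q) τ‖ ≤ C' * Real.exp (-(2 * Real.pi / N) * τ.im) := by
    intro τ hτ
    have hY : Y ≤ τ.im := le_trans (le_trans (le_max_left _ _) (le_max_left _ _)) hτ
    have hYΔ : YΔ ≤ τ.im := le_trans (le_trans (le_max_right _ _) (le_max_left _ _)) hτ
    have hAi : ∀ i, A i ≤ τ.im := by
      intro i
      refine le_trans ?_ (le_trans (le_max_right _ _) hτ)
      calc A i ≤ |A i| := le_abs_self _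
        _ ≤ ∑ i, |A i| := Finset.single_le_sum (f := fun i => |A i|)
            (fun i _ => abs_nonneg _) (Finset.mem_univ i)
    have h1 := hbound τ hY (fun q' => D.g j q' τ) q
    have h2 : ∑ i, ‖∑ q', D.g j q' τ * comp N K (H i) q' τ‖ ≤ M' := by
      refine Finset.sum_le_sum fun i _ => ?_
      rw [D.sum_g_mul_comp (a i) (ha i) (haH i) j τ]
      exact le_trans (hMA i τ (hAi i)) (le_abs_self _)
    have h3 : ‖D.g j q τ‖ ≤
        |C| * Real.exp (2 * Real.pi * (1 - 1 / (N : ℝ)) * τ.im) * M' := by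
      refine le_trans h1 ?_
      have hs0 : 0 ≤ ∑ i, ‖∑ q', D.g j q' τ * comp N K (H i) q' τ‖ :=
        Finset.sum_nonneg fun i _ => norm_nonneg _
      calc C * Real.exp (2 * Real.pi * (1 - 1 / (N : ℝ)) * τ.im) *
            ∑ i, ‖∑ q', D.g j q' τ * comp N K (H i) q' τ‖
          ≤ |C| * Real.exp (2 * Real.pi * (1 - 1 / (N : ℝ)) * τ.im) *
            ∑ i, ‖∑ q', D.g j q' τ * comp N K (H i) q' τ‖ := by
            gcongr
            exact le_abs_self _
        _ ≤ |C| * Real.exp (2 * Real.pi * (1 - 1 / (N : ℝ)) * τ.im) * M' := by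
            gcongr
    have h4 : ‖discriminant τ‖ ≤ |CΔ| * Real.exp (-2 * Real.pi * τ.im) := by
      refine le_trans (hΔ τ hYΔ) ?_
      gcongr
      exact le_abs_self _
    have h5 : Real.exp (-2 * Real.pi * τ.im) *
        Real.exp (2 * Real.pi * (1 - 1 / (N : ℝ)) * τ.im) =
        Real.exp (-(2 * Real.pi / N) * τ.im) := by
      rw [← Real.exp_add]
      congr 1
      field_simp
      ring
    calc ‖(discriminant * D.g j q) τ‖ = ‖discriminant τ‖ * ‖D.g j q τ‖ := by
          rw [Pi.mul_apply, norm_mul]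
      _ ≤ (|CΔ| * Real.exp (-2 * Real.pi * τ.im)) *
          (|C| * Real.exp (2 * Real.pi * (1 - 1 / (N : ℝ)) * τ.im) * M') := by
          gcongr
      _ = C' * (Real.exp (-2 * Real.pi * τ.im) *
          Real.exp (2 * Real.pi * (1 - 1 / (N : ℝ)) * τ.im)) := by
          rw [hC']; ring
      _ = C' * Real.exp (-(2 * Real.pi / N) * τ.im) := by rw [h5]
  rw [UpperHalfPlane.isZeroAtImInfty_iff]
  intro ε hε
  -- choose `y₀` with `C' * exp (-(2π/N) y₀) ≤ ε`
  have hc : 0 < 2 * Real.pi / N := by positivity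
  have hlim : Tendsto (fun y : ℝ => C' * Real.exp (-(2 * Real.pi / N) * y)) atTop (𝓝 0) := by
    have h1 : Tendsto (fun y : ℝ => (2 * Real.pi / N) * y) atTop atTop :=
      Tendsto.const_mul_atTop hc tendsto_id
    have h2 : Tendsto (fun y : ℝ => Real.exp (-((2 * Real.pi / N) * y))) atTop (𝓝 0) :=
      Real.tendsto_exp_neg_atTop_nhds_zero.comp h1
    have h3 := h2.const_mul C'
    simp only [mul_zero] at h3
    refine h3.congr fun y => ?_
    rw [neg_mul]
  have hev : ∀ᶠ y in atTop, C' * Real.exp (-(2 * Real.pi / N) * y) < ε :=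
    (tendsto_order.mp hlim).2 ε hε
  obtain ⟨y₀, hy₀⟩ := hev.exists_forall_of_atTop
  refine ⟨max A' y₀, fun τ hτ => ?_⟩
  exact le_trans (key τ (le_trans (le_max_left _ _) hτ))
    (hy₀ τ.im (le_trans (le_max_right _ _) hτ)).le

/-- **`Δ · g_j` is a cusp form of weight `12 - k_j`.** -/
theorem isCF (hJ : JetBound N) (j : B.J) :
    IsCF N (12 - B.k j) (discriminant * D.g₀ j) := by
  have hw : (12 : ℤ) - B.k j = 12 + -(B.k j) := by ring
  refine ⟨?_, fun γ hγ => ?_, fun δ => ?_⟩
  · exact Div.mdiff_discriminant.mul (D.mdiff j _)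
  · rw [hw, mul_slash_SL2, Div.discriminant_slash, D.g₀_slash j hγ]
  · rw [hw, mul_slash_SL2, Div.discriminant_slash]
    unfold g₀
    rw [D.slash_g]
    exact D.isZeroAtImInfty_discriminant_mul hJ j _

end DualFamily

end Fermat.Agent.S20.Dual
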