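import Mathlib
import Fermat.Agent.S20.Defs
import Fermat.Agent.S20.Basic
import Fermat.Agent.S20.Div
import Fermat.Agent.S20.DualDefs
import Fermat.Agent.S20.DualCusp

/-!
# S20, module M4 (part 5): cusp forms are free over level one forms on `Δ · g_j`

For a dual family `g` of a free basis `F_j`: every cusp form `H` of weight `K` is uniquely
`∑_j b_j · (Δ g_j)` with `b_j` of level one and weight `K + k_j - 12`, where
`b_j = Tr(H F_j) / Δ`.
-/

set_option autoImplicit false
set_option linter.unusedSectionVars false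

open UpperHalfPlane CongruenceSubgroup ModularForm Filter
open scoped MatrixGroups ModularForm Manifold Topology

namespace Fermat.Agent.S20.Dual

attribute [local instance] fintypeQ

variable {N : ℕ} [NeZero N]

namespace DualFamily

variable {B : FreeBasis N} (D : DualFamily B)

/-- The reproducing identity `H = ∑_j Tr(H F_j) g_j`, valid for every `Γ₀(N)`-invariant `H`. -/
theorem sum_tr_mul_g₀ {K : ℤ} {H : ℍ → ℂ} (hH : ∀ γ ∈ Gamma0 N, H ∣[K] γ = H) (z : ℍ) :
    ∑ j, tr N (K + B.k j) (H * B.F j) z * D.g₀ j z = H z := by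
  classical
  have h1 : ∀ j, tr N (K + B.k j) (H * B.F j) z * D.g₀ j z =
      ∑ q : Q N, comp N K H q z * (comp N (B.k j) (B.F j) q z * D.g j (q₀ N) z) := by
    intro j
    rw [tr_apply, Finset.sum_mul]
    refine Finset.sum_congr rfl fun q _ => ?_
    rw [comp_mul, Pi.mul_apply]
    unfold g₀
    ring
  simp_rw [h1]
  rw [Finset.sum_comm]
  simp_rw [← Finset.mul_sum, D.right_inv z _ (q₀ N)]
  simp only [mul_ite, mul_one, mul_zero, Finset.sum_ite_eq', Finset.mem_univ, if_true]
  have := comp_one hH
  unfold q₀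
  rw [this]

/-- **Existence of the expansion** of a cusp form in the family `Δ · g_j`. -/
theorem expansion {K : ℤ} {H : ℍ → ℂ} (hH : IsCF N K H) :
    ∃ b : B.J → ℍ → ℂ, (∀ j, IsMF 1 (K + B.k j - 12) (b j)) ∧
      ∀ z, H z = ∑ j, b j z * (discriminant z * D.g₀ j z) := by
  have h1 : ∀ j, IsCF 1 (K + B.k j) (tr N (K + B.k j) (H * B.F j)) :=
    fun j => isCF_tr (hH.mul_isMF' (B.isMF j))
  choose b hb hbeq using fun j => exists_eq_discriminant_mul (h1 j)
  refine ⟨b, hb, fun z => ?_⟩
  rw [← D.sum_tr_mul_g₀ hH.2.1 z]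
  refine Finset.sum_congr rfl fun j _ => ?_
  rw [hbeq j z]
  ring

/-- **Uniqueness of the expansion.** -/
theorem expansion_unique {K : ℤ} (b : B.J → ℍ → ℂ)
    (hb : ∀ j, IsMF 1 (K + B.k j - 12) (b j))
    (h : ∀ z, ∑ j, b j z * (discriminant z * D.g₀ j z) = 0) : ∀ j, b j = 0 := by
  classical
  -- apply `comp · q` to the vanishing sum
  have hS : (∑ j, b j * (discriminant * D.g₀ j) : ℍ → ℂ) = 0 := by
    funext z
    rw [Finset.sum_apply]
    exact h z
  have hq : ∀ (q : Q N) (z : ℍ), ∑ j, (b j z * discriminant z) * D.g j q z = 0 := by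
    intro q z
    have h1 := congrFun (congrArg (fun S => comp N K S q) hS) z
    simp only [comp_zero, comp_sum, Finset.sum_apply, Pi.zero_apply] at h1
    rw [← h1]
    refine Finset.sum_congr rfl fun j _ => ?_
    rw [comp_mul' (k₁ := K + B.k j - 12) (k₂ := 12 + -(B.k j)) (by ring),
      comp_level_one (hb j), comp_mul, comp_level_one isMF_discriminant, D.comp_g₀]
    simp only [Pi.mul_apply]
    ring
  intro j
  funext z
  have h2 := eq_zero_of_mul_inverse_eq_zero
    (fun q j => comp N (B.k j) (B.F j) q z) (fun j q => D.g j q z)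
    (fun j j' => D.left_inv z j j') (fun j => b j z * discriminant z) (fun q => hq q z) j
  rcases mul_eq_zero.mp h2 with h3 | h3
  · exact h3
  · exact absurd h3 (discriminant_ne_zero z)

/-- The family `Δ · g_j` spans the cusp forms: membership. -/
theorem sum_mem_CFsub (hJ : JetBound N) {K : ℤ} (b : B.J → ℍ → ℂ)
    (hb : ∀ j, IsMF 1 (K + B.k j - 12) (b j)) :
    (∑ j, b j * (discriminant * D.g₀ j)) ∈ CFsub N K := by
  refine (CFsub N K).sum_mem fun j _ => ?_
  have := (hb j).mul_isCF (D.isCF hJ j)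
  exact this.congr_weight (by ring)

end DualFamily

end Fermat.Agent.S20.Dual
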