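import Mathlib
import Fermat.Prelude.Def_ModularCurve_GenusNumerics

/-!
# S20: the identity `∑_{d ∣ N} φ(gcd(d, N/d)) · (N/d)/gcd(d, N/d) = ψ(N)`
-/

set_option autoImplicit false
set_option linter.unusedVariables false

namespace Fermat.Agent.S20.Cosets

open Finset

namespace PsiIdentity

/-- The summand. -/
def term (a b : ℕ) : ℕ := Nat.totient (Nat.gcd a b) * (b / Nat.gcd a b)

/-- The left hand side. -/
def lhs (N : ℕ) : ℕ := ∑ d ∈ N.divisors, term d (N / d)

/-- Sums over divisors of a product of coprime numbers. -/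
theorem sum_divisors_mul_coprime {m n : ℕ} (h : m.Coprime n) (f : ℕ → ℕ) :
    ∑ d ∈ (m * n).divisors, f d = ∑ a ∈ m.divisors, ∑ b ∈ n.divisors, f (a * b) := by
  rw [h.divisors_mul, Finset.sum_map, ← Finset.sum_product']
  exact Finset.sum_attach (m.divisors ×ˢ n.divisors) (fun p => f (p.1 * p.2))

theorem term_mul {a b c d : ℕ} (hb : 0 < b) (hd : 0 < d) (h : (a * b).Coprime (c * d)) :
    term (a * c) (b * d) = term a b * term c d := by
  have hac : a.Coprime c := (h.coprime_mul_right).coprime_mul_right_right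
  have had : a.Coprime d := (h.coprime_mul_right).coprime_mul_left_right
  have hbc : b.Coprime c := (h.coprime_mul_left).coprime_mul_right_right
  have hbd : b.Coprime d := (h.coprime_mul_left).coprime_mul_left_right
  have hg : Nat.gcd (a * c) (b * d) = Nat.gcd a b * Nat.gcd c d := by
    rw [Nat.Coprime.gcd_mul _ hbd, Nat.Coprime.gcd_mul_right_cancel a hbc.symm,
      Nat.Coprime.gcd_mul_left_cancel c had]
  have hcop : (Nat.gcd a b).Coprime (Nat.gcd c d) :=
    Nat.Coprime.coprime_dvd_left (Nat.gcd_dvd_left a b)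
      (Nat.Coprime.coprime_dvd_right (Nat.gcd_dvd_left c d) hac)
  unfold term
  rw [hg, Nat.totient_mul hcop,
    Nat.mul_div_mul_comm (Nat.gcd_dvd_right a b) (Nat.gcd_dvd_right c d)]
  ring

theorem lhs_mul {m n : ℕ} (hm : 0 < m) (hn : 0 < n) (h : m.Coprime n) :
    lhs (m * n) = lhs m * lhs n := by
  unfold lhs
  rw [sum_divisors_mul_coprime h, Finset.sum_mul_sum]
  refine Finset.sum_congr rfl fun a ha => Finset.sum_congr rfl fun b hb => ?_
  have ha' := Nat.dvd_of_mem_divisors ha
  have hb' := Nat.dvd_of_mem_divisors hb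
  have hdiv : m * n / (a * b) = (m / a) * (n / b) := Nat.mul_div_mul_comm ha' hb'
  rw [hdiv]
  apply term_mul (Nat.div_pos (Nat.le_of_dvd hm ha') (Nat.pos_of_dvd_of_pos ha' hm))
    (Nat.div_pos (Nat.le_of_dvd hn hb') (Nat.pos_of_dvd_of_pos hb' hn))
  rw [Nat.mul_div_cancel' ha', Nat.mul_div_cancel' hb']
  exact h

theorem dedekindPsi_mul {m n : ℕ} (hm : 0 < m) (hn : 0 < n) (h : m.Coprime n) :
    ModularCurve.dedekindPsi (m * n) = ModularCurve.dedekindPsi m * ModularCurve.dedekindPsi n := by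
  unfold ModularCurve.dedekindPsi
  rw [Finset.sum_filter, Finset.sum_filter, Finset.sum_filter,
    sum_divisors_mul_coprime h (fun d => if Squarefree d then m * n / d else 0),
    Finset.sum_mul_sum]
  refine Finset.sum_congr rfl fun a ha => Finset.sum_congr rfl fun b hb => ?_
  have ha' := Nat.dvd_of_mem_divisors ha
  have hb' := Nat.dvd_of_mem_divisors hb
  have hab : a.Coprime b := Nat.Coprime.coprime_dvd_left ha' (Nat.Coprime.coprime_dvd_right hb' h)
  have hdiv : m * n / (a * b) = (m / a) * (n / b) := Nat.mul_div_mul_comm ha' hb'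
  have hsq := Nat.squarefree_mul hab
  rw [hdiv]
  by_cases h1 : Squarefree a <;> by_cases h2 : Squarefree b <;> simp [h1, h2, hsq]

section PrimePow

variable {p : ℕ} (hp : p.Prime)
include hp

theorem first_sum (e : ℕ) (he : 1 ≤ e) : ∀ h : ℕ, 2 * h ≤ e →
    ∑ i ∈ range (h + 1), Nat.totient (p ^ i) * p ^ (e - 2 * i) + p ^ (e - h - 1) =
      p ^ e + p ^ (e - 1) := by
  intro h
  induction h with
  | zero =>
    intro _
    simp
  | succ h ih =>
    intro h2
    have ih' := ih (by omega)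
    rw [Finset.sum_range_succ, ← ih']
    have key : Nat.totient (p ^ (h + 1)) * p ^ (e - 2 * (h + 1)) + p ^ (e - (h + 1) - 1) =
        p ^ (e - h - 1) := by
      obtain ⟨a, ha⟩ : ∃ a, e = 2 * h + 2 + a := ⟨e - (2 * h + 2), by omega⟩
      have e1 : e - 2 * (h + 1) = a := by omega
      have e2 : e - (h + 1) - 1 = h + a := by omega
      have e3 : e - h - 1 = h + a + 1 := by omega
      rw [e1, e2, e3, Nat.totient_prime_pow_succ hp]
      obtain ⟨q, rfl⟩ : ∃ q, p = q + 1 := ⟨p - 1, by have := hp.pos; omega⟩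
      simp only [Nat.add_sub_cancel]
      ring
    rw [add_assoc, key]

theorem second_sum : ∀ k : ℕ, ∑ j ∈ range (k + 1), Nat.totient (p ^ j) = p ^ k := by
  intro k
  induction k with
  | zero => simp
  | succ k ih =>
    rw [Finset.sum_range_succ, ih, Nat.totient_prime_pow_succ hp]
    obtain ⟨q, rfl⟩ : ∃ q, p = q + 1 := ⟨p - 1, by have := hp.pos; omega⟩
    simp only [Nat.add_sub_cancel]
    ring

theorem term_pow_of_le {e i : ℕ} (h : 2 * i ≤ e) :
    term (p ^ i) (p ^ e / p ^ i) = Nat.totient (p ^ i) * p ^ (e - 2 * i) := by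
  have hie : i ≤ e := by omega
  rw [Nat.pow_div hie hp.pos]
  unfold term
  have hg : Nat.gcd (p ^ i) (p ^ (e - i)) = p ^ i :=
    Nat.gcd_eq_left (pow_dvd_pow p (by omega))
  rw [hg, Nat.pow_div (by omega) hp.pos]
  congr 2
  omega

theorem term_pow_of_lt {e i : ℕ} (hie : i ≤ e) (h : e < 2 * i) :
    term (p ^ i) (p ^ e / p ^ i) = Nat.totient (p ^ (e - i)) := by
  rw [Nat.pow_div hie hp.pos]
  unfold term
  have hg : Nat.gcd (p ^ i) (p ^ (e - i)) = p ^ (e - i) :=
    Nat.gcd_eq_right (pow_dvd_pow p (by omega))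
  rw [hg, Nat.div_self (pow_pos hp.pos _), mul_one]

theorem lhs_prime_pow (e : ℕ) (he : 1 ≤ e) : lhs (p ^ e) = p ^ e + p ^ (e - 1) := by
  unfold lhs
  rw [Nat.divisors_prime_pow hp, Finset.sum_map]
  simp only [Function.Embedding.coeFn_mk]
  set h := e / 2 with hh
  have h2 : 2 * h ≤ e := by omega
  have h3 : e < 2 * (h + 1) := by omega
  rw [← Finset.sum_range_add_sum_Ico _ (show h + 1 ≤ e + 1 by omega)]
  have hfirst : ∑ i ∈ range (h + 1), term (p ^ i) (p ^ e / p ^ i) =
      ∑ i ∈ range (h + 1), Nat.totient (p ^ i) * p ^ (e - 2 * i) := by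
    refine Finset.sum_congr rfl fun i hi => ?_
    rw [Finset.mem_range] at hi
    exact term_pow_of_le hp (by omega)
  have hsecond : ∑ i ∈ Ico (h + 1) (e + 1), term (p ^ i) (p ^ e / p ^ i) =
      ∑ i ∈ Ico (h + 1) (e + 1), Nat.totient (p ^ (e - i)) := by
    refine Finset.sum_congr rfl fun i hi => ?_
    rw [Finset.mem_Ico] at hi
    exact term_pow_of_lt hp (by omega) (by omega)
  rw [hfirst, hsecond, Finset.sum_Ico_reflect (fun j => Nat.totient (p ^ j)) (h + 1)
    (show e + 1 ≤ e + 1 from le_rfl)]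
  have e1 : e + 1 - (e + 1) = 0 := by omega
  have e2 : e + 1 - (h + 1) = (e - h - 1) + 1 := by omega
  rw [e1, e2, Nat.Ico_zero_eq_range, second_sum hp]
  exact first_sum hp e he h h2

theorem dedekindPsi_prime_pow (e : ℕ) (he : 1 ≤ e) :
    ModularCurve.dedekindPsi (p ^ e) = p ^ e + p ^ (e - 1) := by
  obtain ⟨k, rfl⟩ : ∃ k, e = k + 1 := ⟨e - 1, by omega⟩
  unfold ModularCurve.dedekindPsi
  rw [Finset.sum_filter, Nat.divisors_prime_pow hp, Finset.sum_map]
  simp only [Function.Embedding.coeFn_mk]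
  rw [Finset.sum_range_succ', Finset.sum_range_succ']
  have hzero : ∑ i ∈ range k, (if Squarefree (p ^ (i + 1 + 1)) then p ^ (k + 1) / p ^ (i + 1 + 1)
      else 0) = 0 := by
    refine Finset.sum_eq_zero fun i _ => ?_
    rw [if_neg]
    rw [Nat.squarefree_pow_iff hp.ne_one (by omega)]
    omega
  rw [hzero, zero_add]
  have h1 : Squarefree (p ^ (0 + 1)) := by simpa using hp.squarefree
  have h0 : Squarefree (p ^ 0) := by simp
  rw [if_pos h1, if_pos h0]
  simp only [zero_add, pow_one, pow_zero, Nat.div_one, Nat.add_sub_cancel]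
  rw [pow_succ, Nat.mul_div_cancel _ hp.pos, add_comm]

end PrimePow

end PsiIdentity

open PsiIdentity in
/-- `∑_{d ∣ N} φ(gcd(d, N/d)) · (N/d)/gcd(d, N/d) = ψ(N)`. -/
theorem sum_totient_gcd_eq_dedekindPsi (N : ℕ) (hN : 0 < N) :
    ∑ d ∈ N.divisors, Nat.totient (Nat.gcd d (N / d)) * ((N / d) / Nat.gcd d (N / d)) =
      ModularCurve.dedekindPsi N := by
  suffices h : ∀ N : ℕ, 0 < N → lhs N = ModularCurve.dedekindPsi N from h N hN
  intro N
  induction N using Nat.recOnPosPrimePosCoprime with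
  | prime_pow p n hp hn =>
    intro _
    rw [lhs_prime_pow hp n hn, dedekindPsi_prime_pow hp n hn]
  | zero => intro h; exact absurd h (lt_irrefl 0)
  | one =>
    intro _
    simp [lhs, term]
  | coprime a b ha hb hab iha ihb =>
    intro _
    rw [lhs_mul (by omega) (by omega) hab, dedekindPsi_mul (by omega) (by omega) hab,
      iha (by omega), ihb (by omega)]

end Fermat.Agent.S20.Cosets
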