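import Fermat.Agent.S20.CosetsParam
import Fermat.Agent.S20.PsiIdentity

/-!
# S20, leaf A: the combinatorics of `SL₂(ℤ) / Γ₀(N)`

* `card_Q` : `[SL₂(ℤ) : Γ₀(N)] = ψ(N)`;
* `card_fixed_S`, `card_fixed_ST` (in `CosetsBasic`): fixed points of `S` and `S T`;
* `card_orbits_T` (in `CosetsParam`): the number of `T`-orbits is the number of cusps;
* `neg_one_smul`, `S_smul_S_smul`, `ST_smul_ST_smul_ST_smul`: `S` acts as an involution and
  `S T` with order dividing three.
-/

set_option autoImplicit false
set_option linter.unusedSectionVars false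

namespace Fermat.Agent.S20.Cosets

open CongruenceSubgroup Matrix.SpecialLinearGroup
open scoped MatrixGroups

/-- **The index of `Γ₀(N)`.** -/
theorem card_Q (N : ℕ) [NeZero N] : Nat.card (Q N) = ModularCurve.dedekindPsi N := by
  rw [card_Q_eq_sum_totient, sum_totient_gcd_eq_dedekindPsi N (NeZero.pos N)]

variable {N : ℕ}

theorem S_mul_S : ModularGroup.S * ModularGroup.S = -1 := by decide

theorem ST_pow_three :
    (ModularGroup.S * ModularGroup.T) * (ModularGroup.S * ModularGroup.T) *
      (ModularGroup.S * ModularGroup.T) = -1 := by decide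

/-- `S` acts as an involution on the coset space. -/
theorem S_smul_S_smul (q : Q N) : ModularGroup.S • ModularGroup.S • q = q := by
  rw [← mul_smul, S_mul_S, neg_one_smul]

/-- `S T` acts with order dividing `3` on the coset space. -/
theorem ST_smul_ST_smul_ST_smul (q : Q N) :
    (ModularGroup.S * ModularGroup.T) • (ModularGroup.S * ModularGroup.T) •
      (ModularGroup.S * ModularGroup.T) • q = q := by
  rw [← mul_smul, ← mul_smul, ST_pow_three, neg_one_smul]

end Fermat.Agent.S20.Cosets
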