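import Mathlib
import Fermat.Agent.S20.Defs

/-!
# S20, leaf D: Ramanujan's identities and simple zeros

We prove Ramanujan's identities for the level one Eisenstein series
`D E₄ = (E₂ E₄ - E₆) / 3`, `D E₆ = (E₂ E₆ - E₄²) / 2` (where `D = (2πi)⁻¹ d/dz`), and deduce that
`E₄`, `E₆` and the weight 12 forms `ψ_{z₀} = E₆(z₀)² E₄³ - E₄(z₀)³ E₆²` have only simple zeros.
-/

set_option autoImplicit false

namespace Fermat.Agent.S20.Ramanujan

open UpperHalfPlane ModularForm EisensteinSeries Derivative Filter Topology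
open Fermat.Agent.S20
open scoped MatrixGroups Manifold

/-! ### Limits at `i∞` -/

/-- Cauchy estimate: if `F` is holomorphic and has a limit at `i∞`, then `D F` tends to `0`. -/
theorem tendsto_D_zero {F : ℍ → ℂ} (hF : MDiff F) {c : ℂ} (h : Tendsto F atImInfty (𝓝 c)) :
    Tendsto (D F) atImInfty (𝓝 0) := by
  rw [Metric.tendsto_nhds]
  intro ε hε
  have h1 : ∀ᶠ z in atImInfty, dist (F z) c < ε := (Metric.tendsto_nhds.mp h) ε hε
  obtain ⟨A, hA⟩ := (atImInfty_mem _).mp h1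
  rw [Filter.Eventually, atImInfty_mem]
  refine ⟨max A 0 + 2, fun z hz => ?_⟩
  have hdiff : DifferentiableOn ℂ (F ∘ ofComplex) upperHalfPlaneSet :=
    UpperHalfPlane.mdifferentiable_iff.mp hF
  have him : ∀ w ∈ Metric.closedBall (z : ℂ) 1, max A 0 + 1 ≤ w.im := by
    intro w hw
    have h2 : |(w - z).im| ≤ ‖w - z‖ := Complex.abs_im_le_norm _
    have h3 : ‖w - z‖ ≤ 1 := by simpa [dist_eq_norm] using hw
    have h4 := abs_le.mp (h2.trans h3)
    have h5 : (w - (z : ℂ)).im = w.im - z.im := by simp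
    rw [h5] at h4
    linarith [h4.1]
  have hsub : Metric.closedBall (z : ℂ) 1 ⊆ upperHalfPlaneSet := by
    intro w hw
    have := him w hw
    have h0 : (0 : ℝ) ≤ max A 0 := le_max_right _ _
    show 0 < w.im
    linarith
  set g : ℂ → ℂ := fun w => (F ∘ ofComplex) w - c with hg
  have hgdiff : DifferentiableOn ℂ g upperHalfPlaneSet := hdiff.sub_const c
  have hcl : DiffContOnCl ℂ g (Metric.ball (z : ℂ) 1) := hgdiff.diffContOnCl_ball hsub
  have hbound : ∀ w ∈ Metric.sphere (z : ℂ) 1, ‖g w‖ ≤ ε := by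
    intro w hw
    have hw' : w ∈ Metric.closedBall (z : ℂ) 1 := Metric.sphere_subset_closedBall hw
    have hwim := him w hw'
    have hpos : 0 < w.im := hsub hw'
    have hA' : A ≤ (⟨w, hpos⟩ : ℍ).im := by
      show A ≤ w.im
      linarith [le_max_left A 0]
    have := hA ⟨w, hpos⟩ hA'
    have this' : dist (F ⟨w, hpos⟩) c < ε := this
    rw [dist_eq_norm] at this'
    simp only [hg, Function.comp_apply, ofComplex_apply_of_im_pos hpos]
    exact this'.le
  have hderiv := Complex.norm_deriv_le_of_forall_mem_sphere_norm_le one_pos hcl hbound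
  have hdg : deriv g z = deriv (F ∘ ofComplex) z := by
    simp only [hg]
    exact deriv_sub_const (f := F ∘ ofComplex) c
  rw [hdg, div_one] at hderiv
  show dist (D F z) 0 < ε
  rw [dist_zero_right]
  simp only [normalizedDerivOfComplex]
  rw [norm_mul, norm_inv]
  have h2pi : ‖(2 * (Real.pi : ℂ) * Complex.I)‖ = 2 * Real.pi := by
    simp [abs_of_pos Real.pi_pos]
  rw [h2pi]
  have hpi : (1 : ℝ) < 2 * Real.pi := by linarith [Real.pi_gt_three]
  have hinv : (2 * Real.pi)⁻¹ < 1 := inv_lt_one_of_one_lt₀ hpi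
  have hnn : 0 ≤ ‖deriv (F ∘ ofComplex) z‖ := norm_nonneg _
  calc (2 * Real.pi)⁻¹ * ‖deriv (F ∘ ofComplex) z‖
      ≤ (2 * Real.pi)⁻¹ * ε := by
        apply mul_le_mul_of_nonneg_left hderiv
        positivity
    _ < 1 * ε := by
        apply mul_lt_mul_of_pos_right hinv hε
    _ = ε := one_mul ε

/-- A level one modular form tends to its constant term at `i∞`. -/
theorem tendsto_modularForm {k : ℤ} (f : ModularForm 𝒮ℒ k) :
    Tendsto f atImInfty (𝓝 ((qExpansion 1 f).coeff 0)) := by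
  have han := ModularFormClass.analyticAt_cuspFunction_zero f one_pos one_mem_strictPeriods_SL
  have hper := SlashInvariantFormClass.periodic_comp_ofComplex f one_mem_strictPeriods_SL
  have h0 : (qExpansion 1 f).coeff 0 = cuspFunction 1 f 0 := by
    simp [qExpansion_coeff]
  rw [h0]
  have : (cuspFunction 1 f ∘ fun τ : ℍ ↦ Function.Periodic.qParam 1 τ : ℍ → ℂ) = f := by
    funext τ
    simpa using eq_cuspFunction τ one_ne_zero hper
  have h2 := han.continuousAt.tendsto.comp (qParam_tendsto_atImInfty one_pos)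
  rw [this] at h2
  exact h2

/-- A holomorphic function given by a convergent `q`-expansion tends to its constant term. -/
theorem tendsto_of_hasSum {f : ℍ → ℂ} {c : ℕ → ℂ} (hol : MDiff f)
    (hf : ∀ τ : ℍ, HasSum (fun m ↦ c m • Function.Periodic.qParam 1 τ ^ m) (f τ)) :
    Tendsto f atImInfty (𝓝 (c 0)) := by
  have hbdd : IsBoundedAtImInfty f := isBoundedAtImInfty_of_hasSum_qExpansion one_pos hf
  have hper : Function.Periodic (f ∘ ofComplex) (1 : ℝ) := by
    intro w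
    by_cases hw : 0 < w.im
    · have hw1 : 0 < (w + (1 : ℝ)).im := by simpa using hw
      simp only [Function.comp_apply, ofComplex_apply_of_im_pos hw1, ofComplex_apply_of_im_pos hw]
      refine (hf ⟨w + (1 : ℝ), hw1⟩).unique ?_
      have hq : Function.Periodic.qParam 1 ((⟨w + (1 : ℝ), hw1⟩ : ℍ) : ℂ) =
          Function.Periodic.qParam 1 ((⟨w, hw⟩ : ℍ) : ℂ) := by
        show Function.Periodic.qParam 1 (w + (1 : ℝ)) = Function.Periodic.qParam 1 w
        simp only [Function.Periodic.qParam, Complex.ofReal_one, div_one]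
        rw [mul_add, mul_one, Complex.exp_add, Complex.exp_two_pi_mul_I, mul_one]
      simp only [hq]
      exact hf ⟨w, hw⟩
    · have hw' : w.im ≤ 0 := not_lt.mp hw
      have hw1 : (w + (1 : ℝ)).im ≤ 0 := by simpa using hw'
      simp only [Function.comp_apply]
      rw [ofComplex_apply_eq_of_im_nonpos hw1 hw']
  have han := analyticAt_cuspFunction_zero one_pos hper hol hbdd
  have hps := hasFPowerSeriesOnBall_cuspFunction one_pos han hf
  have h0 : cuspFunction 1 f 0 = c 0 := by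
    have := hps.coeff_zero (fun _ => (0 : ℂ))
    simpa using this.symm
  rw [← h0]
  have : (cuspFunction 1 f ∘ fun τ : ℍ ↦ Function.Periodic.qParam 1 τ : ℍ → ℂ) = f := by
    funext τ
    simpa using eq_cuspFunction τ one_ne_zero hper
  have h2 := han.continuousAt.tendsto.comp (qParam_tendsto_atImInfty one_pos)
  rw [this] at h2
  exact h2

/-- `E₂` tends to `1` at `i∞`. -/
theorem tendsto_E2 : Tendsto E2 atImInfty (𝓝 1) := by
  have := tendsto_of_hasSum (f := E2)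
    (c := fun m : ℕ => (if m = 0 then 1 else -24 * (ArithmeticFunction.sigma 1 m : ℂ)))
    E2_mdifferentiable (fun τ => by
      simpa only [Function.Periodic.qParam, Complex.ofReal_one, div_one] using
        hasSum_qExpansion_E2 (z := τ))
  simpa using this

/-- `E₄` tends to `1` at `i∞`. -/
theorem tendsto_E₄ : Tendsto E₄ atImInfty (𝓝 1) := by
  have := tendsto_modularForm E₄
  rwa [E_qExpansion_coeff_zero _ ⟨2, rfl⟩] at this

/-- `E₆` tends to `1` at `i∞`. -/
theorem tendsto_E₆ : Tendsto E₆ atImInfty (𝓝 1) := by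
  have := tendsto_modularForm E₆
  rwa [E_qExpansion_coeff_zero _ ⟨3, rfl⟩] at this

/-- The Serre derivative of a level one modular form has a limit at `i∞`. -/
theorem tendsto_serreDerivative {k : ℤ} (f : ModularForm 𝒮ℒ k) :
    Tendsto (serreDerivative k f) atImInfty
      (𝓝 (-((k : ℂ) * 12⁻¹ * (qExpansion 1 f).coeff 0))) := by
  have h1 := tendsto_D_zero (ModularFormClass.holo f) (tendsto_modularForm f)
  have h2 := (tendsto_E2.const_mul ((k : ℂ) * 12⁻¹)).mul (tendsto_modularForm f)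
  have h3 := h1.sub h2
  simp only [mul_one, zero_sub] at h3
  refine h3.congr (fun z => ?_)
  simp [serreDerivative]

/-! ### The Serre derivative as a modular form -/

/-- The Serre derivative of a level one modular form, as a modular form of weight `k + 2`. -/
noncomputable def serreForm {k : ℤ} (f : ModularForm 𝒮ℒ k) (k' : ℤ) (hk : k' = k + 2) :
    ModularForm 𝒮ℒ k' where
  toFun := serreDerivative k f
  slash_action_eq' γ hγ := by
    subst hk
    obtain ⟨γ', rfl⟩ := hγ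
    exact serreDerivative_slash_invariant (ModularFormClass.holo f)
      (SlashInvariantFormClass.slash_action_eq f _ ⟨γ', rfl⟩)
  holo' := serreDerivative_mdifferentiable k (ModularFormClass.holo f)
  bdd_at_cusps' {c} hc := by
    subst hk
    rw [OnePoint.isBoundedAt_iff_forall_SL2Z hc]
    intro γ _
    have hinv : serreDerivative (k : ℂ) f ∣[k + 2] γ = serreDerivative (k : ℂ) f :=
      serreDerivative_slash_invariant (ModularFormClass.holo f)
        (SlashInvariantFormClass.slash_action_eq f _ ⟨γ, rfl⟩)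
    rw [hinv]
    exact (tendsto_serreDerivative f).isBigO_one ℝ

@[simp] theorem coe_serreForm {k : ℤ} (f : ModularForm 𝒮ℒ k) (k' : ℤ) (hk : k' = k + 2) :
    ⇑(serreForm f k' hk) = serreDerivative k f := rfl

/-! ### Ramanujan's identities -/

/-- `∂₄ E₄ = -E₆ / 3`. -/
theorem serreDerivative_E₄ (z : ℍ) : serreDerivative 4 E₄ z = -(3⁻¹ : ℂ) * E₆ z := by
  obtain ⟨c, hc⟩ := (finrank_eq_one_iff_of_nonzero' E₆ (E_ne_zero _ ⟨3, rfl⟩)).mp
    (Module.rank_eq_one_iff_finrank_eq_one.mp levelOne_weight_six_rank_one)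
    (serreForm E₄ 6 (by norm_num))
  have hfun : ∀ w : ℍ, c * E₆ w = serreDerivative ((4 : ℤ) : ℂ) E₄ w := fun w => by
    have := congrArg (fun g : ModularForm 𝒮ℒ 6 => g w) hc
    simpa using this
  have h1 : Tendsto (fun w : ℍ => c * E₆ w) atImInfty (𝓝 (c * 1)) := tendsto_E₆.const_mul c
  have h2 := tendsto_serreDerivative E₄
  rw [E_qExpansion_coeff_zero _ ⟨2, rfl⟩] at h2
  have h3 : Tendsto (fun w : ℍ => c * E₆ w) atImInfty
      (𝓝 (-(((4 : ℤ) : ℂ) * 12⁻¹ * 1))) := h2.congr (fun w => (hfun w).symm)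
  have hc' : c * 1 = -(((4 : ℤ) : ℂ) * 12⁻¹ * 1) := tendsto_nhds_unique h1 h3
  have hc3 : c = -(3⁻¹ : ℂ) := by
    rw [mul_one] at hc'
    rw [hc']
    push_cast
    norm_num
  have := hfun z
  rw [hc3] at this
  have hcast : (((4 : ℤ) : ℂ)) = 4 := by norm_num
  rw [hcast] at this
  exact this.symm

/-- `∂₆ E₆ = -E₄² / 2`. -/
theorem serreDerivative_E₆ (z : ℍ) : serreDerivative 6 E₆ z = -(2⁻¹ : ℂ) * E₄ z ^ 2 := by
  set E8 : ModularForm 𝒮ℒ 8 := ModularForm.mcast (by norm_num) (E₄.mul E₄) with hE8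
  have hE8fun : ∀ w : ℍ, E8 w = E₄ w ^ 2 := fun w => by
    rw [pow_two]
    rfl
  have hE8lim : Tendsto E8 atImInfty (𝓝 1) := by
    have := tendsto_E₄.mul tendsto_E₄
    rw [mul_one] at this
    refine this.congr (fun w => ?_)
    rw [hE8fun w, pow_two]
  have hE8ne : E8 ≠ 0 := by
    intro h0
    have h1 : Tendsto (fun _ : ℍ => (0 : ℂ)) atImInfty (𝓝 1) := by
      refine hE8lim.congr (fun w => ?_)
      rw [h0]
      rfl
    have := tendsto_nhds_unique h1 tendsto_const_nhds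
    exact one_ne_zero this
  have hrank : Module.rank ℂ (ModularForm 𝒮ℒ 8) = 1 := by
    have := dimension_level_one 8 ⟨4, rfl⟩
    simpa [Nat.ModEq] using this
  obtain ⟨c, hc⟩ := (finrank_eq_one_iff_of_nonzero' E8 hE8ne).mp
    (Module.rank_eq_one_iff_finrank_eq_one.mp hrank)
    (serreForm E₆ 8 (by norm_num))
  have hfun : ∀ w : ℍ, c * E8 w = serreDerivative ((6 : ℤ) : ℂ) E₆ w := fun w => by
    have := congrArg (fun g : ModularForm 𝒮ℒ 8 => g w) hc
    simpa using this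
  have h1 : Tendsto (fun w : ℍ => c * E8 w) atImInfty (𝓝 (c * 1)) := hE8lim.const_mul c
  have h2 := tendsto_serreDerivative E₆
  rw [E_qExpansion_coeff_zero _ ⟨3, rfl⟩] at h2
  have h3 : Tendsto (fun w : ℍ => c * E8 w) atImInfty
      (𝓝 (-(((6 : ℤ) : ℂ) * 12⁻¹ * 1))) := h2.congr (fun w => (hfun w).symm)
  have hc' : c * 1 = -(((6 : ℤ) : ℂ) * 12⁻¹ * 1) := tendsto_nhds_unique h1 h3
  have hc3 : c = -(2⁻¹ : ℂ) := by
    rw [mul_one] at hc'
    rw [hc']
    push_cast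
    norm_num
  have := hfun z
  rw [hc3, hE8fun] at this
  have hcast : (((6 : ℤ) : ℂ)) = 6 := by norm_num
  rw [hcast] at this
  exact this.symm

/-- Ramanujan: `D E₄ = (E₂ E₄ - E₆) / 3`. -/
theorem D_E₄ (z : ℍ) : D E₄ z = 3⁻¹ * (E2 z * E₄ z - E₆ z) := by
  have h := serreDerivative_E₄ z
  simp only [serreDerivative_apply] at h
  linear_combination h

/-- Ramanujan: `D E₆ = (E₂ E₆ - E₄²) / 2`. -/
theorem D_E₆ (z : ℍ) : D E₆ z = 2⁻¹ * (E2 z * E₆ z - E₄ z ^ 2) := by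
  have h := serreDerivative_E₆ z
  simp only [serreDerivative_apply] at h
  linear_combination h

/-! ### Simple zeros -/

/-- `E₄` and `E₆` have no common zero. -/
theorem E₄_E₆_ne_zero (z : ℍ) (h4 : E₄ z = 0) (h6 : E₆ z = 0) : False := by
  have h := ModularForm.discriminant_eq_E₄_cube_sub_E₆_sq z
  rw [h4, h6] at h
  exact discriminant_ne_zero z (by rw [h]; norm_num)

/-- The zeros of `E₄` are simple. -/
theorem D_E₄_ne_zero {z : ℍ} (h : E₄ z = 0) : D E₄ z ≠ 0 := by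
  intro hD
  have h1 := D_E₄ z
  rw [hD, h, mul_zero, zero_sub] at h1
  have h6 : E₆ z = 0 := by
    have : (3⁻¹ : ℂ) * -E₆ z = 0 := h1.symm
    have h3 : (3⁻¹ : ℂ) ≠ 0 := by norm_num
    simpa using (mul_eq_zero.mp this).resolve_left h3
  exact E₄_E₆_ne_zero z h h6

/-- The zeros of `E₆` are simple. -/
theorem D_E₆_ne_zero {z : ℍ} (h : E₆ z = 0) : D E₆ z ≠ 0 := by
  intro hD
  have h1 := D_E₆ z
  rw [hD, h, mul_zero, zero_sub] at h1
  have h4 : E₄ z = 0 := by
    have : (2⁻¹ : ℂ) * -E₄ z ^ 2 = 0 := h1.symm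
    have h3 : (2⁻¹ : ℂ) ≠ 0 := by norm_num
    have := (mul_eq_zero.mp this).resolve_left h3
    simpa using this
  exact E₄_E₆_ne_zero z h4 h

/-- `D F z ≠ 0` is the same as non-vanishing of the complex derivative. -/
theorem D_ne_zero_iff (F : ℍ → ℂ) (z : ℍ) : D F z ≠ 0 ↔ deriv (F ∘ ofComplex) z ≠ 0 := by
  simp only [normalizedDerivOfComplex, ne_eq, mul_eq_zero, inv_eq_zero, not_or]
  constructor
  · exact fun h => h.2
  · intro h
    refine ⟨?_, h⟩
    simp [Real.pi_ne_zero]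

/-- The weight 12 level one form `ψ_{z₀} = E₆(z₀)² E₄³ - E₄(z₀)³ E₆²`. -/
noncomputable def psi (z₀ : ℍ) : ℍ → ℂ :=
  fun z => E₆ z₀ ^ 2 * E₄ z ^ 3 - E₄ z₀ ^ 3 * E₆ z ^ 2

theorem psi_apply (z₀ z : ℍ) : psi z₀ z = E₆ z₀ ^ 2 * E₄ z ^ 3 - E₄ z₀ ^ 3 * E₆ z ^ 2 := rfl

@[simp] theorem psi_self (z₀ : ℍ) : psi z₀ z₀ = 0 := by
  simp only [psi_apply]
  ring

/-- `ψ_{z₀}` as a polynomial in `E₄`, `E₆`. -/
theorem psi_eq (z₀ : ℍ) :
    psi z₀ = (E₆ z₀ ^ 2) • ((E₄ : ℍ → ℂ) ^ 3) - (E₄ z₀ ^ 3) • ((E₆ : ℍ → ℂ) ^ 2) := by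
  funext z
  simp [psi_apply]

theorem psi_mdifferentiable (z₀ : ℍ) : MDiff (psi z₀) := by
  rw [psi_eq]
  have h4 : MDiff (E₄ : ℍ → ℂ) := ModularFormClass.holo E₄
  have h6 : MDiff (E₆ : ℍ → ℂ) := ModularFormClass.holo E₆
  exact ((h4.pow 3).const_smul _).sub ((h6.pow 2).const_smul _)

/-- The derivative of `ψ_{z₀}`: `D ψ = E₂ ψ + 1728 Δ(z₀) E₄² E₆`. -/
theorem D_psi (z₀ z : ℍ) :
    D (psi z₀) z = E2 z * psi z₀ z + 1728 * discriminant z₀ * E₄ z ^ 2 * E₆ z := by
  have h4 : MDiff (E₄ : ℍ → ℂ) := ModularFormClass.holo E₄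
  have h6 : MDiff (E₆ : ℍ → ℂ) := ModularFormClass.holo E₆
  have e1 : D (psi z₀) = (E₆ z₀ ^ 2) • D ((E₄ : ℍ → ℂ) ^ 3) -
      (E₄ z₀ ^ 3) • D ((E₆ : ℍ → ℂ) ^ 2) := by
    rw [psi_eq, normalizedDerivOfComplex_sub _ _ ((h4.pow 3).const_smul _)
      ((h6.pow 2).const_smul _), normalizedDerivOfComplex_smul _ _ (h4.pow 3),
      normalizedDerivOfComplex_smul _ _ (h6.pow 2)]
  have e2 := congrFun (normalizedDerivOfComplex_pow (E₄ : ℍ → ℂ) 3 h4) z
  have e3 := congrFun (normalizedDerivOfComplex_pow (E₆ : ℍ → ℂ) 2 h6) z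
  have e4 := congrFun e1 z
  simp only [Pi.sub_apply, Pi.smul_apply, smul_eq_mul] at e4
  rw [e4, e2, e3]
  simp only [Pi.mul_apply, Pi.pow_apply, Pi.natCast_apply]
  rw [D_E₄ z, D_E₆ z, psi_apply, ModularForm.discriminant_eq_E₄_cube_sub_E₆_sq z₀]
  push_cast
  ring

/-- The zeros of `ψ_{z₀}` are simple (for `E₄(z₀) E₆(z₀) ≠ 0`). -/
theorem D_psi_ne_zero {z₀ z : ℍ} (h4 : E₄ z₀ ≠ 0) (h6 : E₆ z₀ ≠ 0) (h : psi z₀ z = 0) :
    D (psi z₀) z ≠ 0 := by
  rw [D_psi, h, mul_zero, zero_add]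
  have hE4 : E₄ z ≠ 0 := by
    intro h0
    rw [psi_apply, h0] at h
    have : E₄ z₀ ^ 3 * E₆ z ^ 2 = 0 := by
      have := h
      simp only [ne_eq, OfNat.ofNat_ne_zero, not_false_eq_true, zero_pow, mul_zero,
        zero_sub, neg_eq_zero] at this
      exact this
    rcases mul_eq_zero.mp this with h1 | h1
    · exact h4 (pow_eq_zero_iff (by norm_num) |>.mp h1)
    · exact E₄_E₆_ne_zero z h0 (pow_eq_zero_iff (by norm_num) |>.mp h1)
  have hE6 : E₆ z ≠ 0 := by
    intro h0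
    rw [psi_apply, h0] at h
    have : E₆ z₀ ^ 2 * E₄ z ^ 3 = 0 := by
      have := h
      simp only [ne_eq, OfNat.ofNat_ne_zero, not_false_eq_true, zero_pow, mul_zero,
        sub_zero] at this
      exact this
    rcases mul_eq_zero.mp this with h1 | h1
    · exact h6 (pow_eq_zero_iff (by norm_num) |>.mp h1)
    · exact hE4 (pow_eq_zero_iff (by norm_num) |>.mp h1)
  have hΔ := discriminant_ne_zero z₀
  have h1728 : (1728 : ℂ) ≠ 0 := by norm_num
  exact mul_ne_zero (mul_ne_zero (mul_ne_zero h1728 hΔ) (pow_ne_zero 2 hE4)) hE6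

/-! ### Versions with the complex derivative -/

theorem deriv_E₄_ne_zero {z : ℍ} (h : E₄ z = 0) : deriv ((E₄ : ℍ → ℂ) ∘ ofComplex) z ≠ 0 :=
  (D_ne_zero_iff _ z).mp (D_E₄_ne_zero h)

theorem deriv_E₆_ne_zero {z : ℍ} (h : E₆ z = 0) : deriv ((E₆ : ℍ → ℂ) ∘ ofComplex) z ≠ 0 :=
  (D_ne_zero_iff _ z).mp (D_E₆_ne_zero h)

theorem deriv_psi_ne_zero {z₀ z : ℍ} (h4 : E₄ z₀ ≠ 0) (h6 : E₆ z₀ ≠ 0) (h : psi z₀ z = 0) :
    deriv (psi z₀ ∘ ofComplex) z ≠ 0 :=
  (D_ne_zero_iff _ z).mp (D_psi_ne_zero h4 h6 h)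

/-! ### `ψ_{z₀}` as a modular form -/

/-- `ψ_{z₀}` as a level one modular form of weight 12. -/
noncomputable def psiForm (z₀ : ℍ) : ModularForm 𝒮ℒ 12 :=
  (E₆ z₀ ^ 2) • ModularForm.mcast (by decide) (E₄.pow 3) -
    (E₄ z₀ ^ 3) • ModularForm.mcast (by decide) (E₆.pow 2)

theorem coe_psiForm (z₀ : ℍ) : ⇑(psiForm z₀) = psi z₀ := by
  funext z
  simp only [psiForm, psi_apply, coe_mcast, coe_pow, sub_apply, smul_apply, Pi.pow_apply,
    smul_eq_mul]

/-- The limit of `ψ_{z₀}` at `i∞`. -/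
theorem tendsto_psi (z₀ : ℍ) :
    Tendsto (psi z₀) atImInfty (𝓝 (-(1728 * discriminant z₀))) := by
  have h1 := ((tendsto_E₄.pow 3).const_mul (E₆ z₀ ^ 2)).sub
    ((tendsto_E₆.pow 2).const_mul (E₄ z₀ ^ 3))
  have h2 : E₆ z₀ ^ 2 * 1 ^ 3 - E₄ z₀ ^ 3 * 1 ^ 2 = -(1728 * discriminant z₀) := by
    rw [ModularForm.discriminant_eq_E₄_cube_sub_E₆_sq z₀]
    ring
  rw [h2] at h1
  exact h1

theorem psi_limit_ne_zero (z₀ : ℍ) : -(1728 * discriminant z₀) ≠ 0 :=
  neg_ne_zero.mpr (mul_ne_zero (by norm_num) (discriminant_ne_zero z₀))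

/-- A level one modular form in the sense of Mathlib satisfies `IsMF 1 k`. -/
theorem isMF_one_of_modularForm {k : ℤ} (f : ModularForm 𝒮ℒ k) : IsMF 1 k f := by
  have hinv : ∀ γ : SL(2, ℤ), (f : ℍ → ℂ) ∣[k] γ = f := fun γ =>
    SlashInvariantFormClass.slash_action_eq f _ ⟨γ, rfl⟩
  refine ⟨ModularFormClass.holo f, fun γ _ => hinv γ, fun δ => ?_⟩
  rw [hinv δ]
  exact (tendsto_modularForm f).isBigO_one ℝ

theorem isMF_psi (z₀ : ℍ) : IsMF 1 12 (psi z₀) := by
  rw [← coe_psiForm]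
  exact isMF_one_of_modularForm _

theorem isMF_E₄ : IsMF 1 4 E₄ := isMF_one_of_modularForm _

theorem isMF_E₆ : IsMF 1 6 E₆ := isMF_one_of_modularForm _

end Fermat.Agent.S20.Ramanujan
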