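import Mathlib

/-!
# S20 (M2): a trace count

If a permutation operator on `Q → ℂ` has a basis of eigenvectors with eigenvalues `lam j`, then
`∑ j, lam j` is the number of fixed points of the permutation.
-/

set_option autoImplicit false

namespace Fermat.Agent.S20.TraceCount

open Finset

/-- The composition operator `v ↦ v ∘ σ` on `Q → ℂ`. -/
def permOp {Q : Type} (σ : Q → Q) : (Q → ℂ) →ₗ[ℂ] (Q → ℂ) where
  toFun v := fun q => v (σ q)
  map_add' _ _ := rfl
  map_smul' _ _ := rfl

@[simp] lemma permOp_apply {Q : Type} (σ : Q → Q) (v : Q → ℂ) (q : Q) :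
    permOp σ v q = v (σ q) := rfl

variable {Q J : Type} [Fintype Q] [Fintype J] [DecidableEq Q] [DecidableEq J]

/-- The trace of a composition operator is the number of fixed points. -/
theorem trace_permOp (σ : Q → Q) :
    LinearMap.trace ℂ (Q → ℂ) (permOp σ) = (Fintype.card {q : Q // σ q = q} : ℂ) := by
  rw [LinearMap.trace_eq_matrix_trace ℂ (Pi.basisFun ℂ Q), Matrix.trace]
  simp only [Matrix.diag_apply, LinearMap.toMatrix_apply, Pi.basisFun_apply, Pi.basisFun_repr,
    permOp_apply, Pi.single_apply]
  rw [Fintype.card_subtype, Finset.sum_ite, Finset.sum_const_zero, add_zero, Finset.sum_const]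
  simp

/-- **Trace count.** -/
theorem sum_eigenvalues_eq_card_fixed (hcard : Fintype.card J = Fintype.card Q)
    (σ : Q → Q) (vec : J → Q → ℂ) (lam : J → ℂ)
    (heig : ∀ j q, vec j (σ q) = lam j * vec j q)
    (hind : ∀ c : J → ℂ, (∀ q, ∑ j, c j * vec j q = 0) → ∀ j, c j = 0) :
    ∑ j, lam j = (Fintype.card {q : Q // σ q = q} : ℂ) := by
  have hli : LinearIndependent ℂ vec := by
    rw [Fintype.linearIndependent_iff]
    intro g hg j
    refine hind g (fun q => ?_) j
    have := congrFun hg q
    simpa [Finset.sum_apply] using this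
  have hfin : Fintype.card J = Module.finrank ℂ (Q → ℂ) := by
    rw [hcard, Module.finrank_fintype_fun_eq_card]
  by_cases hJ : Nonempty J
  swap
  · have hJ' : IsEmpty J := not_nonempty_iff.mp hJ
    have hQ : Fintype.card Q = 0 := by
      rw [← hcard]
      exact Fintype.card_eq_zero
    have hQ' : IsEmpty Q := Fintype.card_eq_zero_iff.mp hQ
    simp
  let b : Module.Basis J ℂ (Q → ℂ) := basisOfLinearIndependentOfCardEqFinrank hli hfin
  have hb : ∀ j, b j = vec j := fun j => by
    simp [b]
  rw [← trace_permOp σ, LinearMap.trace_eq_matrix_trace ℂ b, Matrix.trace]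
  refine Finset.sum_congr rfl (fun j _ => ?_)
  rw [Matrix.diag_apply, LinearMap.toMatrix_apply]
  have h1 : permOp σ (b j) = lam j • b j := by
    funext q
    rw [hb]
    simp [heig]
  rw [h1, map_smul, Module.Basis.repr_self]
  simp

end Fermat.Agent.S20.TraceCount
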