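import Mathlib
import Fermat.Agent.S20.Defs
import Fermat.Agent.S20.Ramanujan
import Fermat.Agent.S20.Div
import Fermat.Agent.S20.CosetsBasic
import Fermat.Agent.S20.TraceCount

/-!
# S20 (M2): evaluation of a free basis at elliptic points

For a free basis `B : FreeBasis N` of the module of modular forms on `Γ₀(N)` over the ring of
level one forms, the matrix `(comp_q F_j (z₀))` is invertible at the elliptic points `z₀ = i, ρ`.
Its columns are eigenvectors of the permutation action of the stabiliser of `z₀` on the cosets,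
and comparing traces gives the number of basis elements in each residue class of weights modulo
`4` and modulo `6`.
-/

set_option autoImplicit false
set_option linter.unusedSectionVars false
set_option linter.style.haveILetI false

namespace Fermat.Agent.S20.Invertible

open UpperHalfPlane ModularForm EisensteinSeries CongruenceSubgroup Filter Topology Finset
open Fermat.Agent.S20
open scoped MatrixGroups Manifold

variable {N : ℕ}

/-! ### Closure properties of `IsMF` -/

section Calculus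

variable {k m : ℤ} {f g : ℍ → ℂ}

theorem isMF_zero (N : ℕ) (k : ℤ) : IsMF N k (0 : ℍ → ℂ) := by
  refine ⟨mdifferentiable_const, fun γ _ => SlashAction.zero_slash k γ, fun δ => ?_⟩
  rw [SlashAction.zero_slash]
  exact Filter.const_boundedAtFilter _ (0 : ℂ)

theorem isMF_add (hf : IsMF N k f) (hg : IsMF N k g) : IsMF N k (f + g) := by
  refine ⟨hf.1.add hg.1, fun γ hγ => ?_, fun δ => ?_⟩
  · rw [SlashAction.add_slash, hf.2.1 γ hγ, hg.2.1 γ hγ]
  · rw [SlashAction.add_slash]
    exact (hf.2.2 δ).add (hg.2.2 δ)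

theorem smul_slash_SL (c : ℂ) (f : ℍ → ℂ) (k : ℤ) (γ : SL(2, ℤ)) :
    (c • f) ∣[k] γ = c • (f ∣[k] γ) := by
  funext z
  simp only [SL_slash_apply, Pi.smul_apply, smul_eq_mul]
  ring

theorem isMF_smul (c : ℂ) (hf : IsMF N k f) : IsMF N k (c • f) := by
  refine ⟨hf.1.const_smul c, fun γ hγ => ?_, fun δ => ?_⟩
  · rw [smul_slash_SL, hf.2.1 γ hγ]
  · rw [smul_slash_SL]
    exact (hf.2.2 δ).smul c

theorem isMF_neg (hf : IsMF N k f) : IsMF N k (-f) := by
  have := isMF_smul (-1 : ℂ) hf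
  simpa using this

theorem isMF_sub (hf : IsMF N k f) (hg : IsMF N k g) : IsMF N k (f - g) := by
  rw [sub_eq_add_neg]
  exact isMF_add hf (isMF_neg hg)

theorem isMF_sum {ι : Type} (s : Finset ι) (F : ι → ℍ → ℂ) (h : ∀ i ∈ s, IsMF N k (F i)) :
    IsMF N k (∑ i ∈ s, F i) := by
  classical
  induction s using Finset.induction_on with
  | empty => simpa using isMF_zero N k
  | insert a s ha ih =>
    rw [Finset.sum_insert ha]
    exact isMF_add (h a (Finset.mem_insert_self a s))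
      (ih (fun i hi => h i (Finset.mem_insert_of_mem hi)))

theorem isMF_mul {a F : ℍ → ℂ} (ha : IsMF 1 m a) (hF : IsMF N k F) : IsMF N (m + k) (a * F) := by
  have hinv : ∀ γ : SL(2, ℤ), a ∣[m] γ = a := fun γ => ha.2.1 γ (Div.mem_Gamma0_one γ)
  refine ⟨ha.1.mul hF.1, fun γ hγ => ?_, fun δ => ?_⟩
  · rw [mul_slash_SL2, hinv γ, hF.2.1 γ hγ]
  · rw [mul_slash_SL2, hinv δ]
    have h1 : IsBoundedAtImInfty a := by
      have := ha.2.2 1
      rwa [SlashAction.slash_one] at this
    exact h1.mul (hF.2.2 δ)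

theorem isMF_congr_weight {k' : ℤ} (h : k = k') (hf : IsMF N k f) : IsMF N k' f := h ▸ hf

theorem isMF_one : IsMF 1 0 (1 : ℍ → ℂ) := by
  refine ⟨mdifferentiable_const, fun γ _ => is_invariant_one γ, fun δ => ?_⟩
  rw [is_invariant_one]
  exact Filter.const_boundedAtFilter _ (1 : ℂ)

theorem isMF_pow {s : ℤ} {χ : ℍ → ℂ} (hχ : IsMF 1 s χ) (e : ℕ) : IsMF 1 (e * s) (χ ^ e) := by
  induction e with
  | zero => simpa using isMF_one
  | succ e ih =>
    rw [pow_succ']
    refine isMF_congr_weight ?_ (isMF_mul hχ ih)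
    push_cast
    ring

/-- Forms of odd weight vanish. -/
theorem eq_zero_of_odd (hf : IsMF N k f) (hk : Odd k) : f = 0 := by
  have hmem : (-1 : SL(2, ℤ)) ∈ Gamma0 N := by
    rw [Gamma0_mem]
    simp
  have h := hf.2.1 (-1) hmem
  funext z
  have h1 := congrFun h z
  rw [SL_slash_apply] at h1
  have h2 : (-1 : SL(2, ℤ)) • z = z := by
    apply UpperHalfPlane.ext
    rw [UpperHalfPlane.specialLinearGroup_apply]
    simp
  have h3 : denom (Matrix.SpecialLinearGroup.toGL ((Matrix.SpecialLinearGroup.map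
      (Int.castRingHom ℝ)) (-1 : SL(2, ℤ)))) (z : ℂ) = -1 := by
    simp [denom]
  rw [h2, h3, Odd.neg_one_zpow (Odd.neg hk)] at h1
  have h4 : f z = 0 := by
    have : f z * 2 = 0 := by linear_combination -h1
    simpa using this
  simpa using h4

end Calculus

/-! ### The components `comp` -/

section Comp

variable {k m : ℤ} {f : ℍ → ℂ}

/-- For `Γ₀(N)`-invariant `f`, `f ∣ δ` is the component of `f` at the coset of `δ⁻¹`. -/
theorem slash_eq_comp (hf : IsMF N k f) (δ : SL(2, ℤ)) :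
    f ∣[k] δ = comp N k f (QuotientGroup.mk δ⁻¹) := by
  obtain ⟨γ, hγ⟩ := QuotientGroup.mk_out_eq_mul (Gamma0 N) δ⁻¹
  unfold comp
  rw [hγ, mul_inv_rev, inv_inv, SlashAction.slash_mul,
    hf.2.1 _ (Subgroup.inv_mem _ γ.2)]

/-- The slash action permutes the components. -/
theorem comp_slash (hf : IsMF N k f) (q : Q N) (δ : SL(2, ℤ)) :
    (comp N k f q) ∣[k] δ = comp N k f (δ⁻¹ • q) := by
  have h1 : (comp N k f q) ∣[k] δ = f ∣[k] ((q.out : SL(2, ℤ))⁻¹ * δ) := by
    unfold comp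
    rw [SlashAction.slash_mul]
  rw [h1, slash_eq_comp hf]
  congr 1
  rw [mul_inv_rev, inv_inv]
  have : ((δ⁻¹ * (q.out : SL(2, ℤ)) : SL(2, ℤ)) : Q N) = δ⁻¹ • ((q.out : SL(2, ℤ)) : Q N) := rfl
  rw [this, QuotientGroup.out_eq']

/-- Value of a slash at a fixed point. -/
theorem slash_apply_of_fixed {δ : SL(2, ℤ)} {z₀ : ℍ} (hfix : δ • z₀ = z₀) (g : ℍ → ℂ) (k : ℤ) :
    (g ∣[k] δ) z₀ = g z₀ * denom (Matrix.SpecialLinearGroup.toGL
      ((Matrix.SpecialLinearGroup.map (Int.castRingHom ℝ)) δ)) (z₀ : ℂ) ^ (-k) := by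
  rw [SL_slash_apply, hfix]

/-- The components at a fixed point form an eigenvector of the permutation action. -/
theorem comp_eigen {δ : SL(2, ℤ)} {z₀ : ℍ} (hfix : δ • z₀ = z₀) (hf : IsMF N k f) (q : Q N) :
    comp N k f (δ⁻¹ • q) z₀ = denom (Matrix.SpecialLinearGroup.toGL
      ((Matrix.SpecialLinearGroup.map (Int.castRingHom ℝ)) δ)) (z₀ : ℂ) ^ (-k) *
        comp N k f q z₀ := by
  rw [← comp_slash hf, slash_apply_of_fixed hfix, mul_comm]

/-- A level one form vanishes at a fixed point unless the automorphy factor is trivial. -/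
theorem eq_zero_of_fixed {δ : SL(2, ℤ)} {z₀ : ℍ} (hfix : δ • z₀ = z₀) (hf : IsMF 1 k f)
    (hne : denom (Matrix.SpecialLinearGroup.toGL
      ((Matrix.SpecialLinearGroup.map (Int.castRingHom ℝ)) δ)) (z₀ : ℂ) ^ (-k) ≠ 1) :
    f z₀ = 0 := by
  have h1 := slash_apply_of_fixed hfix f k
  rw [hf.2.1 δ (Div.mem_Gamma0_one δ)] at h1
  by_contra h0
  apply hne
  have : f z₀ * 1 = f z₀ * denom (Matrix.SpecialLinearGroup.toGL
      ((Matrix.SpecialLinearGroup.map (Int.castRingHom ℝ)) δ)) (z₀ : ℂ) ^ (-k) := by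
    rw [mul_one]; exact h1
  exact (mul_left_cancel₀ h0 this).symm

/-- Value at a translate of the base point. -/
theorem apply_smul (g : ℍ → ℂ) (k : ℤ) (δ : SL(2, ℤ)) (z₀ : ℍ) :
    g (δ • z₀) = (g ∣[k] δ) z₀ * denom (Matrix.SpecialLinearGroup.toGL
      ((Matrix.SpecialLinearGroup.map (Int.castRingHom ℝ)) δ)) (z₀ : ℂ) ^ k := by
  rw [SL_slash_apply, mul_assoc, ← zpow_add₀ (denom_ne_zero _ z₀)]
  simp

end Comp

/-! ### Independence of the evaluation vectors within a residue class of weights -/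

section Class

theorem mul_slash_SL2' {k k1 k2 : ℤ} (h : k = k1 + k2) (A : SL(2, ℤ)) (f g : ℍ → ℂ) :
    (f * g) ∣[k] A = f ∣[k1] A * g ∣[k2] A := by
  subst h
  exact mul_slash_SL2 k1 k2 A f g

/-- **Independence within a class.**  Let `z₀` be a point, `χ` a level one form of weight `s`
with `χ z₀ ≠ 0` and `ψ` a level one form with simple zeros, vanishing exactly on the orbit of
`z₀`.  Then the evaluation vectors `(comp_q F_j (z₀))_q`, for `j` in a fixed residue class of
weights modulo `s`, are linearly independent. -/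
theorem indep_class (B : FreeBasis N) (z₀ : ℍ) {s m₀ : ℤ} {χ ψ : ℍ → ℂ}
    (hχ : IsMF 1 s χ) (hχ0 : χ z₀ ≠ 0)
    (hψ : IsMF 1 m₀ ψ) (hψ0 : ψ z₀ = 0)
    (hsimple : ∀ z, ψ z = 0 → deriv (ψ ∘ ofComplex) z ≠ 0)
    (hlim : ∃ c : ℂ, c ≠ 0 ∧ Tendsto ψ atImInfty (𝓝 c))
    (hzero : ∀ z, ψ z = 0 → ∃ δ : SL(2, ℤ), δ • z₀ = z)
    (r : ℤ) (c : B.J → ℂ) (hc : ∀ j, c j ≠ 0 → s ∣ B.k j - r)
    (hrel : ∀ q : Q N, ∑ j, c j * comp N (B.k j) (B.F j) q z₀ = 0) :
    ∀ j, c j = 0 := by
  classical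
  -- the common weight
  set t : B.J → ℤ := fun j => (B.k j - r) / s with ht
  set T : ℤ := ∑ j, |t j| with hT
  set K : ℤ := r + s * T with hK
  set e : B.J → ℕ := fun j => (T - t j).toNat with he
  have hTt : ∀ j, 0 ≤ T - t j := by
    intro j
    have h1 : |t j| ≤ T := by
      rw [hT]
      exact Finset.single_le_sum (f := fun j => |t j|) (fun i _ => abs_nonneg _)
        (Finset.mem_univ j)
    have h2 : t j ≤ |t j| := le_abs_self _
    linarith
  have hKe : ∀ j, c j ≠ 0 → ((e j : ℕ) : ℤ) * s = K - B.k j := by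
    intro j hj
    have h1 : s * t j = B.k j - r := Int.mul_ediv_cancel' (hc j hj)
    have h2 : ((e j : ℕ) : ℤ) = T - t j := Int.toNat_of_nonneg (hTt j)
    rw [h2, hK]
    linear_combination -h1
  -- the coefficients
  set a : B.J → ℍ → ℂ := fun j =>
    if c j = 0 then 0 else (c j * (χ z₀ ^ e j)⁻¹) • χ ^ e j with ha
  have haMF : ∀ j, IsMF 1 (K - B.k j) (a j) := by
    intro j
    by_cases hj : c j = 0
    · simp only [ha, hj, if_true]
      exact isMF_zero 1 _
    · simp only [ha, hj, if_false]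
      exact isMF_congr_weight (hKe j hj) (isMF_smul _ (isMF_pow hχ (e j)))
  have haz : ∀ j, a j z₀ = c j := by
    intro j
    by_cases hj : c j = 0
    · simp [ha, hj]
    · simp only [ha, hj, if_false, Pi.smul_apply, Pi.pow_apply, smul_eq_mul]
      rw [mul_assoc, inv_mul_cancel₀ (pow_ne_zero _ hχ0), mul_one]
  -- the form `H`
  set H : ℍ → ℂ := ∑ j, a j * B.F j with hH
  have hHMF : IsMF N K H := by
    rw [hH]
    refine isMF_sum _ _ (fun j _ => ?_)
    exact isMF_congr_weight (by ring) (isMF_mul (haMF j) (B.isMF j))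
  have hHslash : ∀ δ : SL(2, ℤ), (H ∣[K] δ) z₀ = 0 := by
    intro δ
    rw [hH, SlashAction.sum_slash, Finset.sum_apply]
    rw [← hrel (QuotientGroup.mk δ⁻¹)]
    refine Finset.sum_congr rfl (fun j _ => ?_)
    rw [mul_slash_SL2' (k1 := K - B.k j) (k2 := B.k j) (by ring),
      (haMF j).2.1 δ (Div.mem_Gamma0_one δ), slash_eq_comp (B.isMF j), Pi.mul_apply, haz]
  have hvanish : ∀ z, ψ z = 0 → H z = 0 := by
    intro z hz
    obtain ⟨δ, rfl⟩ := hzero z hz
    rw [apply_smul H K δ z₀, hHslash δ, zero_mul]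
  obtain ⟨H', hH'MF, hmul⟩ := Div.exists_div_of_simple_zeros hψ hsimple hlim hHMF hvanish
  obtain ⟨a', ha'MF, hH'eq⟩ := B.span (K - m₀) H' hH'MF
  set b : B.J → ℍ → ℂ := fun j => a j - ψ * a' j with hb
  have hbMF : ∀ j, IsMF 1 (K - B.k j) (b j) := by
    intro j
    refine isMF_sub (haMF j) (isMF_congr_weight ?_ (isMF_mul hψ (ha'MF j)))
    ring
  have hsum : ∀ z, ∑ j, b j z * B.F j z = 0 := by
    intro z
    have h1 : ∑ j, b j z * B.F j z = ∑ j, a j z * B.F j z - ψ z * ∑ j, a' j z * B.F j z := by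
      rw [Finset.mul_sum, ← Finset.sum_sub_distrib]
      refine Finset.sum_congr rfl (fun j _ => ?_)
      simp only [hb, Pi.sub_apply, Pi.mul_apply]
      ring
    have h2 : H z = ∑ j, a j z * B.F j z := by
      rw [hH, Finset.sum_apply]
      rfl
    rw [h1, ← h2, ← hH'eq z, hmul z, sub_self]
  have hb0 := B.indep K b hbMF hsum
  intro j
  have h1 := congrFun (hb0 j) z₀
  simp only [hb, Pi.sub_apply, Pi.mul_apply, hψ0, zero_mul, sub_zero, Pi.zero_apply] at h1
  rw [← haz j, h1]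

end Class

/-! ### Separation of eigenvalues and the trace formula -/

section Trace

variable [NeZero N]

/-- Abbreviation for the automorphy factor at `z₀`. -/
noncomputable abbrev aut (δ : SL(2, ℤ)) (z₀ : ℍ) : ℂ :=
  denom (Matrix.SpecialLinearGroup.toGL
    ((Matrix.SpecialLinearGroup.map (Int.castRingHom ℝ)) δ)) (z₀ : ℂ)

theorem aut_ne_zero (δ : SL(2, ℤ)) (z₀ : ℍ) : aut δ z₀ ≠ 0 := denom_ne_zero _ z₀

/-- A relation between the evaluation vectors can be twisted by powers of the eigenvalues. -/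
theorem rel_pow (B : FreeBasis N) {δ : SL(2, ℤ)} {z₀ : ℍ} (hfix : δ • z₀ = z₀)
    (c : B.J → ℂ) (hrel : ∀ q : Q N, ∑ j, c j * comp N (B.k j) (B.F j) q z₀ = 0) (t : ℕ) :
    ∀ q : Q N, ∑ j, ((aut δ z₀ ^ (-(B.k j))) ^ t * c j) * comp N (B.k j) (B.F j) q z₀ = 0 := by
  induction t with
  | zero => simpa using hrel
  | succ t ih =>
    intro q
    have h := ih (δ⁻¹ • q)
    rw [← h]
    refine Finset.sum_congr rfl (fun j _ => ?_)
    rw [comp_eigen hfix (B.isMF j) q, pow_succ]
    ring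

/-- A relation between the evaluation vectors can be twisted by polynomials in the
eigenvalues. -/
theorem rel_poly (B : FreeBasis N) {δ : SL(2, ℤ)} {z₀ : ℍ} (hfix : δ • z₀ = z₀)
    (c : B.J → ℂ) (hrel : ∀ q : Q N, ∑ j, c j * comp N (B.k j) (B.F j) q z₀ = 0)
    (p : Polynomial ℂ) :
    ∀ q : Q N, ∑ j, (p.eval (aut δ z₀ ^ (-(B.k j))) * c j) *
      comp N (B.k j) (B.F j) q z₀ = 0 := by
  intro q
  have h1 : ∀ j : B.J, (p.eval (aut δ z₀ ^ (-(B.k j))) * c j) * comp N (B.k j) (B.F j) q z₀ =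
      ∑ t ∈ Finset.range (p.natDegree + 1), p.coeff t *
        (((aut δ z₀ ^ (-(B.k j))) ^ t * c j) * comp N (B.k j) (B.F j) q z₀) := by
    intro j
    rw [Polynomial.eval_eq_sum_range, Finset.sum_mul, Finset.sum_mul]
    refine Finset.sum_congr rfl (fun t _ => ?_)
    ring
  rw [Finset.sum_congr rfl (fun j _ => h1 j), Finset.sum_comm]
  refine Finset.sum_eq_zero (fun t _ => ?_)
  rw [← Finset.mul_sum, rel_pow B hfix c hrel t q, mul_zero]

/-- **Invertibility at an elliptic point**: if the evaluation vectors are independent within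
each residue class of weights modulo `s`, where `s` is such that the automorphy factor at `z₀`
has order (dividing a multiple of) `s`, then all evaluation vectors are independent. -/
theorem indep_all (B : FreeBasis N) {δ : SL(2, ℤ)} {z₀ : ℍ} (hfix : δ • z₀ = z₀) {s : ℤ}
    (hord : ∀ n : ℤ, aut δ z₀ ^ n = 1 → s ∣ n)
    (hclass : ∀ (r : ℤ) (c : B.J → ℂ), (∀ j, c j ≠ 0 → s ∣ B.k j - r) →
      (∀ q : Q N, ∑ j, c j * comp N (B.k j) (B.F j) q z₀ = 0) → ∀ j, c j = 0)
    (c : B.J → ℂ) (hrel : ∀ q : Q N, ∑ j, c j * comp N (B.k j) (B.F j) q z₀ = 0) :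
    ∀ j, c j = 0 := by
  classical
  intro j₀
  set lam : B.J → ℂ := fun j => aut δ z₀ ^ (-(B.k j)) with hlam
  set V : Finset ℂ := Finset.univ.image lam with hV
  set p : Polynomial ℂ := Lagrange.basis V id (lam j₀) with hp
  have hj₀ : lam j₀ ∈ V := Finset.mem_image_of_mem _ (Finset.mem_univ _)
  have hp1 : p.eval (lam j₀) = 1 := by
    rw [hp]
    exact Lagrange.eval_basis_self (v := id) (Function.injective_id.injOn) hj₀
  have hp0 : ∀ j, lam j ≠ lam j₀ → p.eval (lam j) = 0 := by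
    intro j hj
    rw [hp]
    exact Lagrange.eval_basis_of_ne (v := id) (i := lam j₀) (j := lam j) (Ne.symm hj)
      (Finset.mem_image_of_mem _ (Finset.mem_univ _))
  set c' : B.J → ℂ := fun j => p.eval (lam j) * c j with hc'
  have hrel' := rel_poly B hfix c hrel p
  have h0 := hclass (B.k j₀) c' (fun j hj => ?_) hrel' j₀
  · simp only [hc', hp1, one_mul] at h0
    exact h0
  · have hjl : lam j = lam j₀ := by
      by_contra hne
      apply hj
      simp only [hc', hp0 j hne, zero_mul]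
    have h1 : aut δ z₀ ^ (B.k j₀ - B.k j) = 1 := by
      rw [sub_eq_add_neg, zpow_add₀ (aut_ne_zero δ z₀)]
      have : aut δ z₀ ^ (-(B.k j)) = aut δ z₀ ^ (-(B.k j₀)) := hjl
      rw [this, ← zpow_add₀ (aut_ne_zero δ z₀)]
      simp
    have h2 := hord _ h1
    have h3 : B.k j - B.k j₀ = -(B.k j₀ - B.k j) := by ring
    rw [h3]
    exact (dvd_neg).mpr h2

/-- **Trace formula**: the sum of the automorphy factors `ε^(-k_j)` is the number of fixed
points of `δ` on the cosets. -/
theorem sum_aut_eq_card_fixed (B : FreeBasis N) {δ : SL(2, ℤ)} {z₀ : ℍ} (hfix : δ • z₀ = z₀)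
    (hind : ∀ c : B.J → ℂ, (∀ q : Q N, ∑ j, c j * comp N (B.k j) (B.F j) q z₀ = 0) →
      ∀ j, c j = 0) :
    ∑ j, aut δ z₀ ^ (-(B.k j)) = (Nat.card {q : Q N // δ • q = q} : ℂ) := by
  classical
  letI : Fintype (Q N) := Fintype.ofFinite _
  have hcard : Fintype.card B.J = Fintype.card (Q N) := by
    rw [B.card_eq, Nat.card_eq_fintype_card]
  have h := TraceCount.sum_eigenvalues_eq_card_fixed hcard (fun q : Q N => δ⁻¹ • q)
    (fun j q => comp N (B.k j) (B.F j) q z₀) (fun j => aut δ z₀ ^ (-(B.k j)))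
    (fun j q => comp_eigen hfix (B.isMF j) q) hind
  rw [h, ← Nat.card_eq_fintype_card]
  congr 1
  refine Nat.card_congr (Equiv.subtypeEquivRight (fun q => ?_))
  rw [inv_smul_eq_iff]
  exact eq_comm

end Trace

/-! ### The elliptic points -/

section Points

open Ramanujan

/-- The sixth root of unity `e^{2πi/6}`. -/
noncomputable def zeta6 : ℂ := Complex.exp (2 * Real.pi * Complex.I / ((6 : ℕ) : ℂ))

theorem zeta6_primitive : IsPrimitiveRoot zeta6 6 := Complex.isPrimitiveRoot_exp 6 (by norm_num)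

theorem zeta6_im_pos : 0 < zeta6.im := by
  have : (2 * (Real.pi : ℂ) * Complex.I / ((6 : ℕ) : ℂ)) =
      ((Real.pi / 3 : ℝ) : ℂ) * Complex.I := by
    push_cast
    ring
  rw [zeta6, this, Complex.exp_ofReal_mul_I_im]
  apply Real.sin_pos_of_pos_of_lt_pi
  · positivity
  · linarith [Real.pi_pos]

theorem zeta6_ne_zero : zeta6 ≠ 0 := Complex.exp_ne_zero _

theorem zeta6_cube : zeta6 ^ 3 = -1 := by
  have h6 : zeta6 ^ 6 = 1 := zeta6_primitive.pow_eq_one
  have h3 : zeta6 ^ 3 ≠ 1 := zeta6_primitive.pow_ne_one_of_pos_of_lt (by norm_num) (by norm_num)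
  have : (zeta6 ^ 3 - 1) * (zeta6 ^ 3 + 1) = 0 := by ring_nf; rw [h6]; ring
  rcases mul_eq_zero.mp this with h | h
  · exact absurd (sub_eq_zero.mp h) h3
  · exact eq_neg_of_add_eq_zero_left h

theorem zeta6_sq : zeta6 ^ 2 - zeta6 + 1 = 0 := by
  have h3 := zeta6_cube
  have hne : zeta6 + 1 ≠ 0 := by
    intro h
    have him := congrArg Complex.im h
    simp at him
    exact absurd him (ne_of_gt zeta6_im_pos)
  have : (zeta6 + 1) * (zeta6 ^ 2 - zeta6 + 1) = 0 := by ring_nf; rw [h3]; ring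
  exact (mul_eq_zero.mp this).resolve_left hne

/-- The elliptic point `ρ = e^{2πi/3} = ζ₆ - 1`. -/
noncomputable def rho : ℍ := ⟨zeta6 - 1, by simpa using zeta6_im_pos⟩

theorem coe_rho : (rho : ℂ) = zeta6 - 1 := rfl

theorem aut_S (z : ℍ) : aut ModularGroup.S z = z := ModularGroup.denom_S z

theorem aut_ST (z : ℍ) : aut (ModularGroup.S * ModularGroup.T) z = z + 1 := by
  simp [aut, denom, Matrix.mul_apply, Fin.sum_univ_two]

theorem S_smul_I : ModularGroup.S • UpperHalfPlane.I = UpperHalfPlane.I := by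
  rw [modular_S_smul]
  apply UpperHalfPlane.ext
  simp

theorem ST_smul_rho : (ModularGroup.S * ModularGroup.T) • rho = rho := by
  apply UpperHalfPlane.ext
  rw [UpperHalfPlane.specialLinearGroup_apply]
  simp only [Matrix.SpecialLinearGroup.coe_mul, ModularGroup.coe_S, ModularGroup.coe_T,
    Matrix.mul_apply, Fin.sum_univ_two]
  simp only [Matrix.of_apply, Matrix.cons_val', Matrix.cons_val_zero, Matrix.cons_val_one,
    Matrix.cons_val_fin_one, algebraMap_int_eq, Int.coe_castRingHom]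
  rw [coe_rho]
  have h := zeta6_sq
  have hz := zeta6_ne_zero
  push_cast
  have h1 : (1 : ℂ) * (zeta6 - 1) + 1 = zeta6 := by ring
  have h2 : (0 : ℂ) * (zeta6 - 1) + -1 = -1 := by ring
  rw [h1, h2, div_eq_iff hz]
  linear_combination -h

theorem aut_S_I : aut ModularGroup.S UpperHalfPlane.I = Complex.I := aut_S _

theorem aut_ST_rho : aut (ModularGroup.S * ModularGroup.T) rho = zeta6 := by
  rw [aut_ST, coe_rho]
  ring

theorem hord_I (n : ℤ) (h : aut ModularGroup.S UpperHalfPlane.I ^ n = 1) : (4 : ℤ) ∣ n := by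
  rw [aut_S_I] at h
  exact_mod_cast (Complex.isPrimitiveRoot_I.zpow_eq_one_iff_dvd n).mp h

theorem hord_rho (n : ℤ) (h : aut (ModularGroup.S * ModularGroup.T) rho ^ n = 1) :
    (6 : ℤ) ∣ n := by
  rw [aut_ST_rho] at h
  exact_mod_cast (zeta6_primitive.zpow_eq_one_iff_dvd n).mp h

theorem E₆_I : E₆ UpperHalfPlane.I = 0 := by
  refine eq_zero_of_fixed S_smul_I isMF_E₆ (fun h => ?_)
  have := hord_I _ h
  omega

theorem E₄_I_ne_zero : E₄ UpperHalfPlane.I ≠ 0 := fun h => E₄_E₆_ne_zero _ h E₆_I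

theorem E₄_rho : E₄ rho = 0 := by
  refine eq_zero_of_fixed ST_smul_rho isMF_E₄ (fun h => ?_)
  have := hord_rho _ h
  omega

theorem E₆_rho_ne_zero : E₆ rho ≠ 0 := fun h => E₄_E₆_ne_zero _ E₄_rho h

end Points

/-! ### The counts -/

section Final

open Ramanujan

variable [NeZero N] (B : FreeBasis N)

theorem F_ne_zero (j : B.J) : B.F j ≠ 0 := by
  classical
  intro h0
  set a : B.J → ℍ → ℂ := fun i => if i = j then 1 else 0 with ha
  have haMF : ∀ i, IsMF 1 (B.k j - B.k i) (a i) := by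
    intro i
    by_cases hi : i = j
    · subst hi
      simp only [ha, if_true]
      exact isMF_congr_weight (by ring) isMF_one
    · simp only [ha, hi, if_false]
      exact isMF_zero 1 _
  have hsum : ∀ z, ∑ i, a i z * B.F i z = 0 := by
    intro z
    rw [Finset.sum_eq_single j]
    · simp [ha, h0]
    · intro i _ hi
      simp [ha, hi]
    · intro h
      exact absurd (Finset.mem_univ j) h
  have := congrFun (B.indep (B.k j) a haMF hsum j) UpperHalfPlane.I
  simp [ha] at this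

theorem even_weight (j : B.J) : Even (B.k j) := by
  by_contra h
  exact F_ne_zero B j (eq_zero_of_odd (B.isMF j) (Int.not_even_iff_odd.mp h))

theorem zero_in_orbit {ψ : ℍ → ℂ} {z₀ : ℍ} (h0 : ψ z₀ = 0)
    (h : ∃ z₁ : ℍ, ∀ z, ψ z = 0 → ∃ δ : SL(2, ℤ), δ • z₁ = z) :
    ∀ z, ψ z = 0 → ∃ δ : SL(2, ℤ), δ • z₀ = z := by
  obtain ⟨z₁, h1⟩ := h
  obtain ⟨δ₀, hδ₀⟩ := h1 z₀ h0
  intro z hz
  obtain ⟨δ, hδ⟩ := h1 z hz
  exact ⟨δ * δ₀⁻¹, by rw [mul_smul, ← hδ₀, inv_smul_smul, hδ]⟩

/-- **Invertibility at `i`.** -/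
theorem indep_I (h6 : ∃ z₁ : ℍ, ∀ z, E₆ z = 0 → ∃ δ : SL(2, ℤ), δ • z₁ = z)
    (c : B.J → ℂ)
    (hrel : ∀ q : Q N, ∑ j, c j * comp N (B.k j) (B.F j) q UpperHalfPlane.I = 0) :
    ∀ j, c j = 0 :=
  indep_all B S_smul_I hord_I (fun r c hc hrel =>
    indep_class B UpperHalfPlane.I isMF_E₄ E₄_I_ne_zero isMF_E₆ E₆_I
      (fun _ hz => deriv_E₆_ne_zero hz) ⟨1, one_ne_zero, tendsto_E₆⟩
      (zero_in_orbit E₆_I h6) r c hc hrel) c hrel

/-- **Invertibility at `ρ`.** -/
theorem indep_rho (h4 : ∃ z₁ : ℍ, ∀ z, E₄ z = 0 → ∃ δ : SL(2, ℤ), δ • z₁ = z)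
    (c : B.J → ℂ)
    (hrel : ∀ q : Q N, ∑ j, c j * comp N (B.k j) (B.F j) q rho = 0) :
    ∀ j, c j = 0 :=
  indep_all B ST_smul_rho hord_rho (fun r c hc hrel =>
    indep_class B rho isMF_E₆ E₆_rho_ne_zero isMF_E₄ E₄_rho
      (fun _ hz => deriv_E₄_ne_zero hz) ⟨1, one_ne_zero, tendsto_E₄⟩
      (zero_in_orbit E₄_rho h4) r c hc hrel) c hrel

theorem sum_I (h6 : ∃ z₁ : ℍ, ∀ z, E₆ z = 0 → ∃ δ : SL(2, ℤ), δ • z₁ = z) :
    ∑ j, Complex.I ^ (-(B.k j)) = (ModularCurve.nuTwo N : ℂ) := by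
  have h := sum_aut_eq_card_fixed B S_smul_I (indep_I B h6)
  rw [Cosets.card_fixed_S N] at h
  rw [← h]
  refine Finset.sum_congr rfl (fun j _ => ?_)
  rw [aut_S_I]

theorem sum_rho (h4 : ∃ z₁ : ℍ, ∀ z, E₄ z = 0 → ∃ δ : SL(2, ℤ), δ • z₁ = z) :
    ∑ j, zeta6 ^ (-(B.k j)) = (ModularCurve.nuThree N : ℂ) := by
  have h := sum_aut_eq_card_fixed B ST_smul_rho (indep_rho B h4)
  rw [Cosets.card_fixed_ST N] at h
  rw [← h]
  refine Finset.sum_congr rfl (fun j _ => ?_)
  rw [aut_ST_rho]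

theorem I_zpow_neg_of_even {k : ℤ} (hk : Even k) :
    Complex.I ^ (-k) = if k % 4 = 0 then 1 else -1 := by
  obtain ⟨t, ht⟩ := hk
  split_ifs with h
  · rw [Complex.isPrimitiveRoot_I.zpow_eq_one_iff_dvd]
    push_cast
    omega
  · have h2 : -k = 4 * (-(k + 2) / 4) + 2 := by omega
    rw [h2, zpow_add₀ Complex.I_ne_zero, zpow_mul]
    have h4 : Complex.I ^ (4 : ℤ) = 1 := by
      have : Complex.I ^ (4 : ℕ) = 1 := Complex.I_pow_four
      exact_mod_cast this
    have h22 : Complex.I ^ (2 : ℤ) = -1 := by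
      have : Complex.I ^ (2 : ℕ) = -1 := Complex.I_sq
      exact_mod_cast this
    rw [h4, one_zpow, one_mul, h22]

/-- **Count modulo 4** (with the inputs from leaves A and C as hypotheses). -/
theorem card_weight_mod_four_of
    (hQ : Nat.card (Q N) = ModularCurve.dedekindPsi N)
    (h6 : ∃ z₁ : ℍ, ∀ z, E₆ z = 0 → ∃ δ : SL(2, ℤ), δ • z₁ = z) :
    2 * (univ.filter fun j => B.k j % 4 = 0).card =
      ModularCurve.dedekindPsi N + ModularCurve.nuTwo N := by
  classical
  have h := sum_I B h6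
  have h1 : ∑ j, Complex.I ^ (-(B.k j)) =
      ∑ j, (if B.k j % 4 = 0 then (1 : ℂ) else -1) :=
    Finset.sum_congr rfl (fun j _ => I_zpow_neg_of_even (even_weight B j))
  rw [h1, Finset.sum_ite, Finset.sum_const, Finset.sum_const, nsmul_eq_mul, nsmul_eq_mul,
    mul_one] at h
  have hcard : (univ.filter fun j => B.k j % 4 = 0).card +
      (univ.filter fun j => ¬ B.k j % 4 = 0).card = ModularCurve.dedekindPsi N := by
    rw [Finset.card_filter_add_card_filter_not, Finset.card_univ, B.card_eq, hQ]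
  have h2 : ((univ.filter fun j => B.k j % 4 = 0).card : ℂ) +
      ((univ.filter fun j => ¬ B.k j % 4 = 0).card : ℂ) = (ModularCurve.dedekindPsi N : ℂ) := by
    exact_mod_cast hcard
  have h3 : ((2 * (univ.filter fun j => B.k j % 4 = 0).card : ℕ) : ℂ) =
      ((ModularCurve.dedekindPsi N + ModularCurve.nuTwo N : ℕ) : ℂ) := by
    push_cast
    linear_combination h + h2
  exact_mod_cast h3

/-- The primitive cube root of unity `ζ₆⁻²`. -/
noncomputable def omega : ℂ := zeta6 ^ (-2 : ℤ)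

theorem omega_cube : omega ^ 3 = 1 := by
  rw [omega, ← zpow_natCast, ← zpow_mul]
  rw [zeta6_primitive.zpow_eq_one_iff_dvd]
  norm_num

theorem omega_ne_one : omega ≠ 1 := by
  rw [omega, Ne, zeta6_primitive.zpow_eq_one_iff_dvd]
  norm_num

theorem omega_sq : omega ^ 2 + omega + 1 = 0 := by
  have h : (omega - 1) * (omega ^ 2 + omega + 1) = 0 := by
    ring_nf
    rw [omega_cube]
    ring
  exact (mul_eq_zero.mp h).resolve_left (sub_ne_zero.mpr omega_ne_one)

theorem omega_im_ne_zero : omega.im ≠ 0 := by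
  intro h
  have h1 : omega = (omega.re : ℂ) := by
    apply Complex.ext
    · simp
    · simp [h]
  have h2 := omega_sq
  rw [h1] at h2
  have h3 : (omega.re ^ 2 + omega.re + 1 : ℝ) = 0 := by
    have := congrArg Complex.re h2
    simpa [pow_two] using this
  nlinarith [sq_nonneg (omega.re + 1 / 2)]

theorem zeta6_zpow_neg_of_even {k : ℤ} (hk : Even k) :
    zeta6 ^ (-k) = if k % 6 = 0 then 1 else if k % 6 = 2 then omega else omega ^ 2 := by
  obtain ⟨t, ht⟩ := hk
  have h6 : ∀ u : ℤ, zeta6 ^ (6 * u) = 1 := fun u => by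
    rw [zeta6_primitive.zpow_eq_one_iff_dvd]
    exact ⟨u, by push_cast; ring⟩
  split_ifs with h0 h2
  · rw [zeta6_primitive.zpow_eq_one_iff_dvd]
    push_cast
    omega
  · have e : -k = 6 * (-(k - 2) / 6) + (-2) := by omega
    rw [e, zpow_add₀ zeta6_ne_zero, h6, one_mul, omega]
  · have e : -k = 6 * (-(k - 4) / 6) + (-2) * 2 := by omega
    rw [e, zpow_add₀ zeta6_ne_zero, h6, one_mul, omega, zpow_mul]
    rfl

theorem sum_three (g0 g2 g4 : ℂ) :
    ∑ j, (if B.k j % 6 = 0 then g0 else if B.k j % 6 = 2 then g2 else g4) =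
      (univ.filter fun j => B.k j % 6 = 0).card * g0 +
      (univ.filter fun j => B.k j % 6 = 2).card * g2 +
      (univ.filter fun j => B.k j % 6 = 4).card * g4 := by
  classical
  have hA : ((univ.filter fun j => ¬ B.k j % 6 = 0).filter fun j => B.k j % 6 = 2) =
      univ.filter fun j => B.k j % 6 = 2 := by
    ext j
    simp only [Finset.mem_filter, Finset.mem_univ, true_and]
    omega
  have hB : ((univ.filter fun j => ¬ B.k j % 6 = 0).filter fun j => ¬ B.k j % 6 = 2) =
      univ.filter fun j => B.k j % 6 = 4 := by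
    ext j
    simp only [Finset.mem_filter, Finset.mem_univ, true_and]
    obtain ⟨t, ht⟩ := even_weight B j
    omega
  rw [Finset.sum_ite, Finset.sum_ite, Finset.sum_const, Finset.sum_const, Finset.sum_const,
    nsmul_eq_mul, nsmul_eq_mul, nsmul_eq_mul, add_assoc, hA, hB]

/-- **Counts modulo 6** (with the inputs from leaves A and C as hypotheses). -/
theorem card_weight_mod_six_of
    (hQ : Nat.card (Q N) = ModularCurve.dedekindPsi N)
    (h4 : ∃ z₁ : ℍ, ∀ z, E₄ z = 0 → ∃ δ : SL(2, ℤ), δ • z₁ = z) :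
    3 * (univ.filter fun j => B.k j % 6 = 2).card + ModularCurve.nuThree N =
        ModularCurve.dedekindPsi N ∧
    3 * (univ.filter fun j => B.k j % 6 = 4).card + ModularCurve.nuThree N =
        ModularCurve.dedekindPsi N := by
  classical
  set n0 := (univ.filter fun j => B.k j % 6 = 0).card with hn0
  set n2 := (univ.filter fun j => B.k j % 6 = 2).card with hn2
  set n4 := (univ.filter fun j => B.k j % 6 = 4).card with hn4
  have h := sum_rho B h4
  have h1 : ∑ j, zeta6 ^ (-(B.k j)) = ∑ j,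
      (if B.k j % 6 = 0 then (1 : ℂ) else if B.k j % 6 = 2 then omega else omega ^ 2) :=
    Finset.sum_congr rfl (fun j _ => zeta6_zpow_neg_of_even (even_weight B j))
  rw [h1, sum_three B 1 omega (omega ^ 2)] at h
  have hcard : (n0 : ℂ) + n2 + n4 = (ModularCurve.dedekindPsi N : ℂ) := by
    have h2 := sum_three B 1 1 1
    simp only [ite_self, Finset.sum_const, Finset.card_univ, nsmul_eq_mul, mul_one] at h2
    rw [← h2, B.card_eq, hQ]
  have hw : omega ^ 2 = -1 - omega := by linear_combination omega_sq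
  rw [hw, mul_one] at h
  -- imaginary part
  have him : ((n2 : ℝ) - n4) * omega.im = 0 := by
    have := congrArg Complex.im h
    simp only [Complex.add_im, Complex.mul_im, Complex.natCast_re, Complex.natCast_im,
      Complex.sub_im, Complex.neg_im, Complex.one_im, zero_mul, add_zero, neg_zero,
      zero_sub, mul_neg] at this
    linarith
  have h24 : (n2 : ℝ) = n4 := by
    rcases mul_eq_zero.mp him with h | h
    · linarith
    · exact absurd h omega_im_ne_zero
  have h24' : n2 = n4 := by exact_mod_cast h24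
  have h24c : (n2 : ℂ) = n4 := by exact_mod_cast h24
  have h0 : (n0 : ℂ) - n4 = (ModularCurve.nuThree N : ℂ) := by
    rw [h24c] at h
    linear_combination h
  have hfin : ((3 * n2 + ModularCurve.nuThree N : ℕ) : ℂ) = (ModularCurve.dedekindPsi N : ℂ) := by
    push_cast
    rw [← hcard, ← h0, h24c]
    ring
  have hfin' : 3 * n2 + ModularCurve.nuThree N = ModularCurve.dedekindPsi N := by
    exact_mod_cast hfin
  exact ⟨hfin', h24' ▸ hfin'⟩

end Final

end Fermat.Agent.S20.Invertible
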