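import Mathlib

/-!
# S20, leaf C (part 1): a lattice is determined by `g₂` and `g₃`

Two period pairs with the same invariants `g₂`, `g₃` have the same Weierstrass `℘`-function,
hence the same period lattice.
-/

set_option autoImplicit false

open Filter Topology
open scoped PeriodPair

namespace Fermat.Agent.S20.JInj

variable (L L' : PeriodPair)

/-- The basic neighbourhood of `0` on which both regular parts are differentiable. -/
lemma nhd_zero_mem : ((L.lattice : Set ℂ) \ {0})ᶜ ∩ ((L'.lattice : Set ℂ) \ {0})ᶜ ∈ 𝓝 (0 : ℂ) :=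
  Filter.inter_mem (L.compl_lattice_sdiff_singleton_mem_nhds 0)
    (L'.compl_lattice_sdiff_singleton_mem_nhds 0)

lemma hasDerivAt_weierstrassPExcept_zero {z : ℂ} (hz : z ∈ ((L.lattice : Set ℂ) \ {0})ᶜ) :
    HasDerivAt ℘[L - (0 : ℂ)] (℘'[L - (0 : ℂ)] z) z := by
  have hd : DifferentiableAt ℂ ℘[L - (0 : ℂ)] z :=
    (L.differentiableOn_weierstrassPExcept 0).differentiableAt
      (L.isOpen_compl_lattice_sdiff.mem_nhds hz)
  have := hd.hasDerivAt
  rwa [L.eqOn_deriv_weierstrassPExcept_derivWeierstrassPExcept 0 hz] at this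

lemma weierstrassP_eq_except {z : ℂ} : ℘[L] z = ℘[L - (0 : ℂ)] z + 1 / z ^ 2 := by
  have := L.weierstrassPExcept_def (0 : L.lattice) z
  simp only [ZeroMemClass.coe_zero, sub_zero] at this
  rw [this]
  simp

lemma derivWeierstrassP_eq_except {z : ℂ} : ℘'[L] z = ℘'[L - (0 : ℂ)] z - 2 / z ^ 3 := by
  have := L.derivWeierstrassPExcept_def (0 : L.lattice) z
  simp only [ZeroMemClass.coe_zero, sub_zero] at this
  rw [this]
  ring

/-- The differential equation in terms of the regular parts, multiplied by `z ^ 6`. -/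
lemma ode_except {z : ℂ} (hz0 : z ≠ 0) (hz : z ∉ L.lattice) :
    (℘'[L - (0 : ℂ)] z * z ^ 3 - 2) ^ 2 =
      4 * (℘[L - (0 : ℂ)] z * z ^ 2 + 1) ^ 3 - L.g₂ * (℘[L - (0 : ℂ)] z * z ^ 2 + 1) * z ^ 4
        - L.g₃ * z ^ 6 := by
  have h := L.derivWeierstrassP_sq z hz
  rw [weierstrassP_eq_except, derivWeierstrassP_eq_except] at h
  field_simp at h
  linear_combination h

/-- The first order linear equation satisfied by the difference of the regular parts. -/
lemma diff_equation (h2 : L.g₂ = L'.g₂) (h3 : L.g₃ = L'.g₃) {z : ℂ}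
    (hz : z ∈ ((L.lattice : Set ℂ) \ {0})ᶜ ∩ ((L'.lattice : Set ℂ) \ {0})ᶜ) :
    (℘'[L - (0 : ℂ)] z - ℘'[L' - (0 : ℂ)] z) * z *
        (z ^ 3 * (℘'[L - (0 : ℂ)] z + ℘'[L' - (0 : ℂ)] z) - 4) =
      (℘[L - (0 : ℂ)] z - ℘[L' - (0 : ℂ)] z) *
        (4 * ((z ^ 2 * ℘[L - (0 : ℂ)] z + 1) ^ 2
          + (z ^ 2 * ℘[L - (0 : ℂ)] z + 1) * (z ^ 2 * ℘[L' - (0 : ℂ)] z + 1)
          + (z ^ 2 * ℘[L' - (0 : ℂ)] z + 1) ^ 2) - L.g₂ * z ^ 4) := by
  by_cases hz0 : z = 0
  · subst hz0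
    simp
  · have hzL : z ∉ L.lattice := fun h => hz.1 ⟨h, hz0⟩
    have hzL' : z ∉ L'.lattice := fun h => hz.2 ⟨h, hz0⟩
    have e1 := ode_except L hz0 hzL
    have e2 := ode_except L' hz0 hzL'
    rw [← h2, ← h3] at e2
    have hz2 : z ^ 2 ≠ 0 := pow_ne_zero 2 hz0
    apply mul_left_cancel₀ hz2
    linear_combination e1 - e2

/-- **Key lemma.** If `g₂` and `g₃` agree, the regular parts of `℘` at `0` agree near `0`. -/
theorem weierstrassPExcept_eventuallyEq (h2 : L.g₂ = L'.g₂) (h3 : L.g₃ = L'.g₃) :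
    ∀ᶠ z in 𝓝 (0 : ℂ), ℘[L - (0 : ℂ)] z = ℘[L' - (0 : ℂ)] z := by
  set p := ℘[L - (0 : ℂ)] with hp
  set q := ℘[L' - (0 : ℂ)] with hq
  set p₁ := ℘'[L - (0 : ℂ)] with hp₁
  set q₁ := ℘'[L' - (0 : ℂ)] with hq₁
  have hpa : AnalyticAt ℂ p 0 := L.analyticAt_weierstrassPExcept 0
  have hqa : AnalyticAt ℂ q 0 := L'.analyticAt_weierstrassPExcept 0
  have hp₁a : AnalyticAt ℂ p₁ 0 := L.analyticAt_derivWeierstrassPExcept 0
  have hq₁a : AnalyticAt ℂ q₁ 0 := L'.analyticAt_derivWeierstrassPExcept 0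
  have hwa : AnalyticAt ℂ (fun z => p z - q z) 0 := hpa.sub hqa
  by_contra hne
  have hne' : ¬ ∀ᶠ z in 𝓝 (0 : ℂ), (fun z => p z - q z) z = 0 := by
    intro h
    exact hne (h.mono fun z hz => sub_eq_zero.mp hz)
  obtain ⟨n, g, hga, hg0, hwg⟩ := hwa.exists_eventuallyEq_pow_smul_nonzero_iff.mpr hne'
  simp only [sub_zero, smul_eq_mul] at hwg
  -- the derivative of `w` near `0`, computed in two ways
  have hderiv : ∀ᶠ z in 𝓝 (0 : ℂ),
      p₁ z - q₁ z = (n : ℂ) * z ^ (n - 1) * g z + z ^ n * deriv g z := by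
    have hgd : ∀ᶠ z in 𝓝 (0 : ℂ), DifferentiableAt ℂ g z :=
      hga.eventually_analyticAt.mono fun z hz => hz.differentiableAt
    filter_upwards [nhd_zero_mem L L', hwg.eventually_nhds, hgd] with z hz hwz hgz
    have h1 : HasDerivAt (fun z => p z - q z) (p₁ z - q₁ z) z :=
      (hasDerivAt_weierstrassPExcept_zero L hz.1).sub (hasDerivAt_weierstrassPExcept_zero L' hz.2)
    have h2' : HasDerivAt (fun z => z ^ n * g z)
        ((n : ℂ) * z ^ (n - 1) * g z + z ^ n * deriv g z) z :=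
      (hasDerivAt_pow n z).mul hgz.hasDerivAt
    have h3' : HasDerivAt (fun z => p z - q z)
        ((n : ℂ) * z ^ (n - 1) * g z + z ^ n * deriv g z) z :=
      h2'.congr_of_eventuallyEq hwz
    exact h1.unique h3'
  -- the function which must vanish at `0`
  set A : ℂ → ℂ := fun z => z ^ 3 * (p₁ z + q₁ z) - 4 with hA
  set B : ℂ → ℂ := fun z => 4 * ((z ^ 2 * p z + 1) ^ 2 + (z ^ 2 * p z + 1) * (z ^ 2 * q z + 1)
      + (z ^ 2 * q z + 1) ^ 2) - L.g₂ * z ^ 4 with hB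
  set φ : ℂ → ℂ := fun z => ((n : ℂ) * g z + z * deriv g z) * A z - g z * B z with hφ
  have hφc : ContinuousAt φ 0 := by
    have hg'c : ContinuousAt (deriv g) 0 := hga.deriv.continuousAt
    have hgc := hga.continuousAt
    have hpc := hpa.continuousAt
    have hqc := hqa.continuousAt
    have hp₁c := hp₁a.continuousAt
    have hq₁c := hq₁a.continuousAt
    have hid : ContinuousAt (fun z : ℂ => z) 0 := continuousAt_id
    have hAc : ContinuousAt A 0 :=
      ((hid.pow 3).mul (hp₁c.add hq₁c)).sub continuousAt_const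
    have hBc : ContinuousAt B 0 := by
      have h1 : ContinuousAt (fun z => z ^ 2 * p z + 1) 0 :=
        ((hid.pow 2).mul hpc).add continuousAt_const
      have h2 : ContinuousAt (fun z => z ^ 2 * q z + 1) 0 :=
        ((hid.pow 2).mul hqc).add continuousAt_const
      exact (continuousAt_const.mul (((h1.pow 2).add (h1.mul h2)).add (h2.pow 2))).sub
        (continuousAt_const.mul (hid.pow 4))
    exact (((continuousAt_const.mul hgc).add (hid.mul hg'c)).mul hAc).sub (hgc.mul hBc)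
  have hφ0 : ∀ᶠ z in 𝓝[≠] (0 : ℂ), φ z = 0 := by
    have h1 : ∀ᶠ z in 𝓝 (0 : ℂ), z ≠ 0 → φ z = 0 := by
      filter_upwards [nhd_zero_mem L L', hwg, hderiv] with z hz hwz hdz hz0
      have hE := diff_equation L L' h2 h3 hz
      simp only [← hp, ← hq, ← hp₁, ← hq₁] at hE
      rw [hwz, hdz] at hE
      have hzn : z ^ n ≠ 0 := pow_ne_zero n hz0
      apply mul_left_cancel₀ hzn
      simp only [hφ, hA, hB, mul_zero]
      rcases n with _ | k
      · simp only [Nat.cast_zero, zero_mul, zero_add, pow_zero, one_mul] at hE ⊢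
        linear_combination hE
      · simp only [Nat.add_sub_cancel] at hE
        linear_combination hE
    exact eventually_nhdsWithin_of_eventually_nhds h1 |>.mp
      (eventually_mem_nhdsWithin.mono fun z hz h => h hz)
  have hφzero : φ 0 = 0 := by
    have ht : Tendsto φ (𝓝[≠] (0 : ℂ)) (𝓝 (φ 0)) := hφc.tendsto.mono_left nhdsWithin_le_nhds
    have ht0 : Tendsto φ (𝓝[≠] (0 : ℂ)) (𝓝 0) :=
      (tendsto_const_nhds (x := (0 : ℂ))).congr' (hφ0.mono fun z hz => hz.symm)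
    exact tendsto_nhds_unique ht ht0
  have hp0 : p 0 = 0 := L.weierstrassPExcept_zero 0
  have hq0 : q 0 = 0 := L'.weierstrassPExcept_zero 0
  simp only [hφ, hA, hB, hp0, hq0] at hφzero
  have h4 : g 0 * ((n : ℂ) + 3) = 0 := by
    linear_combination (-1 / 4 : ℂ) * hφzero
  rcases mul_eq_zero.mp h4 with h | h
  · exact hg0 h
  · have : ((n + 3 : ℕ) : ℂ) = 0 := by push_cast; exact h
    exact absurd (Nat.cast_eq_zero.mp this) (by omega)

lemma countable_lattice : (L.lattice : Set ℂ).Countable := by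
  have : Countable L.lattice := L.latticeEquivProd.toEquiv.injective.countable
  exact Set.countable_coe_iff.mp this

/-- If `g₂` and `g₃` agree then the `℘`-functions agree off the two lattices. -/
theorem weierstrassP_eqOn (h2 : L.g₂ = L'.g₂) (h3 : L.g₃ = L'.g₃) :
    Set.EqOn ℘[L] ℘[L'] ((L.lattice : Set ℂ) ∪ L'.lattice)ᶜ := by
  set U : Set ℂ := ((L.lattice : Set ℂ) ∪ L'.lattice)ᶜ with hU
  have hUpre : IsPreconnected U :=
    (Set.Countable.isConnected_compl_of_one_lt_rank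
      (by rw [Complex.rank_real_complex]; norm_num)
      ((countable_lattice L).union (countable_lattice L'))).isPreconnected
  have hLU : AnalyticOnNhd ℂ ℘[L] U :=
    L.analyticOnNhd_weierstrassP.mono (Set.compl_subset_compl.mpr Set.subset_union_left)
  have hL'U : AnalyticOnNhd ℂ ℘[L'] U :=
    L'.analyticOnNhd_weierstrassP.mono (Set.compl_subset_compl.mpr Set.subset_union_right)
  -- a small open set around `0` on which the regular parts agree
  have hV : {z : ℂ | z ∈ ((L.lattice : Set ℂ) \ {0})ᶜ ∩ ((L'.lattice : Set ℂ) \ {0})ᶜ ∧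
      ℘[L - (0 : ℂ)] z = ℘[L' - (0 : ℂ)] z} ∈ 𝓝 (0 : ℂ) :=
    Filter.inter_mem (nhd_zero_mem L L') (weierstrassPExcept_eventuallyEq L L' h2 h3)
  obtain ⟨O, hOV, hOopen, h0O⟩ := mem_nhds_iff.mp hV
  -- a nonzero point of `O`
  obtain ⟨z₁, hz₁O, hz₁0⟩ : ∃ z₁ ∈ O, z₁ ≠ (0 : ℂ) := by
    have hne : (𝓝[≠] (0 : ℂ)).NeBot := inferInstance
    have : O ∈ 𝓝[≠] (0 : ℂ) := mem_nhdsWithin_of_mem_nhds (hOopen.mem_nhds h0O)
    obtain ⟨z, hz⟩ := hne.nonempty_of_mem (Filter.inter_mem this self_mem_nhdsWithin)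
    exact ⟨z, hz.1, hz.2⟩
  have hkey : ∀ z ∈ O, z ≠ 0 → z ∈ U ∧ ℘[L] z = ℘[L'] z := by
    intro z hz hz0
    obtain ⟨⟨h1, h2'⟩, h3'⟩ := hOV hz
    have hzL : z ∉ L.lattice := fun h => h1 ⟨h, hz0⟩
    have hzL' : z ∉ L'.lattice := fun h => h2' ⟨h, hz0⟩
    refine ⟨fun h => h.elim hzL hzL', ?_⟩
    rw [weierstrassP_eq_except, weierstrassP_eq_except, h3']
  have hz₁U : z₁ ∈ U := (hkey z₁ hz₁O hz₁0).1
  have hev : ℘[L] =ᶠ[𝓝 z₁] ℘[L'] := by
    have hO' : O ∩ {z | z ≠ 0} ∈ 𝓝 z₁ :=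
      (hOopen.inter isOpen_ne).mem_nhds ⟨hz₁O, hz₁0⟩
    filter_upwards [hO'] with z hz
    exact (hkey z hz.1 hz.2).2
  exact hLU.eqOn_of_preconnected_of_eventuallyEq hL'U hUpre hz₁U hev

lemma lattice_le_of_g₂_g₃ (h2 : L.g₂ = L'.g₂) (h3 : L.g₃ = L'.g₃) :
    L.lattice ≤ L'.lattice := by
  intro l hl
  by_contra hl'
  have hW : ((L.lattice : Set ℂ) \ {l})ᶜ ∩ (L'.lattice : Set ℂ)ᶜ ∈ 𝓝 l :=
    Filter.inter_mem (L.compl_lattice_sdiff_singleton_mem_nhds l)
      (L'.isClosed_lattice.isOpen_compl.mem_nhds hl')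
  have hev : ℘[L] =ᶠ[𝓝[≠] l] ℘[L'] := by
    filter_upwards [mem_nhdsWithin_of_mem_nhds hW, self_mem_nhdsWithin] with z hz hzl
    apply weierstrassP_eqOn L L' h2 h3
    rintro (h | h)
    · exact hz.1 ⟨h, hzl⟩
    · exact hz.2 h
  have h1 := meromorphicOrderAt_congr hev
  rw [L.order_weierstrassP l hl] at h1
  have h2' : (0 : WithTop ℤ) ≤ meromorphicOrderAt ℘[L'] l :=
    (L'.analyticOnNhd_weierstrassP l hl').meromorphicOrderAt_nonneg
  rw [← h1] at h2'
  have h3' : ((0 : ℤ) : WithTop ℤ) ≤ ((-2 : ℤ) : WithTop ℤ) := h2'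
  exact absurd (WithTop.coe_le_coe.mp h3') (by norm_num)

/-- **A lattice is determined by `g₂` and `g₃`.** -/
theorem lattice_eq_of_g₂_g₃ (h2 : L.g₂ = L'.g₂) (h3 : L.g₃ = L'.g₃) :
    L.lattice = L'.lattice :=
  le_antisymm (lattice_le_of_g₂_g₃ L L' h2 h3) (lattice_le_of_g₂_g₃ L' L h2.symm h3.symm)

end Fermat.Agent.S20.JInj
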