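import Mathlib
import Fermat.Agent.S20.WeierstrassInj

/-!
# S20, leaf C: level-one injectivity of `(E₄, E₆)` and the zero sets of `E₄`, `E₆`, `ψ_{z₀}`

* `exists_smul_eq_of_E₄_E₆` : if `E₄ z' = t⁴ E₄ z` and `E₆ z' = t⁶ E₆ z` with `t ≠ 0` then
  `z' ∈ SL₂(ℤ) z`.
* `E₆_eq_zero_iff`, `E₄_eq_zero_iff`, `psi_eq_zero_iff` : the zero sets.
-/

set_option autoImplicit false

open Filter Topology UpperHalfPlane ModularForm Matrix.SpecialLinearGroup
open scoped PeriodPair MatrixGroups ModularForm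

namespace Fermat.Agent.S20.JInj

/-! ### Transformation behaviour of `E k` -/

lemma E_smul {k : ℕ} (hk : 3 ≤ k) (g : SL(2, ℤ)) (z : ℍ) :
    E hk (g • z) = ((g 1 0 : ℂ) * z + (g 1 1 : ℂ)) ^ k * E hk z := by
  have := SlashInvariantForm.slash_action_eqn' (E hk) (γ := mapGL ℝ g)
    (MonoidHom.mem_range.mpr ⟨g, rfl⟩) z
  have h2 : (mapGL ℝ g) • z = g • z := rfl
  rw [h2] at this
  simpa using this

lemma coe_smul_eq (g : SL(2, ℤ)) (z : ℍ) :
    ((g • z : ℍ) : ℂ) = ((g 0 0 : ℂ) * z + (g 0 1 : ℂ)) / ((g 1 0 : ℂ) * z + (g 1 1 : ℂ)) := by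
  rw [UpperHalfPlane.specialLinearGroup_apply]
  simp

lemma int_mul_add_ne_zero (z : ℍ) {c d : ℤ} (h : c ≠ 0 ∨ d ≠ 0) : (c : ℂ) * z + d ≠ 0 := by
  intro h0
  have him := congrArg Complex.im h0
  have hre := congrArg Complex.re h0
  simp only [Complex.add_im, Complex.mul_im, Complex.intCast_re, Complex.intCast_im, zero_mul,
    add_zero, Complex.zero_im, Complex.add_re, Complex.mul_re, Complex.zero_re, sub_zero,
    UpperHalfPlane.coe_im, UpperHalfPlane.coe_re] at him hre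
  have hc : (c : ℝ) = 0 := by
    rcases mul_eq_zero.mp him with h1 | h1
    · exact h1
    · exact absurd h1 z.im_ne_zero
  rw [hc, zero_mul, zero_add] at hre
  rcases h with h | h
  · exact h (by exact_mod_cast hc)
  · exact h (by exact_mod_cast hre)

lemma int_mul_add_eq_zero (z : ℍ) {c d : ℤ} (h : (c : ℂ) * z + d = 0) : c = 0 ∧ d = 0 := by
  by_contra hne
  have : c ≠ 0 ∨ d ≠ 0 := by
    by_contra h'
    rw [not_or, not_not, not_not] at h'
    exact hne h'
  exact int_mul_add_ne_zero z this h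

/-! ### The period pair `(t, t z)` -/

/-- The period pair `(t, t z)` for `t ≠ 0` and `z` in the upper half plane. -/
noncomputable def pp (t : ℂ) (ht : t ≠ 0) (z : ℍ) : PeriodPair where
  ω₁ := t
  ω₂ := t * z
  indep := by
    rw [LinearIndependent.pair_iff]
    intro s r h
    have h1 : t * ((s : ℂ) + (r : ℂ) * z) = 0 := by
      simp only [Complex.real_smul] at h
      linear_combination h
    have h2 : (s : ℂ) + (r : ℂ) * z = 0 := (mul_eq_zero.mp h1).resolve_left ht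
    have him := congrArg Complex.im h2
    have hre := congrArg Complex.re h2
    simp only [Complex.add_im, Complex.ofReal_im, Complex.mul_im, Complex.ofReal_re, zero_mul,
      add_zero, zero_add, Complex.zero_im, Complex.add_re, Complex.mul_re, sub_zero,
      Complex.zero_re, UpperHalfPlane.coe_im, UpperHalfPlane.coe_re] at him hre
    have hr : r = 0 := (mul_eq_zero.mp him).resolve_right z.im_ne_zero
    rw [hr, zero_mul, add_zero] at hre
    exact ⟨hre, hr⟩

@[simp] lemma pp_ω₁ (t : ℂ) (ht : t ≠ 0) (z : ℍ) : (pp t ht z).ω₁ = t := rfl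
@[simp] lemma pp_ω₂ (t : ℂ) (ht : t ≠ 0) (z : ℍ) : (pp t ht z).ω₂ = t * z := rfl

/-- The lattice Eisenstein sum of `(t, t z)` in terms of the normalised Eisenstein series. -/
theorem G_pp (t : ℂ) (ht : t ≠ 0) (z : ℍ) {k : ℕ} (hk : 3 ≤ k) :
    (pp t ht z).G k = (t ^ k)⁻¹ * (2 * riemannZeta k * E hk z) := by
  have hE : E hk z = (1 / 2 : ℂ) * eisensteinSeries (N := 1) 0 k z := rfl
  have hsum := tsum_eisSummand_eq_riemannZeta_mul_eisensteinSeries hk z
  have h1 : (pp t ht z).G k =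
      ∑' x : ℤ × ℤ, (t ^ k)⁻¹ * EisensteinSeries.eisSummand k ![x.2, x.1] z := by
    rw [PeriodPair.G, ← (pp t ht z).latticeEquivProd.symm.toEquiv.tsum_eq]
    refine tsum_congr fun x => ?_
    simp only [LinearEquiv.coe_toEquiv, PeriodPair.latticeEquiv_symm_apply, pp_ω₁, pp_ω₂,
      EisensteinSeries.eisSummand, Matrix.cons_val_zero, Matrix.cons_val_one, zpow_neg,
      zpow_natCast]
    rw [← mul_inv, ← mul_pow]
    congr 2
    ring
  have h2 : ∑' x : ℤ × ℤ, EisensteinSeries.eisSummand k ![x.2, x.1] z =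
      ∑' v : Fin 2 → ℤ, EisensteinSeries.eisSummand k v z := by
    rw [← ((finTwoArrowEquiv ℤ).trans (Equiv.prodComm ℤ ℤ)).tsum_eq]
    refine tsum_congr fun v => ?_
    congr 1
    ext i
    fin_cases i <;> simp [finTwoArrowEquiv]
  rw [h1, tsum_mul_left, h2, hsum, hE]
  ring

/-! ### From equal lattices to `SL₂(ℤ)`-equivalence -/

theorem exists_smul_eq_of_lattice_eq {z z' : ℍ} {t : ℂ} (ht : t ≠ 0)
    (h : (pp 1 one_ne_zero z).lattice = (pp t ht z').lattice) : ∃ g : SL(2, ℤ), g • z = z' := by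
  -- `t` and `t z'` lie in `ℤ + ℤ z`
  have ht1 : t ∈ (pp 1 one_ne_zero z).lattice := h ▸ (pp t ht z').ω₁_mem_lattice
  have ht2 : t * z' ∈ (pp 1 one_ne_zero z).lattice := h ▸ (pp t ht z').ω₂_mem_lattice
  have h11 : (1 : ℂ) ∈ (pp t ht z').lattice := h ▸ (pp 1 one_ne_zero z).ω₁_mem_lattice
  have h12 : (1 : ℂ) * z ∈ (pp t ht z').lattice := h ▸ (pp 1 one_ne_zero z).ω₂_mem_lattice
  obtain ⟨d, c, hcd⟩ := PeriodPair.mem_lattice.mp ht1
  obtain ⟨b, a, hab⟩ := PeriodPair.mem_lattice.mp ht2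
  obtain ⟨α, β, hαβ⟩ := PeriodPair.mem_lattice.mp h11
  obtain ⟨γ, δ, hγδ⟩ := PeriodPair.mem_lattice.mp h12
  simp only [pp_ω₁, pp_ω₂, mul_one, one_mul] at hcd hab hαβ hγδ
  -- integrality relations
  have e1 : ((α * c + β * a : ℤ) : ℂ) * z + ((α * d + β * b - 1 : ℤ) : ℂ) = 0 := by
    push_cast
    linear_combination hαβ + (α : ℂ) * hcd + (β : ℂ) * hab
  have e2 : ((γ * c + δ * a - 1 : ℤ) : ℂ) * z + ((γ * d + δ * b : ℤ) : ℂ) = 0 := by
    push_cast
    linear_combination hγδ + (γ : ℂ) * hcd + (δ : ℂ) * hab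
  obtain ⟨r1, r2⟩ := int_mul_add_eq_zero z e1
  obtain ⟨r3, r4⟩ := int_mul_add_eq_zero z e2
  have hdet : (a * d - b * c) * (α * δ - β * γ) = 1 := by
    linear_combination (-(γ * d + δ * b)) * r1 + (γ * c + δ * a) * r2 + r3
  -- positivity of the determinant
  have hD : (c : ℂ) * z + d ≠ 0 := by
    have : (c : ℂ) * z + d = t := by rw [← hcd]; ring
    rw [this]; exact ht
  have hz' : (z' : ℂ) * ((c : ℂ) * z + d) = (a : ℂ) * z + b := by
    have : (c : ℂ) * z + d = t := by rw [← hcd]; ring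
    rw [this, mul_comm, ← hab]; ring
  have hre := congrArg Complex.re hz'
  have him := congrArg Complex.im hz'
  simp only [Complex.mul_re, Complex.mul_im, Complex.add_re, Complex.add_im, Complex.intCast_re,
    Complex.intCast_im, zero_mul, sub_zero, add_zero, UpperHalfPlane.coe_re,
    UpperHalfPlane.coe_im] at hre him
  have hpos : (0 : ℝ) < ((a * d - b * c : ℤ) : ℝ) := by
    have hnorm : 0 < ((c : ℝ) * z.re + d) ^ 2 + ((c : ℝ) * z.im) ^ 2 := by
      have h := Complex.normSq_pos.mpr hD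
      rw [Complex.normSq_apply] at h
      simp only [Complex.add_re, Complex.mul_re, Complex.intCast_re, Complex.intCast_im,
        zero_mul, sub_zero, Complex.add_im, Complex.mul_im, add_zero, UpperHalfPlane.coe_re,
        UpperHalfPlane.coe_im] at h
      nlinarith [h]
    have hkey : z'.im * (((c : ℝ) * z.re + d) ^ 2 + ((c : ℝ) * z.im) ^ 2) =
        z.im * ((a * d - b * c : ℤ) : ℝ) := by
      push_cast
      linear_combination ((c : ℝ) * z.re + d) * him - ((c : ℝ) * z.im) * hre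
    have h3 : 0 < z.im * ((a * d - b * c : ℤ) : ℝ) := by
      rw [← hkey]
      exact mul_pos z'.im_pos hnorm
    exact (pos_iff_pos_of_mul_pos h3).mp z.im_pos
  have hpos' : 0 < a * d - b * c := by exact_mod_cast hpos
  have hdet1 : a * d - b * c = 1 := by
    rcases Int.isUnit_iff.mp (IsUnit.of_mul_eq_one _ hdet) with h1 | h1
    · exact h1
    · omega
  refine ⟨⟨!![a, b; c, d], by rw [Matrix.det_fin_two_of]; exact hdet1⟩, ?_⟩
  apply UpperHalfPlane.ext
  rw [coe_smul_eq]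
  simp only [Matrix.of_apply, Matrix.cons_val', Matrix.cons_val_zero,
    Matrix.cons_val_one, Matrix.cons_val_fin_one]
  rw [div_eq_iff hD, hz']

/-! ### The main injectivity theorem -/

/-- **Level-one injectivity.** If `E₄ z' = t⁴ E₄ z` and `E₆ z' = t⁶ E₆ z` for some `t ≠ 0`,
then `z'` is `SL₂(ℤ)`-equivalent to `z`. -/
theorem exists_smul_eq_of_E₄_E₆ {z z' : ℍ} {t : ℂ} (ht : t ≠ 0)
    (h4 : E₄ z' = t ^ 4 * E₄ z) (h6 : E₆ z' = t ^ 6 * E₆ z) : ∃ g : SL(2, ℤ), g • z = z' := by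
  apply exists_smul_eq_of_lattice_eq ht
  apply lattice_eq_of_g₂_g₃
  · simp only [PeriodPair.g₂]
    rw [G_pp 1 one_ne_zero z (by norm_num : 3 ≤ 4), G_pp t ht z' (by norm_num : 3 ≤ 4)]
    have : E (by norm_num : 3 ≤ 4) z' = t ^ 4 * E (by norm_num : 3 ≤ 4) z := h4
    rw [this]
    field_simp
  · simp only [PeriodPair.g₃]
    rw [G_pp 1 one_ne_zero z (by norm_num : 3 ≤ 6), G_pp t ht z' (by norm_num : 3 ≤ 6)]
    have : E (by norm_num : 3 ≤ 6) z' = t ^ 6 * E (by norm_num : 3 ≤ 6) z := h6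
    rw [this]
    field_simp

/-! ### Zero sets -/

/-- `E₄` and `E₆` have no common zero. -/
theorem E₄_cube_ne_E₆_sq (z : ℍ) : E₄ z ^ 3 ≠ E₆ z ^ 2 := by
  intro h
  have h1 := discriminant_eq_E₄_cube_sub_E₆_sq z
  rw [h, sub_self, zero_div] at h1
  exact discriminant_ne_zero z h1

theorem E₄_ne_zero_of_E₆_eq_zero {z : ℍ} (h : E₆ z = 0) : E₄ z ≠ 0 := by
  intro h4
  apply E₄_cube_ne_E₆_sq z
  rw [h, h4]
  norm_num

theorem E₆_ne_zero_of_E₄_eq_zero {z : ℍ} (h : E₄ z = 0) : E₆ z ≠ 0 := by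
  intro h6
  apply E₄_cube_ne_E₆_sq z
  rw [h, h6]
  norm_num

/-- `E₆` vanishes at the fixed points of `S` (i.e. at `i`). -/
theorem E₆_eq_zero_of_S_smul {w : ℍ} (hw : ModularGroup.S • w = w) : E₆ w = 0 := by
  have h1 := E_smul (by norm_num : 3 ≤ 6) ModularGroup.S w
  have h2 := coe_smul_eq ModularGroup.S w
  rw [hw] at h1 h2
  have hS10 : (ModularGroup.S : Matrix (Fin 2) (Fin 2) ℤ) 1 0 = 1 := by
    simp [ModularGroup.S]
  have hS11 : (ModularGroup.S : Matrix (Fin 2) (Fin 2) ℤ) 1 1 = 0 := by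
    simp [ModularGroup.S]
  have hS00 : (ModularGroup.S : Matrix (Fin 2) (Fin 2) ℤ) 0 0 = 0 := by
    simp [ModularGroup.S]
  have hS01 : (ModularGroup.S : Matrix (Fin 2) (Fin 2) ℤ) 0 1 = -1 := by
    simp [ModularGroup.S]
  rw [hS10, hS11] at h1 h2
  rw [hS00, hS01] at h2
  have hw0 : (w : ℂ) ≠ 0 := UpperHalfPlane.ne_zero w
  have hsq : (w : ℂ) ^ 2 = -1 := by
    have h3 : (w : ℂ) * ((1 : ℤ) * (w : ℂ) + (0 : ℤ)) = ((0 : ℤ) : ℂ) * w + ((-1 : ℤ) : ℂ) := by
      have hden : (((1 : ℤ) : ℂ) * (w : ℂ) + ((0 : ℤ) : ℂ)) ≠ 0 := by simpa using hw0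
      exact (eq_div_iff hden).mp h2
    push_cast at h3
    linear_combination h3
  have h6 : (w : ℂ) ^ 6 = -1 := by
    have : (w : ℂ) ^ 6 = ((w : ℂ) ^ 2) ^ 3 := by ring
    rw [this, hsq]; norm_num
  have h4 : E₆ w = (w : ℂ) ^ 6 * E₆ w := by
    have := h1
    push_cast at this
    simpa using this
  rw [h6] at h4
  have : (2 : ℂ) * E₆ w = 0 := by linear_combination h4
  simpa using this

/-- `E₄` vanishes at the fixed points of `S * T` (i.e. at `ρ`). -/
theorem E₄_eq_zero_of_ST_smul {w : ℍ} (hw : (ModularGroup.S * ModularGroup.T) • w = w) :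
    E₄ w = 0 := by
  have h1 := E_smul (by norm_num : 3 ≤ 4) (ModularGroup.S * ModularGroup.T) w
  have h2 := coe_smul_eq (ModularGroup.S * ModularGroup.T) w
  rw [hw] at h1 h2
  have hU : ((ModularGroup.S * ModularGroup.T : SL(2, ℤ)) : Matrix (Fin 2) (Fin 2) ℤ) =
      !![0, -1; 1, 1] := by
    ext i j
    fin_cases i <;> fin_cases j <;>
      simp [ModularGroup.S, ModularGroup.T, Matrix.mul_apply, Fin.sum_univ_two]
  rw [hU] at h1 h2
  simp only [Matrix.of_apply, Matrix.cons_val', Matrix.cons_val_zero, Matrix.cons_val_one,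
    Matrix.cons_val_fin_one] at h1 h2
  push_cast at h1 h2
  have hden : (1 : ℂ) * (w : ℂ) + 1 ≠ 0 := by
    have := int_mul_add_ne_zero w (c := 1) (d := 1) (Or.inl one_ne_zero)
    simpa using this
  have hquad : (w : ℂ) ^ 2 + w + 1 = 0 := by
    have h3 := (eq_div_iff hden).mp h2
    linear_combination h3
  have hpow : ((1 : ℂ) * (w : ℂ) + 1) ^ 4 = -(w : ℂ) - 1 := by
    have e1 : ((1 : ℂ) * (w : ℂ) + 1) ^ 2 = w := by linear_combination hquad
    have e2 : ((1 : ℂ) * (w : ℂ) + 1) ^ 4 = (((1 : ℂ) * (w : ℂ) + 1) ^ 2) ^ 2 := by ring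
    rw [e2, e1]
    linear_combination hquad
  rw [hpow] at h1
  have h5 : ((w : ℂ) + 2) * E₄ w = 0 := by linear_combination h1
  rcases mul_eq_zero.mp h5 with h | h
  · exfalso
    have := int_mul_add_ne_zero w (c := 1) (d := 2) (Or.inl one_ne_zero)
    apply this
    push_cast
    linear_combination h
  · exact h

/-- The zero set of `E₆` is the `SL₂(ℤ)`-orbit of the fixed point of `S`. -/
theorem E₆_eq_zero_iff {w : ℍ} (hw : ModularGroup.S • w = w) (z : ℍ) :
    E₆ z = 0 ↔ ∃ g : SL(2, ℤ), g • w = z := by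
  have hw6 := E₆_eq_zero_of_S_smul hw
  constructor
  · intro hz
    have hw4 := E₄_ne_zero_of_E₆_eq_zero hw6
    have hz4 := E₄_ne_zero_of_E₆_eq_zero hz
    obtain ⟨t, ht⟩ := IsAlgClosed.exists_pow_nat_eq (E₄ z / E₄ w) (n := 4) (by norm_num)
    have ht0 : t ≠ 0 := by
      intro h0
      rw [h0] at ht
      have : E₄ z / E₄ w = 0 := by rw [← ht]; norm_num
      exact (div_ne_zero hz4 hw4) this
    refine exists_smul_eq_of_E₄_E₆ ht0 ?_ ?_
    · rw [ht]; field_simp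
    · rw [hz, hw6, mul_zero]
  · rintro ⟨g, rfl⟩
    rw [E₆, E_smul, ← E₆, hw6, mul_zero]

/-- The zero set of `E₄` is the `SL₂(ℤ)`-orbit of the fixed point of `S * T`. -/
theorem E₄_eq_zero_iff {w : ℍ} (hw : (ModularGroup.S * ModularGroup.T) • w = w) (z : ℍ) :
    E₄ z = 0 ↔ ∃ g : SL(2, ℤ), g • w = z := by
  have hw4 := E₄_eq_zero_of_ST_smul hw
  constructor
  · intro hz
    have hw6 := E₆_ne_zero_of_E₄_eq_zero hw4
    have hz6 := E₆_ne_zero_of_E₄_eq_zero hz
    obtain ⟨t, ht⟩ := IsAlgClosed.exists_pow_nat_eq (E₆ z / E₆ w) (n := 6) (by norm_num)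
    have ht0 : t ≠ 0 := by
      intro h0
      rw [h0] at ht
      have : E₆ z / E₆ w = 0 := by rw [← ht]; norm_num
      exact (div_ne_zero hz6 hw6) this
    refine exists_smul_eq_of_E₄_E₆ ht0 ?_ ?_
    · rw [hz, hw4, mul_zero]
    · rw [ht]; field_simp
  · rintro ⟨g, rfl⟩
    rw [E₄, E_smul, ← E₄, hw4, mul_zero]

/-- The zero set of `ψ_{z₀} = E₆(z₀)² E₄³ - E₄(z₀)³ E₆²` is the `SL₂(ℤ)`-orbit of `z₀`
(for `z₀` outside the orbits of `i` and `ρ`). -/
theorem psi_eq_zero_iff {z₀ : ℍ} (h4 : E₄ z₀ ≠ 0) (h6 : E₆ z₀ ≠ 0) (z : ℍ) :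
    E₆ z₀ ^ 2 * E₄ z ^ 3 - E₄ z₀ ^ 3 * E₆ z ^ 2 = 0 ↔ ∃ g : SL(2, ℤ), g • z₀ = z := by
  constructor
  · intro hz
    have hz4 : E₄ z ≠ 0 := by
      intro h
      rw [h] at hz
      have h' : E₄ z₀ ^ 3 * E₆ z ^ 2 = 0 := by linear_combination -hz
      have h6z : E₆ z = 0 := by
        rcases mul_eq_zero.mp h' with h1 | h1
        · exact absurd (pow_eq_zero_iff (by norm_num) |>.mp h1) h4
        · exact pow_eq_zero_iff (by norm_num) |>.mp h1
      exact E₄_ne_zero_of_E₆_eq_zero h6z h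
    have hz6 : E₆ z ≠ 0 := by
      intro h
      rw [h] at hz
      have h' : E₆ z₀ ^ 2 * E₄ z ^ 3 = 0 := by linear_combination hz
      rcases mul_eq_zero.mp h' with h1 | h1
      · exact absurd (pow_eq_zero_iff (by norm_num) |>.mp h1) h6
      · exact hz4 (pow_eq_zero_iff (by norm_num) |>.mp h1)
    set a := E₄ z / E₄ z₀ with ha
    set b := E₆ z / E₆ z₀ with hb
    have ha0 : a ≠ 0 := div_ne_zero hz4 h4
    have hb0 : b ≠ 0 := div_ne_zero hz6 h6
    have hab : a ^ 3 = b ^ 2 := by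
      rw [ha, hb, div_pow, div_pow, div_eq_div_iff (pow_ne_zero 3 h4) (pow_ne_zero 2 h6)]
      linear_combination hz
    obtain ⟨t, ht⟩ := IsAlgClosed.exists_pow_nat_eq (b / a) (n := 2) (by norm_num)
    have ht0 : t ≠ 0 := by
      intro h0
      rw [h0] at ht
      have : b / a = 0 := by rw [← ht]; norm_num
      exact (div_ne_zero hb0 ha0) this
    have ht4 : t ^ 4 = a := by
      have : t ^ 4 = (t ^ 2) ^ 2 := by ring
      rw [this, ht, div_pow, ← hab]
      field_simp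
    have ht6 : t ^ 6 = b := by
      have : t ^ 6 = (t ^ 2) ^ 3 := by ring
      rw [this, ht, div_pow, hab]
      field_simp
    refine exists_smul_eq_of_E₄_E₆ ht0 ?_ ?_
    · rw [ht4, ha]; field_simp
    · rw [ht6, hb]; field_simp
  · rintro ⟨g, rfl⟩
    have e4 : E₄ (g • z₀) = ((g 1 0 : ℂ) * z₀ + (g 1 1 : ℂ)) ^ 4 * E₄ z₀ :=
      E_smul (by norm_num : 3 ≤ 4) g z₀
    have e6 : E₆ (g • z₀) = ((g 1 0 : ℂ) * z₀ + (g 1 1 : ℂ)) ^ 6 * E₆ z₀ :=
      E_smul (by norm_num : 3 ≤ 6) g z₀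
    rw [e4, e6]
    ring

/-! ### The explicit elliptic points `i` and `ρ` -/

/-- The point `ρ = -1/2 + (√3/2) i`. -/
noncomputable def rho : ℍ :=
  ⟨⟨-1 / 2, Real.sqrt 3 / 2⟩, by
    show (0 : ℝ) < Real.sqrt 3 / 2
    positivity⟩

lemma coe_rho : (rho : ℂ) = ⟨-1 / 2, Real.sqrt 3 / 2⟩ := rfl

lemma rho_quad : (rho : ℂ) ^ 2 + rho + 1 = 0 := by
  have h3 : Real.sqrt 3 ^ 2 = 3 := Real.sq_sqrt (by norm_num)
  apply Complex.ext
  · simp only [coe_rho, pow_two, Complex.add_re, Complex.mul_re, Complex.one_re, Complex.zero_re]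
    nlinarith [h3]
  · simp only [coe_rho, pow_two, Complex.add_im, Complex.mul_im, Complex.one_im, Complex.zero_im]
    ring

/-- `S` fixes `w` iff `w ^ 2 = -1`. -/
lemma S_smul_eq_iff (w : ℍ) : ModularGroup.S • w = w ↔ (w : ℂ) ^ 2 = -1 := by
  have hw0 : (w : ℂ) ≠ 0 := UpperHalfPlane.ne_zero w
  rw [UpperHalfPlane.ext_iff, coe_smul_eq]
  have hS10 : (ModularGroup.S : Matrix (Fin 2) (Fin 2) ℤ) 1 0 = 1 := by
    simp [ModularGroup.S]
  have hS11 : (ModularGroup.S : Matrix (Fin 2) (Fin 2) ℤ) 1 1 = 0 := by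
    simp [ModularGroup.S]
  have hS00 : (ModularGroup.S : Matrix (Fin 2) (Fin 2) ℤ) 0 0 = 0 := by
    simp [ModularGroup.S]
  have hS01 : (ModularGroup.S : Matrix (Fin 2) (Fin 2) ℤ) 0 1 = -1 := by
    simp [ModularGroup.S]
  rw [hS10, hS11, hS00, hS01]
  push_cast
  have hden : (1 : ℂ) * (w : ℂ) + 0 ≠ 0 := by simpa using hw0
  rw [div_eq_iff hden]
  constructor
  · intro h; linear_combination -h
  · intro h; linear_combination -h

/-- `S * T` fixes `w` iff `w ^ 2 + w + 1 = 0`. -/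
lemma ST_smul_eq_iff (w : ℍ) :
    (ModularGroup.S * ModularGroup.T) • w = w ↔ (w : ℂ) ^ 2 + w + 1 = 0 := by
  rw [UpperHalfPlane.ext_iff, coe_smul_eq]
  have hU : ((ModularGroup.S * ModularGroup.T : SL(2, ℤ)) : Matrix (Fin 2) (Fin 2) ℤ) =
      !![0, -1; 1, 1] := by
    ext i j
    fin_cases i <;> fin_cases j <;>
      simp [ModularGroup.S, ModularGroup.T, Matrix.mul_apply, Fin.sum_univ_two]
  rw [hU]
  simp only [Matrix.of_apply, Matrix.cons_val', Matrix.cons_val_zero, Matrix.cons_val_one,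
    Matrix.cons_val_fin_one]
  push_cast
  have hden : (1 : ℂ) * (w : ℂ) + 1 ≠ 0 := by
    have := int_mul_add_ne_zero w (c := 1) (d := 1) (Or.inl one_ne_zero)
    simpa using this
  rw [div_eq_iff hden]
  constructor
  · intro h; linear_combination -h
  · intro h; linear_combination -h

theorem S_smul_I : ModularGroup.S • UpperHalfPlane.I = UpperHalfPlane.I := by
  rw [S_smul_eq_iff]
  show Complex.I ^ 2 = -1
  exact Complex.I_sq

theorem ST_smul_rho : (ModularGroup.S * ModularGroup.T) • rho = rho := by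
  rw [ST_smul_eq_iff]
  exact rho_quad

/-- `i` is the only fixed point of `S`. -/
theorem eq_I_of_S_smul {w : ℍ} (hw : ModularGroup.S • w = w) : w = UpperHalfPlane.I := by
  rw [S_smul_eq_iff] at hw
  have h1 : ((w : ℂ) - Complex.I) * ((w : ℂ) + Complex.I) = 0 := by
    have := Complex.I_sq
    linear_combination hw - this
  apply UpperHalfPlane.ext
  rcases mul_eq_zero.mp h1 with h | h
  · show (w : ℂ) = Complex.I
    linear_combination h
  · exfalso
    have him := congrArg Complex.im h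
    simp only [Complex.add_im, Complex.I_im, Complex.zero_im, UpperHalfPlane.coe_im] at him
    linarith [w.im_pos]

/-- `ρ` is the only fixed point of `S * T`. -/
theorem eq_rho_of_ST_smul {w : ℍ} (hw : (ModularGroup.S * ModularGroup.T) • w = w) :
    w = rho := by
  rw [ST_smul_eq_iff] at hw
  have hr := rho_quad
  have h1 : ((w : ℂ) - rho) * ((w : ℂ) + rho + 1) = 0 := by
    linear_combination hw - hr
  apply UpperHalfPlane.ext
  rcases mul_eq_zero.mp h1 with h | h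
  · linear_combination h
  · exfalso
    have him := congrArg Complex.im h
    simp only [Complex.add_im, Complex.one_im, Complex.zero_im, UpperHalfPlane.coe_im,
      add_zero] at him
    linarith [w.im_pos, rho.im_pos]

theorem E₆_I : E₆ UpperHalfPlane.I = 0 := E₆_eq_zero_of_S_smul S_smul_I

theorem E₄_rho : E₄ rho = 0 := E₄_eq_zero_of_ST_smul ST_smul_rho

theorem E₄_I_ne_zero : E₄ UpperHalfPlane.I ≠ 0 := E₄_ne_zero_of_E₆_eq_zero E₆_I

theorem E₆_rho_ne_zero : E₆ rho ≠ 0 := E₆_ne_zero_of_E₄_eq_zero E₄_rho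

theorem E₆_eq_zero_iff_I (z : ℍ) : E₆ z = 0 ↔ ∃ g : SL(2, ℤ), g • UpperHalfPlane.I = z :=
  E₆_eq_zero_iff S_smul_I z

theorem E₄_eq_zero_iff_rho (z : ℍ) : E₄ z = 0 ↔ ∃ g : SL(2, ℤ), g • rho = z :=
  E₄_eq_zero_iff ST_smul_rho z

end Fermat.Agent.S20.JInj
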