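import Mathlib
import Fermat.Agent.S20.Invertible
import Fermat.Agent.S20.JInj
import Fermat.Agent.S20.Cosets
import Fermat.Agent.S20.DualDefs

/-!
# S20 (M2): invertibility of the evaluation matrix at every point, and the final counts

`phi_injective B : Dual.PhiInjective B`: for a free basis `B`, the matrix
`Φ(z) = (comp_q F_j (z))_{q,j}` has independent columns at every point `z` of the upper half
plane.  At generic points this uses the level one form `ψ_z` vanishing exactly on the orbit of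
`z`, at the elliptic points the eigenvector argument of `Invertible.lean`.
-/

set_option autoImplicit false
set_option linter.unusedSectionVars false
set_option linter.style.haveILetI false

namespace Fermat.Agent.S20.Invertible

open UpperHalfPlane ModularForm EisensteinSeries CongruenceSubgroup Filter Topology Finset
open Fermat.Agent.S20 Ramanujan
open scoped MatrixGroups Manifold

variable {N : ℕ}

/-- **Independence, core argument.**  If `ψ` is a level one form with simple zeros vanishing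
exactly on the orbit of `z₀`, and for every `j` with `c j ≠ 0` there is a level one form `φ j`
of weight `K - k_j` not vanishing at `z₀`, then a relation `∑ c_j comp_q F_j (z₀) = 0` (all `q`)
forces `c = 0`. -/
theorem indep_core (B : FreeBasis N) (z₀ : ℍ) {m₀ : ℤ} {ψ : ℍ → ℂ}
    (hψ : IsMF 1 m₀ ψ) (hψ0 : ψ z₀ = 0)
    (hsimple : ∀ z, ψ z = 0 → deriv (ψ ∘ ofComplex) z ≠ 0)
    (hlim : ∃ c : ℂ, c ≠ 0 ∧ Tendsto ψ atImInfty (𝓝 c))
    (hzero : ∀ z, ψ z = 0 → ∃ δ : SL(2, ℤ), δ • z₀ = z)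
    (K : ℤ) (c : B.J → ℂ)
    (hφ : ∀ j, c j ≠ 0 → ∃ φ : ℍ → ℂ, IsMF 1 (K - B.k j) φ ∧ φ z₀ ≠ 0)
    (hrel : ∀ q : Q N, ∑ j, c j * comp N (B.k j) (B.F j) q z₀ = 0) :
    ∀ j, c j = 0 := by
  classical
  -- the coefficients
  have hex : ∀ j, ∃ a : ℍ → ℂ, IsMF 1 (K - B.k j) a ∧ a z₀ = c j := by
    intro j
    by_cases hj : c j = 0
    · exact ⟨0, isMF_zero 1 _, by simp [hj]⟩
    · obtain ⟨φ, hφMF, hφ0⟩ := hφ j hj
      refine ⟨(c j * (φ z₀)⁻¹) • φ, isMF_smul _ hφMF, ?_⟩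
      simp only [Pi.smul_apply, smul_eq_mul]
      rw [mul_assoc, inv_mul_cancel₀ hφ0, mul_one]
  choose a haMF haz using hex
  -- the form `H`
  set H : ℍ → ℂ := ∑ j, a j * B.F j with hH
  have hHMF : IsMF N K H := by
    rw [hH]
    refine isMF_sum _ _ (fun j _ => ?_)
    exact isMF_congr_weight (by ring) (isMF_mul (haMF j) (B.isMF j))
  have hHslash : ∀ δ : SL(2, ℤ), (H ∣[K] δ) z₀ = 0 := by
    intro δ
    rw [hH, SlashAction.sum_slash, Finset.sum_apply]
    rw [← hrel (QuotientGroup.mk δ⁻¹)]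
    refine Finset.sum_congr rfl (fun j _ => ?_)
    rw [mul_slash_SL2' (k1 := K - B.k j) (k2 := B.k j) (by ring),
      (haMF j).2.1 δ (Div.mem_Gamma0_one δ), slash_eq_comp (B.isMF j), Pi.mul_apply, haz]
  have hvanish : ∀ z, ψ z = 0 → H z = 0 := by
    intro z hz
    obtain ⟨δ, rfl⟩ := hzero z hz
    rw [apply_smul H K δ z₀, hHslash δ, zero_mul]
  obtain ⟨H', hH'MF, hmul⟩ := Div.exists_div_of_simple_zeros hψ hsimple hlim hHMF hvanish
  obtain ⟨a', ha'MF, hH'eq⟩ := B.span (K - m₀) H' hH'MF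
  set b : B.J → ℍ → ℂ := fun j => a j - ψ * a' j with hb
  have hbMF : ∀ j, IsMF 1 (K - B.k j) (b j) := by
    intro j
    refine isMF_sub (haMF j) (isMF_congr_weight ?_ (isMF_mul hψ (ha'MF j)))
    ring
  have hsum : ∀ z, ∑ j, b j z * B.F j z = 0 := by
    intro z
    have h1 : ∑ j, b j z * B.F j z = ∑ j, a j z * B.F j z - ψ z * ∑ j, a' j z * B.F j z := by
      rw [Finset.mul_sum, ← Finset.sum_sub_distrib]
      refine Finset.sum_congr rfl (fun j _ => ?_)
      simp only [hb, Pi.sub_apply, Pi.mul_apply]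
      ring
    have h2 : H z = ∑ j, a j z * B.F j z := by
      rw [hH, Finset.sum_apply]
      rfl
    rw [h1, ← h2, ← hH'eq z, hmul z, sub_self]
  have hb0 := B.indep K b hbMF hsum
  intro j
  have h1 := congrFun (hb0 j) z₀
  simp only [hb, Pi.sub_apply, Pi.mul_apply, hψ0, zero_mul, sub_zero, Pi.zero_apply] at h1
  rw [← haz j, h1]

/-- A level one form of any even weight `n ≥ 4` not vanishing at a given generic point. -/
theorem exists_levelOne_ne_zero {z₀ : ℍ} (h4 : E₄ z₀ ≠ 0) (h6 : E₆ z₀ ≠ 0) {n : ℤ}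
    (hn : 4 ≤ n) (he : Even n) : ∃ φ : ℍ → ℂ, IsMF 1 n φ ∧ φ z₀ ≠ 0 := by
  obtain ⟨t, ht⟩ := he
  by_cases h : n % 4 = 0
  · refine ⟨(E₄ : ℍ → ℂ) ^ (n / 4).toNat, isMF_congr_weight ?_ (isMF_pow isMF_E₄ _), ?_⟩
    · have : ((n / 4).toNat : ℤ) = n / 4 := Int.toNat_of_nonneg (by omega)
      rw [this]
      omega
    · rw [Pi.pow_apply]
      exact pow_ne_zero _ h4
  · refine ⟨(E₆ : ℍ → ℂ) * (E₄ : ℍ → ℂ) ^ ((n - 6) / 4).toNat,
      isMF_congr_weight ?_ (isMF_mul isMF_E₆ (isMF_pow isMF_E₄ _)), ?_⟩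
    · have : (((n - 6) / 4).toNat : ℤ) = (n - 6) / 4 := Int.toNat_of_nonneg (by omega)
      rw [this]
      omega
    · rw [Pi.mul_apply, Pi.pow_apply]
      exact mul_ne_zero h6 (pow_ne_zero _ h4)

section Generic

variable [NeZero N]

/-- **Invertibility at generic points.** -/
theorem indep_generic (B : FreeBasis N) {z₀ : ℍ} (h4 : E₄ z₀ ≠ 0) (h6 : E₆ z₀ ≠ 0)
    (c : B.J → ℂ) (hrel : ∀ q : Q N, ∑ j, c j * comp N (B.k j) (B.F j) q z₀ = 0) :
    ∀ j, c j = 0 := by
  set K : ℤ := 4 + 2 * ∑ j, |B.k j| with hK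
  refine indep_core B z₀ (isMF_psi z₀) (psi_self z₀) (fun z hz => deriv_psi_ne_zero h4 h6 hz)
    ⟨_, psi_limit_ne_zero z₀, tendsto_psi z₀⟩
    (fun z hz => (JInj.psi_eq_zero_iff h4 h6 z).mp hz) K c (fun j _ => ?_) hrel
  have h1 : |B.k j| ≤ ∑ j, |B.k j| :=
    Finset.single_le_sum (f := fun j => |B.k j|) (fun i _ => abs_nonneg _) (Finset.mem_univ j)
  have h2 : B.k j ≤ |B.k j| := le_abs_self _
  have h3 : 0 ≤ |B.k j| := abs_nonneg _
  refine exists_levelOne_ne_zero h4 h6 (by rw [hK]; linarith) ?_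
  obtain ⟨t, ht⟩ := even_weight B j
  exact ⟨2 + ∑ j, |B.k j| - t, by rw [hK, ht]; ring⟩

/-- Invertibility is transported along the `SL₂(ℤ)`-action. -/
theorem indep_smul (B : FreeBasis N) (δ : SL(2, ℤ)) {z₀ : ℍ}
    (h : ∀ c : B.J → ℂ, (∀ q : Q N, ∑ j, c j * comp N (B.k j) (B.F j) q z₀ = 0) →
      ∀ j, c j = 0)
    (c : B.J → ℂ) (hrel : ∀ q : Q N, ∑ j, c j * comp N (B.k j) (B.F j) q (δ • z₀) = 0) :
    ∀ j, c j = 0 := by
  have h1 : ∀ j, c j * aut δ z₀ ^ (B.k j) = 0 := by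
    refine h (fun j => c j * aut δ z₀ ^ (B.k j)) (fun q => ?_)
    rw [← hrel (δ • q)]
    refine Finset.sum_congr rfl (fun j _ => ?_)
    rw [apply_smul (comp N (B.k j) (B.F j) (δ • q)) (B.k j) δ z₀, comp_slash (B.isMF j),
      inv_smul_smul]
    ring
  intro j
  exact (mul_eq_zero.mp (h1 j)).resolve_right (zpow_ne_zero _ (aut_ne_zero δ z₀))

/-- **Invertibility of `Φ(z)` at every point** (the output of M2 consumed by the duality
module). -/
theorem phi_injective (B : FreeBasis N) : Dual.PhiInjective B := by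
  intro z c hrel
  by_cases h4 : E₄ z = 0
  · obtain ⟨δ, rfl⟩ := zero_in_orbit E₄_rho
      ⟨JInj.rho, fun w hw => (JInj.E₄_eq_zero_iff_rho w).mp hw⟩ z h4
    exact indep_smul B δ (indep_rho B
      ⟨JInj.rho, fun w hw => (JInj.E₄_eq_zero_iff_rho w).mp hw⟩) c hrel
  by_cases h6 : E₆ z = 0
  · obtain ⟨δ, rfl⟩ := zero_in_orbit E₆_I
      ⟨UpperHalfPlane.I, fun w hw => (JInj.E₆_eq_zero_iff_I w).mp hw⟩ z h6
    exact indep_smul B δ (indep_I B
      ⟨UpperHalfPlane.I, fun w hw => (JInj.E₆_eq_zero_iff_I w).mp hw⟩) c hrel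
  exact indep_generic B h4 h6 c hrel

/-! ### The counts of weights modulo 4 and 6 -/

theorem card_weight_mod_four (B : FreeBasis N) :
    2 * (univ.filter fun j => B.k j % 4 = 0).card =
      ModularCurve.dedekindPsi N + ModularCurve.nuTwo N :=
  card_weight_mod_four_of B (Cosets.card_Q N)
    ⟨UpperHalfPlane.I, fun w hw => (JInj.E₆_eq_zero_iff_I w).mp hw⟩

theorem card_weight_mod_six_two (B : FreeBasis N) :
    3 * (univ.filter fun j => B.k j % 6 = 2).card + ModularCurve.nuThree N =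
      ModularCurve.dedekindPsi N :=
  (card_weight_mod_six_of B (Cosets.card_Q N)
    ⟨JInj.rho, fun w hw => (JInj.E₄_eq_zero_iff_rho w).mp hw⟩).1

theorem card_weight_mod_six_four (B : FreeBasis N) :
    3 * (univ.filter fun j => B.k j % 6 = 4).card + ModularCurve.nuThree N =
      ModularCurve.dedekindPsi N :=
  (card_weight_mod_six_of B (Cosets.card_Q N)
    ⟨JInj.rho, fun w hw => (JInj.E₄_eq_zero_iff_rho w).mp hw⟩).2

end Generic

end Fermat.Agent.S20.Invertible
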