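import Mathlib
import Fermat.Agent.S20.Defs
import Fermat.Agent.S22.Periodic
import Fermat.Agent.S22.Growth

/-!
# S20, leaf G: expansions at the cusps

Every component `comp N K H q` of a modular form `H` on `Γ₀(N)` is holomorphic, `N`-periodic and
bounded at `i∞`; we use its `q_N`-expansion (`q_N = exp (2πiτ/N)`).
-/

set_option autoImplicit false

namespace Fermat.Agent.S20.CuspExp

open UpperHalfPlane CongruenceSubgroup ModularForm Function Filter Asymptotics
open scoped MatrixGroups ModularForm Manifold Topology Real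

local notation "𝕢" => Periodic.qParam

/-- holomorphic, `h`-periodic and bounded at `i∞` -/
structure Nice (h : ℝ) (g : ℍ → ℂ) : Prop where
  mdiff : MDiff g
  vadd : ∀ τ : ℍ, g (h +ᵥ τ) = g τ
  bdd : IsBoundedAtImInfty g

theorem Nice.per {h : ℝ} {g : ℍ → ℂ} (hg : Nice h g) : Periodic (g ∘ ofComplex) h :=
  Fermat.Agent.S22.periodic_comp_ofComplex_of_vadd hg.vadd

/-- the `m`-th coefficient of the `q_h`-expansion -/
noncomputable def cf (h : ℝ) (g : ℍ → ℂ) (m : ℕ) : ℂ := (qExpansion h g).coeff m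

section General

variable {h : ℝ} {g g₁ g₂ : ℍ → ℂ}

theorem Nice.analyticAt (hg : Nice h g) (hh : 0 < h) : AnalyticAt ℂ (cuspFunction h g) 0 :=
  analyticAt_cuspFunction_zero hh hg.per hg.mdiff hg.bdd

theorem Nice.hasSum (hg : Nice h g) (hh : 0 < h) (τ : ℍ) :
    HasSum (fun m : ℕ => cf h g m * 𝕢 h τ ^ m) (g τ) := by
  have := hasSum_qExpansion hh hg.per hg.mdiff hg.bdd τ
  simpa only [smul_eq_mul, cf] using this

theorem Nice.cf_unique (hg : Nice h g) (hh : 0 < h) {c : ℕ → ℂ}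
    (hc : ∀ τ : ℍ, HasSum (fun m : ℕ => c m * 𝕢 h τ ^ m) (g τ)) (m : ℕ) : c m = cf h g m := by
  have hc' : ∀ τ : ℍ, HasSum (fun m : ℕ => c m • 𝕢 h τ ^ m) (g τ) := fun τ => by
    simpa only [smul_eq_mul] using hc τ
  have hc'' : ∀ τ : ℍ, HasSum (fun m : ℕ => cf h g m • 𝕢 h τ ^ m) (g τ) := fun τ => by
    simpa only [smul_eq_mul] using hg.hasSum hh τ
  have h1 := (hasFPowerSeriesOnBall_cuspFunction hh (hg.analyticAt hh) hc').hasFPowerSeriesAt
  have h2 := (hasFPowerSeriesOnBall_cuspFunction hh (hg.analyticAt hh) hc'').hasFPowerSeriesAt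
  have := congr_arg (FormalMultilinearSeries.coeff · m) (h1.eq_formalMultilinearSeries h2)
  simpa [FormalMultilinearSeries.coeff_ofScalars] using this

theorem Nice.add (h₁ : Nice h g₁) (h₂ : Nice h g₂) : Nice h (g₁ + g₂) where
  mdiff := h₁.mdiff.add h₂.mdiff
  vadd τ := by
    simp only [Pi.add_apply]
    rw [h₁.vadd, h₂.vadd]
  bdd := h₁.bdd.add h₂.bdd

theorem Nice.smul (h₁ : Nice h g) (c : ℂ) : Nice h (c • g) where
  mdiff := h₁.mdiff.const_smul c
  vadd τ := by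
    simp only [Pi.smul_apply]
    rw [h₁.vadd]
  bdd := h₁.bdd.const_smul_left c

theorem cf_add (h₁ : Nice h g₁) (h₂ : Nice h g₂) (hh : 0 < h) (m : ℕ) :
    cf h (g₁ + g₂) m = cf h g₁ m + cf h g₂ m := by
  refine ((h₁.add h₂).cf_unique hh (c := fun m => cf h g₁ m + cf h g₂ m) (fun τ => ?_) m).symm
  have := (h₁.hasSum hh τ).add (h₂.hasSum hh τ)
  simpa only [add_mul, Pi.add_apply] using this

theorem cf_smul (h₁ : Nice h g) (hh : 0 < h) (c : ℂ) (m : ℕ) :
    cf h (c • g) m = c * cf h g m := by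
  refine ((h₁.smul c).cf_unique hh (c := fun m => c * cf h g m) (fun τ => ?_) m).symm
  have := (h₁.hasSum hh τ).mul_left c
  simpa only [mul_assoc, Pi.smul_apply, smul_eq_mul] using this

theorem Nice.tendsto (hg : Nice h g) (hh : 0 < h) : Tendsto g atImInfty (𝓝 (cf h g 0)) := by
  have h1 : cf h g 0 = cuspFunction h g 0 := by
    simp [cf, qExpansion_coeff]
  rw [h1]
  have hc : ContinuousAt (cuspFunction h g) 0 := (hg.analyticAt hh).continuousAt
  have := hc.tendsto.comp (qParam_tendsto_atImInfty hh)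
  refine this.congr fun τ => ?_
  simp only [comp_apply]
  exact eq_cuspFunction τ hh.ne' hg.per

theorem Nice.isZeroAtImInfty_iff (hg : Nice h g) (hh : 0 < h) :
    IsZeroAtImInfty g ↔ cf h g 0 = 0 := by
  constructor
  · intro hz
    exact tendsto_nhds_unique (hg.tendsto hh) hz
  · intro hz
    have := hg.tendsto hh
    rwa [hz] at this

/-- Taylor expansion with remainder at the cusp. -/
theorem Nice.tail_isBigO (hg : Nice h g) (hh : 0 < h) (M : ℕ) :
    (fun τ : ℍ => g τ - ∑ m ∈ Finset.range M, cf h g m * 𝕢 h τ ^ m)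
      =O[atImInfty] fun τ : ℍ => ‖𝕢 h τ‖ ^ M := by
  have hc'' : ∀ τ : ℍ, HasSum (fun m : ℕ => cf h g m • 𝕢 h τ ^ m) (g τ) := fun τ => by
    simpa only [smul_eq_mul] using hg.hasSum hh τ
  have h2 := (hasFPowerSeriesOnBall_cuspFunction hh (hg.analyticAt hh) hc'').hasFPowerSeriesAt
  have h3 := (h2.isBigO_sub_partialSum_pow M).comp_tendsto (qParam_tendsto_atImInfty hh)
  refine h3.congr_left fun τ => ?_
  simp only [comp_apply, zero_add]
  rw [eq_cuspFunction τ hh.ne' hg.per, FormalMultilinearSeries.partialSum]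
  congr 1
  refine Finset.sum_congr rfl fun m _ => ?_
  rw [FormalMultilinearSeries.ofScalars_apply_eq, smul_eq_mul]

theorem tendsto_vadd_atImInfty (x : ℝ) :
    Tendsto (fun τ : ℍ => x +ᵥ τ) atImInfty atImInfty := by
  rw [atImInfty, tendsto_comap_iff]
  have : (UpperHalfPlane.im ∘ fun τ : ℍ => x +ᵥ τ) = UpperHalfPlane.im := by
    funext τ
    simp
  rw [this]
  exact tendsto_comap

theorem translate_eq_slash (g : ℍ → ℂ) :
    (fun τ : ℍ => g ((1 : ℝ) +ᵥ τ)) = g ∣[(0 : ℤ)] ModularGroup.T := by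
  funext τ
  rw [SL_slash_apply, UpperHalfPlane.modular_T_smul]
  simp

/-- translation by `1` -/
theorem Nice.translate (hg : Nice h g) : Nice h (fun τ : ℍ => g ((1 : ℝ) +ᵥ τ)) where
  mdiff := by
    rw [translate_eq_slash]
    exact hg.mdiff.slash 0 _
  vadd τ := by
    have : (1 : ℝ) +ᵥ (h +ᵥ τ) = h +ᵥ ((1 : ℝ) +ᵥ τ) := by
      rw [vadd_vadd, vadd_vadd, add_comm]
    show g ((1 : ℝ) +ᵥ (h +ᵥ τ)) = g ((1 : ℝ) +ᵥ τ)
    rw [this, hg.vadd]
  bdd := hg.bdd.comp_tendsto (tendsto_vadd_atImInfty 1)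

theorem qParam_vadd_one (h : ℝ) (τ : ℍ) :
    𝕢 h (((1 : ℝ) +ᵥ τ : ℍ) : ℂ) = Complex.exp (2 * π * Complex.I / h) * 𝕢 h τ := by
  simp only [Periodic.qParam, ← Complex.exp_add, UpperHalfPlane.coe_vadd]
  congr 1
  push_cast
  ring

theorem cf_translate (hg : Nice h g) (hh : 0 < h) (m : ℕ) :
    cf h (fun τ : ℍ => g ((1 : ℝ) +ᵥ τ)) m = Complex.exp (2 * π * Complex.I / h) ^ m * cf h g m := by
  refine (hg.translate.cf_unique hh
    (c := fun m => Complex.exp (2 * π * Complex.I / h) ^ m * cf h g m) (fun τ => ?_) m).symm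
  have := hg.hasSum hh ((1 : ℝ) +ᵥ τ)
  simp only [qParam_vadd_one, mul_pow] at this
  refine this.congr_fun fun m => ?_   
  ring

end General

section Modular

variable {N : ℕ} [NeZero N] {K : ℤ} {H H₁ H₂ : ℍ → ℂ}

omit [NeZero N] in
theorem nice_slash (hH : IsMF N K H) (δ : SL(2, ℤ)) : Nice (N : ℝ) (H ∣[K] δ) where
  mdiff := hH.1.slash K _
  vadd := Fermat.Agent.S22.slash_vadd_periodic H K N δ hH.2.1
  bdd := hH.2.2 δ

omit [NeZero N] in
theorem nice_comp (hH : IsMF N K H) (q : Q N) : Nice (N : ℝ) (comp N K H q) :=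
  nice_slash hH _

omit [NeZero N] in
/-- For `Γ₀(N)`-invariant `H`, `H ∣ δ` is the component at the coset `δ⁻¹ Γ₀(N)`. -/
theorem slash_eq_comp (hH : ∀ γ ∈ Gamma0 N, H ∣[K] γ = H) (δ : SL(2, ℤ)) :
    H ∣[K] δ = comp N K H (QuotientGroup.mk δ⁻¹) := by
  obtain ⟨γ, hγ⟩ := QuotientGroup.mk_out_eq_mul (Gamma0 N) δ⁻¹
  unfold comp
  rw [hγ, mul_inv_rev, inv_inv, SlashAction.slash_mul, hH _ (inv_mem γ.2)]

omit [NeZero N] in
theorem comp_add (q : Q N) : comp N K (H₁ + H₂) q = comp N K H₁ q + comp N K H₂ q := by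
  unfold comp
  rw [SlashAction.add_slash]

omit [NeZero N] in
theorem comp_smul (c : ℂ) (q : Q N) : comp N K (c • H) q = c • comp N K H q := by
  unfold comp
  rw [ModularForm.SL_smul_slash]

omit [NeZero N] in
/-- `T`-equivariance of the components. -/
theorem comp_T (hH : ∀ γ ∈ Gamma0 N, H ∣[K] γ = H) (q : Q N) (τ : ℍ) :
    comp N K H ((ModularGroup.T)⁻¹ • q) τ = comp N K H q ((1 : ℝ) +ᵥ τ) := by
  have h1 : (ModularGroup.T)⁻¹ • q =
      (QuotientGroup.mk ((q.out : SL(2, ℤ))⁻¹ * ModularGroup.T)⁻¹ : Q N) := by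
    conv_lhs => rw [← QuotientGroup.out_eq' q]
    rw [mul_inv_rev, inv_inv]
    rfl
  rw [h1, ← slash_eq_comp hH, SlashAction.slash_mul]
  show ((comp N K H q) ∣[K] ModularGroup.T) τ = _
  rw [SL_slash_apply, UpperHalfPlane.modular_T_smul]
  simp [denom]

/-- The `m`-th coefficient of the `q_N`-expansion of the component of `H` at `q`. -/
noncomputable def coef (N : ℕ) (K : ℤ) (H : ℍ → ℂ) (q : Q N) (m : ℕ) : ℂ :=
  cf (N : ℝ) (comp N K H q) m

theorem pos_N : (0 : ℝ) < (N : ℝ) := by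
  exact_mod_cast Nat.pos_of_ne_zero (NeZero.ne N)

theorem coef_add (h₁ : IsMF N K H₁) (h₂ : IsMF N K H₂) (q : Q N) (m : ℕ) :
    coef N K (H₁ + H₂) q m = coef N K H₁ q m + coef N K H₂ q m := by
  unfold coef
  rw [comp_add]
  exact cf_add (nice_comp h₁ q) (nice_comp h₂ q) pos_N m

theorem coef_smul (h₁ : IsMF N K H) (c : ℂ) (q : Q N) (m : ℕ) :
    coef N K (c • H) q m = c * coef N K H q m := by
  unfold coef
  rw [comp_smul]
  exact cf_smul (nice_comp h₁ q) pos_N c m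

theorem hasSum_coef (hH : IsMF N K H) (q : Q N) (τ : ℍ) :
    HasSum (fun m : ℕ => coef N K H q m * 𝕢 (N : ℝ) τ ^ m) (comp N K H q τ) :=
  (nice_comp hH q).hasSum pos_N τ

/-- `T`-equivariance of the coefficients. -/
theorem coef_T (hH : IsMF N K H) (q : Q N) (m : ℕ) :
    coef N K H ((ModularGroup.T)⁻¹ • q) m =
      Complex.exp (2 * π * Complex.I / N) ^ m * coef N K H q m := by
  unfold coef
  have h1 : comp N K H ((ModularGroup.T)⁻¹ • q) = fun τ => comp N K H q ((1 : ℝ) +ᵥ τ) :=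
    funext fun τ => comp_T hH.2.1 q τ
  rw [h1]
  have := cf_translate (nice_comp hH q) pos_N m
  simpa using this

theorem isCF_iff_coef_zero (hH : IsMF N K H) : IsCF N K H ↔ ∀ q : Q N, coef N K H q 0 = 0 := by
  constructor
  · intro hC q
    exact ((nice_comp hH q).isZeroAtImInfty_iff pos_N).mp (hC.2.2 _)
  · intro h0
    refine ⟨hH.1, hH.2.1, fun δ => ?_⟩
    rw [slash_eq_comp hH.2.1 δ]
    exact ((nice_comp hH _).isZeroAtImInfty_iff pos_N).mpr (h0 _)

theorem norm_qParam_pow_N (τ : ℍ) : ‖𝕢 (N : ℝ) τ‖ ^ N = Real.exp (-2 * π * τ.im) := by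
  rw [Periodic.norm_qParam, ← Real.exp_nat_mul]
  congr 1
  have := pos_N (N := N)
  rw [UpperHalfPlane.coe_im]
  field_simp

/-- Taylor expansion with remainder of the components. -/
theorem comp_tail_isBigO (hH : IsMF N K H) (q : Q N) :
    (fun τ : ℍ => comp N K H q τ - ∑ m ∈ Finset.range N, coef N K H q m * 𝕢 (N : ℝ) τ ^ m)
      =O[atImInfty] fun τ : ℍ => Real.exp (-2 * π * τ.im) := by
  have := (nice_comp hH q).tail_isBigO pos_N N
  refine this.congr_right fun τ => ?_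
  exact norm_qParam_pow_N τ

/-- If all coefficients `coef q m`, `m < N`, vanish then `(H ∣ δ) / Δ` is bounded at `i∞`. -/
theorem bdd_div_discriminant (hH : IsMF N K H)
    (h0 : ∀ q : Q N, ∀ m < N, coef N K H q m = 0) (δ : SL(2, ℤ)) :
    IsBoundedAtImInfty ((H ∣[K] δ) / ModularForm.discriminant) := by
  rw [slash_eq_comp hH.2.1 δ]
  set q : Q N := QuotientGroup.mk δ⁻¹
  have h1 := comp_tail_isBigO hH q
  have h2 : (fun τ : ℍ => comp N K H q τ -
      ∑ m ∈ Finset.range N, coef N K H q m * 𝕢 (N : ℝ) τ ^ m) = comp N K H q := by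
    funext τ
    rw [Finset.sum_eq_zero, sub_zero]
    intro m hm
    rw [h0 q m (Finset.mem_range.mp hm), zero_mul]
  rw [h2] at h1
  have h3 := h1.trans ModularForm.exp_isBigO_discriminant
  rw [IsBoundedAtImInfty, BoundedAtFilter]
  exact (div_isBoundedUnder_of_isBigO h3).isBigO_one ℝ

end Modular

end Fermat.Agent.S20.CuspExp
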