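import Mathlib

/-!
# S20: spectral decomposition of a permutation operator of finite order (pure linear algebra)

For a permutation `t` of a finite type `Q` with `t ^ N = 1`, the operators
`proj t N m u = (1/N) ∑_{j<N} ζ^{-mj} u ∘ t^j` are the spectral projections of `u ↦ u ∘ t`.
-/

set_option autoImplicit false

namespace Fermat.Agent.S20.Spectral

open scoped Real
open Finset

/-- the standard primitive `N`-th root of unity -/
noncomputable def zeta (N : ℕ) : ℂ := Complex.exp (2 * π * Complex.I / N)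

theorem zeta_isPrimitiveRoot {N : ℕ} (hN : N ≠ 0) : IsPrimitiveRoot (zeta N) N :=
  Complex.isPrimitiveRoot_exp N hN

theorem zeta_pow_self {N : ℕ} (hN : N ≠ 0) : zeta N ^ N = 1 :=
  (zeta_isPrimitiveRoot hN).pow_eq_one

theorem zeta_ne_zero (N : ℕ) : zeta N ≠ 0 := Complex.exp_ne_zero _

theorem norm_zeta (N : ℕ) : ‖zeta N‖ = 1 := by
  unfold zeta
  rw [Complex.norm_exp]
  simp

theorem norm_zeta_inv (N : ℕ) : ‖(zeta N)⁻¹‖ = 1 := by
  rw [norm_inv, norm_zeta, inv_one]

/-- geometric sum of a root of unity -/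
theorem sum_pow_of_pow_eq_one {N : ℕ} {ω : ℂ} (hω : ω ^ N = 1) :
    ∑ j ∈ range N, ω ^ j = if ω = 1 then (N : ℂ) else 0 := by
  split_ifs with h
  · subst h
    simp
  · have := mul_geom_sum ω N
    rw [hω, sub_self] at this
    exact (mul_eq_zero.mp this).resolve_left (sub_ne_zero.mpr h)

variable {Q : Type*}

/-- the spectral projection onto the `ζ^m`-eigenspace of `u ↦ u ∘ t` -/
noncomputable def proj (t : Equiv.Perm Q) (N : ℕ) (m : ℕ) : (Q → ℂ) →ₗ[ℂ] (Q → ℂ) where
  toFun u q := (N : ℂ)⁻¹ * ∑ j ∈ range N, ((zeta N)⁻¹) ^ (m * j) * u ((t ^ j) q)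
  map_add' u v := by
    funext q
    simp only [Pi.add_apply, mul_add, sum_add_distrib]
  map_smul' c u := by
    funext q
    simp only [Pi.smul_apply, smul_eq_mul, RingHom.id_apply, mul_sum]
    refine sum_congr rfl fun j _ => ?_
    ring

theorem proj_apply (t : Equiv.Perm Q) (N m : ℕ) (u : Q → ℂ) (q : Q) :
    proj t N m u q = (N : ℂ)⁻¹ * ∑ j ∈ range N, ((zeta N)⁻¹) ^ (m * j) * u ((t ^ j) q) := rfl

theorem iterate_eigen {t : Equiv.Perm Q} {c : ℂ} {b : Q → ℂ} (hb : ∀ q, b (t q) = c * b q)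
    (j : ℕ) (q : Q) : b ((t ^ j) q) = c ^ j * b q := by
  induction j generalizing q with
  | zero => simp
  | succ j ih =>
    rw [pow_succ, Equiv.Perm.mul_apply, ih, hb, pow_succ]
    ring

/-- the projections applied to an eigenvector -/
theorem proj_eigen {t : Equiv.Perm Q} {N : ℕ} (hN : N ≠ 0) {m m' : ℕ} (hm : m < N)
    (hm' : m' < N) {b : Q → ℂ} (hb : ∀ q, b (t q) = zeta N ^ m' * b q) :
    proj t N m b = if m = m' then b else 0 := by
  funext q
  rw [proj_apply]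
  have h1 : ∀ j ∈ range N, ((zeta N)⁻¹) ^ (m * j) * b ((t ^ j) q) =
      (((zeta N)⁻¹) ^ m * zeta N ^ m') ^ j * b q := by
    intro j _
    rw [iterate_eigen hb, mul_pow, ← pow_mul, ← pow_mul]
    ring
  rw [sum_congr rfl h1, ← sum_mul]
  have hω : (((zeta N)⁻¹) ^ m * zeta N ^ m') ^ N = 1 := by
    rw [mul_pow, ← pow_mul, ← pow_mul, mul_comm m N, mul_comm m' N, pow_mul, pow_mul, inv_pow,
      zeta_pow_self hN]
    simp
  rw [sum_pow_of_pow_eq_one hω]
  have hiff : ((zeta N)⁻¹) ^ m * zeta N ^ m' = 1 ↔ m = m' := by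
    rw [inv_pow, inv_mul_eq_one₀ (pow_ne_zero _ (zeta_ne_zero N))]
    constructor
    · intro h
      exact (zeta_isPrimitiveRoot hN).pow_inj hm hm' h
    · intro h
      rw [h]
  have hNC : (N : ℂ) ≠ 0 := by exact_mod_cast hN
  by_cases h : m = m'
  · rw [if_pos (hiff.mpr h), if_pos h]
    field_simp
  · rw [if_neg (fun h' => h (hiff.mp h')), if_neg h]
    simp

/-- the projections sum to the identity -/
theorem sum_proj {t : Equiv.Perm Q} {N : ℕ} (hN : N ≠ 0) (u : Q → ℂ) :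
    ∑ m ∈ range N, proj t N m u = u := by
  funext q
  rw [Finset.sum_apply]
  simp only [proj_apply]
  rw [← mul_sum, sum_comm]
  have h1 : ∀ j ∈ range N, ∑ m ∈ range N, ((zeta N)⁻¹) ^ (m * j) * u ((t ^ j) q) =
      (if j = 0 then (N : ℂ) else 0) * u ((t ^ j) q) := by
    intro j hj
    rw [← sum_mul]
    congr 1
    have hω : (((zeta N)⁻¹) ^ j) ^ N = 1 := by
      rw [← pow_mul, mul_comm, pow_mul, inv_pow, zeta_pow_self hN]
      simp
    have h2 : ∑ m ∈ range N, ((zeta N)⁻¹) ^ (m * j) = ∑ m ∈ range N, (((zeta N)⁻¹) ^ j) ^ m := by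
      refine sum_congr rfl fun m _ => ?_
      rw [← pow_mul, mul_comm]
    rw [h2, sum_pow_of_pow_eq_one hω]
    have hiff : ((zeta N)⁻¹) ^ j = 1 ↔ j = 0 := by
      rw [inv_pow, inv_eq_one]
      constructor
      · intro h
        have := (zeta_isPrimitiveRoot hN).pow_inj (mem_range.mp hj) (Nat.pos_of_ne_zero hN)
          (by rw [h, pow_zero])
        exact this
      · intro h
        rw [h, pow_zero]
    simp only [hiff]
  rw [sum_congr rfl h1]
  have hNC : (N : ℂ) ≠ 0 := by exact_mod_cast hN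
  rw [sum_eq_single 0]
  · simp
    field_simp
  · intro j _ hj
    simp [hj]
  · intro h
    exact absurd (mem_range.mpr (Nat.pos_of_ne_zero hN)) h

/-- `proj t N m u` is an eigenvector -/
theorem proj_isEigen {t : Equiv.Perm Q} {N : ℕ} (hN : N ≠ 0) (ht : t ^ N = 1) (m : ℕ)
    (u : Q → ℂ) (q : Q) : proj t N m u (t q) = zeta N ^ m * proj t N m u q := by
  simp only [proj_apply]
  have h1 : ∀ j ∈ range N, ((zeta N)⁻¹) ^ (m * j) * u ((t ^ j) (t q)) =
      zeta N ^ m * (((zeta N)⁻¹) ^ (m * (j + 1)) * u ((t ^ (j + 1)) q)) := by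
    intro j _
    rw [pow_succ t, Equiv.Perm.mul_apply, mul_add, mul_one, pow_add, ← mul_assoc, ← mul_assoc]
    congr 1
    have hz : zeta N ^ m * ((zeta N)⁻¹) ^ m = 1 := by
      rw [inv_pow, mul_inv_cancel₀ (pow_ne_zero _ (zeta_ne_zero N))]
    linear_combination (-(((zeta N)⁻¹) ^ (m * j))) * hz
  rw [sum_congr rfl h1, ← mul_sum]
  have h2 : ∑ j ∈ range N, ((zeta N)⁻¹) ^ (m * (j + 1)) * u ((t ^ (j + 1)) q) =
      ∑ j ∈ range N, ((zeta N)⁻¹) ^ (m * j) * u ((t ^ j) q) := by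
    have e1 := sum_range_succ (fun j => ((zeta N)⁻¹) ^ (m * j) * u ((t ^ j) q)) N
    have e2 := sum_range_succ' (fun j => ((zeta N)⁻¹) ^ (m * j) * u ((t ^ j) q)) N
    rw [e1] at e2
    have e3 : ((zeta N)⁻¹) ^ (m * N) * u ((t ^ N) q) = ((zeta N)⁻¹) ^ (m * 0) * u ((t ^ 0) q) := by
      rw [ht, mul_comm m N, pow_mul, inv_pow, zeta_pow_self hN]
      simp
    rw [e3] at e2
    exact (add_right_cancel e2).symm
  rw [h2]
  ring

/-- orthogonality of the projections -/
theorem proj_proj {t : Equiv.Perm Q} {N : ℕ} (hN : N ≠ 0) (ht : t ^ N = 1) {m m' : ℕ}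
    (hm : m < N) (hm' : m' < N) (u : Q → ℂ) :
    proj t N m (proj t N m' u) = if m = m' then proj t N m' u else 0 :=
  proj_eigen hN hm hm' (proj_isEigen hN ht m' u)

/-- sup-norm bound for the projections -/
theorem norm_proj_apply_le (t : Equiv.Perm Q) {N : ℕ} (hN : N ≠ 0) (m : ℕ) (u : Q → ℂ)
    {M : ℝ} (hu : ∀ q, ‖u q‖ ≤ M) (q : Q) : ‖proj t N m u q‖ ≤ M := by
  rw [proj_apply, norm_mul, norm_inv, Complex.norm_natCast]
  have hNR : (0 : ℝ) < N := by exact_mod_cast Nat.pos_of_ne_zero hN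
  have h1 : ‖∑ j ∈ range N, ((zeta N)⁻¹) ^ (m * j) * u ((t ^ j) q)‖ ≤ N * M := by
    refine (norm_sum_le _ _).trans ?_
    have : ∀ j ∈ range N, ‖((zeta N)⁻¹) ^ (m * j) * u ((t ^ j) q)‖ ≤ M := by
      intro j _
      rw [norm_mul, norm_pow, norm_zeta_inv, one_pow, one_mul]
      exact hu _
    refine (sum_le_sum this).trans ?_
    simp
  calc (N : ℝ)⁻¹ * ‖∑ j ∈ range N, ((zeta N)⁻¹) ^ (m * j) * u ((t ^ j) q)‖
      ≤ (N : ℝ)⁻¹ * (N * M) := by gcongr
    _ = M := by field_simp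

/-- adjointness: the transpose of `proj t` is `proj t⁻¹` -/
theorem sum_mul_proj [Fintype Q] (t : Equiv.Perm Q) (N m : ℕ) (r u : Q → ℂ) :
    ∑ q, r q * proj t N m u q = ∑ q, proj t⁻¹ N m r q * u q := by
  simp only [proj_apply, mul_sum, sum_mul]
  rw [sum_comm]
  conv_rhs => rw [sum_comm]
  refine sum_congr rfl fun j _ => ?_
  rw [← Equiv.sum_comp (t ^ j)⁻¹]
  refine sum_congr rfl fun q _ => ?_
  have : (t ^ j) ((t ^ j)⁻¹ q) = q := by simp
  have e : (t ^ j)⁻¹ = t⁻¹ ^ j := (inv_pow t j).symm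
  rw [this, e]
  ring

/-- the operator `∑ z^m proj_m` is bounded below -/
theorem norm_le_of_twisted [Fintype Q] {t : Equiv.Perm Q} {N : ℕ} (hN : N ≠ 0) (ht : t ^ N = 1)
    {z : ℂ} (hz : z ≠ 0) (hz1 : ‖z‖ ≤ 1) (r : Q → ℂ) (q : Q) :
    ‖r q‖ ≤ N * (‖z‖⁻¹) ^ (N - 1) * ∑ i, ‖∑ m ∈ range N, z ^ m * proj t N m r i‖ := by
  set v : Q → ℂ := fun i => ∑ m ∈ range N, z ^ m * proj t N m r i with hv
  have hv' : v = ∑ m ∈ range N, z ^ m • proj t N m r := by
    funext i
    simp [hv, Finset.sum_apply]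
  have hproj : ∀ m₀ ∈ range N, proj t N m₀ v = z ^ m₀ • proj t N m₀ r := by
    intro m₀ hm₀
    rw [hv', map_sum]
    have h1 : ∀ m ∈ range N, proj t N m₀ (z ^ m • proj t N m r) =
        if m₀ = m then z ^ m • proj t N m r else 0 := by
      intro m hm
      rw [map_smul, proj_proj hN ht (mem_range.mp hm₀) (mem_range.mp hm)]
      split_ifs <;> simp
    rw [sum_congr rfl h1, sum_ite_eq (range N) m₀]
    simp [hm₀]
  have hr : r q = ∑ m₀ ∈ range N, (z ^ m₀)⁻¹ * proj t N m₀ v q := by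
    have h2 := congrFun (sum_proj (t := t) hN r) q
    rw [Finset.sum_apply] at h2
    rw [← h2]
    refine sum_congr rfl fun m₀ hm₀ => ?_
    rw [hproj m₀ hm₀, Pi.smul_apply, smul_eq_mul, ← mul_assoc,
      inv_mul_cancel₀ (pow_ne_zero _ hz), one_mul]
  have hS : ∀ i, ‖v i‖ ≤ ∑ i, ‖v i‖ := fun i =>
    single_le_sum (f := fun i => ‖v i‖) (fun i _ => norm_nonneg _) (mem_univ i)
  have hz0 : 0 < ‖z‖ := norm_pos_iff.mpr hz
  have hzi : 1 ≤ ‖z‖⁻¹ := (one_le_inv₀ hz0).mpr hz1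
  have hS0 : 0 ≤ ∑ i, ‖v i‖ := sum_nonneg fun i _ => norm_nonneg _
  rw [hr]
  refine (norm_sum_le _ _).trans ?_
  have hterm : ∀ m₀ ∈ range N, ‖(z ^ m₀)⁻¹ * proj t N m₀ v q‖ ≤
      (‖z‖⁻¹) ^ (N - 1) * ∑ i, ‖v i‖ := by
    intro m₀ hm₀
    rw [norm_mul, norm_inv, norm_pow, ← inv_pow]
    have h3 : (‖z‖⁻¹) ^ m₀ ≤ (‖z‖⁻¹) ^ (N - 1) :=
      pow_le_pow_right₀ hzi (by have := mem_range.mp hm₀; omega)
    exact mul_le_mul h3 (norm_proj_apply_le t hN m₀ v hS q) (norm_nonneg _)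
      (pow_nonneg (inv_nonneg.mpr hz0.le) _)
  refine (sum_le_sum hterm).trans ?_
  rw [sum_const, card_range, nsmul_eq_mul, mul_assoc]

section Invariants

variable (G : Type*) [Group G] (Q : Type*) [MulAction G Q]

/-- the submodule of `G`-invariant functions -/
def invariants : Submodule ℂ (Q → ℂ) where
  carrier := {u | ∀ (g : G) (q : Q), u (g • q) = u q}
  add_mem' := by
    intro u v hu hv g q
    simp only [Pi.add_apply, hu g q, hv g q]
  zero_mem' := by
    intro g q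
    rfl
  smul_mem' := by
    intro c u hu g q
    simp only [Pi.smul_apply, hu g q]

variable {G Q}

theorem mem_invariants {u : Q → ℂ} : u ∈ invariants G Q ↔ ∀ (g : G) (q : Q), u (g • q) = u q :=
  Iff.rfl

variable (G Q)

/-- invariant functions are functions on the orbit space -/
noncomputable def invariantsEquiv :
    (MulAction.orbitRel.Quotient G Q → ℂ) ≃ₗ[ℂ] invariants G Q where
  toFun f := ⟨fun q => f (Quotient.mk'' q), fun g q => by
    have : (Quotient.mk'' (g • q) : MulAction.orbitRel.Quotient G Q) = Quotient.mk'' q := by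
      rw [Quotient.eq'']
      exact ⟨g, rfl⟩
    simp only [this]⟩
  map_add' f₁ f₂ := rfl
  map_smul' c f := rfl
  invFun u := fun x => Quotient.liftOn' x u.1 (fun a b hab => by
    obtain ⟨g, hg⟩ := hab
    rw [← hg]
    exact u.2 g b)
  left_inv f := by
    funext x
    induction x using Quotient.inductionOn' with
    | h q => rfl
  right_inv u := by
    apply Subtype.ext
    funext q
    rfl

theorem finrank_invariants [Finite Q] :
    Module.finrank ℂ (invariants G Q) = Nat.card (MulAction.orbitRel.Quotient G Q) := by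
  classical
  have : Fintype (MulAction.orbitRel.Quotient G Q) := Fintype.ofFinite _
  rw [← (invariantsEquiv G Q).finrank_eq, Module.finrank_fintype_fun_eq_card,
    Nat.card_eq_fintype_card]

end Invariants

end Fermat.Agent.S20.Spectral
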