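import Mathlib
import Fermat.Agent.S20.Defs
import Fermat.Agent.S20.Basic
import Fermat.Agent.S20.Div
import Fermat.Agent.S20.CuspExp
import Fermat.Agent.S20.Spectral

/-!
# S20, module M3: jets at the cusps

The jet map `J : M_K(Γ₀(N)) → ℂ^Q`, `J(H)(q) = ∑_{m<N} coef N K H q m`, has kernel `Δ · M_{K-12}`
and is surjective as soon as `dim M_K - dim M_{K-12} = [SL₂(ℤ) : Γ₀(N)]`.
-/

set_option autoImplicit false

namespace Fermat.Agent.S20.Jets

open UpperHalfPlane CongruenceSubgroup ModularForm Function Filter Asymptotics Finset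
open Fermat.Agent.S20.CuspExp Fermat.Agent.S20.Spectral
open scoped MatrixGroups ModularForm Manifold Topology Real

local notation "𝕢" => Periodic.qParam
local notation "Δ" => ModularForm.discriminant

variable {N : ℕ} [NeZero N] {K : ℤ}

/-- the permutation of the cosets given by `T⁻¹` -/
noncomputable def tPerm (N : ℕ) : Equiv.Perm (Q N) :=
  MulAction.toPerm ((ModularGroup.T)⁻¹ : SL(2, ℤ))

omit [NeZero N] in
theorem tPerm_apply (q : Q N) : tPerm N q = (ModularGroup.T)⁻¹ • q := rfl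

omit [NeZero N] in
theorem T_zpow_N_smul (q : Q N) : (ModularGroup.T ^ (N : ℤ)) • q = q := by
  induction q using QuotientGroup.induction_on with
  | H h =>
    show ((ModularGroup.T ^ (N : ℤ) * h : SL(2, ℤ)) : Q N) = (h : Q N)
    rw [QuotientGroup.eq]
    have := Fermat.Agent.S22.conj_T_zpow_mem_gamma0 N h⁻¹
    rw [inv_inv] at this
    have h2 := inv_mem this
    convert h2 using 1
    group

omit [NeZero N] in
theorem tPerm_pow_N : tPerm N ^ N = 1 := by
  ext q
  have h1 : (tPerm N ^ N) q = ((ModularGroup.T)⁻¹ ^ N : SL(2, ℤ)) • q := by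
    have : tPerm N ^ N = MulAction.toPerm (((ModularGroup.T)⁻¹ : SL(2, ℤ)) ^ N) :=
      (map_pow (MulAction.toPermHom SL(2, ℤ) (Q N)) _ N).symm
    rw [this]
    rfl
  rw [h1, Equiv.Perm.one_apply]
  have h2 := T_zpow_N_smul (N := N) q
  have h3 : ((ModularGroup.T)⁻¹ ^ N : SL(2, ℤ)) = (ModularGroup.T ^ (N : ℤ))⁻¹ := by
    rw [zpow_natCast, inv_pow]
  rw [h3, inv_smul_eq_iff, h2]

omit [NeZero N] in
theorem tPerm_inv_pow_N : (tPerm N)⁻¹ ^ N = 1 := by
  rw [inv_pow, tPerm_pow_N, inv_one]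

/-- the jet of `H` -/
noncomputable def jetFun (N : ℕ) (K : ℤ) (H : ℍ → ℂ) : Q N → ℂ :=
  fun q => ∑ m ∈ range N, coef N K H q m

/-- the vector of `m`-th coefficients -/
noncomputable def coefVec (N : ℕ) (K : ℤ) (H : ℍ → ℂ) (m : ℕ) : Q N → ℂ :=
  fun q => coef N K H q m

omit [NeZero N] in
theorem jetFun_eq_sum (H : ℍ → ℂ) : jetFun N K H = ∑ m ∈ range N, coefVec N K H m := by
  funext q
  simp [jetFun, coefVec, Finset.sum_apply]

theorem coefVec_tPerm {H : ℍ → ℂ} (hH : IsMF N K H) (m : ℕ) (q : Q N) :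
    coefVec N K H m (tPerm N q) = zeta N ^ m * coefVec N K H m q :=
  coef_T hH q m

/-- the coefficients are recovered from the jet by the spectral projections -/
theorem proj_jetFun {H : ℍ → ℂ} (hH : IsMF N K H) {m : ℕ} (hm : m < N) :
    proj (tPerm N) N m (jetFun N K H) = coefVec N K H m := by
  rw [jetFun_eq_sum, map_sum]
  have h1 : ∀ m' ∈ range N, proj (tPerm N) N m (coefVec N K H m') =
      if m = m' then coefVec N K H m' else 0 := fun m' hm' =>
    proj_eigen (NeZero.ne N) hm (mem_range.mp hm') (coefVec_tPerm hH m')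
  rw [sum_congr rfl h1, sum_ite_eq (range N) m]
  simp [hm]

theorem coef_eq_zero_of_jetFun_eq_zero {H : ℍ → ℂ} (hH : IsMF N K H)
    (h0 : jetFun N K H = 0) (q : Q N) {m : ℕ} (hm : m < N) : coef N K H q m = 0 := by
  have := proj_jetFun hH hm
  rw [h0, map_zero] at this
  exact (congrFun this q).symm

/-- the jet map -/
noncomputable def jet (N : ℕ) [NeZero N] (K : ℤ) : MFsub N K →ₗ[ℂ] (Q N → ℂ) where
  toFun H := jetFun N K H.1
  map_add' H₁ H₂ := by
    funext q
    simp only [jetFun, Submodule.coe_add, Pi.add_apply, ← sum_add_distrib]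
    exact sum_congr rfl fun m _ => coef_add H₁.2 H₂.2 q m
  map_smul' c H := by
    funext q
    simp only [jetFun, Submodule.coe_smul, Pi.smul_apply, smul_eq_mul, RingHom.id_apply, mul_sum]
    exact sum_congr rfl fun m _ => coef_smul H.2 c q m

theorem jet_apply (H : MFsub N K) : jet N K H = jetFun N K H.1 := rfl

/-- elements of the kernel of the jet map are divisible by `Δ` -/
theorem isMF_div_of_jet_eq_zero {H : ℍ → ℂ} (hH : IsMF N K H) (h0 : jetFun N K H = 0) :
    IsMF N (K - 12) (H / Δ) :=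
  Div.div_discriminant hH
    (bdd_div_discriminant hH fun q _ hm => coef_eq_zero_of_jetFun_eq_zero hH h0 q hm)

/-- division by `Δ` on the kernel of the jet map -/
noncomputable def divDisc (N : ℕ) [NeZero N] (K : ℤ) :
    LinearMap.ker (jet N K) →ₗ[ℂ] MFsub N (K - 12) where
  toFun H := ⟨H.1.1 / Δ, isMF_div_of_jet_eq_zero H.1.2 (LinearMap.mem_ker.mp H.2)⟩
  map_add' H₁ H₂ := by
    apply Subtype.ext
    funext z
    simp [add_div]
  map_smul' c H := by
    apply Subtype.ext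
    funext z
    simp [mul_div_assoc]

theorem divDisc_injective : Function.Injective (divDisc N K) := by
  intro H₁ H₂ hH
  apply Subtype.ext
  apply Subtype.ext
  funext z
  have := congrFun (congrArg Subtype.val hH) z
  simp only [divDisc, LinearMap.coe_mk, AddHom.coe_mk, Pi.div_apply] at this
  exact (div_left_inj' (ModularForm.discriminant_ne_zero z)).mp this

/-- **Surjectivity of the jet map** under the dimension hypothesis. -/
theorem jet_surjective [FiniteDimensional ℂ (MFsub N K)] [FiniteDimensional ℂ (MFsub N (K - 12))]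
    (hdim : Module.finrank ℂ (MFsub N K) = Module.finrank ℂ (MFsub N (K - 12)) + Nat.card (Q N)) :
    Function.Surjective (jet N K) := by
  classical
  have : Finite (Q N) := by
    have : (Gamma0 N).FiniteIndex := inferInstance
    exact Subgroup.finite_quotient_of_finiteIndex
  let _ : Fintype (Q N) := Fintype.ofFinite _
  have h1 := LinearMap.finrank_range_add_finrank_ker (jet N K)
  have h2 : Module.finrank ℂ (LinearMap.ker (jet N K)) ≤ Module.finrank ℂ (MFsub N (K - 12)) :=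
    LinearMap.finrank_le_finrank_of_injective divDisc_injective
  have h3 : Module.finrank ℂ (LinearMap.range (jet N K)) ≤ Module.finrank ℂ (Q N → ℂ) :=
    Submodule.finrank_le _
  have h4 : Module.finrank ℂ (Q N → ℂ) = Nat.card (Q N) := by
    rw [Module.finrank_fintype_fun_eq_card, Nat.card_eq_fintype_card]
  have h5 : Module.finrank ℂ (LinearMap.range (jet N K)) = Module.finrank ℂ (Q N → ℂ) := by
    omega
  rw [← LinearMap.range_eq_top]
  exact Submodule.eq_top_of_finrank_eq h5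

section CuspCount

omit [NeZero N] in
/-- invariance under `T⁻¹` implies invariance under the group generated by `T` -/
theorem mem_invariants_of_tPerm {u : Q N → ℂ} (hu : ∀ q, u (tPerm N q) = u q) :
    u ∈ invariants (Subgroup.zpowers (ModularGroup.T : SL(2, ℤ))) (Q N) := by
  have hT : ∀ q : Q N, u ((ModularGroup.T : SL(2, ℤ)) • q) = u q := by
    intro q
    have := hu ((ModularGroup.T : SL(2, ℤ)) • q)
    rw [tPerm_apply, inv_smul_smul] at this
    exact this.symm
  have hTi : ∀ q : Q N, u ((ModularGroup.T : SL(2, ℤ))⁻¹ • q) = u q := fun q => hu q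
  have hz : ∀ (k : ℤ) (q : Q N), u ((ModularGroup.T : SL(2, ℤ)) ^ k • q) = u q := by
    intro k
    induction k using Int.induction_on with
    | zero => intro q; simp
    | succ k ih =>
      intro q
      rw [zpow_add_one, mul_smul, ih, hT]
    | pred k ih =>
      intro q
      rw [zpow_sub_one, mul_smul, ih, hTi]
  rintro ⟨g, hg⟩ q
  obtain ⟨k, rfl⟩ := Subgroup.mem_zpowers_iff.mp hg
  exact hz k q

omit [NeZero N] in
theorem tPerm_of_mem_invariants {u : Q N → ℂ}
    (hu : u ∈ invariants (Subgroup.zpowers (ModularGroup.T : SL(2, ℤ))) (Q N)) (q : Q N) :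
    u (tPerm N q) = u q := by
  have hmem : ((ModularGroup.T : SL(2, ℤ)))⁻¹ ∈ Subgroup.zpowers (ModularGroup.T : SL(2, ℤ)) :=
    inv_mem (Subgroup.mem_zpowers _)
  exact hu ⟨_, hmem⟩ q

theorem range_proj_zero :
    LinearMap.range (proj (tPerm N) N 0) =
      invariants (Subgroup.zpowers (ModularGroup.T : SL(2, ℤ))) (Q N) := by
  apply le_antisymm
  · rintro _ ⟨u, rfl⟩
    refine mem_invariants_of_tPerm fun q => ?_
    have := proj_isEigen (NeZero.ne N) tPerm_pow_N 0 u q
    simpa using this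
  · intro u hu
    refine ⟨u, ?_⟩
    have := proj_eigen (t := tPerm N) (NeZero.ne N) (Nat.pos_of_ne_zero (NeZero.ne N))
      (Nat.pos_of_ne_zero (NeZero.ne N)) (b := u)
      (fun q => by rw [pow_zero, one_mul]; exact tPerm_of_mem_invariants hu q)
    simpa using this

/-- the composite `proj 0 ∘ jet`, whose kernel is the space of cusp forms -/
noncomputable def constTerm (N : ℕ) [NeZero N] (K : ℤ) : MFsub N K →ₗ[ℂ] (Q N → ℂ) :=
  (proj (tPerm N) N 0).comp (jet N K)

theorem constTerm_apply (H : MFsub N K) : constTerm N K H = coefVec N K H.1 0 := by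
  show proj (tPerm N) N 0 (jetFun N K H.1) = _
  exact proj_jetFun H.2 (Nat.pos_of_ne_zero (NeZero.ne N))

theorem ker_constTerm :
    LinearMap.ker (constTerm N K) = Submodule.comap (MFsub N K).subtype (CFsub N K) := by
  ext H
  rw [LinearMap.mem_ker, constTerm_apply, Submodule.mem_comap, Submodule.subtype_apply, mem_CFsub,
    isCF_iff_coef_zero H.2]
  constructor
  · intro h q
    exact congrFun h q
  · intro h
    funext q
    exact h q

theorem range_constTerm (hsurj : Function.Surjective (jet N K)) :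
    LinearMap.range (constTerm N K) =
      invariants (Subgroup.zpowers (ModularGroup.T : SL(2, ℤ))) (Q N) := by
  rw [constTerm, LinearMap.range_comp, LinearMap.range_eq_top.mpr hsurj, Submodule.map_top,
    range_proj_zero]

/-- **Number of cusps**: `dim M_K = dim S_K + #(T-orbits on Q)` when the jet map is surjective. -/
theorem finrank_MFsub_eq_add [FiniteDimensional ℂ (MFsub N K)]
    (hsurj : Function.Surjective (jet N K)) :
    Module.finrank ℂ (MFsub N K) = Module.finrank ℂ (CFsub N K) +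
      Nat.card (MulAction.orbitRel.Quotient (Subgroup.zpowers (ModularGroup.T : SL(2, ℤ)))
        (Q N)) := by
  have : Finite (Q N) := by
    have : (Gamma0 N).FiniteIndex := inferInstance
    exact Subgroup.finite_quotient_of_finiteIndex
  have h1 := LinearMap.finrank_range_add_finrank_ker (constTerm N K)
  rw [range_constTerm hsurj, finrank_invariants, ker_constTerm] at h1
  have h2 : Module.finrank ℂ (Submodule.comap (MFsub N K).subtype (CFsub N K)) =
      Module.finrank ℂ (CFsub N K) :=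
    (Submodule.comapSubtypeEquivOfLe (CFsub_le_MFsub (N := N) (k := K))).finrank_eq
  omega

end CuspCount

section PsiBound

variable [Fintype (Q N)]

/-- uniform Taylor remainder bound for a finite family -/
theorem exists_remainder_bound (Hh : Q N → ℍ → ℂ) (hH : ∀ i, IsMF N K (Hh i)) :
    ∃ C Y : ℝ, 0 ≤ C ∧ ∀ τ : ℍ, Y ≤ τ.im → ∀ i q,
      ‖comp N K (Hh i) q τ - ∑ m ∈ range N, coef N K (Hh i) q m * 𝕢 (N : ℝ) τ ^ m‖
        ≤ C * Real.exp (-2 * π * τ.im) := by
  have h1 : ∀ i q, ∃ c : ℝ, ∀ᶠ τ : ℍ in atImInfty,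
      ‖comp N K (Hh i) q τ - ∑ m ∈ range N, coef N K (Hh i) q m * 𝕢 (N : ℝ) τ ^ m‖
        ≤ c * ‖Real.exp (-2 * π * τ.im)‖ := fun i q => (comp_tail_isBigO (hH i) q).bound
  choose c hc using h1
  set C : ℝ := ∑ i, ∑ q, |c i q| with hC
  have hC0 : 0 ≤ C := sum_nonneg fun i _ => sum_nonneg fun q _ => abs_nonneg _
  have hcC : ∀ i q, c i q ≤ C := by
    intro i q
    refine (le_abs_self _).trans ?_
    refine le_trans ?_ (single_le_sum (f := fun i => ∑ q, |c i q|)
      (fun i _ => sum_nonneg fun q _ => abs_nonneg _) (mem_univ i))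
    exact single_le_sum (f := fun q => |c i q|) (fun q _ => abs_nonneg _) (mem_univ q)
  have h2 : ∀ᶠ τ : ℍ in atImInfty, ∀ i q,
      ‖comp N K (Hh i) q τ - ∑ m ∈ range N, coef N K (Hh i) q m * 𝕢 (N : ℝ) τ ^ m‖
        ≤ c i q * ‖Real.exp (-2 * π * τ.im)‖ := by
    rw [Filter.eventually_all]
    intro i
    rw [Filter.eventually_all]
    exact fun q => hc i q
  obtain ⟨Y, hY⟩ := (atImInfty_mem _).mp h2
  refine ⟨C, Y, hC0, fun τ hτ i q => ?_⟩
  have := hY τ hτ i q
  rw [Real.norm_of_nonneg (Real.exp_pos _).le] at this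
  exact this.trans (mul_le_mul_of_nonneg_right (hcC i q) (Real.exp_pos _).le)

omit [Fintype (Q N)] in
/-- the coefficients of a form with prescribed jet -/
theorem coef_of_jetFun_eq_single [DecidableEq (Q N)] {H : ℍ → ℂ} (hH : IsMF N K H) {i : Q N}
    (hj : jetFun N K H = Pi.single i 1) (q : Q N) {m : ℕ} (hm : m < N) :
    coef N K H q m = proj (tPerm N) N m (Pi.single i 1) q := by
  have := proj_jetFun hH hm
  rw [hj] at this
  exact (congrFun this q).symm

/-- decomposition of the row vector `r Ψ(τ)` -/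
theorem row_decomp [DecidableEq (Q N)] {H : ℍ → ℂ} (hH : IsMF N K H) {i : Q N}
    (hj : jetFun N K H = Pi.single i 1) (r : Q N → ℂ) (τ : ℍ) :
    ∑ q, r q * comp N K H q τ =
      ∑ m ∈ range N, 𝕢 (N : ℝ) τ ^ m * proj (tPerm N)⁻¹ N m r i +
        ∑ q, r q * (comp N K H q τ - ∑ m ∈ range N, coef N K H q m * 𝕢 (N : ℝ) τ ^ m) := by
  have h1 : ∀ m ∈ range N, proj (tPerm N)⁻¹ N m r i =
      ∑ q, r q * coef N K H q m := by
    intro m hm
    have h2 := sum_mul_proj (tPerm N) N m r (Pi.single i 1)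
    have h3 : ∑ q, proj (tPerm N)⁻¹ N m r q * (Pi.single i 1 : Q N → ℂ) q =
        proj (tPerm N)⁻¹ N m r i := by
      rw [sum_eq_single i]
      · simp
      · intro q _ hq
        simp [Pi.single_eq_of_ne hq]
      · intro h
        exact absurd (mem_univ i) h
    rw [← h3, ← h2]
    refine sum_congr rfl fun q _ => ?_
    rw [coef_of_jetFun_eq_single hH hj q (mem_range.mp hm)]
  have h5 : ∑ m ∈ range N, 𝕢 (N : ℝ) τ ^ m * proj (tPerm N)⁻¹ N m r i =
      ∑ m ∈ range N, 𝕢 (N : ℝ) τ ^ m * ∑ q, r q * coef N K H q m :=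
    sum_congr rfl fun m hm => by rw [h1 m hm]
  have h4 : ∑ m ∈ range N, 𝕢 (N : ℝ) τ ^ m * ∑ q, r q * coef N K H q m =
      ∑ q, r q * ∑ m ∈ range N, coef N K H q m * 𝕢 (N : ℝ) τ ^ m := by
    simp only [mul_sum]
    rw [sum_comm]
    refine sum_congr rfl fun q _ => sum_congr rfl fun m _ => ?_
    ring
  rw [h5, h4, ← sum_add_distrib]
  refine sum_congr rfl fun q _ => ?_
  ring

omit [NeZero N] [Fintype (Q N)] in
theorem norm_qParam_eq (τ : ℍ) : ‖𝕢 (N : ℝ) τ‖ = Real.exp (-(2 * π * τ.im / N)) := by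
  rw [Periodic.norm_qParam, UpperHalfPlane.coe_im]
  congr 1
  ring

omit [Fintype (Q N)] in
theorem inv_norm_qParam_pow (τ : ℍ) :
    (‖𝕢 (N : ℝ) τ‖⁻¹) ^ (N - 1) = Real.exp (2 * π * (1 - 1 / (N : ℝ)) * τ.im) := by
  have hN : (N : ℝ) ≠ 0 := by exact_mod_cast NeZero.ne N
  have hN1 : 1 ≤ N := Nat.one_le_iff_ne_zero.mpr (NeZero.ne N)
  rw [norm_qParam_eq, ← Real.exp_neg, neg_neg, ← Real.exp_nat_mul]
  congr 1
  rw [Nat.cast_sub hN1, Nat.cast_one]
  field_simp

/-- **Row-vector lower bound** for the matrix `Ψ(τ) = (comp_q H_i (τ))` of a family with jets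
the standard basis. -/
theorem row_bound [DecidableEq (Q N)] (Hh : Q N → ℍ → ℂ) (hH : ∀ i, IsMF N K (Hh i))
    (hj : ∀ i, jetFun N K (Hh i) = Pi.single i 1) :
    ∃ C Y : ℝ, ∀ τ : ℍ, Y ≤ τ.im → ∀ r : Q N → ℂ, ∀ q,
      ‖r q‖ ≤ C * Real.exp (2 * π * (1 - 1 / (N : ℝ)) * τ.im) *
        ∑ i, ‖∑ q', r q' * comp N K (Hh i) q' τ‖ := by
  obtain ⟨C₀, Y₀, hC₀, hR⟩ := exists_remainder_bound Hh hH
  have hNne : N ≠ 0 := NeZero.ne N
  have hNpos : (0 : ℝ) < N := by exact_mod_cast Nat.pos_of_ne_zero hNne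
  set μ : ℝ := (Fintype.card (Q N) : ℝ) with hμ
  have hμ0 : 0 ≤ μ := Nat.cast_nonneg _
  set A₀ : ℝ := μ * N * (μ * C₀) with hA₀
  have hA₀0 : 0 ≤ A₀ := by positivity
  refine ⟨2 * (μ * N), max Y₀ (A₀ * N / π), fun τ hτ r q => ?_⟩
  have hτ0 : Y₀ ≤ τ.im := (le_max_left _ _).trans hτ
  have hτ1 : A₀ * N / π ≤ τ.im := (le_max_right _ _).trans hτ
  set z : ℂ := 𝕢 (N : ℝ) τ with hz
  have hz0 : z ≠ 0 := Periodic.qParam_ne_zero _
  have hx0 : 0 < ‖z‖ := norm_pos_iff.mpr hz0
  have hx1 : ‖z‖ ≤ 1 := (Periodic.norm_qParam_lt_one pos_N τ.im_pos).le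
  set E : ℝ := (‖z‖⁻¹) ^ (N - 1) with hE
  have hE0 : 0 ≤ E := pow_nonneg (inv_nonneg.mpr hx0.le) _
  set e : ℝ := Real.exp (-2 * π * τ.im) with he
  have he0 : 0 < e := Real.exp_pos _
  -- `E * e = ‖z‖`
  have hEe : E * e = ‖z‖ := by
    have h1 : ‖z‖ ^ N = e := norm_qParam_pow_N τ
    have h2 : N = (N - 1) + 1 := by omega
    rw [← h1, hE, inv_pow]
    conv_lhs => rw [h2, pow_succ]
    rw [show (N - 1 + 1 - 1) = N - 1 by omega, ← mul_assoc,
      inv_mul_cancel₀ (pow_ne_zero _ hx0.ne'), one_mul]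
  -- smallness
  have hsmall : A₀ * ‖z‖ ≤ 1 / 2 := by
    have hu : 2 * A₀ ≤ 2 * π * τ.im / N := by
      rw [div_le_iff₀ Real.pi_pos] at hτ1
      rw [le_div_iff₀ hNpos]
      nlinarith [Real.pi_pos]
    have h3 : 2 * A₀ ≤ Real.exp (2 * π * τ.im / N) :=
      hu.trans ((by linarith : 2 * π * τ.im / N ≤ 2 * π * τ.im / N + 1).trans
        (Real.add_one_le_exp _))
    have h4 : ‖z‖ * Real.exp (2 * π * τ.im / N) = 1 := by
      rw [hz, norm_qParam_eq, ← Real.exp_add]
      simp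
    nlinarith [hx0, Real.exp_pos (2 * π * τ.im / N)]
  -- the vectors
  set s : Q N → ℂ := fun i => ∑ q', r q' * comp N K (Hh i) q' τ with hs
  set ρ : Q N → ℂ := fun i => ∑ q', r q' *
    (comp N K (Hh i) q' τ - ∑ m ∈ range N, coef N K (Hh i) q' m * z ^ m) with hρ
  set v : Q N → ℂ := fun i => ∑ m ∈ range N, z ^ m * proj (tPerm N)⁻¹ N m r i with hv
  have hsv : ∀ i, s i = v i + ρ i := fun i => row_decomp (hH i) (hj i) r τ
  set Sr : ℝ := ∑ q, ‖r q‖ with hSr
  set Ss : ℝ := ∑ i, ‖s i‖ with hSs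
  have hSr0 : 0 ≤ Sr := sum_nonneg fun _ _ => norm_nonneg _
  have hSs0 : 0 ≤ Ss := sum_nonneg fun _ _ => norm_nonneg _
  have hρb : ∀ i, ‖ρ i‖ ≤ Sr * (C₀ * e) := by
    intro i
    refine (norm_sum_le _ _).trans ?_
    rw [hSr, sum_mul]
    refine sum_le_sum fun q' _ => ?_
    rw [norm_mul]
    exact mul_le_mul_of_nonneg_left (hR τ hτ0 i q') (norm_nonneg _)
  have hvb : ∑ i, ‖v i‖ ≤ Ss + μ * (Sr * (C₀ * e)) := by
    have h5 : ∀ i ∈ (univ : Finset (Q N)), ‖v i‖ ≤ ‖s i‖ + Sr * (C₀ * e) := by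
      intro i _
      have : v i = s i - ρ i := by rw [hsv i]; ring
      rw [this]
      exact (norm_sub_le _ _).trans (add_le_add le_rfl (hρb i))
    refine (sum_le_sum h5).trans ?_
    rw [sum_add_distrib, sum_const, card_univ, nsmul_eq_mul]
  have hA : ∀ q, ‖r q‖ ≤ N * E * (Ss + μ * (Sr * (C₀ * e))) := by
    intro q
    have := norm_le_of_twisted (t := (tPerm N)⁻¹) hNne tPerm_inv_pow_N hz0 hx1 r q
    exact this.trans (mul_le_mul_of_nonneg_left hvb (by positivity))
  have hSrb : Sr ≤ μ * (N * E * (Ss + μ * (Sr * (C₀ * e)))) := by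
    rw [hSr]
    refine (sum_le_sum fun q _ => hA q).trans ?_
    rw [sum_const, card_univ, nsmul_eq_mul]
  have hSr2 : Sr ≤ 2 * (μ * N) * E * Ss := by
    have h6 : μ * (N * E * (Ss + μ * (Sr * (C₀ * e)))) =
        μ * N * E * Ss + A₀ * (E * e) * Sr := by
      rw [hA₀]; ring
    rw [h6, hEe] at hSrb
    have h7 : A₀ * ‖z‖ * Sr ≤ 1 / 2 * Sr := mul_le_mul_of_nonneg_right hsmall hSr0
    linarith
  have hq : ‖r q‖ ≤ Sr := single_le_sum (f := fun q => ‖r q‖) (fun _ _ => norm_nonneg _)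
    (mem_univ q)
  rw [← inv_norm_qParam_pow τ]
  exact hq.trans hSr2

/-- **(HΨ)** from surjectivity of the jet map. -/
theorem exists_jet_family_of_surjective (hsurj : Function.Surjective (jet N K)) :
    ∃ H : Q N → ℍ → ℂ, (∀ i, IsMF N K (H i)) ∧ ∃ C Y : ℝ, ∀ τ : ℍ, Y ≤ τ.im →
      ∀ r : Q N → ℂ, ∀ q, ‖r q‖ ≤ C * Real.exp (2 * π * (1 - 1 / (N : ℝ)) * τ.im) *
        ∑ i, ‖∑ q', r q' * comp N K (H i) q' τ‖ := by
  classical
  choose Hh hHh using fun i : Q N => hsurj (Pi.single i 1)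
  exact ⟨fun i => (Hh i).1, fun i => (Hh i).2,
    row_bound (fun i => (Hh i).1) (fun i => (Hh i).2) fun i => hHh i⟩

end PsiBound

section FromFreeBasis

theorem h1_sub_twelve {m : ℤ} (hm : 12 ≤ m) (he : Even m) : h1 m = h1 (m - 12) + 1 := by
  obtain ⟨c, hc⟩ := he
  unfold h1
  have h2 : (2 : ℤ) ∣ m := ⟨c, by omega⟩
  have h2' : (2 : ℤ) ∣ m - 12 := ⟨c - 6, by omega⟩
  have e1 : ¬ (m < 0 ∨ ¬ (2 : ℤ) ∣ m) :=
    not_or.mpr ⟨by omega, not_not.mpr h2⟩
  have e2 : ¬ (m - 12 < 0 ∨ ¬ (2 : ℤ) ∣ m - 12) :=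
    not_or.mpr ⟨by omega, not_not.mpr h2'⟩
  rw [if_neg e1, if_neg e2]
  have e3 : (m - 12) % 12 = m % 12 := by omega
  have e4 : (m - 12) / 12 = m / 12 - 1 := by omega
  rw [e3, e4]
  split_ifs <;> omega

omit [NeZero N] in
/-- the basis elements of a free basis are nonzero -/
theorem FreeBasis_F_ne_zero (B : FreeBasis N) (j₀ : B.J) : B.F j₀ ≠ 0 := by
  classical
  intro h0
  have := B.indep (B.k j₀) (fun j => if j = j₀ then (1 : ℍ → ℂ) else 0) (fun j => by
    by_cases hj : j = j₀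
    · subst hj
      simp only [if_true, sub_self]
      exact isMF_one
    · simp only [if_neg hj]
      exact IsMF.zero) (fun z => by
    rw [Finset.sum_eq_single j₀]
    · simp [h0]
    · intro j _ hj
      simp [hj]
    · intro h
      exact absurd (Finset.mem_univ j₀) h) j₀
  simp only [if_true] at this
  have h1 := congrFun this UpperHalfPlane.I
  simp at h1

omit [NeZero N] in
theorem FreeBasis_even (B : FreeBasis N) (j : B.J) : Even (B.k j) := by
  by_contra h
  rw [Int.not_even_iff_odd] at h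
  exact FreeBasis_F_ne_zero B j ((B.isMF j).eq_zero_of_odd h)

omit [NeZero N] in
/-- the dimension hypothesis for large even weights -/
theorem finrank_MFsub_sub_twelve (B : FreeBasis N)
    (hsum : ∀ K : ℤ, Module.finrank ℂ (MFsub N K) = ∑ j, h1 (K - B.k j)) {K : ℤ} (hK : Even K)
    (hK' : ∀ j, B.k j + 12 ≤ K) :
    Module.finrank ℂ (MFsub N K) = Module.finrank ℂ (MFsub N (K - 12)) + Nat.card (Q N) := by
  rw [hsum K, hsum (K - 12), ← B.card_eq, Finset.card_univ.symm, Finset.card_eq_sum_ones,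
    ← Finset.sum_add_distrib]
  refine Finset.sum_congr rfl fun j _ => ?_
  have he : Even (K - B.k j) := hK.sub (FreeBasis_even B j)
  have := h1_sub_twelve (m := K - B.k j) (by have := hK' j; omega) he
  rw [this]
  congr 2
  ring

omit [NeZero N] in
theorem exists_weight_bound (B : FreeBasis N) : ∃ M : ℤ, ∀ j, B.k j ≤ M := by
  obtain ⟨M, hM⟩ := (Finset.univ.image B.k).exists_le
  exact ⟨M, fun j => hM _ (Finset.mem_image_of_mem _ (Finset.mem_univ j))⟩

/-- **(Hdim)**, with the inputs from other modules as hypotheses. -/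
theorem exists_finrank_sub_of (B : FreeBasis N) (hfin : ∀ k : ℤ, FiniteDimensional ℂ (MFsub N k))
    (hsum : ∀ K : ℤ, Module.finrank ℂ (MFsub N K) = ∑ j, h1 (K - B.k j))
    (horb : Nat.card (MulAction.orbitRel.Quotient
      (Subgroup.zpowers (ModularGroup.T : SL(2, ℤ))) (Q N)) = ModularCurve.cuspCount N) :
    ∃ K₀ : ℤ, ∀ K : ℤ, K₀ ≤ K → Even K →
      Module.finrank ℂ (MFsub N K) = Module.finrank ℂ (CFsub N K) + ModularCurve.cuspCount N := by
  obtain ⟨M, hM⟩ := exists_weight_bound B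
  refine ⟨M + 12, fun K hK hKe => ?_⟩
  have := hfin K
  have := hfin (K - 12)
  have hsurj := jet_surjective
    (finrank_MFsub_sub_twelve B hsum hKe fun j => by have := hM j; omega)
  rw [finrank_MFsub_eq_add hsurj, horb]

/-- **(HΨ)**, with the inputs from other modules as hypotheses. -/
theorem exists_jet_family_of [Fintype (Q N)] (B : FreeBasis N)
    (hfin : ∀ k : ℤ, FiniteDimensional ℂ (MFsub N k))
    (hsum : ∀ K : ℤ, Module.finrank ℂ (MFsub N K) = ∑ j, h1 (K - B.k j)) :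
    ∃ (K : ℤ) (H : Q N → ℍ → ℂ), (∀ i, IsMF N K (H i)) ∧ ∃ C Y : ℝ, ∀ τ : ℍ, Y ≤ τ.im →
      ∀ r : Q N → ℂ, ∀ q, ‖r q‖ ≤ C * Real.exp (2 * π * (1 - 1 / (N : ℝ)) * τ.im) *
        ∑ i, ‖∑ q', r q' * comp N K (H i) q' τ‖ := by
  obtain ⟨M, hM⟩ := exists_weight_bound B
  -- an even weight `≥ M + 12`
  obtain ⟨K, hK, hKe⟩ : ∃ K : ℤ, M + 12 ≤ K ∧ Even K := by
    rcases Int.even_or_odd M with h | h
    · exact ⟨M + 12, le_rfl, h.add (by decide)⟩
    · exact ⟨M + 13, by omega, h.add_odd (by decide)⟩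
  have := hfin K
  have := hfin (K - 12)
  have hsurj := jet_surjective
    (finrank_MFsub_sub_twelve B hsum hKe fun j => by have := hM j; omega)
  exact ⟨K, exists_jet_family_of_surjective hsurj⟩

end FromFreeBasis

end Fermat.Agent.S20.Jets
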