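import Mathlib
import Fermat.Agent.S20.Defs
import Fermat.Agent.S20.Basic
import Fermat.Agent.S20.Count
import Fermat.Agent.S20.CosetsParam
import Fermat.Agent.S20.Jets
import Fermat.Agent.S20.InvertibleAll
import Fermat.Agent.S20.DualDefs
import Fermat.Agent.S20.DualCusp
import Fermat.Agent.S20.DualExpansion

/-!
# S20, module M4 (final part): dimensions and the weights of a free basis

For a free basis `F_j` (weights `k_j`) of `M(Γ₀(N))` over `M(SL₂(ℤ))`:

* `finrank_MFsub_eq_sum` : `dim M_K(Γ₀(N)) = ∑_j dim M_{K - k_j}(SL₂(ℤ))`;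
* `finrank_CFsub_eq_sum` : `dim S_K(Γ₀(N)) = ∑_j dim M_{K + k_j - 12}(SL₂(ℤ))`;
* `weight_cases` : `k_j ∈ {0, 2, 4, 6, 8, 10}`;
* `mult_zero` : exactly one `k_j` is `0`;
* `finrank_cuspForm_two` : `dim S_2(Γ₀(N)) = #{j | k_j = 10}`;
* `cusp_relation` : `#{k_j = 0} + #{k_j = 2} = #{k_j = 10} + #cusps`.
-/

set_option autoImplicit false
set_option linter.unusedSectionVars false

open UpperHalfPlane CongruenceSubgroup ModularForm Filter
open scoped MatrixGroups ModularForm Manifold Topology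

namespace Fermat.Agent.S20.Dual

attribute [local instance] fintypeQ

/-! ### A generic dimension count -/

/-- If every element of `V` is uniquely `∑_j b_j G_j` with `b_j` of level one and weight `w_j`,
then `dim V = ∑_j dim M_{w_j}(SL₂(ℤ))`. -/
theorem finrank_eq_sum_of_unique_expansion {ι : Type} [Fintype ι] (V : Submodule ℂ (ℍ → ℂ))
    (w : ι → ℤ) (G : ι → ℍ → ℂ)
    (hmem : ∀ b : ι → ℍ → ℂ, (∀ j, IsMF 1 (w j) (b j)) → (∑ j, b j * G j) ∈ V)
    (hspan : ∀ H ∈ V, ∃ b : ι → ℍ → ℂ, (∀ j, IsMF 1 (w j) (b j)) ∧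
      ∀ z, H z = ∑ j, b j z * G j z)
    (hindep : ∀ b : ι → ℍ → ℂ, (∀ j, IsMF 1 (w j) (b j)) →
      (∀ z, ∑ j, b j z * G j z = 0) → ∀ j, b j = 0) :
    Module.finrank ℂ V = ∑ j, h1 (w j) := by
  classical
  let Φ : (∀ j, MFsub 1 (w j)) →ₗ[ℂ] V :=
    { toFun := fun b => ⟨∑ j, (b j : ℍ → ℂ) * G j,
        hmem (fun j => (b j : ℍ → ℂ)) (fun j => (b j).2)⟩
      map_add' := by
        intro b c
        apply Subtype.ext
        show ∑ j, ((b + c) j : ℍ → ℂ) * G j =
          ∑ j, (b j : ℍ → ℂ) * G j + ∑ j, (c j : ℍ → ℂ) * G j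
        rw [← Finset.sum_add_distrib]
        refine Finset.sum_congr rfl fun j _ => ?_
        rw [Pi.add_apply, Submodule.coe_add, add_mul]
      map_smul' := by
        intro c b
        apply Subtype.ext
        show ∑ j, ((c • b) j : ℍ → ℂ) * G j = c • ∑ j, (b j : ℍ → ℂ) * G j
        rw [Finset.smul_sum]
        refine Finset.sum_congr rfl fun j _ => ?_
        rw [Pi.smul_apply, Submodule.coe_smul, smul_mul_assoc] }
  have hΦ : ∀ b, ((Φ b : V) : ℍ → ℂ) = ∑ j, (b j : ℍ → ℂ) * G j := fun b => rfl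
  have hinj : Function.Injective Φ := by
    rw [← LinearMap.ker_eq_bot, LinearMap.ker_eq_bot']
    intro b hb
    have h0 : ∀ z, ∑ j, (b j : ℍ → ℂ) z * G j z = 0 := by
      intro z
      have := congrFun (congrArg Subtype.val hb) z
      rw [hΦ] at this
      simpa [Finset.sum_apply] using this
    have := hindep (fun j => (b j : ℍ → ℂ)) (fun j => (b j).2) h0
    funext j
    exact Subtype.ext (this j)
  have hsurj : Function.Surjective Φ := by
    intro H
    obtain ⟨b, hb, hH⟩ := hspan H.1 H.2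
    refine ⟨fun j => ⟨b j, hb j⟩, ?_⟩
    apply Subtype.ext
    rw [hΦ]
    funext z
    rw [hH z, Finset.sum_apply]
    rfl
  have e := LinearEquiv.ofBijective Φ ⟨hinj, hsurj⟩
  rw [← e.finrank_eq, Module.finrank_pi_fintype]
  exact Finset.sum_congr rfl fun j _ => finrank_MFsub_one (w j)

variable {N : ℕ} [NeZero N]

/-! ### Dimensions of the spaces of modular forms and of cusp forms -/

/-- **(d1)** `dim M_K(Γ₀(N)) = ∑_j dim M_{K - k_j}(SL₂(ℤ))`. -/
theorem finrank_MFsub_eq_sum (B : FreeBasis N) (K : ℤ) :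
    Module.finrank ℂ (MFsub N K) = ∑ j, h1 (K - B.k j) := by
  refine finrank_eq_sum_of_unique_expansion (MFsub N K) (fun j => K - B.k j) B.F ?_ ?_ ?_
  · intro b hb
    refine (MFsub N K).sum_mem fun j _ => ?_
    exact ((hb j).mul (B.isMF j)).congr_weight (by ring)
  · intro H hH
    exact B.span K H hH
  · intro b hb h
    exact B.indep K b hb h

/-- The jet bound **(HΨ)**, hypothesis-free. -/
theorem jetBound (B : FreeBasis N) : JetBound N :=
  Jets.exists_jet_family_of B (fun _ => inferInstance) (finrank_MFsub_eq_sum B)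

/-- **(Hdim)**, hypothesis-free. -/
theorem exists_finrank_sub (B : FreeBasis N) :
    ∃ K₀ : ℤ, ∀ K : ℤ, K₀ ≤ K → Even K →
      Module.finrank ℂ (MFsub N K) = Module.finrank ℂ (CFsub N K) + ModularCurve.cuspCount N :=
  Jets.exists_finrank_sub_of B (fun _ => inferInstance) (finrank_MFsub_eq_sum B)
    (Cosets.card_orbits_T N)

/-- A dual family exists for every free basis. -/
theorem nonempty_dualFamily' (B : FreeBasis N) : Nonempty (DualFamily B) :=
  nonempty_dualFamily B (Invertible.phi_injective B)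

/-- **(d2)** `dim S_K(Γ₀(N)) = ∑_j dim M_{K + k_j - 12}(SL₂(ℤ))`. -/
theorem finrank_CFsub_eq_sum (B : FreeBasis N) (K : ℤ) :
    Module.finrank ℂ (CFsub N K) = ∑ j, h1 (K + B.k j - 12) := by
  obtain ⟨D⟩ := nonempty_dualFamily' B
  refine finrank_eq_sum_of_unique_expansion (CFsub N K) (fun j => K + B.k j - 12)
    (fun j => discriminant * D.g₀ j) ?_ ?_ ?_
  · intro b hb
    exact D.sum_mem_CFsub (jetBound B) b hb
  · intro H hH
    obtain ⟨b, hb, hbH⟩ := D.expansion (K := K) hH
    exact ⟨b, hb, fun z => by rw [hbH z]; rfl⟩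
  · intro b hb h
    exact D.expansion_unique b hb fun z => by rw [← h z]; rfl

/-! ### Vanishing in weight `≤ 0` -/

/-- A cusp form of weight `≤ 0` vanishes. -/
theorem IsCF.eq_zero_of_nonpos {K : ℤ} {f : ℍ → ℂ} (hf : IsCF N K f) (hK : K ≤ 0) : f = 0 := by
  rcases lt_or_eq_of_le hK with h | h
  · exact hf.isMF.eq_zero_of_neg h
  · subst h
    obtain ⟨c, rfl⟩ := hf.isMF.const_of_weight_zero
    have h0 := hf.2.2 1
    rw [SlashAction.slash_one] at h0
    have h1 : Tendsto (fun _ : ℍ => c) atImInfty (𝓝 0) := h0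
    have h2 : Tendsto (fun _ : ℍ => c) atImInfty (𝓝 c) := tendsto_const_nhds
    have hne : (atImInfty : Filter ℍ).NeBot := by
      rw [atImInfty]
      exact Filter.comap_neBot fun s hs => by
        obtain ⟨a, ha⟩ := Filter.mem_atTop_sets.mp hs
        refine ⟨⟨⟨0, max a 1⟩, ?_⟩, ?_⟩
        · show 0 < max a 1
          exact lt_of_lt_of_le one_pos (le_max_right _ _)
        · exact ha _ (le_max_left _ _)
    have := tendsto_nhds_unique h2 h1
    funext z
    simp [this]

theorem finrank_CFsub_of_nonpos {K : ℤ} (hK : K ≤ 0) : Module.finrank ℂ (CFsub N K) = 0 := by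
  have : Subsingleton (CFsub N K) :=
    ⟨fun a b => Subtype.ext
      ((IsCF.eq_zero_of_nonpos a.2 hK).trans (IsCF.eq_zero_of_nonpos b.2 hK).symm)⟩
  exact Module.finrank_zero_of_subsingleton

theorem finrank_MFsub_zero : Module.finrank ℂ (MFsub N 0) = 1 := by
  refine finrank_eq_one (⟨1, isMF_one⟩ : MFsub N 0) ?_ ?_
  · intro h
    have := congrFun (congrArg Subtype.val h) UpperHalfPlane.I
    simp at this
  · intro w
    obtain ⟨c, hc⟩ := w.2.const_of_weight_zero
    refine ⟨c, Subtype.ext ?_⟩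
    show c • (1 : ℍ → ℂ) = w.1
    rw [hc]
    funext z
    simp

/-! ### Values of `h1` -/

theorem h1_eq_zero_iff_of_even {m : ℤ} (hm : Even m) : h1 m = 0 ↔ m < 0 ∨ m = 2 := by
  obtain ⟨c, hc⟩ := hm
  unfold h1
  have h2 : (2 : ℤ) ∣ m := ⟨c, by omega⟩
  constructor
  · intro h
    by_contra hcon
    rw [not_or] at hcon
    have e1 : ¬ (m < 0 ∨ ¬ (2 : ℤ) ∣ m) := not_or.mpr ⟨hcon.1, not_not.mpr h2⟩
    rw [if_neg e1] at h
    split_ifs at h <;> omega
  · rintro (h | h)
    · rw [if_pos (Or.inl h)]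
    · subst h
      rfl

/-! ### The weights of a free basis -/

theorem weight_nonneg (B : FreeBasis N) (j : B.J) : 0 ≤ B.k j := by
  by_contra h
  exact Jets.FreeBasis_F_ne_zero B j ((B.isMF j).eq_zero_of_neg (not_le.mp h))

theorem weight_le_ten (B : FreeBasis N) (j : B.J) : B.k j ≤ 10 := by
  classical
  by_contra hcon
  have hk : 12 ≤ B.k j := by
    obtain ⟨c, hc⟩ := Jets.FreeBasis_even B j
    omega
  -- `dim S_0 = 0` and `dim S_{-2} = 0`
  have h0 := finrank_CFsub_eq_sum B 0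
  rw [finrank_CFsub_of_nonpos le_rfl] at h0
  have h2 := finrank_CFsub_eq_sum B (-2)
  rw [finrank_CFsub_of_nonpos (by norm_num)] at h2
  have h0j : h1 (0 + B.k j - 12) = 0 :=
    (Finset.sum_eq_zero_iff.mp h0.symm) j (Finset.mem_univ j)
  have h2j : h1 (-2 + B.k j - 12) = 0 :=
    (Finset.sum_eq_zero_iff.mp h2.symm) j (Finset.mem_univ j)
  have he := Jets.FreeBasis_even B j
  rw [h1_eq_zero_iff_of_even (by
    obtain ⟨c, hc⟩ := he
    exact ⟨c - 6, by omega⟩)] at h0j
  rw [h1_eq_zero_iff_of_even (by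
    obtain ⟨c, hc⟩ := he
    exact ⟨c - 7, by omega⟩)] at h2j
  omega

/-- **The weights of a free basis lie in `{0, 2, 4, 6, 8, 10}`.** -/
theorem weight_cases (B : FreeBasis N) (j : B.J) :
    B.k j = 0 ∨ B.k j = 2 ∨ B.k j = 4 ∨ B.k j = 6 ∨ B.k j = 8 ∨ B.k j = 10 := by
  have h0 := weight_nonneg B j
  have h10 := weight_le_ten B j
  obtain ⟨c, hc⟩ := Jets.FreeBasis_even B j
  omega

theorem mult_eq_sum {J : Type} [Fintype J] (k : J → ℤ) (r : ℤ) :
    Count.mult k r = ∑ j, if k j = r then 1 else 0 := by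
  classical
  unfold Count.mult
  rw [Finset.card_filter]

/-- **Exactly one generator has weight `0`.** -/
theorem mult_zero (B : FreeBasis N) : Count.mult B.k 0 = 1 := by
  classical
  have h := finrank_MFsub_eq_sum B 0
  rw [finrank_MFsub_zero] at h
  rw [h, mult_eq_sum]
  refine Finset.sum_congr rfl fun j _ => ?_
  rcases weight_cases B j with h | h | h | h | h | h <;> rw [h] <;> decide

/-- **The dimension of `S₂(Γ₀(N))` is the number of generators of weight `10`.** -/
theorem finrank_cuspForm_two (B : FreeBasis N) :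
    Module.finrank ℂ (CuspForm (Gamma0 N) 2) = Count.mult B.k 10 := by
  classical
  rw [← finrank_CFsub_eq, finrank_CFsub_eq_sum B 2, mult_eq_sum]
  refine Finset.sum_congr rfl fun j _ => ?_
  rcases weight_cases B j with h | h | h | h | h | h <;> rw [h] <;> decide

/-- **The cusp relation.** -/
theorem cusp_relation (B : FreeBasis N) :
    Count.mult B.k 0 + Count.mult B.k 2 = Count.mult B.k 10 + ModularCurve.cuspCount N := by
  classical
  obtain ⟨K₀, hK₀⟩ := exists_finrank_sub B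
  -- a large weight divisible by `12`
  obtain ⟨n, hn2, hnK⟩ : ∃ n : ℤ, 2 ≤ n ∧ K₀ ≤ 12 * n := by
    refine ⟨max K₀ 2, le_max_right _ _, ?_⟩
    have : K₀ ≤ max K₀ 2 := le_max_left _ _
    have : (2 : ℤ) ≤ max K₀ 2 := le_max_right _ _
    omega
  have hdim := hK₀ (12 * n) hnK ⟨6 * n, by ring⟩
  rw [finrank_MFsub_eq_sum B, finrank_CFsub_eq_sum B] at hdim
  -- termwise identity
  have hterm : ∀ j, h1 (12 * n - B.k j) + (if B.k j = 10 then 1 else 0) =
      h1 (12 * n + B.k j - 12) + ((if B.k j = 0 then 1 else 0) + (if B.k j = 2 then 1 else 0)) := by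
    intro j
    rcases weight_cases B j with h | h | h | h | h | h <;> rw [h] <;> unfold h1 <;>
      split_ifs <;> omega
  have hsum := Finset.sum_congr (s₁ := Finset.univ) rfl fun j _ => hterm j
  rw [Finset.sum_add_distrib, Finset.sum_add_distrib, Finset.sum_add_distrib,
    ← mult_eq_sum, ← mult_eq_sum, ← mult_eq_sum] at hsum
  omega

end Fermat.Agent.S20.Dual
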