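import Mathlib
import Fermat.Agent.S20.Defs

/-!
# S20, leaf E: the form `Δ(N z)` and its stabiliser

* `fN N z = Δ(N z)` is a cusp form of weight `12` on `Γ₀(N)`.
* its stabiliser in `SL(2, ℤ)` (for the weight `12` slash action) is exactly `Γ₀(N)`;
  hence its components `comp N 12 (fN N) q` are pairwise distinct.
-/

set_option autoImplicit false

namespace Fermat.Agent.S20.Stab

open UpperHalfPlane CongruenceSubgroup ModularForm Complex Filter Topology
open scoped MatrixGroups ModularForm Manifold Real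

local notation "Δ" => ModularForm.discriminant

/-- The function `z ↦ Δ(N z)`. -/
noncomputable def fN (N : ℕ) : ℍ → ℂ := fun z => Δ (ofComplex ((N : ℂ) * z))

/-! ### Level one facts about `Δ` -/

theorem discriminant_slash (γ : SL(2, ℤ)) : (Δ ∣[(12 : ℤ)] γ) = Δ :=
  SlashInvariantForm.slash_action_generators_SL2Z discriminant_S_invariant
    discriminant_T_invariant γ

theorem discriminant_smul (γ : SL(2, ℤ)) (w : ℍ) : Δ (γ • w) = denom γ w ^ (12 : ℕ) * Δ w := by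
  have h := congrFun (discriminant_slash γ) w
  rw [SL_slash_apply] at h
  have hd : denom γ w ≠ 0 := denom_ne_zero γ w
  rw [zpow_neg, mul_inv_eq_iff_eq_mul₀ (zpow_ne_zero _ hd)] at h
  rw [h, mul_comm]
  norm_cast

/-! ### Hermite reduction -/

/-- **Hermite reduction**: `diag(N, 1) * h = γ * [[e, x], [0, d]]` with `γ ∈ SL(2, ℤ)`,
`e = gcd(N, h₁₀)`, `e * d = N`. -/
theorem exists_hermite (N : ℕ) (hN : 0 < N) (h : SL(2, ℤ)) :
    ∃ (e d : ℕ) (x : ℤ) (γ : SL(2, ℤ)), 0 < e ∧ 0 < d ∧ e * d = N ∧ e = Int.gcd N (h 1 0) ∧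
      (N : ℤ) * h 0 0 = γ 0 0 * e ∧ (N : ℤ) * h 0 1 = γ 0 0 * x + γ 0 1 * d ∧
      h 1 0 = γ 1 0 * e ∧ h 1 1 = γ 1 0 * x + γ 1 1 * d := by
  have hdet : h 0 0 * h 1 1 - h 0 1 * h 1 0 = 1 := by
    have := h.det_coe
    rwa [Matrix.det_fin_two] at this
  generalize h 0 0 = a at hdet ⊢
  generalize h 0 1 = b at hdet ⊢
  generalize hc : h 1 0 = c at hdet ⊢
  generalize h 1 1 = dh at hdet ⊢
  set e : ℕ := Int.gcd N c with he
  have he_pos : 0 < e := Int.gcd_pos_of_ne_zero_left _ (by exact_mod_cast hN.ne')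
  have heN : e ∣ N := by
    have : (e : ℤ) ∣ (N : ℤ) := Int.gcd_dvd_left _ _
    exact_mod_cast this
  have hec : (e : ℤ) ∣ c := Int.gcd_dvd_right _ _
  obtain ⟨d, hd⟩ := heN
  obtain ⟨c', hc'⟩ := hec
  have hd_pos : 0 < d := by
    rcases Nat.eq_zero_or_pos d with h0 | h0
    · rw [h0, mul_zero] at hd; omega
    · exact h0
  have hNd : (N : ℤ) = e * d := by exact_mod_cast hd
  have hcop1 : IsCoprime (d : ℤ) c' := by
    rw [Int.isCoprime_iff_gcd_eq_one]
    have h1 := Int.gcd_div_gcd_div_gcd (i := (N : ℤ)) (j := c) (by rw [← he]; exact he_pos)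
    rw [← he] at h1
    have e1 : (N : ℤ) / e = d := by
      rw [hNd]; exact Int.mul_ediv_cancel_left _ (by exact_mod_cast he_pos.ne')
    have e2 : c / e = c' := by
      rw [hc']; exact Int.mul_ediv_cancel_left _ (by exact_mod_cast he_pos.ne')
    rwa [e1, e2] at h1
  have hcop2 : IsCoprime a c := ⟨dh, -b, by linear_combination hdet⟩
  have hcop3 : IsCoprime a c' := by
    rw [hc'] at hcop2
    exact hcop2.of_mul_right_right
  obtain ⟨u, v, huv⟩ := hcop1.mul_left hcop3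
  refine ⟨e, d, u * N * b + v * dh, ⟨!![d * a, -v; c', u], ?_⟩, he_pos, hd_pos, hd.symm, rfl,
    ?_, ?_, ?_, ?_⟩
  · rw [Matrix.det_fin_two_of]
    linear_combination huv
  · simp only [Matrix.of_apply, Matrix.cons_val',
      Matrix.cons_val_zero, Matrix.cons_val_fin_one]
    rw [hNd]; ring
  · simp only [Matrix.of_apply, Matrix.cons_val',
      Matrix.cons_val_zero, Matrix.cons_val_one, Matrix.cons_val_fin_one]
    rw [hNd]
    linear_combination (-(b * e * d : ℤ)) * huv - (v * d : ℤ) * hdet - (v * d * b : ℤ) * hc'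
  · simp only [Matrix.of_apply, Matrix.cons_val',
      Matrix.cons_val_zero, Matrix.cons_val_one, Matrix.cons_val_fin_one]
    rw [hc']; ring
  · simp only [Matrix.of_apply, Matrix.cons_val',
      Matrix.cons_val_zero, Matrix.cons_val_one, Matrix.cons_val_fin_one]
    rw [hNd]
    linear_combination (-(dh : ℤ)) * huv + (u * d : ℤ) * hdet + (u * d * b : ℤ) * hc'


/-! ### The slash translates of `fN` -/

/-- The point `(e z + x) / d`. -/
noncomputable def aff (e d : ℕ) (x : ℤ) (z : ℂ) : ℂ := ((e : ℂ) * z + x) / d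

theorem aff_im (e d : ℕ) (x : ℤ) (z : ℂ) : (aff e d x z).im = e * z.im / d := by
  unfold aff
  have : ((e : ℂ) * z + x) / d = ((e : ℂ) * z + x) * (((d : ℝ)⁻¹ : ℝ) : ℂ) := by
    push_cast; rw [div_eq_mul_inv]
  rw [this, Complex.mul_im]
  simp
  ring

theorem aff_im_pos {e d : ℕ} (he : 0 < e) (hd : 0 < d) (x : ℤ) {z : ℂ} (hz : 0 < z.im) :
    0 < (aff e d x z).im := by
  rw [aff_im]
  have he' : (0 : ℝ) < e := by exact_mod_cast he
  have hd' : (0 : ℝ) < d := by exact_mod_cast hd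
  positivity

theorem coe_smul_SL (γ : SL(2, ℤ)) (τ : ℍ) :
    ((γ • τ : ℍ) : ℂ) = ((γ 0 0 : ℂ) * τ + (γ 0 1 : ℂ)) / ((γ 1 0 : ℂ) * τ + (γ 1 1 : ℂ)) := by
  rw [coe_specialLinearGroup_apply]
  simp

theorem denom_SL (γ : SL(2, ℤ)) (τ : ℍ) : denom γ τ = (γ 1 0 : ℂ) * τ + (γ 1 1 : ℂ) := by
  simp [denom]

/-- **Explicit form of the translates of `fN`.** -/
theorem fN_slash_apply (N : ℕ) (hN : 0 < N) (h : SL(2, ℤ)) :
    ∃ (e d : ℕ) (x : ℤ), 0 < e ∧ 0 < d ∧ e * d = N ∧ e = Int.gcd N (h 1 0) ∧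
      ∀ z : ℍ, (fN N ∣[(12 : ℤ)] h) z = ((d : ℂ) ^ 12)⁻¹ * Δ (ofComplex (aff e d x z)) := by
  obtain ⟨e, d, x, γ, he, hd, hed, hgcd, h00, h01, h10, h11⟩ := exists_hermite N hN h
  refine ⟨e, d, x, he, hd, hed, hgcd, fun z => ?_⟩
  have hwpos : 0 < (aff e d x z).im := aff_im_pos he hd x z.im_pos
  set w : ℍ := ⟨aff e d x z, hwpos⟩ with hw
  have hwc : (w : ℂ) = aff e d x z := rfl
  have hdC : (d : ℂ) ≠ 0 := by exact_mod_cast hd.ne'
  have hdenh : denom h z ≠ 0 := denom_ne_zero h z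
  have hdenγ : denom γ w ≠ 0 := denom_ne_zero γ w
  have c00 : ((N : ℂ)) * (h 0 0 : ℂ) = (γ 0 0 : ℂ) * e := by exact_mod_cast h00
  have c01 : ((N : ℂ)) * (h 0 1 : ℂ) = (γ 0 0 : ℂ) * x + (γ 0 1 : ℂ) * d := by exact_mod_cast h01
  have c10 : (h 1 0 : ℂ) = (γ 1 0 : ℂ) * e := by exact_mod_cast h10
  have c11 : (h 1 1 : ℂ) = (γ 1 0 : ℂ) * x + (γ 1 1 : ℂ) * d := by exact_mod_cast h11
  have hden : denom γ w = denom h z / d := by
    rw [denom_SL, denom_SL, hwc, aff, c10, c11]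
    field_simp
    ring
  have hpt : (N : ℂ) * ((h • z : ℍ) : ℂ) = ((γ • w : ℍ) : ℂ) := by
    have h1 : (γ 1 0 : ℂ) * w + (γ 1 1 : ℂ) ≠ 0 := by rw [← denom_SL]; exact hdenγ
    have h2 : (h 1 0 : ℂ) * z + (h 1 1 : ℂ) ≠ 0 := by rw [← denom_SL]; exact hdenh
    have h3 : (γ 1 0 : ℂ) * w + (γ 1 1 : ℂ) = ((h 1 0 : ℂ) * z + (h 1 1 : ℂ)) / d := by
      rw [← denom_SL, ← denom_SL]; exact hden
    have h4 : (γ 0 0 : ℂ) * w + (γ 0 1 : ℂ) = (N : ℂ) * ((h 0 0 : ℂ) * z + (h 0 1 : ℂ)) / d := by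
      rw [hwc, aff, mul_add, ← mul_assoc, c00, c01]
      field_simp
      ring
    rw [coe_smul_SL, coe_smul_SL, h3, h4]
    field_simp
  rw [SL_slash_apply]
  have e1 : fN N (h • z) = Δ (γ • w) := by
    unfold fN
    rw [hpt, ofComplex_apply]
  have e2 : ofComplex (aff e d x z) = w := by
    rw [← hwc, ofComplex_apply]
  rw [e1, e2, discriminant_smul, hden, zpow_neg, div_pow]
  have : denom h z ^ (12 : ℤ) = denom h z ^ (12 : ℕ) := by norm_cast
  rw [this]
  have h5 : denom h z ^ (12 : ℕ) ≠ 0 := pow_ne_zero _ hdenh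
  field_simp

/-! ### Asymptotics of `Δ` at `i∞` -/

theorem tendsto_norm_discriminant_mul_exp :
    Tendsto (fun z : ℍ => ‖Δ z‖ * Real.exp (2 * π * z.im)) atImInfty (𝓝 1) := by
  have h := tendsto_atImInfty_tprod_one_sub_eta_q_pow.norm
  rw [norm_one] at h
  refine h.congr fun z => ?_
  rw [discriminant_eq_q_prod, norm_mul, Function.Periodic.norm_qParam]
  have e1 : Real.exp (-2 * π * (z : ℂ).im / 1) * Real.exp (2 * π * z.im) = 1 := by
    rw [← Real.exp_add]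
    have : -2 * π * (z : ℂ).im / 1 + 2 * π * z.im = 0 := by
      rw [UpperHalfPlane.coe_im]; ring
    rw [this, Real.exp_zero]
  rw [mul_comm (Real.exp _) ‖_‖, mul_assoc, e1, mul_one]

/-- A map `ℍ → ℂ` scaling imaginary parts by `r > 0`, as a map `ℍ → ℍ`. -/
noncomputable def liftPt (φ : ℍ → ℂ) (r : ℝ) (hr : 0 < r) (hφ : ∀ z : ℍ, (φ z).im = r * z.im)
    (z : ℍ) : ℍ :=
  ⟨φ z, by rw [hφ]; exact mul_pos hr z.im_pos⟩

theorem ofComplex_eq_liftPt (φ : ℍ → ℂ) (r : ℝ) (hr : 0 < r)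
    (hφ : ∀ z : ℍ, (φ z).im = r * z.im) (z : ℍ) : ofComplex (φ z) = liftPt φ r hr hφ z := by
  have : φ z = ((liftPt φ r hr hφ z : ℍ) : ℂ) := rfl
  rw [this, ofComplex_apply]

theorem liftPt_im (φ : ℍ → ℂ) (r : ℝ) (hr : 0 < r)
    (hφ : ∀ z : ℍ, (φ z).im = r * z.im) (z : ℍ) : (liftPt φ r hr hφ z).im = r * z.im :=
  hφ z

theorem tendsto_liftPt (φ : ℍ → ℂ) (r : ℝ) (hr : 0 < r)
    (hφ : ∀ z : ℍ, (φ z).im = r * z.im) : Tendsto (liftPt φ r hr hφ) atImInfty atImInfty := by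
  rw [atImInfty, tendsto_comap_iff]
  have : (UpperHalfPlane.im ∘ liftPt φ r hr hφ) = fun z : ℍ => r * z.im := by
    ext z; exact liftPt_im φ r hr hφ z
  rw [this]
  exact (tendsto_id.const_mul_atTop hr).comp tendsto_comap

theorem tendsto_norm_discriminant_comp (φ : ℍ → ℂ) (r : ℝ) (hr : 0 < r)
    (hφ : ∀ z : ℍ, (φ z).im = r * z.im) :
    Tendsto (fun z : ℍ => ‖Δ (ofComplex (φ z))‖ * Real.exp (2 * π * (r * z.im))) atImInfty
      (𝓝 1) := by
  have h := tendsto_norm_discriminant_mul_exp.comp (tendsto_liftPt φ r hr hφ)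
  refine h.congr fun z => ?_
  simp only [Function.comp_apply]
  rw [ofComplex_eq_liftPt φ r hr hφ, liftPt_im]

theorem isZeroAtImInfty_discriminant_comp (φ : ℍ → ℂ) (r : ℝ) (hr : 0 < r)
    (hφ : ∀ z : ℍ, (φ z).im = r * z.im) :
    IsZeroAtImInfty (fun z : ℍ => Δ (ofComplex (φ z))) := by
  have h : Tendsto (fun z : ℍ => Δ (liftPt φ r hr hφ z)) atImInfty (𝓝 0) :=
    discriminant_isZeroAtImInfty.comp (tendsto_liftPt φ r hr hφ)
  refine h.congr fun z => ?_
  rw [ofComplex_eq_liftPt φ r hr hφ]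

/-! ### `fN` is a cusp form on `Γ₀(N)` -/

theorem discriminant_ofComplex_add_int {w : ℂ} (hw : 0 < w.im) (x : ℤ) :
    Δ (ofComplex (w + x)) = Δ (ofComplex w) := by
  obtain ⟨γ, hγ⟩ : ∃ γ : SL(2, ℤ), γ = ModularGroup.T ^ x := ⟨_, rfl⟩
  have h := discriminant_smul γ ⟨w, hw⟩
  have hd : denom γ (⟨w, hw⟩ : ℍ) = 1 := by
    rw [denom_SL, hγ, ModularGroup.coe_T_zpow]
    simp
  have hp : ((γ • (⟨w, hw⟩ : ℍ) : ℍ) : ℂ) = w + x := by
    rw [hγ]
    exact ModularGroup.coe_T_zpow_smul_eq (⟨w, hw⟩ : ℍ)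
  rw [hd, one_pow, one_mul] at h
  rw [← hp, ofComplex_apply, h]
  congr 1
  exact (ofComplex_apply_of_im_pos hw).symm

theorem mdifferentiable_fN (N : ℕ) (hN : 0 < N) : MDiff (fN N) := by
  rw [UpperHalfPlane.mdifferentiable_iff]
  have hΔ : DifferentiableOn ℂ (Δ ∘ ofComplex) {z | 0 < z.im} :=
    UpperHalfPlane.mdifferentiable_iff.mp CuspForm.discriminant.holo'
  have hmul : DifferentiableOn ℂ (fun z : ℂ => (N : ℂ) * z) {z | 0 < z.im} :=
    (differentiable_id.const_mul (N : ℂ)).differentiableOn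
  have hN' : (0 : ℝ) < N := by exact_mod_cast hN
  have hmaps : Set.MapsTo (fun z : ℂ => (N : ℂ) * z) {z | 0 < z.im} {z | 0 < z.im} := by
    intro z hz
    show 0 < ((N : ℂ) * z).im
    have hz : 0 < z.im := hz
    rw [Complex.mul_im]
    simp only [Complex.natCast_re, Complex.natCast_im, zero_mul, add_zero]
    positivity
  refine (hΔ.comp hmul hmaps).congr fun z hz => ?_
  simp only [Function.comp_apply, fN]
  rw [ofComplex_apply_of_im_pos hz]

theorem fN_slash_of_mem_Gamma0 (N : ℕ) (hN : 0 < N) {γ : SL(2, ℤ)} (hγ : γ ∈ Gamma0 N) :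
    fN N ∣[(12 : ℤ)] γ = fN N := by
  obtain ⟨e, d, x, he, hd, hed, hgcd, hf⟩ := fN_slash_apply N hN γ
  have hdvd : (N : ℤ) ∣ γ 1 0 := (ZMod.intCast_zmod_eq_zero_iff_dvd _ _).mp (Gamma0_mem.mp hγ)
  have heN : e = N := by
    rw [hgcd]
    have := Int.gcd_eq_left_iff_dvd (a := (N : ℤ)) (b := γ 1 0) (Int.natCast_nonneg N) |>.mpr hdvd
    exact_mod_cast this
  have hd1 : d = 1 := by
    rw [heN] at hed
    exact Nat.eq_of_mul_eq_mul_left hN (by rw [hed, mul_one])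
  ext z
  rw [hf z, hd1, heN]
  simp only [Nat.cast_one, one_pow, inv_one, one_mul, aff, div_one]
  have hNz : 0 < ((N : ℂ) * (z : ℂ)).im := by
    have hN' : (0 : ℝ) < N := by exact_mod_cast hN
    rw [Complex.mul_im]
    simp only [Complex.natCast_re, Complex.natCast_im, zero_mul, add_zero]
    exact mul_pos hN' z.im_pos
  rw [discriminant_ofComplex_add_int hNz x]
  rfl

theorem isZeroAtImInfty_fN_slash (N : ℕ) (hN : 0 < N) (δ : SL(2, ℤ)) :
    IsZeroAtImInfty (fN N ∣[(12 : ℤ)] δ) := by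
  obtain ⟨e, d, x, he, hd, hed, hgcd, hf⟩ := fN_slash_apply N hN δ
  have he' : (0 : ℝ) < e := by exact_mod_cast he
  have hd' : (0 : ℝ) < d := by exact_mod_cast hd
  have hr : (0 : ℝ) < e / d := by positivity
  have h := isZeroAtImInfty_discriminant_comp (fun z : ℍ => aff e d x z) (e / d) hr
    (fun z => by rw [aff_im, UpperHalfPlane.coe_im]; ring)
  have h2 : Tendsto (fun z : ℍ => ((d : ℂ) ^ 12)⁻¹ * Δ (ofComplex (aff e d x z))) atImInfty
      (𝓝 0) := by
    have := h.const_mul (((d : ℂ) ^ 12)⁻¹)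
    rwa [mul_zero] at this
  exact h2.congr fun z => (hf z).symm

/-- **(E1)** `fN N = Δ(N ·)` is a cusp form of weight `12` on `Γ₀(N)`. -/
theorem isCF_fN (N : ℕ) (hN : 0 < N) : IsCF N 12 (fN N) :=
  ⟨mdifferentiable_fN N hN, fun _ hγ => fN_slash_of_mem_Gamma0 N hN hγ,
    isZeroAtImInfty_fN_slash N hN⟩

/-! ### The stabiliser of `fN` -/

/-- The stabiliser of `fN N` in `SL(2, ℤ)` is contained in `Γ₀(N)`. -/
theorem mem_Gamma0_of_slash_fN_eq (N : ℕ) (hN : 0 < N) (h : SL(2, ℤ))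
    (hh : fN N ∣[(12 : ℤ)] h = fN N) : h ∈ Gamma0 N := by
  obtain ⟨e, d, x, he, hd, hed, hgcd, hf⟩ := fN_slash_apply N hN h
  by_contra hmem
  have hN' : (0 : ℝ) < N := by exact_mod_cast hN
  have he' : (0 : ℝ) < e := by exact_mod_cast he
  have hd' : (0 : ℝ) < d := by exact_mod_cast hd
  have hd2 : 2 ≤ d := by
    by_contra hlt
    have hd1 : d = 1 := by omega
    apply hmem
    rw [Gamma0_mem]
    have heN : e = N := by rw [← hed, hd1, mul_one]
    have hdv : ((Int.gcd (N : ℤ) (h 1 0) : ℕ) : ℤ) ∣ h 1 0 := Int.gcd_dvd_right _ _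
    rw [← hgcd, heN] at hdv
    exact (ZMod.intCast_zmod_eq_zero_iff_dvd _ _).mpr hdv
  have hr : (0 : ℝ) < e / d := by positivity
  have hlt : (e : ℝ) / d < N := by
    have h1 : (N : ℝ) = e * d := by exact_mod_cast hed.symm
    have h2 : (2 : ℝ) ≤ d := by exact_mod_cast hd2
    rw [div_lt_iff₀ hd', h1]
    nlinarith
  have L1 := tendsto_norm_discriminant_comp (fun z : ℍ => (N : ℂ) * z) N hN'
    (fun z => by
      rw [Complex.mul_im]
      simp only [Complex.natCast_re, Complex.natCast_im, zero_mul, add_zero,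
        UpperHalfPlane.coe_im])
  have L2 := tendsto_norm_discriminant_comp (fun z : ℍ => aff e d x z) (e / d) hr
    (fun z => by rw [aff_im, UpperHalfPlane.coe_im]; ring)
  have key : ∀ z : ℍ, ‖Δ (ofComplex ((N : ℂ) * z))‖ =
      ((d : ℝ) ^ 12)⁻¹ * ‖Δ (ofComplex (aff e d x z))‖ := by
    intro z
    have h1 : fN N z = ((d : ℂ) ^ 12)⁻¹ * Δ (ofComplex (aff e d x z)) := by
      rw [← hf z, hh]
    have h2 : fN N z = Δ (ofComplex ((N : ℂ) * z)) := rfl
    rw [← h2, h1, norm_mul, norm_inv, norm_pow]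
    simp
  have hc : 0 < 2 * π * ((N : ℝ) - e / d) := by
    have := Real.pi_pos
    have : 0 < (N : ℝ) - e / d := sub_pos.mpr hlt
    positivity
  have L3 : Tendsto (fun z : ℍ => Real.exp (-(2 * π * ((N : ℝ) - e / d)) * z.im)) atImInfty
      (𝓝 0) := by
    have h1 : Tendsto (fun y : ℝ => Real.exp (-(2 * π * ((N : ℝ) - e / d)) * y)) atTop (𝓝 0) := by
      refine Real.tendsto_exp_atBot.comp ?_
      exact tendsto_id.const_mul_atTop_of_neg (neg_neg_of_pos hc)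
    exact h1.comp tendsto_comap
  have L4 := L1.mul L3
  have L5 := L2.const_mul (((d : ℝ) ^ 12)⁻¹)
  rw [mul_zero] at L4
  rw [mul_one] at L5
  have L6 : Tendsto (fun z : ℍ => ((d : ℝ) ^ 12)⁻¹ *
      (‖Δ (ofComplex (aff e d x z))‖ * Real.exp (2 * π * (e / d * z.im)))) atImInfty (𝓝 0) := by
    refine L4.congr fun z => ?_
    rw [key z, mul_assoc, mul_assoc, ← Real.exp_add]
    congr 3
    ring
  have := tendsto_nhds_unique L6 L5
  have hne : ((d : ℝ) ^ 12)⁻¹ ≠ 0 := inv_ne_zero (pow_ne_zero _ hd'.ne')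
  exact hne this.symm

/-- **(E2)** The components of `fN N` at the cosets of `Γ₀(N)` are pairwise distinct. -/
theorem comp_fN_injective (N : ℕ) (hN : 0 < N) : Function.Injective (comp N 12 (fN N)) := by
  intro q q' hqq
  have h0 : fN N ∣[(12 : ℤ)] (q.out : SL(2, ℤ))⁻¹ = fN N ∣[(12 : ℤ)] (q'.out : SL(2, ℤ))⁻¹ := hqq
  have h1 : fN N ∣[(12 : ℤ)] ((q.out : SL(2, ℤ))⁻¹ * q'.out) = fN N := by
    rw [SlashAction.slash_mul, h0, ← SlashAction.slash_mul, inv_mul_cancel, SlashAction.slash_one]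
  have h2 := mem_Gamma0_of_slash_fN_eq N hN _ h1
  have h3 : ((q.out : SL(2, ℤ)) : Q N) = ((q'.out : SL(2, ℤ)) : Q N) := QuotientGroup.eq.mpr h2
  rwa [QuotientGroup.out_eq', QuotientGroup.out_eq'] at h3

theorem isMF_fN (N : ℕ) (hN : 0 < N) : IsMF N 12 (fN N) :=
  ⟨mdifferentiable_fN N hN, fun _ hγ => fN_slash_of_mem_Gamma0 N hN hγ,
    fun δ => (isZeroAtImInfty_fN_slash N hN δ).isBoundedAtImInfty⟩

theorem mdifferentiable_comp_fN (N : ℕ) (hN : 0 < N) (q : Q N) : MDiff (comp N 12 (fN N) q) :=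
  (mdifferentiable_fN N hN).slash 12 _

/-- **(E3)** Near `i` (and away from `i`), the components of `fN N` take pairwise distinct
values. -/
theorem eventually_forall_comp_fN_ne (N : ℕ) [NeZero N] :
    ∀ᶠ z in 𝓝[≠] (UpperHalfPlane.I), ∀ q q' : Q N, q ≠ q' →
      comp N 12 (fN N) q z ≠ comp N 12 (fN N) q' z := by
  have hN : 0 < N := Nat.pos_of_ne_zero (NeZero.ne N)
  have : Finite (Q N) := Subgroup.finite_quotient_of_finiteIndex
  have hpair : ∀ q q' : Q N, q ≠ q' →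
      ∀ᶠ z in 𝓝[≠] (UpperHalfPlane.I), comp N 12 (fN N) q z ≠ comp N 12 (fN N) q' z := by
    intro q q' hqq
    by_contra hcon
    rw [Filter.not_eventually] at hcon
    have hfreq : ∃ᶠ z in 𝓝[≠] (UpperHalfPlane.I),
        (comp N 12 (fN N) q - comp N 12 (fN N) q') z = 0 := by
      refine hcon.mono fun z hz => ?_
      rw [Pi.sub_apply, sub_eq_zero]
      exact not_not.mp hz
    have hdiff : MDiff (comp N 12 (fN N) q - comp N 12 (fN N) q') :=
      (mdifferentiable_comp_fN N hN q).sub (mdifferentiable_comp_fN N hN q')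
    have := UpperHalfPlane.eq_zero_of_frequently hdiff hfreq
    exact hqq (comp_fN_injective N hN (sub_eq_zero.mp this))
  rw [Filter.eventually_all]
  intro q
  rw [Filter.eventually_all]
  intro q'
  by_cases hqq : q = q'
  · exact Filter.Eventually.of_forall fun z h => absurd hqq h
  · exact (hpair q q' hqq).mono fun z hz _ => hz

/-- **(E3')** There is a point of `ℍ` at which the components of `fN N` take pairwise distinct
values. -/
theorem exists_forall_comp_fN_ne (N : ℕ) [NeZero N] :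
    ∃ z₀ : ℍ, ∀ q q' : Q N, q ≠ q' → comp N 12 (fN N) q z₀ ≠ comp N 12 (fN N) q' z₀ :=
  (eventually_forall_comp_fN_ne N).exists

end Fermat.Agent.S20.Stab
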