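import Mathlib
import Fermat.Agent.S20.Basic
import Fermat.Agent.S20.Stab

/-!
# S20, leaf E (second part): `μ` forms on `Γ₀(N)` independent over the level one forms

The forms `Δ ^ (μ - 1 - a) * fN ^ a`, `a < μ = [SL(2, ℤ) : Γ₀(N)]`, all of weight `12 (μ - 1)`,
are linearly independent over the ring of level one modular forms (Vandermonde argument on the
pairwise distinct conjugates of `fN`).
-/

set_option autoImplicit false

namespace Fermat.Agent.S20.Stab

open UpperHalfPlane CongruenceSubgroup ModularForm Complex Filter Topology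
open scoped MatrixGroups ModularForm Manifold Real Polynomial

local notation "Δ" => ModularForm.discriminant

/-- The family `Δ ^ (μ - 1 - a) * fN ^ a`, `a < μ`. -/
noncomputable def indepFam (N : ℕ) (a : Fin (Nat.card (Q N))) : ℍ → ℂ :=
  Δ ^ (Nat.card (Q N) - 1 - (a : ℕ)) * (fN N) ^ (a : ℕ)

theorem isMF_indepFam (N : ℕ) (hN : 0 < N) (a : Fin (Nat.card (Q N))) :
    IsMF N (12 * ((Nat.card (Q N) : ℤ) - 1)) (indepFam N a) := by
  have h1 : IsMF N (((Nat.card (Q N) - 1 - (a : ℕ) : ℕ) : ℤ) * 12)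
      (Δ ^ (Nat.card (Q N) - 1 - (a : ℕ))) := (isMF_discriminant.of_level_one).pow _
  have h2 : IsMF N (((a : ℕ) : ℤ) * 12) ((fN N) ^ (a : ℕ)) := (isMF_fN N hN).pow _
  refine (h1.mul' h2).congr_weight ?_
  have ha : (a : ℕ) < Nat.card (Q N) := a.2
  have : ((Nat.card (Q N) - 1 - (a : ℕ) : ℕ) : ℤ) = (Nat.card (Q N) : ℤ) - 1 - (a : ℕ) := by
    omega
  rw [this]
  ring

/-- Slashing the relation: the relation holds with `fN` replaced by any translate. -/
theorem sum_slash_eq_zero (N : ℕ) {m : ℤ} (c : Fin (Nat.card (Q N)) → ℍ → ℂ)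
    (hc : ∀ a, IsMF 1 m (c a)) (hrel : ∀ z, ∑ a, c a z * indepFam N a z = 0)
    (δ : SL(2, ℤ)) (z : ℍ) :
    ∑ a : Fin (Nat.card (Q N)),
      c a z * Δ z ^ (Nat.card (Q N) - 1 - (a : ℕ)) * ((fN N ∣[(12 : ℤ)] δ) z) ^ (a : ℕ) = 0 := by
  set D : ℂ := denom δ z with hD
  have hD0 : D ≠ 0 := denom_ne_zero δ z
  have hcδ : ∀ a, c a (δ • z) = c a z * D ^ m := by
    intro a
    have h := congrFun ((hc a).slash_eq_one δ) z
    rw [SL_slash_apply, zpow_neg, mul_inv_eq_iff_eq_mul₀ (zpow_ne_zero _ hD0)] at h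
    exact h
  have hΔδ : Δ (δ • z) = D ^ (12 : ℕ) * Δ z := discriminant_smul δ z
  have hfδ : fN N (δ • z) = (fN N ∣[(12 : ℤ)] δ) z * D ^ (12 : ℕ) := by
    rw [SL_slash_apply, zpow_neg, mul_assoc]
    have : (denom δ z ^ (12 : ℤ))⁻¹ * D ^ (12 : ℕ) = 1 := by
      rw [hD]
      have : denom δ z ^ (12 : ℤ) = denom δ z ^ (12 : ℕ) := by norm_cast
      rw [this, inv_mul_cancel₀ (pow_ne_zero _ hD0)]
    rw [this, mul_one]
  have h := hrel (δ • z)
  simp only [indepFam, Pi.mul_apply, Pi.pow_apply] at h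
  have hterm : ∀ a : Fin (Nat.card (Q N)),
      c a (δ • z) * (Δ (δ • z) ^ (Nat.card (Q N) - 1 - (a : ℕ)) * fN N (δ • z) ^ (a : ℕ)) =
        (D ^ m * (D ^ (12 : ℕ)) ^ (Nat.card (Q N) - 1)) *
          (c a z * Δ z ^ (Nat.card (Q N) - 1 - (a : ℕ)) *
            ((fN N ∣[(12 : ℤ)] δ) z) ^ (a : ℕ)) := by
    intro a
    have ha : (a : ℕ) ≤ Nat.card (Q N) - 1 := by have := a.2; omega
    rw [hcδ, hΔδ, hfδ, mul_pow, mul_pow]
    have : (D ^ (12 : ℕ)) ^ (Nat.card (Q N) - 1) =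
        (D ^ (12 : ℕ)) ^ (Nat.card (Q N) - 1 - (a : ℕ)) * (D ^ (12 : ℕ)) ^ (a : ℕ) := by
      rw [← pow_add, Nat.sub_add_cancel ha]
    rw [this]
    ring
  simp_rw [hterm] at h
  rw [← Finset.mul_sum] at h
  have hne : D ^ m * (D ^ (12 : ℕ)) ^ (Nat.card (Q N) - 1) ≠ 0 :=
    mul_ne_zero (zpow_ne_zero _ hD0) (pow_ne_zero _ (pow_ne_zero _ hD0))
  exact (mul_eq_zero.mp h).resolve_left hne

/-- Vandermonde step at a point where the conjugates are pairwise distinct. -/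
theorem coeff_eq_zero_of_distinct (N : ℕ) [NeZero N] {m : ℤ}
    (c : Fin (Nat.card (Q N)) → ℍ → ℂ) (hc : ∀ a, IsMF 1 m (c a))
    (hrel : ∀ z, ∑ a, c a z * indepFam N a z = 0) (z : ℍ)
    (hz : ∀ q q' : Q N, q ≠ q' → comp N 12 (fN N) q z ≠ comp N 12 (fN N) q' z)
    (a : Fin (Nat.card (Q N))) : c a z = 0 := by
  classical
  have : Finite (Q N) := Subgroup.finite_quotient_of_finiteIndex
  let _ : Fintype (Q N) := Fintype.ofFinite (Q N)
  obtain ⟨p, hp⟩ : ∃ p : ℂ[X], p = ∑ b : Fin (Nat.card (Q N)),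
      Polynomial.C (c b z * Δ z ^ (Nat.card (Q N) - 1 - (b : ℕ))) * Polynomial.X ^ (b : ℕ) :=
    ⟨_, rfl⟩
  have hdeg : p.degree < (Nat.card (Q N) : ℕ) := by
    rw [hp]; exact Polynomial.degree_sum_fin_lt _
  have heval : ∀ q : Q N, p.eval (comp N 12 (fN N) q z) = 0 := by
    intro q
    rw [hp, Polynomial.eval_finsetSum]
    simp only [Polynomial.eval_mul, Polynomial.eval_C, Polynomial.eval_pow, Polynomial.eval_X]
    exact sum_slash_eq_zero N c hc hrel (q.out : SL(2, ℤ))⁻¹ z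
  have hinj : Function.Injective fun q : Q N => comp N 12 (fN N) q z := by
    intro q q' h
    by_contra hne
    exact hz q q' hne h
  have hp0 : p = 0 := by
    by_cases h0 : p = 0
    · exact h0
    · refine Polynomial.eq_zero_of_natDegree_lt_card_of_eval_eq_zero p hinj heval ?_
      rw [← Nat.card_eq_fintype_card]
      exact (Polynomial.natDegree_lt_iff_degree_lt h0).mpr hdeg
  have hcoeff : p.coeff (a : ℕ) = c a z * Δ z ^ (Nat.card (Q N) - 1 - (a : ℕ)) := by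
    rw [hp, Polynomial.finsetSum_coeff]
    simp only [Polynomial.coeff_C_mul_X_pow]
    rw [Finset.sum_eq_single a]
    · simp
    · intro b _ hb
      rw [if_neg]
      intro h
      exact hb (Fin.ext h.symm)
    · intro h; exact absurd (Finset.mem_univ a) h
  rw [hp0, Polynomial.coeff_zero] at hcoeff
  have hΔ : Δ z ^ (Nat.card (Q N) - 1 - (a : ℕ)) ≠ 0 := pow_ne_zero _ (discriminant_ne_zero z)
  exact (mul_eq_zero.mp hcoeff.symm).resolve_right hΔ

/-- **(E4)** `μ = [SL(2, ℤ) : Γ₀(N)]` modular forms on `Γ₀(N)` of the same weight which are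
linearly independent over the level one forms. -/
theorem exists_independent (N : ℕ) [NeZero N] :
    ∃ (K₁ : ℤ) (G : Fin (Nat.card (Q N)) → ℍ → ℂ), (∀ a, IsMF N K₁ (G a)) ∧
      ∀ (m : ℤ) (c : Fin (Nat.card (Q N)) → ℍ → ℂ), (∀ a, IsMF 1 m (c a)) →
        (∀ z, ∑ a, c a z * G a z = 0) → ∀ a, c a = 0 := by
  have hN : 0 < N := Nat.pos_of_ne_zero (NeZero.ne N)
  refine ⟨12 * ((Nat.card (Q N) : ℤ) - 1), indepFam N, isMF_indepFam N hN, ?_⟩
  intro m c hc hrel a
  refine UpperHalfPlane.eq_zero_of_frequently (hc a).mdiff (τ := UpperHalfPlane.I) ?_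
  exact ((eventually_forall_comp_fN_ne N).mono fun z hz =>
    coeff_eq_zero_of_distinct N c hc hrel z hz a).frequently

end Fermat.Agent.S20.Stab
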