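import Mathlib
import Fermat.Agent.S20.Basic
import Fermat.Agent.S20.Div
import Fermat.Agent.S20.Ramanujan
import Fermat.Agent.S20.JInj

/-!
# S20: regularity of `(E₄, E₆)` and the level one algebra

* `IsMF.div_E4`, `IsMF.div_E6` : division by `E₄`, `E₆` (B5);
* `exists_E6_pow_decomp`, `exists_E4_pow_decomp`, `exists_E4_E6_decomp`, `E6_pow_not_mem`,
  `E4_pow_not_mem` : structure of the spaces of level one forms (B6).
-/

set_option autoImplicit false

namespace Fermat.Agent.S20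

open UpperHalfPlane CongruenceSubgroup ModularForm Matrix.SpecialLinearGroup OnePoint
open scoped MatrixGroups ModularForm Manifold

variable {N : ℕ} {k m : ℤ}

/-! ### B5: division by `E₄` and `E₆` -/

section division

variable {F G H : ℍ → ℂ}

/-- A form vanishing at the zeros of `E₄` is divisible by `E₄`. -/
theorem IsMF.exists_eq_E4_mul (hF : IsMF N k F) (h : ∀ z, E₄ z = 0 → F z = 0) :
    ∃ h, IsMF N (k - 4) h ∧ ∀ z, F z = E₄ z * h z :=
  Div.exists_div_of_simple_zeros (ψ := ⇑E₄) isMF_E4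
    (fun _ hz => Ramanujan.deriv_E₄_ne_zero hz) ⟨1, one_ne_zero, Ramanujan.tendsto_E₄⟩ hF h

/-- A form vanishing at the zeros of `E₆` is divisible by `E₆`. -/
theorem IsMF.exists_eq_E6_mul (hF : IsMF N k F) (h : ∀ z, E₆ z = 0 → F z = 0) :
    ∃ h, IsMF N (k - 6) h ∧ ∀ z, F z = E₆ z * h z :=
  Div.exists_div_of_simple_zeros (ψ := ⇑E₆) isMF_E6
    (fun _ hz => Ramanujan.deriv_E₆_ne_zero hz) ⟨1, one_ne_zero, Ramanujan.tendsto_E₆⟩ hF h

/-- Cusp form version of `IsMF.exists_eq_E4_mul`. -/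
theorem IsCF.exists_eq_E4_mul (hF : IsCF N k F) (h : ∀ z, E₄ z = 0 → F z = 0) :
    ∃ h, IsCF N (k - 4) h ∧ ∀ z, F z = E₄ z * h z :=
  Div.exists_div_of_simple_zeros_isCF (ψ := ⇑E₄) isMF_E4
    (fun _ hz => Ramanujan.deriv_E₄_ne_zero hz) ⟨1, one_ne_zero, Ramanujan.tendsto_E₄⟩ hF h

/-- Cusp form version of `IsMF.exists_eq_E6_mul`. -/
theorem IsCF.exists_eq_E6_mul (hF : IsCF N k F) (h : ∀ z, E₆ z = 0 → F z = 0) :
    ∃ h, IsCF N (k - 6) h ∧ ∀ z, F z = E₆ z * h z :=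
  Div.exists_div_of_simple_zeros_isCF (ψ := ⇑E₆) isMF_E6
    (fun _ hz => Ramanujan.deriv_E₆_ne_zero hz) ⟨1, one_ne_zero, Ramanujan.tendsto_E₆⟩ hF h

/-- **Regularity of `(E₄, E₆)`**: if `E₆ * F = E₄ * G` then `F` is divisible by `E₄`. -/
theorem IsMF.div_E4 (hF : IsMF N k F) (_hG : IsMF N (k + 2) G)
    (h : ∀ z, E₆ z * F z = E₄ z * G z) : ∃ h, IsMF N (k - 4) h ∧ ∀ z, F z = E₄ z * h z := by
  refine hF.exists_eq_E4_mul fun z hz => ?_
  have h1 := h z
  rw [hz, zero_mul] at h1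
  exact (mul_eq_zero.mp h1).resolve_left fun h6 => Ramanujan.E₄_E₆_ne_zero z hz h6

/-- **Regularity of `(E₆, E₄)`**: if `E₄ * F = E₆ * G` then `F` is divisible by `E₆`. -/
theorem IsMF.div_E6 (hF : IsMF N k F) (_hG : IsMF N (k - 2) G)
    (h : ∀ z, E₄ z * F z = E₆ z * G z) : ∃ h, IsMF N (k - 6) h ∧ ∀ z, F z = E₆ z * h z := by
  refine hF.exists_eq_E6_mul fun z hz => ?_
  have h1 := h z
  rw [hz, zero_mul] at h1
  exact (mul_eq_zero.mp h1).resolve_left fun h4 => Ramanujan.E₄_E₆_ne_zero z h4 hz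

/-- `E₄` is not a zero divisor on holomorphic functions. -/
theorem E4_mul_eq_zero' (hH : MDiff H) (h : ∀ z, E₄ z * H z = 0) : H = 0 :=
  Div.eq_zero_of_mul_eq_zero (ψ := ⇑E₄) isMF_E4.1 (fun _ hz => Ramanujan.deriv_E₄_ne_zero hz) hH h

/-- `E₆` is not a zero divisor on holomorphic functions. -/
theorem E6_mul_eq_zero' (hH : MDiff H) (h : ∀ z, E₆ z * H z = 0) : H = 0 :=
  Div.eq_zero_of_mul_eq_zero (ψ := ⇑E₆) isMF_E6.1 (fun _ hz => Ramanujan.deriv_E₆_ne_zero hz) hH h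

theorem E4_mul_eq_zero (hH : IsMF N k H) (h : ∀ z, E₄ z * H z = 0) : H = 0 :=
  E4_mul_eq_zero' hH.1 h

theorem E6_mul_eq_zero (hH : IsMF N k H) (h : ∀ z, E₆ z * H z = 0) : H = 0 :=
  E6_mul_eq_zero' hH.1 h

end division

/-! ### B6: the level one algebra -/

section levelOneAlgebra

theorem h1_sub_four_of_not_dvd {m : ℤ} (h : ¬ (6 : ℤ) ∣ m) : h1 (m - 4) = h1 m := by
  unfold h1
  split_ifs <;> omega

theorem h1_of_six_dvd {m : ℤ} (h : (6 : ℤ) ∣ m) (h0 : 0 ≤ m) : h1 m = h1 (m - 4) + 1 := by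
  unfold h1
  split_ifs <;> omega

theorem h1_sub_six_of_not_dvd {m : ℤ} (h : ¬ (4 : ℤ) ∣ m) : h1 (m - 6) = h1 m := by
  unfold h1
  split_ifs <;> omega

theorem h1_of_four_dvd {m : ℤ} (h : (4 : ℤ) ∣ m) (h0 : 0 ≤ m) : h1 m = h1 (m - 6) + 1 := by
  unfold h1
  split_ifs <;> omega

/-- A power of `E₆` is not divisible by `E₄`. -/
theorem E6_pow_not_mem {b : ℍ → ℂ} {c : ℂ} {e : ℕ} (_hb : IsMF 1 m b)
    (h : ∀ z, c * E₆ z ^ e = E₄ z * b z) : c = 0 := by
  have h1 := h JInj.rho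
  rw [JInj.E₄_rho, zero_mul] at h1
  exact (mul_eq_zero.mp h1).resolve_right (pow_ne_zero e JInj.E₆_rho_ne_zero)

/-- A power of `E₄` is not divisible by `E₆`. -/
theorem E4_pow_not_mem {b : ℍ → ℂ} {c : ℂ} {e : ℕ} (_hb : IsMF 1 m b)
    (h : ∀ z, c * E₄ z ^ e = E₆ z * b z) : c = 0 := by
  have h1 := h UpperHalfPlane.I
  rw [JInj.E₆_I, zero_mul] at h1
  exact (mul_eq_zero.mp h1).resolve_right (pow_ne_zero e JInj.E₄_I_ne_zero)

/-- Multiplication by `E₄`, as a linear map on level one forms. -/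
noncomputable def mulE4 (m : ℤ) : MFsub 1 (m - 4) →ₗ[ℂ] MFsub 1 m where
  toFun b := ⟨⇑E₄ * b.1, (isMF_E4.mul' b.2).congr_weight (by ring)⟩
  map_add' b b' := by
    apply Subtype.ext
    show ⇑E₄ * (b.1 + b'.1) = ⇑E₄ * b.1 + ⇑E₄ * b'.1
    ring
  map_smul' c b := by
    apply Subtype.ext
    show ⇑E₄ * (c • b.1) = c • (⇑E₄ * b.1)
    rw [mul_smul_comm]

/-- Multiplication by `E₆`, as a linear map on level one forms. -/
noncomputable def mulE6 (m : ℤ) : MFsub 1 (m - 6) →ₗ[ℂ] MFsub 1 m where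
  toFun b := ⟨⇑E₆ * b.1, (isMF_E6.mul' b.2).congr_weight (by ring)⟩
  map_add' b b' := by
    apply Subtype.ext
    show ⇑E₆ * (b.1 + b'.1) = ⇑E₆ * b.1 + ⇑E₆ * b'.1
    ring
  map_smul' c b := by
    apply Subtype.ext
    show ⇑E₆ * (c • b.1) = c • (⇑E₆ * b.1)
    rw [mul_smul_comm]

theorem mulE4_injective (m : ℤ) : Function.Injective (mulE4 m) := by
  rw [← LinearMap.ker_eq_bot, LinearMap.ker_eq_bot']
  intro b hb
  apply Subtype.ext
  have h1 : (⇑E₄ * b.1 : ℍ → ℂ) = 0 := congrArg Subtype.val hb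
  exact E4_mul_eq_zero b.2 fun z => congrFun h1 z

theorem mulE6_injective (m : ℤ) : Function.Injective (mulE6 m) := by
  rw [← LinearMap.ker_eq_bot, LinearMap.ker_eq_bot']
  intro b hb
  apply Subtype.ext
  have h1 : (⇑E₆ * b.1 : ℍ → ℂ) = 0 := congrArg Subtype.val hb
  exact E6_mul_eq_zero b.2 fun z => congrFun h1 z

theorem isMF_E6_pow (e : ℕ) : IsMF 1 (6 * e) (fun z => E₆ z ^ e) := by
  have := isMF_E6.pow (N := 1) e
  exact this.congr_weight (by ring)

theorem isMF_E4_pow (e : ℕ) : IsMF 1 (4 * e) (fun z => E₄ z ^ e) := by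
  have := isMF_E4.pow (N := 1) e
  exact this.congr_weight (by ring)

/-- `M_m = ℂ E₆^(m/6) ⊕ E₄ M_{m-4}` (the first summand only if `6 ∣ m`). -/
theorem exists_E6_pow_decomp {a : ℍ → ℂ} (ha : IsMF 1 m a) :
    ∃ (c : ℂ) (b : ℍ → ℂ), IsMF 1 (m - 4) b ∧ (¬ (6 : ℤ) ∣ m → c = 0) ∧
      ∀ z, a z = c * E₆ z ^ (m / 6).toNat + E₄ z * b z := by
  by_cases h6 : (6 : ℤ) ∣ m
  · rcases lt_or_ge m 0 with hneg | hnn
    · have h0 : a = 0 := ha.eq_zero_of_neg hneg
      exact ⟨0, 0, IsMF.zero, fun h => absurd h6 h, fun z => by simp [h0]⟩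
    · -- the map `(c, b) ↦ c E₆^e + E₄ b` is injective between spaces of the same dimension
      set e : ℕ := (m / 6).toNat with he
      have hme : (6 : ℤ) * e = m := by omega
      have hE : IsMF 1 m (fun z => E₆ z ^ e) := (isMF_E6_pow e).congr_weight hme
      let L : (ℂ × MFsub 1 (m - 4)) →ₗ[ℂ] MFsub 1 m :=
        (LinearMap.toSpanSingleton ℂ (MFsub 1 m) ⟨_, hE⟩).coprod (mulE4 m)
      have hLapp : ∀ (c : ℂ) (b : MFsub 1 (m - 4)) (z : ℍ),
          (L (c, b) : ℍ → ℂ) z = c * E₆ z ^ e + E₄ z * b.1 z := by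
        intro c b z
        rfl
      have hinj : Function.Injective L := by
        rw [← LinearMap.ker_eq_bot, LinearMap.ker_eq_bot']
        rintro ⟨c, b⟩ hcb
        have hz : ∀ z, c * E₆ z ^ e + E₄ z * b.1 z = 0 := fun z => by
          rw [← hLapp, hcb]; rfl
        have hc : c = 0 := by
          refine E6_pow_not_mem (m := m - 4) (b := -b.1) (e := e) b.2.neg fun z => ?_
          have := hz z
          simp only [Pi.neg_apply]
          linear_combination this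
        subst hc
        have hb : b = 0 := by
          apply Subtype.ext
          refine E4_mul_eq_zero b.2 fun z => ?_
          have := hz z
          simpa using this
        rw [hb]
        rfl
      have hdim : Module.finrank ℂ (ℂ × MFsub 1 (m - 4)) = Module.finrank ℂ (MFsub 1 m) := by
        rw [Module.finrank_prod, Module.finrank_self, finrank_MFsub_one, finrank_MFsub_one,
          h1_of_six_dvd h6 hnn, add_comm]
      have hsurj : Function.Surjective L :=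
        (LinearMap.injective_iff_surjective_of_finrank_eq_finrank hdim).mp hinj
      obtain ⟨⟨c, b⟩, hcb⟩ := hsurj ⟨a, ha⟩
      refine ⟨c, b.1, b.2, fun h => absurd h6 h, fun z => ?_⟩
      rw [← hLapp, hcb]
  · have hdim : Module.finrank ℂ (MFsub 1 (m - 4)) = Module.finrank ℂ (MFsub 1 m) := by
      rw [finrank_MFsub_one, finrank_MFsub_one, h1_sub_four_of_not_dvd h6]
    have hsurj : Function.Surjective (mulE4 m) :=
      (LinearMap.injective_iff_surjective_of_finrank_eq_finrank hdim).mp (mulE4_injective m)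
    obtain ⟨b, hb⟩ := hsurj ⟨a, ha⟩
    refine ⟨0, b.1, b.2, fun _ => rfl, fun z => ?_⟩
    have : (⇑E₄ * b.1 : ℍ → ℂ) = a := congrArg Subtype.val hb
    rw [← this]
    simp

/-- `M_m = ℂ E₄^(m/4) ⊕ E₆ M_{m-6}` (the first summand only if `4 ∣ m`). -/
theorem exists_E4_pow_decomp {a : ℍ → ℂ} (ha : IsMF 1 m a) :
    ∃ (c : ℂ) (b : ℍ → ℂ), IsMF 1 (m - 6) b ∧ (¬ (4 : ℤ) ∣ m → c = 0) ∧
      ∀ z, a z = c * E₄ z ^ (m / 4).toNat + E₆ z * b z := by
  by_cases h4 : (4 : ℤ) ∣ m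
  · rcases lt_or_ge m 0 with hneg | hnn
    · have h0 : a = 0 := ha.eq_zero_of_neg hneg
      exact ⟨0, 0, IsMF.zero, fun h => absurd h4 h, fun z => by simp [h0]⟩
    · set e : ℕ := (m / 4).toNat with he
      have hme : (4 : ℤ) * e = m := by omega
      have hE : IsMF 1 m (fun z => E₄ z ^ e) := (isMF_E4_pow e).congr_weight hme
      let L : (ℂ × MFsub 1 (m - 6)) →ₗ[ℂ] MFsub 1 m :=
        (LinearMap.toSpanSingleton ℂ (MFsub 1 m) ⟨_, hE⟩).coprod (mulE6 m)
      have hLapp : ∀ (c : ℂ) (b : MFsub 1 (m - 6)) (z : ℍ),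
          (L (c, b) : ℍ → ℂ) z = c * E₄ z ^ e + E₆ z * b.1 z := by
        intro c b z
        rfl
      have hinj : Function.Injective L := by
        rw [← LinearMap.ker_eq_bot, LinearMap.ker_eq_bot']
        rintro ⟨c, b⟩ hcb
        have hz : ∀ z, c * E₄ z ^ e + E₆ z * b.1 z = 0 := fun z => by
          rw [← hLapp, hcb]; rfl
        have hc : c = 0 := by
          refine E4_pow_not_mem (m := m - 6) (b := -b.1) (e := e) b.2.neg fun z => ?_
          have := hz z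
          simp only [Pi.neg_apply]
          linear_combination this
        subst hc
        have hb : b = 0 := by
          apply Subtype.ext
          refine E6_mul_eq_zero b.2 fun z => ?_
          have := hz z
          simpa using this
        rw [hb]
        rfl
      have hdim : Module.finrank ℂ (ℂ × MFsub 1 (m - 6)) = Module.finrank ℂ (MFsub 1 m) := by
        rw [Module.finrank_prod, Module.finrank_self, finrank_MFsub_one, finrank_MFsub_one,
          h1_of_four_dvd h4 hnn, add_comm]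
      have hsurj : Function.Surjective L :=
        (LinearMap.injective_iff_surjective_of_finrank_eq_finrank hdim).mp hinj
      obtain ⟨⟨c, b⟩, hcb⟩ := hsurj ⟨a, ha⟩
      refine ⟨c, b.1, b.2, fun h => absurd h4 h, fun z => ?_⟩
      rw [← hLapp, hcb]
  · have hdim : Module.finrank ℂ (MFsub 1 (m - 6)) = Module.finrank ℂ (MFsub 1 m) := by
      rw [finrank_MFsub_one, finrank_MFsub_one, h1_sub_six_of_not_dvd h4]
    have hsurj : Function.Surjective (mulE6 m) :=
      (LinearMap.injective_iff_surjective_of_finrank_eq_finrank hdim).mp (mulE6_injective m)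
    obtain ⟨b, hb⟩ := hsurj ⟨a, ha⟩
    refine ⟨0, b.1, b.2, fun _ => rfl, fun z => ?_⟩
    have : (⇑E₆ * b.1 : ℍ → ℂ) = a := congrArg Subtype.val hb
    rw [← this]
    simp

/-- Every level one form of positive weight lies in the ideal `(E₄, E₆)`. -/
theorem exists_E4_E6_decomp {a : ℍ → ℂ} (ha : IsMF 1 m a) (hm : 0 < m) :
    ∃ b d, IsMF 1 (m - 4) b ∧ IsMF 1 (m - 6) d ∧ ∀ z, a z = E₄ z * b z + E₆ z * d z := by
  obtain ⟨c, b, hb, hc, hab⟩ := exists_E6_pow_decomp ha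
  by_cases h6 : (6 : ℤ) ∣ m
  · obtain ⟨e', he'⟩ : ∃ e', (m / 6).toNat = e' + 1 := ⟨(m / 6).toNat - 1, by omega⟩
    have hme : (6 : ℤ) * e' = m - 6 := by omega
    have hE : IsMF 1 (m - 6) (fun z => E₆ z ^ e') := (isMF_E6_pow e').congr_weight hme
    refine ⟨b, c • fun z => E₆ z ^ e', hb, hE.smul c, fun z => ?_⟩
    rw [hab z, he']
    simp only [Pi.smul_apply, smul_eq_mul]
    ring
  · refine ⟨b, 0, hb, IsMF.zero, fun z => ?_⟩
    rw [hab z, hc h6]
    simp

end levelOneAlgebra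

end Fermat.Agent.S20
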