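import Mathlib
import Fermat.Agent.S20.Basic
import Fermat.Agent.S20.LevelOne
import Fermat.Agent.S20.Indep

/-!
# S20, module M1: the graded module of modular forms on `Γ₀(N)` is free over level one
-/

set_option autoImplicit false

namespace Fermat.Agent.S20.Free

open UpperHalfPlane CongruenceSubgroup ModularForm Fermat.Agent.S20
open scoped MatrixGroups ModularForm Manifold

/-- The ring of all functions on the upper half plane. -/
abbrev R : Type := ℍ → ℂ

/-- The independent family of `Indep.lean`. -/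
theorem exists_independent (N : ℕ) [NeZero N] :
    ∃ (K₁ : ℤ) (G : Fin (Nat.card (Q N)) → ℍ → ℂ), (∀ a, IsMF N K₁ (G a)) ∧
      ∀ (m : ℤ) (c : Fin (Nat.card (Q N)) → ℍ → ℂ), (∀ a, IsMF 1 m (c a)) →
        (∀ z, ∑ a, c a z * G a z = 0) → ∀ a, c a = 0 :=
  Stab.exists_independent N

variable (N : ℕ) [NeZero N]

/-- multiplication by a fixed function, as a linear map -/
noncomputable def mulL (a : R) : R →ₗ[ℂ] R := LinearMap.mulLeft ℂ a

@[simp] lemma mulL_apply (a f : R) : mulL a f = a * f := rfl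

/-- The decomposable part `E₄ M_{K-4} + E₆ M_{K-6}` of `M_K`. -/
noncomputable def Dec (K : ℤ) : Submodule ℂ R :=
  (MFsub N (K - 4)).map (mulL ⇑E₄) ⊔ (MFsub N (K - 6)).map (mulL ⇑E₆)

lemma mem_Dec {K : ℤ} {f : R} :
    f ∈ Dec N K ↔ ∃ H₁ H₂, IsMF N (K - 4) H₁ ∧ IsMF N (K - 6) H₂ ∧ f = ⇑E₄ * H₁ + ⇑E₆ * H₂ := by
  unfold Dec
  rw [Submodule.mem_sup]
  constructor
  · rintro ⟨y, hy, z, hz, rfl⟩
    obtain ⟨H₁, h₁, rfl⟩ := hy
    obtain ⟨H₂, h₂, rfl⟩ := hz
    exact ⟨H₁, H₂, h₁, h₂, rfl⟩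
  · rintro ⟨H₁, H₂, h₁, h₂, rfl⟩
    exact ⟨_, ⟨H₁, h₁, rfl⟩, _, ⟨H₂, h₂, rfl⟩, rfl⟩

lemma Dec_le (K : ℤ) : Dec N K ≤ MFsub N K := by
  intro f hf
  obtain ⟨H₁, H₂, h₁, h₂, rfl⟩ := (mem_Dec N).1 hf
  refine (MFsub N K).add_mem ?_ ?_
  · have := isMF_E4.mul (N := N) h₁
    rwa [show (4 : ℤ) + (K - 4) = K by ring] at this
  · have := isMF_E6.mul (N := N) h₂
    rwa [show (6 : ℤ) + (K - 6) = K by ring] at this

/-- Generators in weight `K`: a basis of a complement of `Dec N K` in `M_K`. -/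
lemma exists_gens (K : ℤ) : ∃ (d : ℕ) (g : Fin d → R), (∀ i, IsMF N K (g i)) ∧
    (∀ c : Fin d → ℂ, (∑ i, c i • g i) ∈ Dec N K → c = 0) ∧
    (∀ H, IsMF N K H → ∃ c : Fin d → ℂ, H - ∑ i, c i • g i ∈ Dec N K) := by
  classical
  obtain ⟨C', hC'⟩ := Submodule.exists_isCompl (Dec N K)
  have hCle : C' ⊓ MFsub N K ≤ MFsub N K := inf_le_right
  have : FiniteDimensional ℂ (C' ⊓ MFsub N K : Submodule ℂ R) :=
    Submodule.finiteDimensional_of_le hCle
  have hfree : Module.Free ℂ (C' ⊓ MFsub N K : Submodule ℂ R) := Module.Free.of_divisionRing ℂ _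
  let b := Module.finBasis ℂ (C' ⊓ MFsub N K : Submodule ℂ R)
  refine ⟨_, fun i => (b i : R), fun i => hCle (b i).2, ?_, ?_⟩
  · intro c hc
    have h2 : (∑ i, c i • (b i : R)) ∈ C' := by
      refine Submodule.sum_mem _ fun i _ => Submodule.smul_mem _ _ ?_
      exact (inf_le_left : C' ⊓ MFsub N K ≤ C') (b i).2
    have h3 : (∑ i, c i • (b i : R)) = 0 := by
      have := hC'.disjoint
      rw [Submodule.disjoint_def] at this
      exact this _ hc h2
    have h4 : (∑ i, c i • b i) = 0 := by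
      apply Subtype.ext
      rw [Submodule.coe_sum]
      simpa using h3
    funext i
    exact Fintype.linearIndependent_iff.1 (Module.Basis.linearIndependent b) c h4 i
  · intro H hH
    have hmem : H ∈ Dec N K ⊔ C' := by rw [hC'.sup_eq_top]; trivial
    obtain ⟨w, hw, x, hx, hwx⟩ := Submodule.mem_sup.1 hmem
    have hxV : x ∈ MFsub N K := by
      have : x = H - w := by rw [← hwx]; ring
      rw [this]
      exact (MFsub N K).sub_mem hH (Dec_le N K hw)
    let x' : (C' ⊓ MFsub N K : Submodule ℂ R) := ⟨x, ⟨hx, hxV⟩⟩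
    refine ⟨fun i => b.repr x' i, ?_⟩
    have hx' : (∑ i, (b.repr x' i) • b i) = x' := b.sum_repr x'
    have hx'' : (∑ i, (b.repr x' i) • (b i : R)) = x := by
      have := congrArg (fun y : (C' ⊓ MFsub N K : Submodule ℂ R) => (y : R)) hx'
      simp only [Submodule.coe_sum, Submodule.coe_smul] at this
      exact this
    rw [hx'']
    have : H - x = w := by rw [← hwx]; ring
    rw [this]
    exact hw

/-- number of generators in weight `K` -/
noncomputable def dgen (K : ℤ) : ℕ := (exists_gens N K).choose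

/-- the generators in weight `K` -/
noncomputable def gen (K : ℤ) : Fin (dgen N K) → R := (exists_gens N K).choose_spec.choose

lemma gen_isMF (K : ℤ) (i : Fin (dgen N K)) : IsMF N K (gen N K i) :=
  (exists_gens N K).choose_spec.choose_spec.1 i

lemma gen_indep (K : ℤ) (c : Fin (dgen N K) → ℂ)
    (h : (∑ i, c i • gen N K i) ∈ Dec N K) : c = 0 :=
  (exists_gens N K).choose_spec.choose_spec.2.1 c h

lemma gen_span (K : ℤ) (H : R) (hH : IsMF N K H) :
    ∃ c : Fin (dgen N K) → ℂ, H - ∑ i, c i • gen N K i ∈ Dec N K :=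
  (exists_gens N K).choose_spec.choose_spec.2.2 H hH

/-- generators only exist in even weights -/
lemma dgen_eq_zero_of_odd {K : ℤ} (hK : Odd K) : dgen N K = 0 := by
  by_contra h
  have hpos : 0 < dgen N K := Nat.pos_of_ne_zero h
  have hz : gen N K ⟨0, hpos⟩ = 0 := (gen_isMF N K ⟨0, hpos⟩).eq_zero_of_odd hK
  have := gen_indep N K (fun i => if i = ⟨0, hpos⟩ then 1 else 0) (by
    have : (∑ i, (fun i => if i = (⟨0, hpos⟩ : Fin (dgen N K)) then (1 : ℂ) else 0) i • gen N K i)
        = 0 := by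
      simp [hz]
    rw [this]; exact Submodule.zero_mem _)
  have h1 := congrFun this ⟨0, hpos⟩
  simp at h1

/-- generators only exist in nonnegative weights -/
lemma dgen_eq_zero_of_neg {K : ℤ} (hK : K < 0) : dgen N K = 0 := by
  by_contra h
  have hpos : 0 < dgen N K := Nat.pos_of_ne_zero h
  have hz : gen N K ⟨0, hpos⟩ = 0 := (gen_isMF N K ⟨0, hpos⟩).eq_zero_of_neg hK
  have := gen_indep N K (fun i => if i = ⟨0, hpos⟩ then 1 else 0) (by
    have : (∑ i, (fun i => if i = (⟨0, hpos⟩ : Fin (dgen N K)) then (1 : ℂ) else 0) i • gen N K i)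
        = 0 := by
      simp [hz]
    rw [this]; exact Submodule.zero_mem _)
  have h1 := congrFun this ⟨0, hpos⟩
  simp at h1

/-- the generators as a total function -/
noncomputable def genT (K : ℤ) (i : ℕ) : R :=
  if h : i < dgen N K then gen N K ⟨i, h⟩ else 0

lemma genT_isMF (K : ℤ) (i : ℕ) : IsMF N K (genT N K i) := by
  unfold genT
  split_ifs with h
  · exact gen_isMF N K _
  · exact (MFsub N K).zero_mem

lemma sum_range_genT (K : ℤ) (c : ℕ → ℂ) :
    (∑ i ∈ Finset.range (dgen N K), c i • genT N K i)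
      = ∑ i : Fin (dgen N K), c i • gen N K i := by
  rw [Finset.sum_range]
  refine Finset.sum_congr rfl fun i _ => ?_
  simp [genT, i.2]

lemma genT_indep (K : ℤ) (c : ℕ → ℂ)
    (h : (∑ i ∈ Finset.range (dgen N K), c i • genT N K i) ∈ Dec N K) :
    ∀ i, i < dgen N K → c i = 0 := by
  rw [sum_range_genT] at h
  intro i hi
  have := gen_indep N K (fun i => c i) h
  exact congrFun this ⟨i, hi⟩

lemma genT_span (K : ℤ) (H : R) (hH : IsMF N K H) :
    ∃ c : ℕ → ℂ, H - ∑ i ∈ Finset.range (dgen N K), c i • genT N K i ∈ Dec N K := by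
  obtain ⟨c, hc⟩ := gen_span N K H hH
  refine ⟨fun i => if h : i < dgen N K then c ⟨i, h⟩ else 0, ?_⟩
  rw [sum_range_genT]
  have : (∑ i : Fin (dgen N K), (fun i => if h : i < dgen N K then c ⟨i, h⟩ else 0) (i : ℕ)
      • gen N K i) = ∑ i, c i • gen N K i := by
    refine Finset.sum_congr rfl fun i _ => ?_
    simp [i.2]
  rw [this]
  exact hc

/-- `IsMF` for powers of `E₆` -/
lemma isMF_E6_pow (n : ℕ) : IsMF 1 (6 * n) ((⇑E₆ : R) ^ n) := by
  induction n with
  | zero =>
    have := isMF_const (N := 1) (1 : ℂ)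
    simp only [Nat.cast_zero, mul_zero, pow_zero]
    exact this
  | succ n ih =>
    have := isMF_E6.mul (N := 1) ih
    rw [pow_succ']
    convert this using 1
    push_cast; ring

/-- the coefficient monomial `E₆ ^ ((K - w)/6)` (or `0`) -/
noncomputable def e6 (K : ℤ) (w : ℕ) : R :=
  if (6 : ℤ) ∣ (K - w) ∧ (w : ℤ) ≤ K then (⇑E₆ : R) ^ ((K - w) / 6).toNat else 0

lemma e6_isMF (K : ℤ) (w : ℕ) : IsMF 1 (K - w) (e6 K w) := by
  unfold e6
  split_ifs with h
  · obtain ⟨⟨t, ht⟩, hle⟩ := h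
    have ht0 : 0 ≤ t := by omega
    have := isMF_E6_pow t.toNat
    rw [ht]
    have h1 : (6 * t / 6).toNat = t.toNat := by
      rw [Int.mul_ediv_cancel_left _ (by norm_num : (6 : ℤ) ≠ 0)]
    rw [h1]
    convert this using 1
    rw [Int.toNat_of_nonneg ht0]
  · exact (MFsub 1 (K - w)).zero_mem

lemma e6_eq (K : ℤ) (w : ℕ) :
    e6 K w = (if (w : ℤ) = K then 1 else 0) + ⇑E₆ * e6 (K - 6) w := by
  unfold e6
  by_cases h1 : (w : ℤ) = K
  · subst h1
    simp
  · by_cases h2 : (6 : ℤ) ∣ (K - w) ∧ (w : ℤ) ≤ K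
    · obtain ⟨⟨t, ht⟩, hle⟩ := h2
      have ht1 : 1 ≤ t := by omega
      have h3 : (6 : ℤ) ∣ (K - 6 - w) ∧ (w : ℤ) ≤ K - 6 := ⟨⟨t - 1, by omega⟩, by omega⟩
      rw [if_pos ⟨⟨t, ht⟩, hle⟩, if_neg h1, if_pos h3, zero_add, ← pow_succ']
      congr 1
      have e1 : (K - w) / 6 = t := by rw [ht]; exact Int.mul_ediv_cancel_left _ (by norm_num)
      have e2 : (K - 6 - w) / 6 = t - 1 := by
        rw [show K - 6 - (w : ℤ) = 6 * (t - 1) by omega]
        exact Int.mul_ediv_cancel_left _ (by norm_num)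
      rw [e1, e2]
      omega
    · have h3 : ¬ ((6 : ℤ) ∣ (K - 6 - w) ∧ (w : ℤ) ≤ K - 6) := by
        rintro ⟨⟨t, ht⟩, hle⟩
        exact h2 ⟨⟨t + 1, by omega⟩, by omega⟩
      rw [if_neg h2, if_neg h1, if_neg h3]
      simp

variable {N}

/-- linear combinations of the generators of weight `≤ B` with function coefficients -/
noncomputable def LC (B : ℕ) (a : ℕ → ℕ → R) : R :=
  ∑ w ∈ Finset.range (B + 1), ∑ i ∈ Finset.range (dgen N (w : ℤ)), a w i * genT N (w : ℤ) i

/-- coefficient systems of weight `K` -/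
def IsCoef (K : ℤ) (a : ℕ → ℕ → R) : Prop := ∀ w i : ℕ, IsMF 1 (K - (w : ℤ)) (a w i)

lemma LC_isMF {B : ℕ} {K : ℤ} {a : ℕ → ℕ → R} (ha : IsCoef K a) : IsMF N K (LC (N := N) B a) := by
  unfold LC
  refine (MFsub N K).sum_mem fun w _ => (MFsub N K).sum_mem fun i _ => ?_
  have := (ha w i).mul (genT_isMF N (w : ℤ) i)
  rwa [show K - (w : ℤ) + w = K by ring] at this

variable (N) in
lemma top_sum_mem (B : ℕ) {K : ℤ} (hK0 : 0 ≤ K) (hKB : K ≤ B) (f : ℕ → ℕ → R) :
    (∑ w ∈ Finset.range (B + 1), ∑ i ∈ Finset.range (dgen N (w : ℤ)),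
      (if (w : ℤ) = K then f w i else 0))
      = ∑ i ∈ Finset.range (dgen N K), f K.toNat i := by
  have hKn : ((K.toNat : ℕ) : ℤ) = K := Int.toNat_of_nonneg hK0
  rw [Finset.sum_eq_single K.toNat]
  · rw [hKn]
    refine Finset.sum_congr rfl fun i _ => ?_
    rw [if_pos rfl]
  · intro w _ hw
    refine Finset.sum_eq_zero fun i _ => ?_
    rw [if_neg]
    intro h
    apply hw
    omega
  · intro h
    exfalso
    apply h
    rw [Finset.mem_range]
    omega

variable (N) in
lemma top_sum_zero (B : ℕ) {K : ℤ} (hK : K < 0 ∨ (B : ℤ) < K) (f : ℕ → ℕ → R) :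
    (∑ w ∈ Finset.range (B + 1), ∑ i ∈ Finset.range (dgen N (w : ℤ)),
      (if (w : ℤ) = K then f w i else 0)) = 0 := by
  refine Finset.sum_eq_zero fun w hw => Finset.sum_eq_zero fun i _ => ?_
  rw [if_neg]
  rw [Finset.mem_range] at hw
  omega

/-- linear combinations with the monomial coefficients `c w i • e6 K w` -/
noncomputable def LE (B : ℕ) (K : ℤ) (c : ℕ → ℕ → ℂ) : R :=
  LC (N := N) B (fun w i => c w i • e6 K w)

lemma isCoef_LE (K : ℤ) (c : ℕ → ℕ → ℂ) : IsCoef K (fun w i => c w i • e6 K w) :=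
  fun w i => (MFsub 1 (K - w)).smul_mem _ (e6_isMF K w)

lemma LE_isMF (B : ℕ) (K : ℤ) (c : ℕ → ℕ → ℂ) : IsMF N K (LE (N := N) B K c) :=
  LC_isMF (isCoef_LE K c)

lemma LE_eq (B : ℕ) (K : ℤ) (c : ℕ → ℕ → ℂ) :
    LE (N := N) B K c
      = (∑ w ∈ Finset.range (B + 1), ∑ i ∈ Finset.range (dgen N (w : ℤ)),
          (if (w : ℤ) = K then c w i • genT N (w : ℤ) i else 0))
        + ⇑E₆ * LE (N := N) B (K - 6) c := by
  unfold LE LC
  rw [Finset.mul_sum, ← Finset.sum_add_distrib]
  refine Finset.sum_congr rfl fun w _ => ?_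
  rw [Finset.mul_sum, ← Finset.sum_add_distrib]
  refine Finset.sum_congr rfl fun i _ => ?_
  beta_reduce
  rw [e6_eq K w]
  by_cases h : (w : ℤ) = K
  · rw [if_pos h, if_pos h]
    ext z
    simp only [Pi.add_apply, Pi.mul_apply, Pi.smul_apply, Pi.one_apply, smul_eq_mul]
    ring
  · rw [if_neg h, if_neg h]
    ext z
    simp only [Pi.add_apply, Pi.mul_apply, Pi.smul_apply, Pi.zero_apply, smul_eq_mul]
    ring

/-- Stage 1: independence modulo `E₄`. -/
theorem stage1 (B : ℕ) : ∀ n : ℕ, ∀ K : ℤ, K < n → ∀ c : ℕ → ℕ → ℂ,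
    (∃ G, IsMF N (K - 4) G ∧ LE (N := N) B K c = ⇑E₄ * G) →
    ∀ w, w ≤ B → ∀ i, i < dgen N (w : ℤ) → (6 : ℤ) ∣ (K - w) → (w : ℤ) ≤ K → c w i = 0 := by
  intro n
  induction n with
  | zero =>
    intro K hK c _ w _ i _ _ hwK
    exfalso
    have : (0 : ℤ) ≤ w := by positivity
    simp at hK
    omega
  | succ n ih =>
    intro K hK c hG
    obtain ⟨G, hGm, hGe⟩ := hG
    -- the top coefficients vanish
    have htop : ∀ w, w ≤ B → ∀ i, i < dgen N (w : ℤ) → (w : ℤ) = K → c w i = 0 := by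
      intro w hw i hi hwK
      have hK0 : 0 ≤ K := by rw [← hwK]; positivity
      have hKB : K ≤ B := by rw [← hwK]; exact_mod_cast hw
      have h1 := LE_eq (N := N) B K c
      rw [top_sum_mem N B hK0 hKB (fun w i => c w i • genT N (w : ℤ) i)] at h1
      have hKn : ((K.toNat : ℕ) : ℤ) = K := Int.toNat_of_nonneg hK0
      have h2 : (∑ i ∈ Finset.range (dgen N K), c K.toNat i • genT N K i) ∈ Dec N K := by
        rw [mem_Dec]
        refine ⟨G, -LE (N := N) B (K - 6) c, hGm, (MFsub N (K - 6)).neg_mem (LE_isMF B _ c), ?_⟩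
        have h3 : (∑ i ∈ Finset.range (dgen N K), c K.toNat i • genT N K i)
            = LE (N := N) B K c - ⇑E₆ * LE (N := N) B (K - 6) c := by
          rw [h1, hKn]; ring
        rw [h3, hGe]; ring
      have h4 := genT_indep N K (fun i => c K.toNat i) h2
      have hw' : w = K.toNat := by omega
      subst hw'
      rw [hKn] at hi
      exact h4 i hi
    have htop0 : (∑ w ∈ Finset.range (B + 1), ∑ i ∈ Finset.range (dgen N (w : ℤ)),
          (if (w : ℤ) = K then c w i • genT N (w : ℤ) i else 0)) = 0 := by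
      refine Finset.sum_eq_zero fun w hw => Finset.sum_eq_zero fun i hi => ?_
      split_ifs with h
      · rw [Finset.mem_range] at hw hi
        rw [htop w (by omega) i hi h, zero_smul]
      · rfl
    have h5 : ∀ z, E₆ z * LE (N := N) B (K - 6) c z = E₄ z * G z := by
      intro z
      have h1 := LE_eq (N := N) B K c
      rw [htop0, zero_add, hGe] at h1
      have := congrFun h1 z
      simp only [Pi.mul_apply] at this
      exact this.symm
    have hG' : IsMF N (K - 6 + 2) G := by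
      rw [show K - 6 + 2 = K - 4 by ring]; exact hGm
    obtain ⟨h, hh, hhe⟩ := (LE_isMF (N := N) B (K - 6) c).div_E4 hG' h5
    intro w hw i hi hdvd hwK
    by_cases hwK' : (w : ℤ) = K
    · exact htop w hw i hi hwK'
    · obtain ⟨t, ht⟩ := hdvd
      have ht1 : 1 ≤ t := by omega
      refine ih (K - 6) (by push_cast at hK ⊢; omega) c ⟨h, hh, ?_⟩ w hw i hi ⟨t - 1, by omega⟩
        (by omega)
      ext z
      simp only [Pi.mul_apply]
      exact hhe z

lemma LC_add (B : ℕ) (a b : ℕ → ℕ → R) :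
    LC (N := N) B (fun w i => a w i + b w i) = LC (N := N) B a + LC (N := N) B b := by
  unfold LC
  rw [← Finset.sum_add_distrib]
  refine Finset.sum_congr rfl fun w _ => ?_
  rw [← Finset.sum_add_distrib]
  refine Finset.sum_congr rfl fun i _ => ?_
  ring

lemma LC_mul (B : ℕ) (e : R) (a : ℕ → ℕ → R) :
    LC (N := N) B (fun w i => e * a w i) = e * LC (N := N) B a := by
  unfold LC
  rw [Finset.mul_sum]
  refine Finset.sum_congr rfl fun w _ => ?_
  rw [Finset.mul_sum]
  refine Finset.sum_congr rfl fun i _ => ?_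
  ring

lemma LC_congr (B : ℕ) {a b : ℕ → ℕ → R}
    (h : ∀ w, w ≤ B → ∀ i, i < dgen N (w : ℤ) → a w i = b w i) :
    LC (N := N) B a = LC (N := N) B b := by
  unfold LC
  refine Finset.sum_congr rfl fun w hw => Finset.sum_congr rfl fun i hi => ?_
  rw [Finset.mem_range] at hw hi
  rw [h w (by omega) i hi]

/-- Stage 2: the generators of weight `≤ B` are independent over level one. -/
theorem stage2 (B : ℕ) : ∀ n : ℕ, ∀ K : ℤ, K < n → ∀ a : ℕ → ℕ → R, IsCoef K a →
    LC (N := N) B a = 0 → ∀ w, w ≤ B → ∀ i, i < dgen N (w : ℤ) → a w i = 0 := by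
  intro n
  induction n with
  | zero =>
    intro K hK a ha _ w _ i _
    refine (ha w i).eq_zero_of_neg ?_
    have : (0 : ℤ) ≤ w := by positivity
    simp at hK
    omega
  | succ n ih =>
    intro K hK a ha h0
    have hdec : ∀ w i : ℕ, ∃ (c : ℂ) (b : R), IsMF 1 (K - w - 4) b ∧
        (¬ (6 : ℤ) ∣ (K - w) → c = 0) ∧
        ∀ z, a w i z = c * E₆ z ^ ((K - w) / 6).toNat + E₄ z * b z :=
      fun w i => exists_E6_pow_decomp (ha w i)
    choose c b hb hc hab using hdec
    have hbcoef : IsCoef (K - 4) b := by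
      intro w i
      have := hb w i
      rwa [show K - (w : ℤ) - 4 = K - 4 - w by ring] at this
    have key : ∀ w i, a w i = (if (w : ℤ) ≤ K then c w i else 0) • e6 K w + ⇑E₄ * b w i := by
      intro w i
      by_cases hwK : (w : ℤ) ≤ K
      · rw [if_pos hwK]
        ext z
        rw [hab w i z]
        simp only [Pi.add_apply, Pi.smul_apply, Pi.mul_apply, smul_eq_mul]
        congr 1
        unfold e6
        by_cases h6 : (6 : ℤ) ∣ (K - w)
        · rw [if_pos ⟨h6, hwK⟩]; simp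
        · rw [if_neg (fun h => h6 h.1), hc w i h6]; simp
      · rw [if_neg hwK, zero_smul, zero_add]
        have h1 : a w i = 0 := (ha w i).eq_zero_of_neg (by omega)
        have h2 : b w i = 0 := (hb w i).eq_zero_of_neg (by omega)
        rw [h1, h2, mul_zero]
    set c' : ℕ → ℕ → ℂ := fun w i => if (w : ℤ) ≤ K then c w i else 0 with hc'
    have h1 : LC (N := N) B a = LE (N := N) B K c' + ⇑E₄ * LC (N := N) B b := by
      unfold LE
      rw [← LC_mul, ← LC_add]
      exact LC_congr B fun w _ i _ => key w i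
    have hLb : IsMF N (K - 4) (LC (N := N) B b) := LC_isMF hbcoef
    have h2 : LE (N := N) B K c' = ⇑E₄ * (-LC (N := N) B b) := by
      have : LE (N := N) B K c' = LC (N := N) B a - ⇑E₄ * LC (N := N) B b := by rw [h1]; ring
      rw [this, h0]; ring
    have h3 := stage1 (N := N) B (n + 1) K hK c' ⟨_, (MFsub N (K - 4)).neg_mem hLb, h2⟩
    have h4 : ∀ w, w ≤ B → ∀ i, i < dgen N (w : ℤ) → c' w i • e6 K w = 0 := by
      intro w hw i hi
      by_cases h : (6 : ℤ) ∣ (K - w) ∧ (w : ℤ) ≤ K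
      · rw [h3 w hw i hi h.1 h.2, zero_smul]
      · unfold e6
        rw [if_neg h, smul_zero]
    have h5 : LE (N := N) B K c' = 0 := by
      unfold LE
      have : LC (N := N) B (fun w i => c' w i • e6 K w) = LC (N := N) B (fun _ _ => 0) :=
        LC_congr B fun w hw i hi => h4 w hw i hi
      rw [this]
      unfold LC
      simp
    have h6 : LC (N := N) B b = 0 := by
      refine E4_mul_eq_zero hLb fun z => ?_
      have := congrFun h1 z
      rw [h0, h5] at this
      simp only [Pi.zero_apply, Pi.add_apply, Pi.mul_apply, zero_add] at this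
      exact this.symm
    have h7 := ih (K - 4) (by push_cast at hK ⊢; omega) b hbcoef h6
    intro w hw i hi
    rw [key w i, h4 w hw i hi, h7 w hw i hi, mul_zero, add_zero]

/-- Spanning: if there are no generators of weight `> B`, the generators of weight `≤ B`
span everything. -/
theorem span_all (B : ℕ) (hB : ∀ K : ℤ, (B : ℤ) < K → dgen N K = 0) :
    ∀ n : ℕ, ∀ K : ℤ, K < n → ∀ H, IsMF N K H →
      ∃ a, IsCoef K a ∧ LC (N := N) B a = H := by
  intro n
  induction n with
  | zero =>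
    intro K hK H hH
    refine ⟨fun _ _ => 0, fun w i => (MFsub 1 _).zero_mem, ?_⟩
    have : H = 0 := hH.eq_zero_of_neg (by simpa using hK)
    rw [this]
    unfold LC
    simp
  | succ n ih =>
    intro K hK H hH
    by_cases hK0 : K < 0
    · refine ⟨fun _ _ => 0, fun w i => (MFsub 1 _).zero_mem, ?_⟩
      have : H = 0 := hH.eq_zero_of_neg hK0
      rw [this]
      unfold LC
      simp
    rw [not_lt] at hK0
    obtain ⟨c, hc⟩ := genT_span N K H hH
    obtain ⟨H₁, H₂, h₁, h₂, he⟩ := (mem_Dec N).1 hc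
    obtain ⟨a₁, ha₁, hl₁⟩ := ih (K - 4) (by push_cast at hK ⊢; omega) H₁ h₁
    obtain ⟨a₂, ha₂, hl₂⟩ := ih (K - 6) (by push_cast at hK ⊢; omega) H₂ h₂
    refine ⟨fun w i => ((if (w : ℤ) = K then ((fun _ => c i) : R) else 0) + ⇑E₄ * a₁ w i)
      + ⇑E₆ * a₂ w i, ?_, ?_⟩
    · intro w i
      refine (MFsub 1 _).add_mem ((MFsub 1 _).add_mem ?_ ?_) ?_
      · split_ifs with h
        · rw [h, sub_self]
          exact isMF_const (c i)
        · exact (MFsub 1 _).zero_mem
      · have := isMF_E4.mul (N := 1) (ha₁ w i)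
        rwa [show (4 : ℤ) + (K - 4 - w) = K - w by ring] at this
      · have := isMF_E6.mul (N := 1) (ha₂ w i)
        rwa [show (6 : ℤ) + (K - 6 - w) = K - w by ring] at this
    · rw [LC_add, LC_add, LC_mul, LC_mul, hl₁, hl₂]
      have htop : LC (N := N) B (fun w i => if (w : ℤ) = K then (fun _ => c i) else 0)
          = ∑ i ∈ Finset.range (dgen N K), c i • genT N K i := by
        unfold LC
        have e1 : ∀ w i : ℕ, (if (w : ℤ) = K then ((fun _ => c i) : R) else (0 : R)) * genT N (w : ℤ) i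
            = if (w : ℤ) = K then c i • genT N (w : ℤ) i else 0 := by
          intro w i
          split_ifs with h
          · ext z; simp
          · simp
        simp only [e1]
        by_cases hKB : K ≤ B
        · rw [top_sum_mem N B hK0 hKB (fun w i => c i • genT N (w : ℤ) i)]
          rw [Int.toNat_of_nonneg hK0]
        · rw [not_le] at hKB
          rw [top_sum_zero N B (Or.inr hKB) (fun w i => c i • genT N (w : ℤ) i), hB K hKB]
          simp
      rw [htop]
      have : H = (H - ∑ i ∈ Finset.range (dgen N K), c i • genT N K i)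
          + ∑ i ∈ Finset.range (dgen N K), c i • genT N K i := by ring
      rw [this, he]
      ring

/-! ### Passing to a finite index type -/

variable (N) in
/-- the finite index type of generators of weight `≤ B` -/
abbrev Idx (B : ℕ) : Type := Σ w : Fin (B + 1), Fin (dgen N ((w : ℕ) : ℤ))

/-- weight of a generator -/
def wt {B : ℕ} (j : Idx N B) : ℤ := ((j.1 : ℕ) : ℤ)

/-- the generator attached to an index -/
noncomputable def Fg {B : ℕ} (j : Idx N B) : R := genT N ((j.1 : ℕ) : ℤ) (j.2 : ℕ)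

lemma Fg_isMF {B : ℕ} (j : Idx N B) : IsMF N (wt j) (Fg j) := genT_isMF N _ _

lemma LC_eq_sum (B : ℕ) (a : ℕ → ℕ → R) :
    LC (N := N) B a = ∑ j : Idx N B, a (j.1 : ℕ) (j.2 : ℕ) * Fg j := by
  unfold LC Fg
  rw [Fintype.sum_sigma, Finset.sum_range]
  refine Finset.sum_congr rfl fun w _ => ?_
  rw [Finset.sum_range]

/-- extension of a coefficient family on the finite index type to all pairs of naturals -/
noncomputable def ext {B : ℕ} (v : Idx N B → R) : ℕ → ℕ → R := fun w i =>
  if h : w < B + 1 ∧ i < dgen N (w : ℤ) then v ⟨⟨w, h.1⟩, ⟨i, h.2⟩⟩ else 0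

lemma ext_apply {B : ℕ} (v : Idx N B → R) (j : Idx N B) : ext v (j.1 : ℕ) (j.2 : ℕ) = v j := by
  unfold ext
  rw [dif_pos ⟨j.1.2, j.2.2⟩]

lemma isCoef_ext {B : ℕ} {K : ℤ} (v : Idx N B → R) (hv : ∀ j, IsMF 1 (K - wt j) (v j)) :
    IsCoef K (ext v) := by
  intro w i
  unfold ext
  split_ifs with h
  · exact hv ⟨⟨w, h.1⟩, ⟨i, h.2⟩⟩
  · exact (MFsub 1 _).zero_mem

/-- independence over the finite index type -/
theorem indep_idx (B : ℕ) (K : ℤ) (v : Idx N B → R) (hv : ∀ j, IsMF 1 (K - wt j) (v j))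
    (h : ∑ j : Idx N B, v j * Fg j = 0) : ∀ j, v j = 0 := by
  have h1 : LC (N := N) B (ext v) = 0 := by
    rw [LC_eq_sum, ← h]
    refine Finset.sum_congr rfl fun j _ => ?_
    rw [ext_apply]
  obtain ⟨n, hn⟩ : ∃ n : ℕ, K < n := ⟨(K + 1).toNat, by omega⟩
  intro j
  have := stage2 (N := N) B n K hn (ext v) (isCoef_ext v hv) h1 (j.1 : ℕ)
    (by have := j.1.2; omega) (j.2 : ℕ) j.2.2
  rwa [ext_apply] at this

/-- spanning over the finite index type -/
theorem span_idx (B : ℕ) (hB : ∀ K : ℤ, (B : ℤ) < K → dgen N K = 0) (K : ℤ) (H : R)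
    (hH : IsMF N K H) :
    ∃ v : Idx N B → R, (∀ j, IsMF 1 (K - wt j) (v j)) ∧ H = ∑ j : Idx N B, v j * Fg j := by
  obtain ⟨n, hn⟩ : ∃ n : ℕ, K < n := ⟨(K + 1).toNat, by omega⟩
  obtain ⟨a, ha, hl⟩ := span_all (N := N) B hB n K hn H hH
  refine ⟨fun j => a (j.1 : ℕ) (j.2 : ℕ), fun j => ha _ _, ?_⟩
  rw [← hl, LC_eq_sum]

/-! ### Counting -/

section Counting

variable {ι : Type} [Fintype ι] (V : ι → Submodule ℂ R) (G : ι → R) (W : Submodule ℂ R)

/-- the linear map `(vᵢ) ↦ ∑ vᵢ Gᵢ` -/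
noncomputable def comb : (∀ i, V i) →ₗ[ℂ] R :=
  ∑ i, ((mulL (G i)).comp (V i).subtype).comp (LinearMap.proj i)

lemma comb_apply (v : ∀ i, V i) : comb V G v = ∑ i, (v i : R) * G i := by
  unfold comb
  rw [LinearMap.sum_apply]
  refine Finset.sum_congr rfl fun i _ => ?_
  simp [mulL, mul_comm]

lemma sum_finrank_le_of_injective [∀ i, FiniteDimensional ℂ (V i)] [FiniteDimensional ℂ W]
    (hW : ∀ v : ∀ i, V i, (∑ i, (v i : R) * G i) ∈ W)
    (hinj : ∀ v : ∀ i, V i, (∑ i, (v i : R) * G i) = 0 → v = 0) :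
    ∑ i, Module.finrank ℂ (V i) ≤ Module.finrank ℂ W := by
  have hker : Function.Injective (comb V G) := by
    rw [injective_iff_map_eq_zero]
    intro v hv
    rw [comb_apply] at hv
    exact hinj v hv
  have h1 : Module.finrank ℂ (∀ i, V i) = ∑ i, Module.finrank ℂ (V i) :=
    Module.finrank_pi_fintype ℂ
  have h2 : Module.finrank ℂ (LinearMap.range (comb V G)) = Module.finrank ℂ (∀ i, V i) :=
    LinearMap.finrank_range_of_inj hker
  have h3 : LinearMap.range (comb V G) ≤ W := by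
    rintro _ ⟨v, rfl⟩
    rw [comb_apply]
    exact hW v
  rw [← h1, ← h2]
  exact Submodule.finrank_mono h3

lemma finrank_le_sum_of_surjective [∀ i, FiniteDimensional ℂ (V i)] [FiniteDimensional ℂ W]
    (hsurj : ∀ H ∈ W, ∃ v : ∀ i, V i, H = ∑ i, (v i : R) * G i) :
    Module.finrank ℂ W ≤ ∑ i, Module.finrank ℂ (V i) := by
  have h1 : Module.finrank ℂ (∀ i, V i) = ∑ i, Module.finrank ℂ (V i) :=
    Module.finrank_pi_fintype ℂ
  have h3 : W ≤ LinearMap.range (comb V G) := by
    intro H hH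
    obtain ⟨v, hv⟩ := hsurj H hH
    exact ⟨v, by rw [comb_apply, hv]⟩
  rw [← h1]
  exact (Submodule.finrank_mono h3).trans (LinearMap.finrank_range_le _)

end Counting

/-! ### Numerics of `h1` -/

lemma h1_ge {m : ℤ} {L : ℕ} (hm : 12 * (L : ℤ) ≤ m) (heven : Even m) : L ≤ h1 m := by
  unfold h1
  have h2 : (2 : ℤ) ∣ m := heven.two_dvd
  have h0 : 0 ≤ m := by omega
  rw [if_neg (by rintro (h | h) <;> [omega; exact h h2])]
  have : (L : ℤ) ≤ m / 12 := by omega
  split_ifs <;> omega

lemma h1_le (m : ℤ) : (h1 m : ℤ) ≤ max m 0 / 12 + 1 := by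
  unfold h1
  split_ifs with h1 h2
  · have : 0 ≤ max m 0 / 12 := Int.ediv_nonneg (le_max_right _ _) (by norm_num)
    push_cast; omega
  · have hm : 0 ≤ m := by
      by_contra hneg
      exact h1 (Or.inl (by omega))
    rw [max_eq_left hm]
    have : 0 ≤ m / 12 := Int.ediv_nonneg hm (by norm_num)
    rw [Int.toNat_of_nonneg this]
    omega
  · have hm : 0 ≤ m := by
      by_contra hneg
      exact h1 (Or.inl (by omega))
    rw [max_eq_left hm]
    have : 0 ≤ m / 12 := Int.ediv_nonneg hm (by norm_num)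
    push_cast
    rw [Int.toNat_of_nonneg this]

lemma wt_even {B : ℕ} (j : Idx N B) : Even (wt j) := by
  by_contra h
  have hodd : Odd (wt j) := Int.not_even_iff_odd.1 h
  have := dgen_eq_zero_of_odd N hodd
  have h2 := j.2.2
  unfold wt at this
  omega

lemma wt_nonneg {B : ℕ} (j : Idx N B) : 0 ≤ wt j := by unfold wt; positivity

lemma wt_le {B : ℕ} (j : Idx N B) : wt j ≤ B := by
  unfold wt
  have := j.1.2
  omega

variable (N) in
/-- number of generators of weight `≤ B` -/
noncomputable def cnt (B : ℕ) : ℕ := ∑ w ∈ Finset.range (B + 1), dgen N (w : ℤ)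

lemma card_Idx (B : ℕ) : Fintype.card (Idx N B) = cnt N B := by
  unfold cnt
  rw [Fintype.card_sigma, Finset.sum_range]
  refine Finset.sum_congr rfl fun w _ => ?_
  simp

lemma cnt_mono {B B' : ℕ} (h : B ≤ B') : cnt N B ≤ cnt N B' := by
  unfold cnt
  exact Finset.sum_le_sum_of_subset (Finset.range_mono (by omega))

lemma cnt_lt {B w : ℕ} (h : B < w) (hw : dgen N (w : ℤ) ≠ 0) : cnt N B < cnt N w := by
  have h1 : cnt N B ≤ ∑ w' ∈ Finset.range w, dgen N (w' : ℤ) := by
    unfold cnt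
    exact Finset.sum_le_sum_of_subset (Finset.range_mono (by omega))
  have h2 : cnt N w = (∑ w' ∈ Finset.range w, dgen N (w' : ℤ)) + dgen N (w : ℤ) := by
    unfold cnt
    rw [Finset.sum_range_succ]
  have : 0 < dgen N (w : ℤ) := Nat.pos_of_ne_zero hw
  omega

/-- (C1) there are at most `[SL₂(ℤ) : Γ₀(N)]` generators -/
theorem cnt_le (B : ℕ) : cnt N B ≤ Nat.card (Q N) := by
  by_contra hcon
  rw [not_le] at hcon
  set μ := Nat.card (Q N) with hμ
  set L : ℕ := B * μ + 2 with hL
  set K : ℤ := 12 * ((L : ℤ) + B) with hK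
  have hK0 : 0 ≤ K := by positivity
  have h1 := sum_finrank_le_of_injective (fun j : Idx N B => MFsub 1 (K - wt j)) (fun j => Fg j)
    (MFsub N K) (by
      intro v
      refine (MFsub N K).sum_mem fun j _ => ?_
      have := (v j).2.mul (Fg_isMF j)
      rwa [show K - wt j + wt j = K by ring] at this) (by
      intro v hv
      have := indep_idx (N := N) B K (fun j => (v j : R)) (fun j => (v j).2) hv
      funext j
      exact Subtype.ext (this j))
  have h2 : ∀ j : Idx N B, L ≤ Module.finrank ℂ (MFsub 1 (K - wt j)) := by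
    intro j
    rw [finrank_MFsub_one]
    refine h1_ge ?_ ?_
    · have := wt_le j
      have h0 : (0 : ℤ) ≤ B := by positivity
      rw [hK]; omega
    · have he := wt_even j
      have hKe : Even K := ⟨6 * ((L : ℤ) + B), by rw [hK]; ring⟩
      exact hKe.sub he
  have h3 : cnt N B * L ≤ ∑ j : Idx N B, Module.finrank ℂ (MFsub 1 (K - wt j)) := by
    rw [← card_Idx, ← smul_eq_mul, ← Finset.card_univ, ← Finset.sum_const]
    exact Finset.sum_le_sum fun j _ => h2 j
  have h4 := finrank_MFsub_le (N := N) hK0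
  have h5 : K.toNat = 12 * (L + B) := by
    rw [hK]; omega
  rw [h5] at h4
  have h6 : (12 * (L + B) * Nat.card (Q N)) / 12 = (L + B) * μ := by
    rw [mul_assoc, Nat.mul_div_cancel_left _ (by norm_num : 0 < 12)]
  rw [h6] at h4
  have h7 : cnt N B * L ≤ (L + B) * μ + 1 := h3.trans (h1.trans h4)
  have h8 : (μ + 1) * L ≤ cnt N B * L := Nat.mul_le_mul_right _ hcon
  have h9 : (μ + 1) * L ≤ (L + B) * μ + 1 := h8.trans h7
  have : (μ + 1) * L = L * μ + L := by ring
  have h10 : (L + B) * μ = L * μ + B * μ := by ring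
  rw [this, h10] at h9
  omega

/-- (C2) generators have bounded weight -/
theorem exists_bound : ∃ B₀ : ℕ, ∀ K : ℤ, (B₀ : ℤ) < K → dgen N K = 0 := by
  by_contra hcon
  rw [not_exists] at hcon
  have key : ∀ n : ℕ, ∃ B : ℕ, n ≤ cnt N B := by
    intro n
    induction n with
    | zero => exact ⟨0, Nat.zero_le _⟩
    | succ n ih =>
      obtain ⟨B, hB⟩ := ih
      have := hcon B
      rw [not_forall] at this
      obtain ⟨K, hK⟩ := this
      rw [Classical.not_imp] at hK
      obtain ⟨hK1, hK2⟩ := hK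
      have hK0 : 0 ≤ K := by
        have : (0 : ℤ) ≤ B := by positivity
        omega
      refine ⟨K.toNat, ?_⟩
      have hKn : ((K.toNat : ℕ) : ℤ) = K := Int.toNat_of_nonneg hK0
      have := cnt_lt (N := N) (B := B) (w := K.toNat) (by omega) (by rwa [hKn])
      omega
  obtain ⟨B, hB⟩ := key (Nat.card (Q N) + 1)
  have := cnt_le (N := N) B
  omega

/-- (C3) there are at least `[SL₂(ℤ) : Γ₀(N)]` generators -/
theorem cnt_ge (B₀ : ℕ) (hB₀ : ∀ K : ℤ, (B₀ : ℤ) < K → dgen N K = 0) :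
    Nat.card (Q N) ≤ cnt N B₀ := by
  by_contra hcon
  rw [not_le] at hcon
  obtain ⟨K₁, G, hG, hGind⟩ := exists_independent N
  set s := cnt N B₀ with hs
  set C : ℕ := K₁.natAbs with hC
  set L : ℕ := s * (C + 1) + 1 with hL
  set K : ℤ := K₁ + 12 * (L : ℤ) with hK
  -- lower bound
  have hlow := sum_finrank_le_of_injective (fun _ : Fin (Nat.card (Q N)) => MFsub 1 (K - K₁))
    (fun a => G a) (MFsub N K) (by
      intro v
      refine (MFsub N K).sum_mem fun a _ => ?_
      have := (v a).2.mul (hG a)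
      rwa [show K - K₁ + K₁ = K by ring] at this) (by
      intro v hv
      have := hGind (K - K₁) (fun a => (v a : R)) (fun a => (v a).2) (fun z => by
        have := congrFun hv z
        simpa [Finset.sum_apply] using this)
      funext a
      exact Subtype.ext (this a))
  have h2 : L ≤ Module.finrank ℂ (MFsub 1 (K - K₁)) := by
    rw [finrank_MFsub_one]
    refine h1_ge (by rw [hK]; omega) ⟨6 * (L : ℤ), by rw [hK]; ring⟩
  have h3 : Nat.card (Q N) * L ≤ Module.finrank ℂ (MFsub N K) := by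
    refine le_trans ?_ hlow
    rw [Finset.sum_const, Finset.card_univ, Fintype.card_fin, smul_eq_mul]
    exact Nat.mul_le_mul_left _ h2
  -- upper bound
  have h4 := finrank_le_sum_of_surjective (fun j : Idx N B₀ => MFsub 1 (K - wt j))
    (fun j => Fg j) (MFsub N K) (by
      intro H hH
      obtain ⟨v, hv, hHv⟩ := span_idx (N := N) B₀ hB₀ K H hH
      exact ⟨fun j => ⟨v j, hv j⟩, hHv⟩)
  have h5 : ∀ j : Idx N B₀, Module.finrank ℂ (MFsub 1 (K - wt j)) ≤ L + C + 1 := by
    intro j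
    rw [finrank_MFsub_one]
    have h := h1_le (K - wt j)
    have hw := wt_nonneg j
    have hKle : K ≤ (C : ℤ) + 12 * L := by
      rw [hK, hC]
      have := Int.le_natAbs (a := K₁)
      omega
    have h6 : max (K - wt j) 0 / 12 ≤ (C : ℤ) + L := by
      have h7 : max (K - wt j) 0 ≤ 12 * ((C : ℤ) + L) := by
        apply max_le
        · have : (0 : ℤ) ≤ C := by positivity
          omega
        · positivity
      calc max (K - wt j) 0 / 12 ≤ 12 * ((C : ℤ) + L) / 12 :=
            Int.ediv_le_ediv (by norm_num) h7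
        _ = (C : ℤ) + L := Int.mul_ediv_cancel_left _ (by norm_num)
    have : (h1 (K - wt j) : ℤ) ≤ (L : ℤ) + C + 1 := by omega
    exact_mod_cast this
  have h6 : Module.finrank ℂ (MFsub N K) ≤ s * (L + C + 1) := by
    refine h4.trans ?_
    rw [hs, ← card_Idx, ← smul_eq_mul, ← Finset.card_univ, ← Finset.sum_const]
    exact Finset.sum_le_sum fun j _ => h5 j
  have h7 : Nat.card (Q N) * L ≤ s * (L + C + 1) := h3.trans h6
  have h8 : (s + 1) * L ≤ Nat.card (Q N) * L := Nat.mul_le_mul_right _ hcon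
  have h9 : (s + 1) * L ≤ s * (L + C + 1) := h8.trans h7
  have e1 : (s + 1) * L = s * L + L := by ring
  have e2 : s * (L + C + 1) = s * L + s * (C + 1) := by ring
  rw [e1, e2] at h9
  omega

/-- **M1**: the graded module of modular forms on `Γ₀(N)` is free of rank
`[SL₂(ℤ) : Γ₀(N)]` over the ring of level one modular forms. -/
theorem nonempty_freeBasis (N : ℕ) [NeZero N] : Nonempty (FreeBasis N) := by
  obtain ⟨B₀, hB₀⟩ := exists_bound (N := N)
  refine ⟨{
    J := Idx N B₀
    fin := inferInstance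
    k := wt
    F := Fg
    isMF := Fg_isMF
    card_eq := ?_
    span := ?_
    indep := ?_ }⟩
  · rw [card_Idx]
    exact le_antisymm (cnt_le B₀) (cnt_ge B₀ hB₀)
  · intro K H hH
    obtain ⟨v, hv, hHv⟩ := span_idx (N := N) B₀ hB₀ K H hH
    refine ⟨v, hv, fun z => ?_⟩
    have := congrFun hHv z
    simpa [Finset.sum_apply] using this
  · intro K a ha h
    refine indep_idx (N := N) B₀ K a ha ?_
    ext z
    simpa [Finset.sum_apply] using h z

end Fermat.Agent.S20.Free
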