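import Mathlib

/-!
# Eigenspaces of permutation operators of order two and three

For a self-map `σ` of a finite set `X` with `σ ∘ σ = id` (resp. `σ ∘ σ ∘ σ = id`) we compute the
dimensions of the eigenspaces `eigen σ c = {v : X → ℂ | ∀ x, v (σ x) = c * v x}` of the operator
`v ↦ v ∘ σ` in terms of the number of fixed points of `σ`.
-/

set_option autoImplicit false

namespace Fermat.Agent.S20.PermEigen

open Module

variable {X : Type*}

/-- The `c`-eigenspace of the operator `v ↦ v ∘ σ` on `X → ℂ`. -/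
def eigen (σ : X → X) (c : ℂ) : Submodule ℂ (X → ℂ) where
  carrier := {v | ∀ x, v (σ x) = c * v x}
  add_mem' := by
    intro a b ha hb x
    simp only [Pi.add_apply, ha x, hb x]; ring
  zero_mem' := by intro x; simp
  smul_mem' := by
    intro r a ha x
    simp only [Pi.smul_apply, smul_eq_mul, ha x]; ring

theorem mem_eigen {σ : X → X} {c : ℂ} {v : X → ℂ} :
    v ∈ eigen σ c ↔ ∀ x, v (σ x) = c * v x := Iff.rfl

/-- The operator `v ↦ v ∘ σ`. -/
noncomputable def op (σ : X → X) : (X → ℂ) →ₗ[ℂ] (X → ℂ) := LinearMap.funLeft ℂ ℂ σ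

@[simp] theorem op_apply (σ : X → X) (v : X → ℂ) (x : X) : op σ v x = v (σ x) := rfl

theorem trace_op [Fintype X] [DecidableEq X] (σ : X → X) :
    LinearMap.trace ℂ (X → ℂ) (op σ) = ((Finset.univ.filter fun x => σ x = x).card : ℂ) := by
  rw [LinearMap.trace_eq_matrix_trace ℂ (Pi.basisFun ℂ X), LinearMap.toMatrix_eq_toMatrix',
    Matrix.trace]
  simp only [Matrix.diag_apply, LinearMap.toMatrix'_apply, op_apply]
  rw [Finset.card_filter]
  push_cast
  exact Finset.sum_congr rfl fun i _ => Pi.single_apply i 1 (σ i)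

theorem trace_op_eq_natCard [Finite X] (σ : X → X) :
    LinearMap.trace ℂ (X → ℂ) (op σ) = (Nat.card {x : X // σ x = x} : ℂ) := by
  classical
  have := Fintype.ofFinite X
  rw [trace_op, Nat.card_eq_fintype_card, Fintype.card_subtype]


/-! ### Order two -/

/-- The spectral projection onto `eigen σ c` for an involution `σ` and `c * c = 1`. -/
noncomputable def proj₂ (σ : X → X) (c : ℂ) : (X → ℂ) →ₗ[ℂ] (X → ℂ) :=
  (2 : ℂ)⁻¹ • (LinearMap.id + c • op σ)

theorem proj₂_apply (σ : X → X) (c : ℂ) (v : X → ℂ) (x : X) :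
    proj₂ σ c v x = 2⁻¹ * (v x + c * v (σ x)) := by
  simp only [proj₂, LinearMap.smul_apply, LinearMap.add_apply, LinearMap.id_apply, Pi.smul_apply,
    Pi.add_apply, op_apply, smul_eq_mul]

theorem isProj_proj₂ {σ : X → X} (hσ : ∀ x, σ (σ x) = x) {c : ℂ} (hc : c * c = 1) :
    LinearMap.IsProj (eigen σ c) (proj₂ σ c) := by
  refine ⟨fun v => ?_, fun v hv => ?_⟩
  · intro x
    rw [proj₂_apply, proj₂_apply, hσ]
    linear_combination (-(2⁻¹ * v (σ x))) * hc
  · funext x
    rw [proj₂_apply, hv x]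
    linear_combination (2⁻¹ * v x) * hc + (v x) * (by norm_num : (2 : ℂ)⁻¹ * 2 = 1)

theorem trace_proj₂ [Finite X] (σ : X → X) (c : ℂ) :
    LinearMap.trace ℂ (X → ℂ) (proj₂ σ c)
      = 2⁻¹ * ((Nat.card X : ℂ) + c * (Nat.card {x : X // σ x = x} : ℂ)) := by
  classical
  have := Fintype.ofFinite X
  rw [proj₂, map_smul, map_add, map_smul, trace_op_eq_natCard, LinearMap.trace_id,
    Module.finrank_pi, ← Nat.card_eq_fintype_card]
  simp only [smul_eq_mul]

theorem finrank_eigen₂ [Finite X] {σ : X → X} (hσ : ∀ x, σ (σ x) = x) {c : ℂ} (hc : c * c = 1) :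
    (finrank ℂ (eigen σ c) : ℂ)
      = 2⁻¹ * ((Nat.card X : ℂ) + c * (Nat.card {x : X // σ x = x} : ℂ)) := by
  rw [← (isProj_proj₂ hσ hc).trace, trace_proj₂]

/-- `(+1)`-eigenspace of an involution: `2 dim = |X| + #Fix`. -/
theorem two_mul_finrank_eigen_one [Finite X] {σ : X → X} (hσ : ∀ x, σ (σ x) = x) :
    2 * finrank ℂ (eigen σ 1) = Nat.card X + Nat.card {x : X // σ x = x} := by
  have h := finrank_eigen₂ hσ (c := 1) (by norm_num)
  have h2 : ((2 * finrank ℂ (eigen σ 1) : ℕ) : ℂ)
      = ((Nat.card X + Nat.card {x : X // σ x = x} : ℕ) : ℂ) := by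
    push_cast
    rw [h]; ring
  exact_mod_cast h2

/-- `(-1)`-eigenspace of an involution: `2 dim + #Fix = |X|`. -/
theorem two_mul_finrank_eigen_neg_one [Finite X] {σ : X → X} (hσ : ∀ x, σ (σ x) = x) :
    2 * finrank ℂ (eigen σ (-1)) + Nat.card {x : X // σ x = x} = Nat.card X := by
  have h := finrank_eigen₂ hσ (c := -1) (by norm_num)
  have h2 : ((2 * finrank ℂ (eigen σ (-1)) + Nat.card {x : X // σ x = x} : ℕ) : ℂ)
      = ((Nat.card X : ℕ) : ℂ) := by
    push_cast
    rw [h]; ring
  exact_mod_cast h2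

/-! ### Order three -/

/-- The spectral projection onto `eigen σ c` for `σ` of order three and `c ^ 3 = 1`. -/
noncomputable def proj₃ (σ : X → X) (c : ℂ) : (X → ℂ) →ₗ[ℂ] (X → ℂ) :=
  (3 : ℂ)⁻¹ • (LinearMap.id + c ^ 2 • op σ + c • op (σ ∘ σ))

theorem proj₃_apply (σ : X → X) (c : ℂ) (v : X → ℂ) (x : X) :
    proj₃ σ c v x = 3⁻¹ * (v x + c ^ 2 * v (σ x) + c * v (σ (σ x))) := by
  simp only [proj₃, LinearMap.smul_apply, LinearMap.add_apply, LinearMap.id_apply, Pi.smul_apply,
    Pi.add_apply, op_apply, smul_eq_mul, Function.comp_apply]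

theorem isProj_proj₃ {σ : X → X} (hσ : ∀ x, σ (σ (σ x)) = x) {c : ℂ} (hc : c ^ 3 = 1) :
    LinearMap.IsProj (eigen σ c) (proj₃ σ c) := by
  refine ⟨fun v => ?_, fun v hv => ?_⟩
  · intro x
    rw [proj₃_apply, proj₃_apply, hσ]
    linear_combination (-(3⁻¹ * v (σ x))) * hc
  · funext x
    rw [proj₃_apply, hv (σ x), hv x]
    linear_combination (3⁻¹ * 2 * v x) * hc + (v x) * (by norm_num : (3 : ℂ)⁻¹ * 3 = 1)

theorem card_fixed_comp_self [Finite X] {σ : X → X} (hσ : ∀ x, σ (σ (σ x)) = x) :
    Nat.card {x : X // (σ ∘ σ) x = x} = Nat.card {x : X // σ x = x} := by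
  refine Nat.card_congr (Equiv.subtypeEquivRight fun x => ?_)
  constructor
  · intro h
    have h' : σ (σ x) = x := h
    have := congrArg σ h'
    rw [hσ] at this
    exact this.symm
  · intro h
    show σ (σ x) = x
    rw [h, h]

theorem trace_proj₃ [Finite X] {σ : X → X} (hσ : ∀ x, σ (σ (σ x)) = x) (c : ℂ) :
    LinearMap.trace ℂ (X → ℂ) (proj₃ σ c)
      = 3⁻¹ * ((Nat.card X : ℂ) + (c ^ 2 + c) * (Nat.card {x : X // σ x = x} : ℂ)) := by
  classical
  have := Fintype.ofFinite X
  rw [proj₃, map_smul, map_add, map_add, map_smul, map_smul, trace_op_eq_natCard,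
    trace_op_eq_natCard, card_fixed_comp_self hσ, LinearMap.trace_id,
    Module.finrank_pi, ← Nat.card_eq_fintype_card]
  simp only [smul_eq_mul]
  ring

theorem finrank_eigen₃ [Finite X] {σ : X → X} (hσ : ∀ x, σ (σ (σ x)) = x) {c : ℂ}
    (hc : c ^ 3 = 1) :
    (finrank ℂ (eigen σ c) : ℂ)
      = 3⁻¹ * ((Nat.card X : ℂ) + (c ^ 2 + c) * (Nat.card {x : X // σ x = x} : ℂ)) := by
  rw [← (isProj_proj₃ hσ hc).trace, trace_proj₃ hσ]

/-- Invariants of a map of order three: `3 dim = |X| + 2 #Fix`. -/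
theorem three_mul_finrank_eigen_one [Finite X] {σ : X → X} (hσ : ∀ x, σ (σ (σ x)) = x) :
    3 * finrank ℂ (eigen σ 1) = Nat.card X + 2 * Nat.card {x : X // σ x = x} := by
  have h := finrank_eigen₃ hσ (c := 1) (by norm_num)
  have h2 : ((3 * finrank ℂ (eigen σ 1) : ℕ) : ℂ)
      = ((Nat.card X + 2 * Nat.card {x : X // σ x = x} : ℕ) : ℂ) := by
    push_cast
    rw [h]; ring
  exact_mod_cast h2

/-- Eigenspace of a primitive cube root of unity: `3 dim + #Fix = |X|`. -/
theorem three_mul_finrank_eigen_prim [Finite X] {σ : X → X} (hσ : ∀ x, σ (σ (σ x)) = x)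
    {c : ℂ} (hc : c ^ 3 = 1) (hc1 : c ≠ 1) :
    3 * finrank ℂ (eigen σ c) + Nat.card {x : X // σ x = x} = Nat.card X := by
  have h := finrank_eigen₃ hσ hc
  have hcc : c ^ 2 + c = -1 := by
    have h0 : (c - 1) * (c ^ 2 + c + 1) = 0 := by linear_combination hc
    rcases mul_eq_zero.mp h0 with h1 | h1
    · exact absurd (sub_eq_zero.mp h1) hc1
    · linear_combination h1
  rw [hcc] at h
  have h2 : ((3 * finrank ℂ (eigen σ c) + Nat.card {x : X // σ x = x} : ℕ) : ℂ)
      = ((Nat.card X : ℕ) : ℂ) := by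
    push_cast
    rw [h]; ring
  exact_mod_cast h2


/-! ### Kernels of the norm operators -/

/-- `{a | a + a ∘ σ = 0}`. -/
def kerNorm₂ (σ : X → X) : Submodule ℂ (X → ℂ) where
  carrier := {a | ∀ x, a x + a (σ x) = 0}
  add_mem' := by
    intro a b ha hb x
    simp only [Pi.add_apply]
    linear_combination ha x + hb x
  zero_mem' := by intro x; simp
  smul_mem' := by
    intro r a ha x
    simp only [Pi.smul_apply, smul_eq_mul]
    linear_combination r * ha x

/-- `{b | b + b ∘ σ + b ∘ σ ∘ σ = 0}`. -/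
def kerNorm₃ (σ : X → X) : Submodule ℂ (X → ℂ) where
  carrier := {b | ∀ x, b x + b (σ x) + b (σ (σ x)) = 0}
  add_mem' := by
    intro a b ha hb x
    simp only [Pi.add_apply]
    linear_combination ha x + hb x
  zero_mem' := by intro x; simp
  smul_mem' := by
    intro r a ha x
    simp only [Pi.smul_apply, smul_eq_mul]
    linear_combination r * ha x

theorem mem_kerNorm₂ {σ : X → X} {a : X → ℂ} :
    a ∈ kerNorm₂ σ ↔ ∀ x, a x + a (σ x) = 0 := Iff.rfl

theorem mem_kerNorm₃ {σ : X → X} {b : X → ℂ} :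
    b ∈ kerNorm₃ σ ↔ ∀ x, b x + b (σ x) + b (σ (σ x)) = 0 := Iff.rfl

theorem kerNorm₂_eq_eigen (σ : X → X) : kerNorm₂ σ = eigen σ (-1) := by
  ext a
  rw [mem_kerNorm₂, mem_eigen]
  refine forall_congr' fun x => ?_
  constructor
  · intro h; linear_combination h
  · intro h; linear_combination h

theorem kerNorm₃_eq_ker (σ : X → X) : kerNorm₃ σ = LinearMap.ker (proj₃ σ 1) := by
  ext b
  rw [mem_kerNorm₃, LinearMap.mem_ker]
  constructor
  · intro h
    funext x
    rw [proj₃_apply, Pi.zero_apply]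
    linear_combination 3⁻¹ * h x
  · intro h x
    have := congrFun h x
    rw [proj₃_apply, Pi.zero_apply] at this
    linear_combination 3 * this

/-- `dim {a | a + a ∘ σ = 0}` for an involution: `2 dim + #Fix = |X|`. -/
theorem two_mul_finrank_kerNorm₂ [Finite X] {σ : X → X} (hσ : ∀ x, σ (σ x) = x) :
    2 * finrank ℂ (kerNorm₂ σ) + Nat.card {x : X // σ x = x} = Nat.card X := by
  rw [kerNorm₂_eq_eigen]
  exact two_mul_finrank_eigen_neg_one hσ

/-- `dim {b | b + b ∘ σ + b ∘ σ ∘ σ = 0}` for `σ` of order three: `3 dim + 2 #Fix = 2 |X|`. -/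
theorem three_mul_finrank_kerNorm₃ [Finite X] {σ : X → X} (hσ : ∀ x, σ (σ (σ x)) = x) :
    3 * finrank ℂ (kerNorm₃ σ) + 2 * Nat.card {x : X // σ x = x} = 2 * Nat.card X := by
  classical
  have := Fintype.ofFinite X
  have h1 := three_mul_finrank_eigen_one hσ
  have h2 := LinearMap.finrank_range_add_finrank_ker (proj₃ σ 1)
  rw [(isProj_proj₃ hσ (c := 1) (by norm_num)).range, ← kerNorm₃_eq_ker, Module.finrank_pi,
    ← Nat.card_eq_fintype_card] at h2
  omega


/-! ### Counting independent eigenvectors -/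

theorem card_le_finrank_eigen {σ : X → X} {c : ℂ} [Module.Finite ℂ (eigen σ c)]
    {J : Type*} [Fintype J] (v : J → X → ℂ)
    (hmem : ∀ j, v j ∈ eigen σ c) (hv : LinearIndependent ℂ v) :
    Fintype.card J ≤ finrank ℂ (eigen σ c) := by
  have hv' : LinearIndependent ℂ (fun j => (⟨v j, hmem j⟩ : eigen σ c)) := by
    refine LinearIndependent.of_comp (eigen σ c).subtype ?_
    exact hv
  exact hv'.fintype_card_le_finrank

/-- Counting lemma at a point with stabiliser of order two: a family of `|X|` vectors, each an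
eigenvector for `+1` or `-1`, independent within each of the two classes. -/
theorem two_mul_card_filter [Finite X] {σ : X → X} (hσ : ∀ x, σ (σ x) = x)
    {J : Type*} [Fintype J] (p : J → Prop) [DecidablePred p] (v : J → X → ℂ)
    (hcard : Fintype.card J = Nat.card X)
    (h₁ : ∀ j, p j → v j ∈ eigen σ 1) (h₂ : ∀ j, ¬ p j → v j ∈ eigen σ (-1))
    (hi₁ : LinearIndependent ℂ (fun j : {j // p j} => v j))
    (hi₂ : LinearIndependent ℂ (fun j : {j // ¬ p j} => v j)) :
    2 * (Finset.univ.filter p).card = Nat.card X + Nat.card {x : X // σ x = x} := by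
  classical
  have := Fintype.ofFinite X
  have e1 := two_mul_finrank_eigen_one hσ
  have e2 := two_mul_finrank_eigen_neg_one hσ
  have b1 : (Finset.univ.filter p).card ≤ finrank ℂ (eigen σ 1) := by
    rw [← Fintype.card_subtype]
    exact card_le_finrank_eigen (fun j : {j // p j} => v j) (fun j => h₁ j j.2) hi₁
  have b2 : (Finset.univ.filter fun j => ¬ p j).card ≤ finrank ℂ (eigen σ (-1)) := by
    rw [← Fintype.card_subtype]
    exact card_le_finrank_eigen (fun j : {j // ¬ p j} => v j) (fun j => h₂ j j.2) hi₂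
  have hsplit := Finset.card_filter_add_card_filter_not (s := (Finset.univ : Finset J)) p
  rw [Finset.card_univ] at hsplit
  omega

/-- Counting lemma at a point with stabiliser of order three: a family of `|X|` vectors, each an
eigenvector for `1`, `c` or `c ^ 2` (`c` a primitive cube root of unity), independent within each
of the three classes `r j = 0, 1, 2`. -/
theorem three_mul_card_filter [Finite X] {σ : X → X} (hσ : ∀ x, σ (σ (σ x)) = x)
    {c : ℂ} (hc : c ^ 3 = 1) (hc1 : c ≠ 1)
    {J : Type*} [Fintype J] (r : J → Fin 3) (v : J → X → ℂ)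
    (hcard : Fintype.card J = Nat.card X)
    (hmem : ∀ j, v j ∈ eigen σ (c ^ (r j : ℕ)))
    (hi : ∀ i : Fin 3, LinearIndependent ℂ (fun j : {j // r j = i} => v j)) :
    3 * (Finset.univ.filter fun j => r j = 0).card
        = Nat.card X + 2 * Nat.card {x : X // σ x = x} ∧
      3 * (Finset.univ.filter fun j => r j = 1).card + Nat.card {x : X // σ x = x}
        = Nat.card X ∧
      3 * (Finset.univ.filter fun j => r j = 2).card + Nat.card {x : X // σ x = x}
        = Nat.card X := by
  classical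
  have := Fintype.ofFinite X
  have hc2 : (c ^ 2) ^ 3 = 1 := by rw [← pow_mul, mul_comm, pow_mul, hc, one_pow]
  have hc21 : c ^ 2 ≠ 1 := by
    intro h
    apply hc1
    have : c ^ 3 = c := by rw [pow_succ, h, one_mul]
    rw [← this, hc]
  have e0 := three_mul_finrank_eigen_one hσ
  have e1 := three_mul_finrank_eigen_prim hσ hc hc1
  have e2 := three_mul_finrank_eigen_prim hσ hc2 hc21
  have b0 : (Finset.univ.filter fun j => r j = 0).card ≤ finrank ℂ (eigen σ 1) := by
    rw [← Fintype.card_subtype]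
    exact card_le_finrank_eigen (σ := σ) (c := 1) (fun j : {j // r j = 0} => v j)
      (fun j => by have := hmem j; rw [j.2] at this; simpa using this) (hi 0)
  have b1 : (Finset.univ.filter fun j => r j = 1).card ≤ finrank ℂ (eigen σ c) := by
    rw [← Fintype.card_subtype]
    exact card_le_finrank_eigen (σ := σ) (c := c) (fun j : {j // r j = 1} => v j)
      (fun j => by have := hmem j; rw [j.2] at this; simpa using this) (hi 1)
  have b2 : (Finset.univ.filter fun j => r j = 2).card ≤ finrank ℂ (eigen σ (c ^ 2)) := by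
    rw [← Fintype.card_subtype]
    exact card_le_finrank_eigen (σ := σ) (c := c ^ 2) (fun j : {j // r j = 2} => v j)
      (fun j => by have := hmem j; rw [j.2] at this; simpa using this) (hi 2)
  have hsplit : (Finset.univ.filter fun j => r j = 0).card
      + (Finset.univ.filter fun j => r j = 1).card
      + (Finset.univ.filter fun j => r j = 2).card = Fintype.card J := by
    rw [← Finset.card_univ, ← Finset.card_union_of_disjoint, ← Finset.card_union_of_disjoint]
    · congr 1
      ext j
      simp only [Finset.mem_union, Finset.mem_filter, Finset.mem_univ, true_and, iff_true]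
      have : ∀ i : Fin 3, i = 0 ∨ i = 1 ∨ i = 2 := by decide
      rcases this (r j) with h | h | h
      · exact Or.inl (Or.inl h)
      · exact Or.inl (Or.inr h)
      · exact Or.inr h
    · rw [Finset.disjoint_left]
      intro j hj hj'
      simp only [Finset.mem_union, Finset.mem_filter, Finset.mem_univ, true_and] at hj hj'
      rcases hj with h | h <;> rw [h] at hj' <;> exact absurd hj' (by decide)
    · rw [Finset.disjoint_left]
      intro j hj hj'
      simp only [Finset.mem_filter, Finset.mem_univ, true_and] at hj hj'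
      rw [hj] at hj'
      exact absurd hj' (by decide)
  omega

end Fermat.Agent.S20.PermEigen
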