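import Fermat.Agent.S20.Cosets
import Fermat.Agent.S20.PermEigen

/-!
# Eigenspaces of `S` and `S T` on functions on `SL₂(ℤ) / Γ₀(N)`

Specialisation of `PermEigen` to the coset space `Q N`, with the fixed point counts of leaf A.
-/

set_option autoImplicit false

namespace Fermat.Agent.S20.PermEigenQ

open Module CongruenceSubgroup Matrix.SpecialLinearGroup Fermat.Agent.S20.Cosets
  Fermat.Agent.S20.PermEigen
open scoped MatrixGroups

variable {N : ℕ}

/-- The permutation of the coset space induced by `g`. -/
def act (N : ℕ) (g : SL(2, ℤ)) : Q N → Q N := fun q => g • q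

@[simp] theorem act_apply (g : SL(2, ℤ)) (q : Q N) : act N g q = g • q := rfl

theorem S_inv_smul (q : Q N) : ModularGroup.S⁻¹ • q = ModularGroup.S • q := by
  rw [inv_smul_eq_iff, S_smul_S_smul]

theorem ST_inv_smul (q : Q N) :
    (ModularGroup.S * ModularGroup.T)⁻¹ • q
      = (ModularGroup.S * ModularGroup.T) • (ModularGroup.S * ModularGroup.T) • q := by
  rw [inv_smul_eq_iff, ST_smul_ST_smul_ST_smul]

theorem act_S_involutive (q : Q N) : act N ModularGroup.S (act N ModularGroup.S q) = q :=
  S_smul_S_smul q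

theorem act_S_inv_involutive (q : Q N) :
    act N ModularGroup.S⁻¹ (act N ModularGroup.S⁻¹ q) = q := by
  simp only [act_apply, S_inv_smul, S_smul_S_smul]

theorem act_ST_order_three (q : Q N) :
    act N (ModularGroup.S * ModularGroup.T) (act N (ModularGroup.S * ModularGroup.T)
      (act N (ModularGroup.S * ModularGroup.T) q)) = q :=
  ST_smul_ST_smul_ST_smul q

theorem act_ST_inv_order_three (q : Q N) :
    act N (ModularGroup.S * ModularGroup.T)⁻¹ (act N (ModularGroup.S * ModularGroup.T)⁻¹
      (act N (ModularGroup.S * ModularGroup.T)⁻¹ q)) = q := by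
  simp only [act_apply]
  rw [inv_smul_eq_iff, inv_smul_eq_iff, inv_smul_eq_iff, ST_smul_ST_smul_ST_smul]

theorem card_fixed_inv (g : SL(2, ℤ)) :
    Nat.card {q : Q N // g⁻¹ • q = q} = Nat.card {q : Q N // g • q = q} := by
  refine Nat.card_congr (Equiv.subtypeEquivRight fun q => ?_)
  rw [inv_smul_eq_iff, eq_comm]

theorem card_fixed_act_S (N : ℕ) [NeZero N] :
    Nat.card {q : Q N // act N ModularGroup.S q = q} = ModularCurve.nuTwo N :=
  card_fixed_S N

theorem card_fixed_act_S_inv (N : ℕ) [NeZero N] :
    Nat.card {q : Q N // act N ModularGroup.S⁻¹ q = q} = ModularCurve.nuTwo N :=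
  (card_fixed_inv _).trans (card_fixed_S N)

theorem card_fixed_act_ST (N : ℕ) [NeZero N] :
    Nat.card {q : Q N // act N (ModularGroup.S * ModularGroup.T) q = q}
      = ModularCurve.nuThree N :=
  card_fixed_ST N

theorem card_fixed_act_ST_inv (N : ℕ) [NeZero N] :
    Nat.card {q : Q N // act N (ModularGroup.S * ModularGroup.T)⁻¹ q = q}
      = ModularCurve.nuThree N :=
  (card_fixed_inv _).trans (card_fixed_ST N)

section dims

variable (N) [NeZero N]

/-! ### `S` -/

theorem two_mul_finrank_eigen_S_one :
    2 * finrank ℂ (eigen (act N ModularGroup.S) 1)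
      = ModularCurve.dedekindPsi N + ModularCurve.nuTwo N := by
  rw [two_mul_finrank_eigen_one act_S_involutive, card_Q, card_fixed_act_S]

theorem two_mul_finrank_eigen_S_neg_one :
    2 * finrank ℂ (eigen (act N ModularGroup.S) (-1)) + ModularCurve.nuTwo N
      = ModularCurve.dedekindPsi N := by
  rw [← card_Q, ← card_fixed_act_S]
  exact two_mul_finrank_eigen_neg_one act_S_involutive

theorem two_mul_finrank_eigen_S_inv_one :
    2 * finrank ℂ (eigen (act N ModularGroup.S⁻¹) 1)
      = ModularCurve.dedekindPsi N + ModularCurve.nuTwo N := by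
  rw [two_mul_finrank_eigen_one act_S_inv_involutive, card_Q, card_fixed_act_S_inv]

theorem two_mul_finrank_eigen_S_inv_neg_one :
    2 * finrank ℂ (eigen (act N ModularGroup.S⁻¹) (-1)) + ModularCurve.nuTwo N
      = ModularCurve.dedekindPsi N := by
  rw [← card_Q, ← card_fixed_act_S_inv]
  exact two_mul_finrank_eigen_neg_one act_S_inv_involutive

theorem two_mul_finrank_kerNorm_S :
    2 * finrank ℂ (kerNorm₂ (act N ModularGroup.S)) + ModularCurve.nuTwo N
      = ModularCurve.dedekindPsi N := by
  rw [← card_Q, ← card_fixed_act_S]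
  exact two_mul_finrank_kerNorm₂ act_S_involutive

theorem two_mul_finrank_kerNorm_S_inv :
    2 * finrank ℂ (kerNorm₂ (act N ModularGroup.S⁻¹)) + ModularCurve.nuTwo N
      = ModularCurve.dedekindPsi N := by
  rw [← card_Q, ← card_fixed_act_S_inv]
  exact two_mul_finrank_kerNorm₂ act_S_inv_involutive

/-! ### `S T` -/

theorem three_mul_finrank_eigen_ST_one :
    3 * finrank ℂ (eigen (act N (ModularGroup.S * ModularGroup.T)) 1)
      = ModularCurve.dedekindPsi N + 2 * ModularCurve.nuThree N := by
  rw [three_mul_finrank_eigen_one act_ST_order_three, card_Q, card_fixed_act_ST]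

theorem three_mul_finrank_eigen_ST_prim {c : ℂ} (hc : c ^ 3 = 1) (hc1 : c ≠ 1) :
    3 * finrank ℂ (eigen (act N (ModularGroup.S * ModularGroup.T)) c)
      + ModularCurve.nuThree N = ModularCurve.dedekindPsi N := by
  rw [← card_Q, ← card_fixed_act_ST]
  exact three_mul_finrank_eigen_prim act_ST_order_three hc hc1

theorem three_mul_finrank_eigen_ST_inv_one :
    3 * finrank ℂ (eigen (act N (ModularGroup.S * ModularGroup.T)⁻¹) 1)
      = ModularCurve.dedekindPsi N + 2 * ModularCurve.nuThree N := by
  rw [three_mul_finrank_eigen_one act_ST_inv_order_three, card_Q, card_fixed_act_ST_inv]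

theorem three_mul_finrank_eigen_ST_inv_prim {c : ℂ} (hc : c ^ 3 = 1) (hc1 : c ≠ 1) :
    3 * finrank ℂ (eigen (act N (ModularGroup.S * ModularGroup.T)⁻¹) c)
      + ModularCurve.nuThree N = ModularCurve.dedekindPsi N := by
  rw [← card_Q, ← card_fixed_act_ST_inv]
  exact three_mul_finrank_eigen_prim act_ST_inv_order_three hc hc1

theorem three_mul_finrank_kerNorm_ST :
    3 * finrank ℂ (kerNorm₃ (act N (ModularGroup.S * ModularGroup.T)))
      + 2 * ModularCurve.nuThree N = 2 * ModularCurve.dedekindPsi N := by
  rw [← card_Q, ← card_fixed_act_ST]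
  exact three_mul_finrank_kerNorm₃ act_ST_order_three

theorem three_mul_finrank_kerNorm_ST_inv :
    3 * finrank ℂ (kerNorm₃ (act N (ModularGroup.S * ModularGroup.T)⁻¹))
      + 2 * ModularCurve.nuThree N = 2 * ModularCurve.dedekindPsi N := by
  rw [← card_Q, ← card_fixed_act_ST_inv]
  exact three_mul_finrank_kerNorm₃ act_ST_inv_order_three

/-! ### Counting lemmas for a family of `μ` vectors -/

/-- At the elliptic point `i`: `μ` vectors in `Q N → ℂ`, each in the `(+1)`- or the
`(-1)`-eigenspace of `S` according to `p`, independent within each class. -/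
theorem two_mul_card_filter_S {J : Type*} [Fintype J] (p : J → Prop) [DecidablePred p]
    (v : J → Q N → ℂ) (hcard : Fintype.card J = Nat.card (Q N))
    (h₁ : ∀ j, p j → ∀ q, v j (ModularGroup.S • q) = v j q)
    (h₂ : ∀ j, ¬ p j → ∀ q, v j (ModularGroup.S • q) = - v j q)
    (hi₁ : LinearIndependent ℂ (fun j : {j // p j} => v j))
    (hi₂ : LinearIndependent ℂ (fun j : {j // ¬ p j} => v j)) :
    2 * (Finset.univ.filter p).card = ModularCurve.dedekindPsi N + ModularCurve.nuTwo N := by
  rw [← card_Q, ← card_fixed_act_S]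
  refine two_mul_card_filter act_S_involutive p v hcard (fun j hj q => ?_) (fun j hj q => ?_)
    hi₁ hi₂
  · rw [act_apply, h₁ j hj, one_mul]
  · rw [act_apply, h₂ j hj, neg_one_mul]

/-- At the elliptic point `ρ`: `μ` vectors in `Q N → ℂ`, the `j`-th one in the
`c ^ r j`-eigenspace of `S T` (`c` a primitive cube root of unity), independent within each
class. -/
theorem three_mul_card_filter_ST {c : ℂ} (hc : c ^ 3 = 1) (hc1 : c ≠ 1)
    {J : Type*} [Fintype J] (r : J → Fin 3) (v : J → Q N → ℂ)
    (hcard : Fintype.card J = Nat.card (Q N))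
    (hmem : ∀ j q, v j ((ModularGroup.S * ModularGroup.T) • q) = c ^ (r j : ℕ) * v j q)
    (hi : ∀ i : Fin 3, LinearIndependent ℂ (fun j : {j // r j = i} => v j)) :
    3 * (Finset.univ.filter fun j => r j = 0).card
        = ModularCurve.dedekindPsi N + 2 * ModularCurve.nuThree N ∧
      3 * (Finset.univ.filter fun j => r j = 1).card + ModularCurve.nuThree N
        = ModularCurve.dedekindPsi N ∧
      3 * (Finset.univ.filter fun j => r j = 2).card + ModularCurve.nuThree N
        = ModularCurve.dedekindPsi N := by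
  rw [← card_Q, ← card_fixed_act_ST]
  exact three_mul_card_filter act_ST_order_three hc hc1 r v hcard (fun j q => hmem j q) hi

end dims

end Fermat.Agent.S20.PermEigenQ
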