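import Mathlib
import Fermat.Agent.S20.Defs
import Fermat.Agent.S20.Basic

/-!
# S20: dimension of a space with unique expansions over level one forms

If every element of a submodule `V` of functions on the upper half plane is uniquely a
combination `∑ j, b j * G j` with `b j` a level one modular form of weight `w j`, then
`dim V = ∑ j, h1 (w j)`.  Applied to a free basis of `M(Γ₀(N))` this gives
`dim M_K(Γ₀(N)) = ∑ j, h1 (K - k_j)`.
-/

set_option autoImplicit false
set_option linter.unusedSectionVars false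
set_option linter.style.haveILetI false

namespace Fermat.Agent.S20.FreeDim

open UpperHalfPlane CongruenceSubgroup ModularForm
open scoped MatrixGroups ModularForm Manifold

section Generic

variable {J : Type} [Fintype J] (w : J → ℤ) (G : J → ℍ → ℂ) (V : Submodule ℂ (ℍ → ℂ))

/-- The combination map `(b j)_j ↦ ∑ j, b j * G j`. -/
noncomputable def combMap
    (hmem : ∀ b : J → ℍ → ℂ, (∀ j, IsMF 1 (w j) (b j)) → (∑ j, b j * G j) ∈ V) :
    (∀ j, MFsub 1 (w j)) →ₗ[ℂ] V where
  toFun b := ⟨∑ j, (b j : ℍ → ℂ) * G j, hmem (fun j => (b j : ℍ → ℂ)) fun j => (b j).2⟩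
  map_add' b b' := by
    apply Subtype.ext
    simp only [Pi.add_apply, Submodule.coe_add, add_mul, Finset.sum_add_distrib]
  map_smul' c b := by
    apply Subtype.ext
    simp only [Pi.smul_apply, Submodule.coe_smul, RingHom.id_apply, Finset.smul_sum,
      smul_mul_assoc]

theorem combMap_coe
    (hmem : ∀ b : J → ℍ → ℂ, (∀ j, IsMF 1 (w j) (b j)) → (∑ j, b j * G j) ∈ V)
    (b : ∀ j, MFsub 1 (w j)) :
    ((combMap w G V hmem b : V) : ℍ → ℂ) = ∑ j, (b j : ℍ → ℂ) * G j := rfl

/-- **Dimension of a space with unique expansions.** -/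
theorem finrank_eq_sum_of_unique_expansion
    (hmem : ∀ b : J → ℍ → ℂ, (∀ j, IsMF 1 (w j) (b j)) → (∑ j, b j * G j) ∈ V)
    (hspan : ∀ H ∈ V, ∃ b : J → ℍ → ℂ, (∀ j, IsMF 1 (w j) (b j)) ∧ H = ∑ j, b j * G j)
    (hind : ∀ b : J → ℍ → ℂ, (∀ j, IsMF 1 (w j) (b j)) → ∑ j, b j * G j = 0 → ∀ j, b j = 0) :
    Module.finrank ℂ V = ∑ j, h1 (w j) := by
  have hinj : Function.Injective (combMap w G V hmem) := by
    rw [injective_iff_map_eq_zero]
    intro b hb
    have h0 : ∑ j, (b j : ℍ → ℂ) * G j = 0 := by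
      rw [← combMap_coe w G V hmem b, hb]
      rfl
    funext j
    apply Subtype.ext
    exact hind (fun j => (b j : ℍ → ℂ)) (fun j => (b j).2) h0 j
  have hsurj : Function.Surjective (combMap w G V hmem) := by
    rintro ⟨H, hH⟩
    obtain ⟨b, hb, hHb⟩ := hspan H hH
    refine ⟨fun j => ⟨b j, hb j⟩, ?_⟩
    apply Subtype.ext
    rw [combMap_coe]
    exact hHb.symm
  have e := LinearEquiv.ofBijective (combMap w G V hmem) ⟨hinj, hsurj⟩
  rw [← e.finrank_eq, Module.finrank_pi_fintype]
  exact Finset.sum_congr rfl fun j _ => finrank_MFsub_one (w j)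

end Generic

section Free

variable {N : ℕ} [NeZero N] (B : FreeBasis N)

/-- **Dimension of `M_K(Γ₀(N))`** in terms of the weights of a free basis. -/
theorem finrank_MFsub_eq_sum (K : ℤ) :
    Module.finrank ℂ (MFsub N K) = ∑ j, h1 (K - B.k j) := by
  refine finrank_eq_sum_of_unique_expansion (fun j => K - B.k j) B.F (MFsub N K) ?_ ?_ ?_
  · intro b hb
    rw [mem_MFsub]
    refine IsMF.sum _ fun j _ => ?_
    exact ((hb j).mul (B.isMF j)).congr_weight (by ring)
  · intro H hH
    obtain ⟨a, ha, hHa⟩ := B.span K H (mem_MFsub.mp hH)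
    refine ⟨a, ha, ?_⟩
    funext z
    rw [hHa z, Finset.sum_apply]
    rfl
  · intro b hb h0
    refine B.indep K b hb fun z => ?_
    have := congrFun h0 z
    rw [Finset.sum_apply] at this
    exact this

end Free

end Fermat.Agent.S20.FreeDim
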